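import Fermat.Agent.GoodRed.Restrict
import Mathlib.RingTheory.Norm.Basic
import Mathlib.RingTheory.Trace.Basic
import Mathlib.LinearAlgebra.Matrix.Charpoly.Coeff

/-!
# Finite extensions without defect

`F / E` with residue extension `Fb / Eb` of the same degree: lifts of a residue basis form a
basis, integral elements have integral coordinates, and norm, trace and multiplication matrices
reduce.
-/

set_option autoImplicit false

noncomputable section

open Polynomial

namespace FLTAgent.GoodRed

variable {L k : Type*} [Field L] [Field k] {A : ValuationSubring L} {π : A →+* k}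
  {E Eb F Fb : Type*} [Field E] [Algebra L E] [Field Eb] [Algebra k Eb]
  [Field F] [Algebra L F] [Field Fb] [Algebra k Fb]
  [Algebra E F] [Algebra Eb Fb]

/-- The residue maps commute with the extensions. -/
def CompatRed (DE : RedDatum A π E Eb) (DF : RedDatum A π F Fb) : Prop :=
  ∀ y z, DE.Red y z → DF.Red (algebraMap E F y) (algebraMap Eb Fb z)

open RedDatum

variable {DE : RedDatum A π E Eb} {DF : RedDatum A π F Fb}

theorem CompatRed.mem_iff (h : CompatRed DE DF) {y : E} :
    algebraMap E F y ∈ DF.V ↔ y ∈ DE.V := by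
  refine ⟨fun hy => ?_, fun hy => (h _ _ ⟨hy, rfl⟩).mem⟩
  by_contra hy'
  have hn : y⁻¹ ∈ DE.V.nonunits := by
    rw [ValuationSubring.inv_mem_nonunits_iff]; exact Or.inr hy'
  obtain ⟨z, hz⟩ := exists_red (DE.V.nonunits_subset hn)
  have h2 := h _ _ hz
  rw [(hz.eq_zero_iff).2 hn, map_zero, map_inv₀] at h2
  have h3 := h2.eq_zero_iff.1 rfl
  rw [ValuationSubring.inv_mem_nonunits_iff] at h3
  rcases h3 with h3 | h3
  · rw [map_eq_zero] at h3
    exact hy' (h3 ▸ zero_mem _)
  · exact h3 hy

variable {ι : Type*} [Fintype ι] {e : ι → F} {eb : ι → Fb}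

theorem CompatRed.coeff_mem (h : CompatRed DE DF) (he : ∀ i, DF.Red (e i) (eb i))
    (hind : LinearIndependent Eb eb) {c : ι → E} (hc : ∑ i, c i • e i ∈ DF.V) :
    ∀ i, c i ∈ DE.V := by
  classical
  rcases eq_or_ne c 0 with rfl | hc0
  · exact fun i => zero_mem _
  obtain ⟨j, hj, hjV⟩ := exists_max_valuation DE.V c hc0
  by_contra hnot
  push Not at hnot
  obtain ⟨i₀, hi₀⟩ := hnot
  have hjn : c j ∉ DE.V := fun h' => hi₀ (by
    have := mul_mem (hjV i₀) h'
    rwa [div_mul_cancel₀ _ hj] at this)
  have hn : (c j)⁻¹ ∈ DE.V.nonunits := by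
    rw [ValuationSubring.inv_mem_nonunits_iff]; exact Or.inr hjn
  obtain ⟨t, ht⟩ := exists_red (DE.V.nonunits_subset hn)
  obtain ⟨w, hw⟩ := exists_red hc
  have h1 := (h _ _ ht).mul hw
  rw [ht.eq_zero_iff.2 hn, map_zero, zero_mul] at h1
  choose u hu using fun i => exists_red (D := DE) (hjV i)
  have h2 : DF.Red (∑ i, algebraMap E F (c i / c j) * e i) (∑ i, algebraMap Eb Fb (u i) * eb i) :=
    Red.sum _ fun i _ => (h _ _ (hu i)).mul (he i)
  have h3 : algebraMap E F (c j)⁻¹ * ∑ i, c i • e i = ∑ i, algebraMap E F (c i / c j) * e i := by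
    rw [Finset.mul_sum]
    refine Finset.sum_congr rfl fun i _ => ?_
    rw [Algebra.smul_def, div_eq_mul_inv, map_mul]
    ring
  rw [h3] at h1
  have h4 : ∑ i, u i • eb i = 0 := by
    simp only [Algebra.smul_def]
    exact h2.unique h1
  have h5 := Fintype.linearIndependent_iff.1 hind u h4 j
  have h6 := hu j
  rw [div_self hj, h5] at h6
  exact one_ne_zero (red_one.unique h6)

theorem CompatRed.linearIndependent (h : CompatRed DE DF) (he : ∀ i, DF.Red (e i) (eb i))
    (hind : LinearIndependent Eb eb) : LinearIndependent E e := by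
  classical
  rw [Fintype.linearIndependent_iff]
  intro c hc i
  by_contra hi
  -- scale the relation to a large one
  obtain ⟨j, hj, hjV⟩ := exists_max_valuation DE.V c fun h' => hi (congrFun h' i)
  choose u hu using fun i => exists_red (D := DE) (hjV i)
  have h2 : DF.Red (∑ i, algebraMap E F (c i / c j) * e i) (∑ i, algebraMap Eb Fb (u i) * eb i) :=
    Red.sum _ fun i _ => (h _ _ (hu i)).mul (he i)
  have h3 : ∑ i, algebraMap E F (c i / c j) * e i = 0 := by
    have : ∑ i, algebraMap E F (c i / c j) * e i = algebraMap E F (c j)⁻¹ * ∑ i, c i • e i := by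
      rw [Finset.mul_sum]
      refine Finset.sum_congr rfl fun i _ => ?_
      rw [Algebra.smul_def, div_eq_mul_inv, map_mul]
      ring
    rw [this, hc, mul_zero]
  rw [h3] at h2
  have h4 : ∑ i, u i • eb i = 0 := by
    simp only [Algebra.smul_def]
    exact h2.unique red_zero
  have h5 := Fintype.linearIndependent_iff.1 hind u h4 j
  have h6 := hu j
  rw [div_self hj, h5] at h6
  exact one_ne_zero (red_one.unique h6)

theorem CompatRed.finite_residue (h : CompatRed DE DF) [FiniteDimensional E F] :
    FiniteDimensional Eb Fb ∧ Module.finrank Eb Fb ≤ Module.finrank E F := by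
  classical
  have hb : ∀ s : Finset Fb, (LinearIndependent Eb fun i : s => (i : Fb)) →
      s.card ≤ Module.finrank E F := by
    intro s hs
    choose y hy using fun i : s => DF.exists_lift (i : Fb)
    simpa using (h.linearIndependent hy hs).fintype_card_le_finrank
  have hfin : FiniteDimensional Eb Fb :=
    Module.rank_lt_aleph0_iff.1 (lt_of_le_of_lt (rank_le hb) Cardinal.natCast_lt_aleph0)
  exact ⟨hfin, Cardinal.toNat_le_toNat (rank_le hb) Cardinal.natCast_lt_aleph0 |>.trans_eq
    (by simp)⟩

/-- Degree equality. -/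
def NoDefect (E Eb F Fb : Type*) [Field E] [Field Eb] [Field F] [Field Fb] [Algebra E F]
    [Algebra Eb Fb] : Prop :=
  Module.finrank Eb Fb = Module.finrank E F

theorem CompatRed.exists_basis_lift (h : CompatRed DE DF) [FiniteDimensional E F]
    (hd : NoDefect E Eb F Fb) :
    ∃ (b : Module.Basis (Fin (Module.finrank E F)) E F)
      (bb : Module.Basis (Fin (Module.finrank E F)) Eb Fb), ∀ i, DF.Red (b i) (bb i) := by
  have := h.finite_residue.1
  set bb := Module.finBasisOfFinrankEq Eb Fb hd
  choose y hy using fun i => DF.exists_lift (bb i)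
  have hpos : Nonempty (Fin (Module.finrank E F)) := ⟨⟨0, Module.finrank_pos⟩⟩
  refine ⟨basisOfLinearIndependentOfCardEqFinrank (h.linearIndependent hy bb.linearIndependent)
    (by simp), bb, fun i => ?_⟩
  rw [coe_basisOfLinearIndependentOfCardEqFinrank]
  exact hy i

/-- The reduction of the multiplication matrix. -/
theorem CompatRed.exists_leftMulMatrix (h : CompatRed DE DF) [FiniteDimensional E F]
    {n : ℕ} (b : Module.Basis (Fin n) E F) (bb : Module.Basis (Fin n) Eb Fb)
    (hb : ∀ i, DF.Red (b i) (bb i)) {f : F} {fb : Fb} (hf : DF.Red f fb) :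
    ∃ M : Matrix (Fin n) (Fin n) DE.V,
      M.map DE.V.subtype = Algebra.leftMulMatrix b f ∧
      M.map DE.res = Algebra.leftMulMatrix bb fb := by
  have hcoef : ∀ i j, Algebra.leftMulMatrix b f i j ∈ DE.V := fun i j => by
    refine h.coeff_mem hb bb.linearIndependent (c := fun i => Algebra.leftMulMatrix b f i j) ?_ i
    have : ∑ i, Algebra.leftMulMatrix b f i j • b i = f * b j := by
      simp only [Algebra.leftMulMatrix_eq_repr_mul]
      exact b.sum_repr _
    rw [this]
    exact mul_mem hf.mem (hb j).mem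
  refine ⟨fun i j => ⟨_, hcoef i j⟩, rfl, ?_⟩
  ext i j
  have h1 : DF.Red (f * b j) (∑ i, DE.res ⟨_, hcoef i j⟩ • bb i) := by
    have h0 : ∑ i, algebraMap E F (Algebra.leftMulMatrix b f i j) * b i = f * b j := by
      simp only [← Algebra.smul_def, Algebra.leftMulMatrix_eq_repr_mul]
      exact b.sum_repr _
    rw [← h0]
    simp only [Algebra.smul_def]
    exact Red.sum _ fun i _ => (h _ _ ⟨hcoef i j, rfl⟩).mul (hb i)
  rw [Algebra.leftMulMatrix_eq_repr_mul, (hf.mul (hb j)).unique h1, bb.repr_sum_self]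
  rfl

theorem CompatRed.red_norm (h : CompatRed DE DF) [FiniteDimensional E F]
    (hd : NoDefect E Eb F Fb) {f : F} {fb : Fb} (hf : DF.Red f fb) :
    DE.Red (Algebra.norm E f) (Algebra.norm Eb fb) := by
  classical
  obtain ⟨b, bb, hb⟩ := h.exists_basis_lift hd
  obtain ⟨M, hM, hMb⟩ := h.exists_leftMulMatrix b bb hb hf
  rw [Algebra.norm_eq_matrix_det b, Algebra.norm_eq_matrix_det bb, ← hM, ← hMb]
  rw [← RingHom.mapMatrix_apply, ← RingHom.mapMatrix_apply, ← RingHom.map_det, ← RingHom.map_det]
  exact ⟨M.det.2, rfl⟩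

theorem CompatRed.red_trace (h : CompatRed DE DF) [FiniteDimensional E F]
    (hd : NoDefect E Eb F Fb) {f : F} {fb : Fb} (hf : DF.Red f fb) :
    DE.Red (Algebra.trace E F f) (Algebra.trace Eb Fb fb) := by
  classical
  obtain ⟨b, bb, hb⟩ := h.exists_basis_lift hd
  obtain ⟨M, hM, hMb⟩ := h.exists_leftMulMatrix b bb hb hf
  rw [Algebra.trace_eq_matrix_trace b, Algebra.trace_eq_matrix_trace bb, ← hM, ← hMb]
  exact Red.sum _ fun i _ => ⟨(M i i).2, rfl⟩

/-- The characteristic polynomial of an integral element and its reduction. -/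
theorem CompatRed.exists_charpoly (h : CompatRed DE DF) [FiniteDimensional E F]
    (hd : NoDefect E Eb F Fb) {f : F} {fb : Fb} (hf : DF.Red f fb) :
    ∃ P : DE.V[X], P.Monic ∧ P.natDegree = Module.finrank E F ∧
      aeval f (P.map DE.V.subtype) = 0 ∧ aeval fb (P.map DE.res) = 0 := by
  classical
  obtain ⟨b, bb, hb⟩ := h.exists_basis_lift hd
  obtain ⟨M, hM, hMb⟩ := h.exists_leftMulMatrix b bb hb hf
  refine ⟨M.charpoly, M.charpoly_monic, by simp [Matrix.charpoly_natDegree_eq_dim], ?_, ?_⟩
  · rw [← Matrix.charpoly_map, hM]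
    exact Algebra.leftMulMatrix_injective b (by
      rw [map_zero, ← Polynomial.aeval_algHom_apply, Matrix.aeval_self_charpoly])
  · rw [← Matrix.charpoly_map, hMb]
    exact Algebra.leftMulMatrix_injective bb (by
      rw [map_zero, ← Polynomial.aeval_algHom_apply, Matrix.aeval_self_charpoly])

end FLTAgent.GoodRed
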