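import Fermat.Agent.FunctionField.Principal
import Mathlib.Algebra.Module.Submodule.Union

/-!
# Consequences of the Riemann-Roch equality in large degree
-/

set_option autoImplicit false
set_option linter.unusedSectionVars false

noncomputable section

open AlgebraicCurve

namespace FLTAgent.GoodRed

open FLTAgent.FunctionField

/-- `l(D) = deg D + 1 - g` once `deg D ≥ c`. -/
def RRLarge (K F : Type*) [Field K] [Field F] [Algebra K F] (g c : ℤ) : Prop :=
  ∀ D : Divisor K F, c ≤ Divisor.degree D →
    (Module.finrank K (riemannRochSpace D) : ℤ) = Divisor.degree D + 1 - g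

variable {K F : Type*} [Field K] [Field F] [Algebra K F]

theorem RRLarge.mono {g c c' : ℤ} (h : RRLarge K F g c) (hc : c ≤ c') : RRLarge K F g c' :=
  fun D hD => h D (hc.trans hD)

theorem mem_rr_iff {D : Divisor K F} {f : F} :
    f ∈ riemannRochSpace D ↔ ∀ v, OrdGe v (-D v) f := by
  rw [mem_riemannRochSpace_iff]
  exact forall_congr' fun v => ordGe_iff.symm

variable [IsFunctionField K F]

theorem mem_rr_iff_divisorOf {D : Divisor K F} {f : F} (hf : f ≠ 0) :
    f ∈ riemannRochSpace D ↔ 0 ≤ divisorOf f + D := by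
  rw [mem_rr_iff, Finsupp.le_def]
  refine forall_congr' fun v => ?_
  rw [ordGe_iff_of_ne_zero hf, Finsupp.add_apply, divisorOf_apply, Finsupp.zero_apply]
  omega

theorem one_mem_rr {D : Divisor K F} (hD : 0 ≤ D) : (1 : F) ∈ riemannRochSpace D :=
  mem_rr_iff.2 fun v => ordGe_of_le_ord (by
    have := hD v
    simp only [Finsupp.zero_apply] at this
    rw [v.ord_one]; omega)

theorem mul_mem_rr {D E : Divisor K F} {f g : F} (hf : f ∈ riemannRochSpace D)
    (hg : g ∈ riemannRochSpace E) : f * g ∈ riemannRochSpace (D + E) :=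
  mem_rr_iff.2 fun v => by
    rw [Finsupp.add_apply, neg_add]
    exact (mem_rr_iff.1 hf v).mul (mem_rr_iff.1 hg v)

theorem mul_mem_rr_sub_divisorOf {D : Divisor K F} {f u : F}
    (hf : f ∈ riemannRochSpace D) : f * u ∈ riemannRochSpace (D - divisorOf u) :=
  mem_rr_iff.2 fun v => by
    rw [Finsupp.sub_apply, divisorOf_apply]
    exact ((mem_rr_iff.1 hf v).mul (ordGe_ord u)).mono (by omega)

section alg

variable [IsAlgClosed K]

theorem degree_eq_sum_apply (D : Divisor K F) : Divisor.degree D = ∑ v ∈ D.support, D v := by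
  rw [degree_eq_sum]
  exact Finset.sum_congr rfl fun v _ => by rw [deg_eq_one v, Nat.cast_one, mul_one]

theorem degree_single_one (v : Place K F) : Divisor.degree (Finsupp.single v (1 : ℤ)) = 1 := by
  rw [Divisor.degree_single, deg_eq_one v]; norm_num

theorem apply_le_degree {D : Divisor K F} (hD : 0 ≤ D) (v : Place K F) :
    D v ≤ Divisor.degree D := by
  classical
  by_cases h : v ∈ D.support
  · rw [degree_eq_sum_apply]
    exact Finset.single_le_sum (fun w _ => hD w) h
  · rw [Finsupp.notMem_support_iff.1 h]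
    exact degree_nonneg hD

theorem eq_zero_of_degree_eq_zero {D : Divisor K F} (hD : 0 ≤ D) (h : Divisor.degree D = 0) :
    D = 0 := by
  ext v
  refine le_antisymm ?_ (hD v)
  have := apply_le_degree hD v
  simp only [Finsupp.zero_apply]
  omega

theorem eq_of_le_of_degree_eq {D E : Divisor K F} (h : D ≤ E)
    (hd : Divisor.degree D = Divisor.degree E) : D = E :=
  (sub_eq_zero.1 (eq_zero_of_degree_eq_zero (sub_nonneg.2 h) (by rw [map_sub, hd, sub_self]))).symm

theorem eq_single_of_degree_eq_one {D : Divisor K F} (hD : 0 ≤ D) (h : Divisor.degree D = 1) :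
    ∃ v, D = Finsupp.single v 1 := by
  obtain ⟨v, hv⟩ : ∃ v, D v ≠ 0 := by
    by_contra hall
    push Not at hall
    rw [show D = 0 from Finsupp.ext hall, map_zero] at h
    exact zero_ne_one h
  refine ⟨v, (eq_of_le_of_degree_eq ?_ (by rw [degree_single_one, h])).symm⟩
  rw [Finsupp.le_def]
  intro w
  rcases eq_or_ne w v with rfl | hw
  · rw [Finsupp.single_eq_same]
    have h1 : (0 : ℤ) ≤ D w := hD w
    omega
  · rw [Finsupp.single_eq_of_ne hw]; exact hD w

variable {g c : ℤ}

theorem RRLarge.exists_ord_eq_neg (h : RRLarge K F g c) {D : Divisor K F}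
    (hD : c + 1 ≤ Divisor.degree D) (v : Place K F) :
    ∃ f ∈ riemannRochSpace D, f ≠ 0 ∧ v.ord f = -D v := by
  have h1 := h D (by omega)
  have hd : Divisor.degree (D - Finsupp.single v 1) = Divisor.degree D - 1 := by
    rw [map_sub, degree_single_one]
  have h2 := h (D - Finsupp.single v 1) (by omega)
  have hne : riemannRochSpace (D - Finsupp.single v 1) ≠ riemannRochSpace D := fun he => by
    rw [he] at h2
    omega
  have hle : D - Finsupp.single v 1 ≤ D :=
    sub_le_self D (Finsupp.single_nonneg.2 zero_le_one)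
  obtain ⟨f, hf, hfn⟩ :=
    SetLike.exists_of_lt (lt_of_le_of_ne (riemannRochSpace_mono hle) hne)
  have hf0 : f ≠ 0 := fun h0 => hfn (h0 ▸ zero_mem _)
  refine ⟨f, hf, hf0, ?_⟩
  by_contra hne'
  refine hfn (mem_rr_iff.2 fun w => ?_)
  rcases eq_or_ne w v with rfl | hw
  · refine ordGe_of_le_ord ?_
    have := (mem_rr_iff.1 hf w).le_ord hf0
    simp only [Finsupp.sub_apply, Finsupp.single_eq_same]
    omega
  · simpa [Finsupp.sub_apply, Finsupp.single_eq_of_ne hw] using mem_rr_iff.1 hf w

theorem RRLarge.le_of_rr_le (h : RRLarge K F g c) {D E : Divisor K F}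
    (hD : c + 1 ≤ Divisor.degree D) (hle : riemannRochSpace D ≤ riemannRochSpace E) : D ≤ E := by
  rw [Finsupp.le_def]
  intro v
  obtain ⟨f, hf, hf0, hord⟩ := h.exists_ord_eq_neg hD v
  have := (mem_rr_iff.1 (hle hf) v).le_ord hf0
  omega

theorem RRLarge.eq_of_rr_eq (h : RRLarge K F g c) {D E : Divisor K F}
    (hD : c + 1 ≤ Divisor.degree D) (hE : c + 1 ≤ Divisor.degree E)
    (heq : riemannRochSpace D = riemannRochSpace E) : D = E :=
  le_antisymm (h.le_of_rr_le hD heq.le) (h.le_of_rr_le hE heq.ge)

end alg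

/-- A member of a finite dimensional space containing `1` whose poles dominate those of the
whole space. -/
theorem exists_le_rr_zeroDivisor_inv [Infinite K] (W : Submodule K F) [Module.Finite K W]
    (h1 : (1 : F) ∈ W) : ∃ z ∈ W, z ≠ 0 ∧ W ≤ riemannRochSpace (zeroDivisor (K := K) z⁻¹) := by
  classical
  obtain ⟨s, hs⟩ := (Module.Finite.iff_fg (N := W)).1 inferInstance
  set s' := insert (1 : F) s with hs'
  have hs'W : (s' : Set F) ⊆ W := by
    intro f hf
    rcases Finset.mem_insert.1 hf with rfl | hf
    · exact h1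
    · exact hs ▸ Submodule.subset_span hf
  set S : Finset (Place K F) := s'.biUnion fun f => (divisorOf (K := K) f).support with hS
  -- the largest pole order
  have hne : s'.Nonempty := Finset.insert_nonempty _ _
  set m : Place K F → ℤ := fun v => s'.sup' hne fun f => -v.ord f with hm
  have hW : ∀ v, ∀ f ∈ W, OrdGe v (-m v) f := fun v f hf => by
    rw [← hs] at hf
    induction hf using Submodule.span_induction with
    | mem x hx =>
      refine ordGe_of_le_ord ?_
      have := Finset.le_sup' (fun f => -v.ord f) (Finset.mem_insert_of_mem hx : x ∈ s')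
      change -v.ord x ≤ m v at this
      omega
    | zero => exact ordGe_zero _
    | add x y _ _ hx hy => exact hx.add hy
    | smul a x _ hx =>
      rw [Algebra.smul_def]
      simpa using (ordGe_algebraMap a).mul hx
  have hm0 : ∀ v, 0 ≤ m v := fun v => by
    have := Finset.le_sup' (fun f => -v.ord f) (Finset.mem_insert_self (1 : F) s)
    change -v.ord (1 : F) ≤ m v at this
    rw [v.ord_one] at this
    omega
  -- the proper subspaces to avoid
  let U : Option S → Submodule K W := fun o => o.elim ⊥ fun v =>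
    { carrier := {f : W | OrdGe v.1 (-m v.1 + 1) (f : F)}
      zero_mem' := ordGe_zero _
      add_mem' := fun hf hg => hf.add hg
      smul_mem' := fun a f hf => by
        show OrdGe _ _ ((a • f : W) : F)
        rw [Submodule.coe_smul, Algebra.smul_def]
        simpa using (ordGe_algebraMap a).mul hf }
  have hU : ∀ o, U o ≠ ⊤ := by
    rintro (_ | ⟨v, hv⟩) htop
    · have h2 : (⟨1, h1⟩ : W) ∈ (⊥ : Submodule K W) := by
        show _ ∈ U none
        rw [htop]; trivial
      exact one_ne_zero (congrArg Subtype.val ((Submodule.mem_bot K).1 h2))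
    · obtain ⟨f, hf, hfm⟩ := Finset.exists_mem_eq_sup' hne fun f => -v.ord f
      change m v = _ at hfm
      have h2 : (⟨f, hs'W hf⟩ : W) ∈ U (some ⟨v, hv⟩) := by rw [htop]; trivial
      rcases eq_or_ne f 0 with rfl | hf0
      · rw [v.ord_zero, neg_zero] at hfm
        have h3 : (⟨1, h1⟩ : W) ∈ U (some ⟨v, hv⟩) := by rw [htop]; trivial
        have := OrdGe.le_ord h3 one_ne_zero
        simp only [v.ord_one] at this
        omega
      · have := OrdGe.le_ord h2 hf0
        simp only at this
        omega
  obtain ⟨⟨z, hzW⟩, hz⟩ := Submodule.exists_forall_notMem_of_forall_ne_top U hU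
  have hz0 : z ≠ 0 := fun h0 => hz none ((Submodule.mem_bot K).2 (Subtype.ext h0))
  refine ⟨z, hzW, hz0, fun f hf => mem_rr_iff.2 fun v => (hW v f hf).mono ?_⟩
  rw [zeroDivisor_apply, v.ord_inv]
  by_cases hv : v ∈ S
  · have h2 : ¬ OrdGe v (-m v + 1) z := hz (some ⟨v, hv⟩)
    rw [ordGe_iff_of_ne_zero hz0, not_le] at h2
    omega
  · have : m v ≤ 0 := Finset.sup'_le hne _ fun f hf => by
      have : f ∈ s' := hf
      simp only [hS, Finset.mem_biUnion, Finsupp.mem_support_iff, divisorOf_apply, not_exists,
        not_and, not_not] at hv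
      rw [hv f this, neg_zero]
    have := hm0 v
    omega

end FLTAgent.GoodRed
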