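import Fermat.Agent.GoodRed.Restrict
import Fermat.Agent.GoodRed.Extension
import Fermat.Agent.GoodRed.RRTools

/-!
# Reduction of places from equality of genus (Deuring)

If the Riemann-Roch equality in large degree holds with the same genus for `F / L` and for the
residue field `Fb / k`, there is exactly one map of places compatible with reduction of functions.
-/

set_option autoImplicit false
set_option linter.unusedSectionVars false

noncomputable section

open AlgebraicCurve Polynomial
open scoped IntermediateField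

namespace FLTAgent.GoodRed

open FLTAgent.FunctionField RedDatum

variable {L k : Type*} [Field L] [Field k] {A : ValuationSubring L} {π : A →+* k}
  {F Fb : Type*} [Field F] [Algebra L F] [Field Fb] [Algebra k Fb]

namespace RedDatum

variable {D : RedDatum A π F Fb} {x : F} {xb : Fb}

theorem compat_lineDatum (hx : D.Red x xb) (hxb : Transcendental k xb) :
    CompatRed (D.lineDatum hx hxb) D :=
  fun _ _ h => (lineDatum_red_iff hx hxb).1 h

/-- The residue degree over a coordinate is at most the degree. -/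
theorem finrank_adjoin_le [IsFunctionField L F] (hx : D.Red x xb) (hxb : Transcendental k xb) :
    Module.finrank k⟮xb⟯ Fb ≤ Module.finrank L⟮x⟯ F :=
  have := finiteDimensional_adjoin_of_transcendental (transcendental_of_red hx hxb)
  (compat_lineDatum hx hxb).finite_residue.2

theorem finiteDimensional_adjoin [IsFunctionField L F] (hx : D.Red x xb)
    (hxb : Transcendental k xb) : FiniteDimensional k⟮xb⟯ Fb :=
  have := finiteDimensional_adjoin_of_transcendental (transcendental_of_red hx hxb)
  (compat_lineDatum hx hxb).finite_residue.1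

end RedDatum

variable [IsFunctionField L F] [IsFunctionField k Fb] {D : RedDatum A π F Fb}

/-- A map of places compatible with reduction of functions. -/
structure PlaceRed (D : RedDatum A π F Fb) where
  /-- the map -/
  r : Place L F → Place k Fb
  map_divisorOf : ∀ y z, D.Red y z → z ≠ 0 → Finsupp.mapDomain r (divisorOf y) = divisorOf z

theorem mapDomain_nonneg {α β : Type*} (r : α → β) {E : α →₀ ℤ} (hE : 0 ≤ E) :
    0 ≤ Finsupp.mapDomain r E := by
  classical
  intro b
  rw [Finsupp.mapDomain, Finsupp.sum_apply]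
  refine Finsupp.sum_nonneg fun a _ => ?_
  rw [Finsupp.single_apply]
  split <;> first | exact hE a | exact le_rfl

variable [IsAlgClosed L] [IsAlgClosed k]

theorem degree_mapDomain (r : Place L F → Place k Fb) (E : Divisor L F) :
    Divisor.degree (Finsupp.mapDomain r E) = Divisor.degree E := by
  induction E using Finsupp.induction with
  | zero => simp
  | single_add a b E _ _ ih =>
    simp only [Finsupp.mapDomain_add, Finsupp.mapDomain_single, map_add, ih,
      Divisor.degree_single, deg_eq_one]

namespace PlaceRed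

variable (R : PlaceRed D)

theorem redSpace_le (E : Divisor L F) :
    D.redSpace (riemannRochSpace E) ≤ riemannRochSpace (Finsupp.mapDomain R.r E) := by
  rintro z ⟨y, hy, hr⟩
  rcases eq_or_ne z 0 with rfl | hz
  · exact zero_mem _
  rw [mem_rr_iff_divisorOf hz, ← R.map_divisorOf y z hr hz, ← Finsupp.mapDomain_add]
  exact mapDomain_nonneg _ ((mem_rr_iff_divisorOf (hr.ne_zero hz)).1 hy)

variable {g c : ℤ}

theorem redSpace_eq (hL : RRLarge L F g c) (hk : RRLarge k Fb g c) {E : Divisor L F}
    (hE : c ≤ Divisor.degree E) :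
    D.redSpace (riemannRochSpace E) = riemannRochSpace (Finsupp.mapDomain R.r E) := by
  refine Submodule.eq_of_le_of_finrank_eq (R.redSpace_le E) ?_
  have h1 := hL E hE
  have h2 := hk (Finsupp.mapDomain R.r E) (by rw [degree_mapDomain]; exact hE)
  rw [degree_mapDomain] at h2
  rw [D.finrank_redSpace]
  omega

theorem exists_effective_degree (n : ℕ) :
    ∃ E : Divisor L F, 0 ≤ E ∧ Divisor.degree E = n := by
  obtain ⟨v⟩ := exists_place (K := L) (F := F)
  exact ⟨Finsupp.single v (n : ℤ), Finsupp.single_nonneg.2 (by omega),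
    by rw [Divisor.degree_single, deg_eq_one]; simp⟩

/-- A compatible map of places is unique. -/
theorem unique (hL : RRLarge L F g c) (hk : RRLarge k Fb g c) (R' : PlaceRed D) : R.r = R'.r := by
  obtain ⟨E₀, hE₀, hd⟩ := exists_effective_degree (L := L) (F := F) (c + 1).toNat
  have key : ∀ E : Divisor L F, c + 1 ≤ Divisor.degree E →
      Finsupp.mapDomain R.r E = Finsupp.mapDomain R'.r E := fun E hE =>
    hk.eq_of_rr_eq (by rw [degree_mapDomain]; exact hE) (by rw [degree_mapDomain]; exact hE)
      (by rw [← R.redSpace_eq hL hk (by omega), ← R'.redSpace_eq hL hk (by omega)])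
  funext P
  have h1 := key E₀ (by omega)
  have h2 := key (E₀ + Finsupp.single P 1) (by rw [map_add, degree_single_one]; omega)
  rw [Finsupp.mapDomain_add, Finsupp.mapDomain_add, h1, add_right_inj,
    Finsupp.mapDomain_single, Finsupp.mapDomain_single,
    Finsupp.single_eq_single_iff] at h2
  exact h2.elim And.left fun h => absurd h.1 one_ne_zero

end PlaceRed

/-- `R` is the reduction of the effective divisor `E`. -/
def IsRedDiv (D : RedDatum A π F Fb) (E : Divisor L F) (R : Divisor k Fb) : Prop :=
  0 ≤ R ∧ Divisor.degree R = Divisor.degree E ∧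
    D.redSpace (riemannRochSpace E) = riemannRochSpace R

variable {g c : ℤ}

theorem exists_isRedDiv (hL : RRLarge L F g c) (hk : RRLarge k Fb g c) {E : Divisor L F}
    (hE0 : 0 ≤ E) (hE : c + 1 ≤ Divisor.degree E) : ∃ R, IsRedDiv D E R := by
  classical
  obtain ⟨z, ⟨y, hy, hr⟩, hz, hle⟩ := exists_le_rr_zeroDivisor_inv (K := k)
    (D.redSpace (riemannRochSpace E)) ⟨1, one_mem_rr hE0, red_one⟩
  set R : Divisor k Fb := zeroDivisor z⁻¹
  have hR0 : 0 ≤ R := zeroDivisor_nonneg _
  have hdeg : Divisor.degree R ≤ Divisor.degree E := by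
    by_cases hzt : Transcendental k z⁻¹
    · rw [degree_zeroDivisor hzt]
      have hy0 : y ≠ 0 := hr.ne_zero hz
      have hr' := hr.inv hz
      refine (Nat.cast_le.2 (finrank_adjoin_le hr' hzt)).trans ?_
      rw [← degree_zeroDivisor (transcendental_of_red hr' hzt), ← sub_nonneg, ← map_sub]
      refine degree_nonneg (sub_nonneg.2 ?_)
      rw [Finsupp.le_def]
      intro v
      rw [zeroDivisor_apply, v.ord_inv]
      have := (mem_rr_iff.1 hy v).le_ord hy0
      have h0 : (0 : ℤ) ≤ E v := hE0 v
      omega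
    · have : R = 0 := Finsupp.ext fun v => by
        simp only [R, zeroDivisor_apply, Finsupp.zero_apply]
        rw [ord_eq_zero_of_isAlgebraic (not_not.1 hzt)]
        rfl
      rw [this, map_zero]
      exact degree_nonneg hE0
  have hL' := hL E (by omega)
  rw [← D.finrank_redSpace] at hL'
  have hmono := Submodule.finrank_mono hle
  -- a divisor above `R` of the degree of `E`
  obtain ⟨w⟩ := exists_place (K := k) (F := Fb)
  set R' := R + Finsupp.single w (Divisor.degree E - Divisor.degree R) with hR'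
  have hd' : Divisor.degree R' = Divisor.degree E := by
    rw [hR', map_add, Divisor.degree_single, deg_eq_one]; ring
  have hRR' : R ≤ R' := le_add_of_nonneg_right (Finsupp.single_nonneg.2 (by omega))
  have h' := hk R' (by omega)
  have hle' : D.redSpace (riemannRochSpace E) ≤ riemannRochSpace R' :=
    hle.trans (riemannRochSpace_mono hRR')
  have heq : D.redSpace (riemannRochSpace E) = riemannRochSpace R' :=
    Submodule.eq_of_le_of_finrank_eq hle' (by omega)
  exact ⟨R', hR0.trans hRR', hd', heq⟩

theorem IsRedDiv.unique (hk : RRLarge k Fb g c) {E : Divisor L F} {R R' : Divisor k Fb}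
    (hE : c + 1 ≤ Divisor.degree E) (h : IsRedDiv D E R) (h' : IsRedDiv D E R') : R = R' :=
  hk.eq_of_rr_eq (by rw [h.2.1]; exact hE) (by rw [h'.2.1]; exact hE) (h.2.2.symm.trans h'.2.2)

theorem IsRedDiv.mono (hk : RRLarge k Fb g c) {E E' : Divisor L F} {R R' : Divisor k Fb}
    (hE : c + 1 ≤ Divisor.degree E) (hle : E ≤ E') (h : IsRedDiv D E R) (h' : IsRedDiv D E' R') :
    R ≤ R' :=
  hk.le_of_rr_le (by rw [h.2.1]; exact hE) (by
    rw [← h.2.2, ← h'.2.2]; exact redSpace_mono (riemannRochSpace_mono hle))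

theorem IsRedDiv.add (hk : RRLarge k Fb g c) {E E' : Divisor L F} {R R' R'' : Divisor k Fb}
    (hE : c + 1 ≤ Divisor.degree E) (hE' : c + 1 ≤ Divisor.degree E')
    (h : IsRedDiv D E R) (h' : IsRedDiv D E' R') (h'' : IsRedDiv D (E + E') R'') :
    R'' = R + R' := by
  refine (eq_of_le_of_degree_eq ?_ ?_).symm
  · rw [Finsupp.le_def]
    intro v
    obtain ⟨f, hf, hf0, hfv⟩ := hk.exists_ord_eq_neg (D := R) (by rw [h.2.1]; exact hE) v
    obtain ⟨f', hf', hf0', hfv'⟩ := hk.exists_ord_eq_neg (D := R') (by rw [h'.2.1]; exact hE') v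
    rw [← h.2.2] at hf
    rw [← h'.2.2] at hf'
    obtain ⟨y, hy, hr⟩ := hf
    obtain ⟨y', hy', hr'⟩ := hf'
    have hmem : f * f' ∈ riemannRochSpace R'' := by
      rw [← h''.2.2]
      exact ⟨y * y', mul_mem_rr hy hy', hr.mul hr'⟩
    have := (mem_rr_iff.1 hmem v).le_ord (mul_ne_zero hf0 hf0')
    rw [v.ord_mul hf0 hf0', hfv, hfv'] at this
    rw [Finsupp.add_apply]
    omega
  · rw [map_add, h.2.1, h'.2.1, h''.2.1, map_add]

/-- Deuring: equality of genus gives a reduction of places. -/
theorem exists_placeRed (hL : RRLarge L F g c) (hk : RRLarge k Fb g c) :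
    Nonempty (PlaceRed D) := by
  classical
  wlog hc : 0 ≤ c generalizing c
  · exact this (hL.mono (le_of_not_ge hc)) (hk.mono (le_of_not_ge hc)) le_rfl
  choose R hR using fun (E : Divisor L F) (h0 : 0 ≤ E) (h : c + 1 ≤ Divisor.degree E) =>
    exists_isRedDiv (D := D) hL hk h0 h
  obtain ⟨E₀, hE₀, hd₀⟩ := PlaceRed.exists_effective_degree (L := L) (F := F) (c + 1).toNat
  have hd₀' : c + 1 ≤ Divisor.degree E₀ := by omega
  have hs : ∀ P : Place L F, 0 ≤ Finsupp.single P (1 : ℤ) := fun P =>
    Finsupp.single_nonneg.2 zero_le_one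
  have hsd : ∀ E : Divisor L F, c + 1 ≤ Divisor.degree E → ∀ P : Place L F,
      c + 1 ≤ Divisor.degree (E + Finsupp.single P 1) := fun E hE P => by
    rw [map_add, degree_single_one]; omega
  -- the image of a place
  have hpl : ∀ P : Place L F, ∃ Q, R (E₀ + Finsupp.single P 1) (add_nonneg hE₀ (hs P))
      (hsd E₀ hd₀' P) - R E₀ hE₀ hd₀' = Finsupp.single Q 1 := by
    intro P
    refine eq_single_of_degree_eq_one (sub_nonneg.2 ((hR E₀ hE₀ hd₀').mono hk hd₀'
      (le_add_of_nonneg_right (hs P)) (hR _ _ _))) ?_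
    rw [map_sub, (hR _ _ _).2.1, (hR _ _ _).2.1, map_add, degree_single_one]
    ring
  choose r hr using hpl
  have hadd : ∀ E E' (h0 : 0 ≤ E) (h : c + 1 ≤ Divisor.degree E) (h0' : 0 ≤ E')
      (h' : c + 1 ≤ Divisor.degree E') (h0'' : 0 ≤ E + E')
      (h'' : c + 1 ≤ Divisor.degree (E + E')),
      R (E + E') h0'' h'' = R E h0 h + R E' h0' h' := fun E E' h0 h h0' h' h0'' h'' =>
    (hR E h0 h).add hk h h' (hR E' h0' h') (hR _ h0'' h'')
  have hstep : ∀ E (h0 : 0 ≤ E) (h : c + 1 ≤ Divisor.degree E) (P : Place L F),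
      R (E + Finsupp.single P 1) (add_nonneg h0 (hs P)) (hsd E h P)
        = R E h0 h + Finsupp.single (r P) 1 := by
    intro E h0 h P
    have h3 : 0 ≤ E + E₀ + Finsupp.single P 1 := add_nonneg (add_nonneg h0 hE₀) (hs P)
    have h4 : c + 1 ≤ Divisor.degree (E + E₀ + Finsupp.single P 1) := by
      rw [map_add, map_add, degree_single_one]; omega
    have e1 := hadd (E + Finsupp.single P 1) E₀ (add_nonneg h0 (hs P)) (hsd E h P) hE₀ hd₀'
      (by rwa [add_right_comm]) (by rwa [add_right_comm])
    have e2 := hadd E (E₀ + Finsupp.single P 1) h0 h (add_nonneg hE₀ (hs P)) (hsd E₀ hd₀' P)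
      (by rwa [← add_assoc]) (by rwa [← add_assoc])
    have e3 : R (E + Finsupp.single P 1 + E₀) (by rwa [add_right_comm]) (by rwa [add_right_comm])
        = R (E + (E₀ + Finsupp.single P 1)) (by rwa [← add_assoc]) (by rwa [← add_assoc]) := by
      congr 1; abel
    rw [e1, e2] at e3
    have h5 := hr P
    rw [sub_eq_iff_eq_add] at h5
    rw [h5, add_comm (Finsupp.single (r P) 1), ← add_assoc, add_right_comm] at e3
    exact add_right_cancel e3
  have hall : ∀ (n : ℕ) (X : Divisor L F), 0 ≤ X → Divisor.degree X = n →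
      ∀ E (h0 : 0 ≤ E) (h : c + 1 ≤ Divisor.degree E) (h0' : 0 ≤ E + X)
        (h' : c + 1 ≤ Divisor.degree (E + X)),
        R (E + X) h0' h' = R E h0 h + Finsupp.mapDomain r X := by
    intro n
    induction n with
    | zero =>
      intro X hX hXd E h0 h h0' h'
      obtain rfl := eq_zero_of_degree_eq_zero hX hXd
      simp only [Finsupp.mapDomain_zero, add_zero]
    | succ n ih =>
      intro X hX hXd E h0 h h0' h'
      obtain ⟨P, hP⟩ : ∃ P, X P ≠ 0 := by
        by_contra hall'
        push Not at hall'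
        rw [show X = 0 from Finsupp.ext hall', map_zero] at hXd
        omega
      have hX' : 0 ≤ X - Finsupp.single P 1 := by
        rw [sub_nonneg, Finsupp.le_def]
        intro w
        rcases eq_or_ne w P with rfl | hw
        · have : (0 : ℤ) ≤ X w := hX w
          rw [Finsupp.single_eq_same]; omega
        · rw [Finsupp.single_eq_of_ne hw]; exact hX w
      have hXd' : Divisor.degree (X - Finsupp.single P 1) = n := by
        rw [map_sub, degree_single_one, hXd]; push_cast; ring
      have h1 : 0 ≤ E + (X - Finsupp.single P 1) := add_nonneg h0 hX'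
      have h2 : c + 1 ≤ Divisor.degree (E + (X - Finsupp.single P 1)) := by
        rw [map_add, hXd']; omega
      have e1 := hstep _ h1 h2 P
      rw [ih _ hX' hXd' E h0 h h1 h2] at e1
      have e2 : R (E + X) h0' h' = R (E + (X - Finsupp.single P 1) + Finsupp.single P 1)
          (add_nonneg h1 (hs P)) (hsd _ h2 P) := by congr 1; abel
      rw [e2, e1, add_assoc, ← Finsupp.mapDomain_single (f := r), ← Finsupp.mapDomain_add,
        sub_add_cancel]
  have hR' : ∀ E (h0 : 0 ≤ E) (h : c + 1 ≤ Divisor.degree E),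
      R E h0 h = Finsupp.mapDomain r E := by
    intro E h0 h
    have h1 : 0 ≤ E + E := add_nonneg h0 h0
    have h2 : c + 1 ≤ Divisor.degree (E + E) := by rw [map_add]; omega
    have e1 := hall _ E h0 (Int.toNat_of_nonneg (degree_nonneg h0)).symm E h0 h h1 h2
    rw [hadd E E h0 h h0 h h1 h2] at e1
    exact add_left_cancel e1
  refine ⟨⟨r, fun y z hyz hz => ?_⟩⟩
  have hy := hyz.ne_zero hz
  set X₁ : Divisor L F := zeroDivisor y with hX₁
  set X₂ : Divisor L F := zeroDivisor y⁻¹ with hX₂
  have hsub : X₁ - X₂ = divisorOf y := zeroDivisor_sub_zeroDivisor_inv y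
  have h01 : 0 ≤ E₀ + X₁ := add_nonneg hE₀ (zeroDivisor_nonneg _)
  have h02 : 0 ≤ E₀ + X₂ := add_nonneg hE₀ (zeroDivisor_nonneg _)
  have hd1 : c + 1 ≤ Divisor.degree (E₀ + X₁) := by
    rw [map_add]; have : 0 ≤ Divisor.degree X₁ := degree_nonneg (zeroDivisor_nonneg y); omega
  have hd2 : c + 1 ≤ Divisor.degree (E₀ + X₂) := by
    rw [map_add]; have : 0 ≤ Divisor.degree X₂ := degree_nonneg (zeroDivisor_nonneg y⁻¹); omega
  set R₁ := R _ h01 hd1 with hR₁
  set R₂ := R _ h02 hd2 with hR₂
  have hd0 : Divisor.degree (divisorOf (K := L) y) = 0 := degree_divisorOf y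
  have hd12 : Divisor.degree R₂ = Divisor.degree R₁ := by
    rw [hR₁, hR₂, (hR _ _ _).2.1, (hR _ _ _).2.1, map_add, map_add]
    rw [← hsub, map_sub] at hd0
    omega
  have hle : R₁ - divisorOf z ≤ R₂ := by
    refine hk.le_of_rr_le (by rw [map_sub, degree_divisorOf, sub_zero, (hR _ h01 hd1).2.1]; exact hd1)
      fun f hf => ?_
    have hfz : f * z⁻¹ ∈ riemannRochSpace R₁ := by
      have := mul_mem_rr_sub_divisorOf (u := z⁻¹) hf
      rwa [divisorOf_inv, sub_neg_eq_add, sub_add_cancel] at this
    rw [← (hR _ h01 hd1).2.2] at hfz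
    obtain ⟨u, hu, hur⟩ := hfz
    rw [hR₂, ← (hR _ h02 hd2).2.2]
    refine ⟨u * y, ?_, ?_⟩
    · have := mul_mem_rr_sub_divisorOf (u := y) hu
      rwa [← hsub, show E₀ + X₁ - (X₁ - X₂) = E₀ + X₂ by abel] at this
    · have := hur.mul hyz
      rwa [inv_mul_cancel_right₀ hz] at this
  have heq := eq_of_le_of_degree_eq hle (by rw [map_sub, degree_divisorOf, sub_zero, hd12])
  rw [sub_eq_iff_eq_add, ← sub_eq_iff_eq_add'] at heq
  rw [← heq, hR₁, hR₂, hR', hR', Finsupp.mapDomain_add, Finsupp.mapDomain_add, add_sub_add_left_eq_sub,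
    ← Finsupp.mapDomain_sub, hsub]

end FLTAgent.GoodRed
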