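import Fermat.Agent.GoodRed.GaussDatum
import Fermat.Agent.GoodRed.Deuring

/-!
# Degree over the coordinate of a Gauss datum
-/

set_option autoImplicit false
set_option linter.unusedSectionVars false

noncomputable section

open Polynomial ModularCurve
open scoped IntermediateField

namespace FLTAgent.GoodRed

variable {L k : Type*} [Field L] [Field k] {A : ValuationSubring L} {π : A →+* k}
  {F : IntermediateField L (LaurentSeries L)} {Fb : IntermediateField k (LaurentSeries k)} {n : ℕ}
  (G : GaussBasis π F Fb n) (hπ : IsResidueMap A π)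

namespace GaussBasis

/-- The coordinate in `F`. -/
abbrev xF : F := ⟨iotaL A G.x, G.x_mem⟩

/-- The reduced coordinate. -/
abbrev xbF : Fb := ⟨coeffMap π G.x, G.xb_mem⟩

theorem red_xF : (G.datum hπ).Red G.xF G.xbF := G.red_of_series hπ rfl rfl

theorem transcendental_xbF : Transcendental k G.xbF := fun h =>
  G.xb_transcendental ((isAlgebraic_algHom_iff Fb.val Subtype.val_injective).2 h)

include hπ in
theorem transcendental_xF : Transcendental L G.xF :=
  RedDatum.transcendental_of_red (G.red_xF hπ) G.transcendental_xbF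

theorem coe_aeval_xF (p : L[X]) :
    ((aeval G.xF p : F) : LaurentSeries L) = aeval (iotaL A G.x) p :=
  (aeval_algHom_apply F.val G.xF p).symm

theorem coe_aeval_xbF (p : k[X]) :
    ((aeval G.xbF p : Fb) : LaurentSeries k) = aeval (coeffMap π G.x) p :=
  (aeval_algHom_apply Fb.val G.xbF p).symm

/-- The family in `F`. -/
abbrev eF (i : Fin n) : F := ⟨iotaL A (G.e i), G.e_mem i⟩

/-- The reduced family. -/
abbrev ebF (i : Fin n) : Fb := ⟨coeffMap π (G.e i), G.eb_mem i⟩

theorem exists_clear {K E : Type*} [Field K] [Field E] [Algebra K E] {x : E}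
    (hx : Transcendental K x) (c : Fin n → K⟮x⟯) :
    ∃ (p : Fin n → K[X]) (q : K[X]), q ≠ 0 ∧ ∀ i, (c i : E) * aeval x q = aeval x (p i) := by
  classical
  have h : ∀ i, ∃ r s : K[X], s ≠ 0 ∧ (c i : E) * aeval x s = aeval x r := fun i => by
    obtain ⟨r, s, hrs⟩ := (IntermediateField.mem_adjoin_simple_iff K (c i : E)).1 (c i).2
    rcases eq_or_ne s 0 with rfl | hs
    · exact ⟨0, 1, one_ne_zero, by rw [hrs]; simp⟩
    · exact ⟨r, s, hs, by
        rw [hrs, div_mul_cancel₀ _ fun h0 => hs (transcendental_iff.1 hx _ h0)]⟩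
  choose r s hs hrs using h
  refine ⟨fun i => r i * ∏ j ∈ Finset.univ.erase i, s j, ∏ j, s j,
    Finset.prod_ne_zero_iff.2 fun j _ => hs j, fun i => ?_⟩
  rw [← Finset.mul_prod_erase Finset.univ s (Finset.mem_univ i), map_mul, map_mul, ← mul_assoc, hrs]

theorem linearIndependent_ebF : LinearIndependent k⟮G.xbF⟯ G.ebF := by
  rw [Fintype.linearIndependent_iff]
  intro c hc i
  obtain ⟨p, q, hq, hpq⟩ := exists_clear G.transcendental_xbF c
  have hc' : ∑ i, aeval G.xbF (p i) * G.ebF i = 0 := by
    refine Eq.trans ?_ ((congrArg (fun z : Fb => z * aeval G.xbF q) hc).trans (zero_mul _))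
    show ∑ i, aeval G.xbF (p i) * G.ebF i = (∑ i, c i • G.ebF i) * aeval G.xbF q
    rw [Finset.sum_mul]
    refine Finset.sum_congr rfl fun i _ => ?_
    rw [← hpq i, Algebra.smul_def, IntermediateField.algebraMap_apply]
    ring
  have h0 := G.indep p (by
    have h := congrArg Fb.val hc'
    simp only [map_sum, map_mul, map_zero, IntermediateField.coe_val, coe_aeval_xbF] at h
    exact h) i
  have h1 := hpq i
  rw [h0, map_zero, mul_eq_zero] at h1
  exact Subtype.ext (h1.resolve_right fun h =>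
    hq (transcendental_iff.1 G.transcendental_xbF _ h))

include hπ in
theorem span_eF : Submodule.span L⟮G.xF⟯ (Set.range G.eF) = ⊤ := by
  rw [eq_top_iff]
  intro y _
  rw [Submodule.mem_span_range_iff_exists_fun]
  obtain ⟨p, q, hq, hpq⟩ := G.span (y : LaurentSeries L) y.2
  have hq0 : aeval G.xF q ≠ 0 := fun h =>
    hq (transcendental_iff.1 (G.transcendental_xF hπ) _ h)
  have hmem : ∀ r : L[X], aeval G.xF r ∈ L⟮G.xF⟯ := fun r => by
    rw [aeval_eq_sum_range]
    exact sum_mem fun i _ => L⟮G.xF⟯.smul_mem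
      (pow_mem (IntermediateField.mem_adjoin_simple_self L G.xF) i)
  refine ⟨fun i => ⟨aeval G.xF (p i) / aeval G.xF q, div_mem (hmem _) (hmem _)⟩, ?_⟩
  refine mul_right_cancel₀ hq0 ?_
  rw [Finset.sum_mul]
  have hy : y * aeval G.xF q = ∑ i, aeval G.xF (p i) * G.eF i := by
    refine F.val.injective ?_
    refine (map_mul _ _ _).trans (Eq.trans ?_ (map_sum _ _ _).symm)
    simp only [map_mul]
    show ((y : F) : LaurentSeries L) * ((aeval G.xF q : F) : LaurentSeries L) =
      ∑ i, ((aeval G.xF (p i) : F) : LaurentSeries L) * ((G.eF i : F) : LaurentSeries L)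
    simp only [coe_aeval_xF]
    exact hpq
  rw [hy]
  refine Finset.sum_congr rfl fun i _ => ?_
  rw [Algebra.smul_def, IntermediateField.algebraMap_apply, mul_right_comm,
    div_mul_cancel₀ _ hq0]

include hπ in
theorem finite_xF : FiniteDimensional L⟮G.xF⟯ F :=
  ⟨Submodule.fg_def.2 ⟨_, Set.finite_range _, G.span_eF hπ⟩⟩

include hπ in
theorem finrank_eq : Module.finrank L⟮G.xF⟯ F = n ∧ Module.finrank k⟮G.xbF⟯ Fb = n ∧
    FiniteDimensional k⟮G.xbF⟯ Fb := by
  have := G.finite_xF hπ
  have h1 : Module.finrank L⟮G.xF⟯ F ≤ n := by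
    rw [← finrank_top L⟮G.xF⟯ F, ← G.span_eF hπ]
    exact (finrank_range_le_card G.eF).trans (by rw [Fintype.card_fin])
  obtain ⟨hfin, h2⟩ := (RedDatum.compat_lineDatum (G.red_xF hπ) G.transcendental_xbF).finite_residue
  have h3 : n ≤ Module.finrank k⟮G.xbF⟯ Fb := by
    simpa using G.linearIndependent_ebF.fintype_card_le_finrank
  exact ⟨by omega, by omega, hfin⟩

include G hπ in
theorem isFunctionField : FunctionField.IsFunctionField L F :=
  ⟨G.xF, G.transcendental_xF hπ, G.finite_xF hπ⟩

include G hπ in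
theorem isFunctionField_residue : FunctionField.IsFunctionField k Fb :=
  ⟨G.xbF, G.transcendental_xbF, (G.finrank_eq hπ).2.2⟩

include hπ in
theorem noDefect : NoDefect L⟮G.xF⟯ k⟮G.xbF⟯ F Fb :=
  (G.finrank_eq hπ).2.1.trans (G.finrank_eq hπ).1.symm

end GaussBasis

end FLTAgent.GoodRed
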