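import Fermat.Agent.GoodRed.X0Datum
import Fermat.Agent.GoodRed.GaussDegree
import Fermat.Agent.Igusa.Exports
import Fermat.Agent.Igusa.Generation

/-!
# The fields of the Gauss datum of level `M`

Function field structure, no defect over `j`, separability of the residue field over `j̄`.
-/

set_option autoImplicit false
set_option linter.unusedSectionVars false
set_option synthInstance.maxHeartbeats 100000

noncomputable section

open Polynomial ModularCurve IsLocalRing AlgebraicCurve
open scoped IntermediateField

namespace FLTAgent.GoodRed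

open FLTAgent.FunctionField

local notation "Qbar" => AlgebraicClosure ℚ

/-- Separability transported to an intermediate field. -/
theorem isSeparable_adjoin_transport {K Ω : Type*} [Field K] [Field Ω] [Algebra K Ω]
    {E : IntermediateField K Ω} (x : E) {y : Ω} (hxy : (x : Ω) = y)
    (T : IntermediateField K⟮y⟯ Ω) (hT : E = T.restrictScalars K)
    (h : Algebra.IsSeparable K⟮y⟯ T) : Algebra.IsSeparable K⟮x⟯ E := by
  subst hxy
  have := h
  refine Algebra.IsSeparable.of_equiv_equiv (A₁ := K⟮(x : Ω)⟯) (B₁ := T)
    ((IntermediateField.liftAlgEquiv K⟮x⟯).trans (IntermediateField.equivOfEq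
      (IntermediateField.lift_adjoin_simple K E x))).symm.toRingEquiv
    (IntermediateField.equivOfEq hT).symm.toRingEquiv ?_
  refine RingHom.ext fun a => ?_
  obtain ⟨b, rfl⟩ := ((IntermediateField.liftAlgEquiv K⟮x⟯).trans (IntermediateField.equivOfEq
      (IntermediateField.lift_adjoin_simple K E x))).surjective a
  refine Subtype.ext ?_
  simp [IntermediateField.equivOfEq]
  rfl

variable (A : ValuationSubring (AlgebraicClosure ℚ)) {l : ℕ} [Fact l.Prime]
  (hA : A.LiesOverPrime l) (M : ℕ) [NeZero M] (hlM : ¬ l ∣ M)

/-- `j` in the function field of level `M`. -/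
abbrev x0J : modularFunctionFieldBar M := (x0Basis A hA M hlM).xF

/-- `j̄` in the function field of level `M` over the residue field. -/
abbrev x0Jb : modularFunctionFieldFullC (ResidueField A) M := (x0Basis A hA M hlM).xbF

theorem coe_x0J : (x0J A hA M hlM : LaurentSeries Qbar) = jqModC Qbar := by
  show iotaL A (x0Basis A hA M hlM).x = _
  rw [x0Basis_x]
  exact coeffMap_jqModC _

theorem coe_x0Jb : (x0Jb A hA M hlM : LaurentSeries (ResidueField A)) = jqModC (ResidueField A) := by
  show coeffMap (residue A) (x0Basis A hA M hlM).x = _
  rw [x0Basis_x]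
  exact coeffMap_jqModC _

theorem red_x0J : (x0Datum A hA M hlM).Red (x0J A hA M hlM) (x0Jb A hA M hlM) :=
  (x0Basis A hA M hlM).red_xF (isResidueMap_residue A)

theorem transcendental_x0Jb : Transcendental (ResidueField A) (x0Jb A hA M hlM) :=
  (x0Basis A hA M hlM).transcendental_xbF

theorem noDefect_x0J : NoDefect Qbar⟮x0J A hA M hlM⟯ (ResidueField A)⟮x0Jb A hA M hlM⟯
    (modularFunctionFieldBar M) (modularFunctionFieldFullC (ResidueField A) M) :=
  (x0Basis A hA M hlM).noDefect (isResidueMap_residue A)

include hA hlM in
theorem isFunctionField_bar : IsFunctionField Qbar (modularFunctionFieldBar M) :=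
  (x0Basis A hA M hlM).isFunctionField (isResidueMap_residue A)

include hA hlM in
theorem isFunctionField_fullC :
    IsFunctionField (ResidueField A) (modularFunctionFieldFullC (ResidueField A) M) :=
  (x0Basis A hA M hlM).isFunctionField_residue (isResidueMap_residue A)

theorem isSeparable_x0Jb : Algebra.IsSeparable (ResidueField A)⟮x0Jb A hA M hlM⟯
    (modularFunctionFieldFullC (ResidueField A) M) :=
  isSeparable_adjoin_transport _ (coe_x0Jb A hA M hlM) _
    (Igusa.full_eq_restrictScalars (N := M) (ResidueField A))
    (Igusa.isSeparable_adjoin_divisorExpansionsC (ResidueField A) M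
      (natCast_residue_ne_zero hA hlM))

end FLTAgent.GoodRed
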