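import Fermat.Agent.GoodRed.TraceRegular
import Mathlib.RingTheory.Ideal.Maps

/-!
# Trace duality over finite points of the line

In characteristic zero a function with polynomial traces against all regular functions has, over
each finite point `a`, order at least `1 - e`.
-/

set_option autoImplicit false
set_option linter.unusedSectionVars false

noncomputable section

open AlgebraicCurve Polynomial
open scoped IntermediateField

namespace FLTAgent.GoodRed

open FLTAgent.FunctionField

variable {K F : Type*} [Field K] [Field F] [Algebra K F] [IsFunctionField K F] {x : F}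
  [FiniteDimensional K⟮x⟯ F]

/-- A centre lying over a given place. -/
theorem Centre.exists_over {t : K⟮x⟯} (v : Place K F) (hv : 0 < v.ord (t : F)) :
    ∃ (C : Centre x t) (σ : F →ₐ[K⟮x⟯] Closure (K := K) x),
      ∀ f, OrdGe v 1 f → σ f ∈ C.B.nonunits := by
  let σ : F →ₐ[K⟮x⟯] Closure (K := K) x := IsAlgClosed.lift
  let O := v.toValuationSubring.toSubring
  let e := O.equivMapOfInjective (σ : F →+* Closure (K := K) x) σ.injective
  let I : Ideal (O.map (σ : F →+* Closure (K := K) x)) :=
    (IsLocalRing.maximalIdeal v.toValuationSubring).comap (e.symm : _ →+* O)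
  have hI : I ≠ ⊤ := Ideal.comap_ne_top _ (IsLocalRing.maximalIdeal.isMaximal _).ne_top
  obtain ⟨B, hle, hsub⟩ := Ideal.image_subset_nonunits_valuationSubring _ hI
  have hn : ∀ f, OrdGe v 1 f → σ f ∈ B.nonunits := fun f hf => by
    have hf' := ordGe_one_iff_mem_nonunits.1 hf
    have hfO : f ∈ v.toValuationSubring := v.toValuationSubring.nonunits_subset hf'
    refine hsub ⟨e ⟨f, hfO⟩, ?_, rfl⟩
    show e.symm (e ⟨f, hfO⟩) ∈ IsLocalRing.maximalIdeal v.toValuationSubring
    rw [RingEquiv.symm_apply_apply]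
    exact ValuationSubring.coe_mem_nonunits_iff.1 hf'
  refine ⟨⟨B, fun a => ?_, ?_⟩, σ, hn⟩
  · refine hle ⟨algebraMap K F a, mem_iff_ordGe_zero.2 (ordGe_algebraMap a), ?_⟩
    show σ (algebraMap K F a) = _
    rw [IsScalarTower.algebraMap_apply K K⟮x⟯ F, σ.commutes, ← IsScalarTower.algebraMap_apply]
  · rw [← σ.commutes t]
    exact hn _ (ordGe_of_le_ord (show (1 : ℤ) ≤ v.ord (t : F) by omega))

theorem ord_sub_eq_zero {v : Place K F} {f : F} {a b : K}
    (ha : OrdGe v 1 (f - algebraMap K F a)) (hab : b ≠ a) :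
    v.ord (f - algebraMap K F b) = 0 := by
  have hc : algebraMap K F (a - b) ≠ 0 := by simpa [sub_eq_zero] using hab.symm
  have h := ord_eq_of_ordGe_sub (v := v) (f := f - algebraMap K F b) (g := algebraMap K F (a - b))
    (n := 1) (by rw [map_sub]; convert ha using 1; ring) hc (by rw [ord_algebraMap]; omega)
  rw [ord_algebraMap] at h
  exact h.2

variable [IsAlgClosed K]

theorem sub_algebraMap_ne_zero (hx : Transcendental K x) (a : K) : x - algebraMap K F a ≠ 0 :=
  fun h => hx (by rw [sub_eq_zero.1 h]; exact isAlgebraic_algebraMap a)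

theorem exists_value_finite {v : Place K F} (hv : 0 ≤ v.ord x) :
    ∃ a : K, OrdGe v 1 (x - algebraMap K F a) :=
  exists_value (ordGe_of_le_ord hv)

theorem ord_pos_of_value {v : Place K F} (hx : Transcendental K x) {a : K}
    (h : OrdGe v 1 (x - algebraMap K F a)) : 0 < v.ord (x - algebraMap K F a) := by
  have := h.le_ord (sub_algebraMap_ne_zero hx a)
  omega

/-- Weak approximation modified to be regular at all finite places. -/
theorem exists_reg_congr (hx : Transcendental K x) (a : K) {z : F}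
    (hz : ∀ v : Place K F, 0 < v.ord (x - algebraMap K F a) → OrdGe v 0 z) :
    ∃ h : K[X], h.eval a = 1 ∧ z * aeval x h ∈ finReg K x := by
  classical
  set P : Finset (Place K F) :=
    (finite_setOf_ord_ne_zero (K := K) z).toFinset.filter fun v => 0 ≤ v.ord x ∧ v.ord z < 0
  have hval : ∀ v ∈ P, ∃ b : K, OrdGe v 1 (x - algebraMap K F b) ∧ b ≠ a := fun v hv => by
    obtain ⟨-, hvx, hvz⟩ := Finset.mem_filter.1 hv
    obtain ⟨b, hb⟩ := exists_value_finite hvx
    refine ⟨b, hb, fun hba => ?_⟩
    rcases eq_or_ne z 0 with rfl | hz0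
    · rw [v.ord_zero] at hvz; omega
    · have := (hz v (ord_pos_of_value hx (hba ▸ hb))).le_ord hz0
      omega
  choose b hb hba using hval
  set h₀ : K[X] := ∏ v ∈ P.attach, (X - C (b v.1 v.2)) ^ (-v.1.ord z).toNat
  have hh : h₀.eval a ≠ 0 := by
    rw [eval_prod, Finset.prod_ne_zero_iff]
    intro v _
    rw [eval_pow, eval_sub, eval_X, eval_C]
    exact pow_ne_zero _ (sub_ne_zero.2 (hba v.1 v.2).symm)
  refine ⟨C (h₀.eval a)⁻¹ * h₀, by rw [eval_mul, eval_C, inv_mul_cancel₀ hh], fun v hv => ?_⟩
  rcases eq_or_ne z 0 with rfl | hz0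
  · rw [zero_mul]; exact ordGe_zero _
  by_cases hvz : 0 ≤ v.ord z
  · have h' := (ordGe_of_le_ord (v := v) (f := z) hvz).mul
      (aeval_mem_finReg x (C (h₀.eval a)⁻¹ * h₀) v hv)
    rwa [zero_add] at h'
  have hvP : v ∈ P := Finset.mem_filter.2 ⟨(finite_setOf_ord_ne_zero (K := K) z).mem_toFinset.2
    (show v.ord z ≠ 0 by omega), hv, by omega⟩
  obtain ⟨rest, hrest⟩ : (X - C (b v hvP)) ^ (-v.ord z).toNat ∣ C (h₀.eval a)⁻¹ * h₀ :=
    Dvd.dvd.mul_left (Finset.dvd_prod_of_mem
      (fun w : {w // w ∈ P} => (X - C (b w.1 w.2)) ^ (-w.1.ord z).toNat)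
      (Finset.mem_attach P ⟨v, hvP⟩)) _
  rw [hrest, map_mul, map_pow, map_sub, aeval_X, aeval_C]
  have h2 : OrdGe v (-v.ord z) ((x - algebraMap K F (b v hvP)) ^ (-v.ord z).toNat) := by
    refine ordGe_of_le_ord ?_
    rw [ord_pow]
    have h1 := ord_pos_of_value hx (hb v hvP)
    have h3 : ((-v.ord z).toNat : ℤ) = -v.ord z := Int.toNat_of_nonneg (by omega)
    rw [h3]
    nlinarith
  have := (ordGe_ord (v := v) z).mul (h2.mul (aeval_mem_finReg x rest v hv))
  simpa using this

/-- Polynomial traces bound the poles by the different. -/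
theorem ordGe_of_trace_poly [CharZero K] (hx : Transcendental K x) {y : F}
    (hy : ∀ z ∈ finReg K x, ∃ c : K[X], Algebra.trace K⟮x⟯ F (y * z) = ev x c) (a : K)
    {v₀ : Place K F} (hv₀ : 0 < v₀.ord (x - algebraMap K F a)) :
    OrdGe v₀ (1 - v₀.ord (x - algebraMap K F a)) y := by
  classical
  by_contra hcon
  have hy0 : y ≠ 0 := fun h => hcon (h ▸ ordGe_zero _)
  rw [ordGe_iff_of_ne_zero hy0, not_le] at hcon
  set t : F := x - algebraMap K F a with ht
  have ht0 : t ≠ 0 := sub_algebraMap_ne_zero hx a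
  have hty : t * y ≠ 0 := mul_ne_zero ht0 hy0
  have hg : v₀.ord (t * y) ≤ 0 := by rw [v₀.ord_mul ht0 hy0]; omega
  set Sa : Finset (Place K F) := (finite_setOf_ord_pos (K := K) t).toFinset
  obtain ⟨z, hz⟩ := exists_ordGe_sub Sa (fun v => if v = v₀ then (t * y)⁻¹ else 0)
    (fun v => max 1 (1 - v.ord (t * y)))
  have hmem : ∀ {v : Place K F}, 0 < v.ord t → v ∈ Sa := fun h =>
    (finite_setOf_ord_pos (K := K) t).mem_toFinset.2 h
  have hreg : ∀ v : Place K F, 0 < v.ord t → OrdGe v 0 z := fun v hv => by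
    have h := (hz v (hmem hv)).mono (show (0 : ℤ) ≤ max 1 (1 - v.ord (t * y)) by omega)
    have h2 : OrdGe v 0 (if v = v₀ then (t * y)⁻¹ else (0 : F)) := by
      split
      · subst ‹v = v₀›
        exact ordGe_of_le_ord (by rw [v.ord_inv]; omega)
      · exact ordGe_zero _
    simpa using h.add h2
  obtain ⟨h, hha, hzh⟩ := exists_reg_congr hx a hreg
  obtain ⟨c, hc⟩ := hy _ hzh
  set w : F := t * (y * (z * aeval x h)) with hw
  have hkey : ∀ v : Place K F, 0 < v.ord t →
      OrdGe v 1 (w - if v = v₀ then 1 else 0) := fun v hv => by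
    have h1 : OrdGe v 1 (t * y * (z - if v = v₀ then (t * y)⁻¹ else 0)) :=
      ((ordGe_ord (v := v) (t * y)).mul (hz v (hmem hv))).mono (by omega)
    have h1' : OrdGe v 1 (t * y * z - if v = v₀ then (1 : F) else 0) := by
      convert h1 using 1
      split
      · rw [mul_sub, mul_inv_cancel₀ hty]
      · rw [sub_zero, sub_zero]
    have hvx : 0 ≤ v.ord x := by
      have h3 := ord_nonneg_of_coordSub_pos (x := x) (v := v) (a := a) (by rwa [coe_coordSub])
      exact h3
    have h0 : OrdGe v 0 (t * y * z) := by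
      have h4 : OrdGe v 0 (if v = v₀ then (1 : F) else 0) := by
        split
        · exact ordGe_of_le_ord (by simp)
        · exact ordGe_zero _
      simpa using (h1'.mono zero_le_one).add h4
    obtain ⟨q, hq⟩ := X_sub_C_dvd_sub_C_eval (a := a) (p := h)
    have h5 : OrdGe v 1 (aeval x h - 1) := by
      have : aeval x h - 1 = t * aeval x q := by
        have := congrArg (aeval x) hq
        rwa [hha, map_sub, map_one (C : K →+* K[X]), map_one, map_mul, map_sub, aeval_X, aeval_C]
          at this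
      rw [this]
      exact ((ordGe_ord (v := v) t).mul (aeval_mem_finReg x q v hvx)).mono (by omega)
    have e : w - (if v = v₀ then (1 : F) else 0) =
        (t * y * z - if v = v₀ then 1 else 0) + t * y * z * (aeval x h - 1) := by
      rw [hw]; ring
    rw [e]
    exact h1'.add (by simpa using h0.mul h5)
  obtain ⟨C', σ, hσ⟩ := Centre.exists_over (x := x) (t := coordSub x a) v₀ (by rwa [coe_coordSub])
  refine C'.trace_not_mem_nonunits (coordSub_ne_zero hx a) (y := w) (fun v hv => ?_) σ ?_ ?_
  · rw [coe_coordSub] at hv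
    have := hkey v hv
    split at this
    · exact Or.inr this
    · exact Or.inl (by simpa using this)
  · have := hσ _ (by simpa using hkey v₀ hv₀)
    rwa [map_sub, map_one] at this
  · have htr : Algebra.trace K⟮x⟯ F w = coordSub x a * ev x c := by
      rw [← hc, ← smul_eq_mul, ← map_smul, Algebra.smul_def,
        show algebraMap K⟮x⟯ F (coordSub x a) = t from coe_coordSub a]
    rw [htr, map_mul, ValuationSubring.mem_nonunits_iff, map_mul]
    exact mul_lt_one_of_lt_of_le C'.val_lt_one ((C'.B.valuation_le_one_iff _).2 (C'.ev_mem c))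

/-- If all places over points outside `S` are unramified, `Q_S y` is regular and vanishes
over `S`. -/
theorem mul_prod_mem_finReg [CharZero K] (hx : Transcendental K x) (S : Finset K)
    (hunr : ∀ a ∉ S, ∀ v : Place K F, 0 < v.ord (x - algebraMap K F a) →
      v.ord (x - algebraMap K F a) = 1)
    {y : F} (hy : ∀ z ∈ finReg K x, ∃ c : K[X], Algebra.trace K⟮x⟯ F (y * z) = ev x c) :
    aeval x (∏ s ∈ S, (X - C s)) * y ∈ finReg K x ∧
      ∀ s ∈ S, ∀ v : Place K F, 0 < v.ord (x - algebraMap K F s) →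
        OrdGe v 1 (aeval x (∏ s ∈ S, (X - C s)) * y) := by
  classical
  have hmain : ∀ v : Place K F, ∀ a : K, 0 < v.ord (x - algebraMap K F a) → a ∈ S →
      OrdGe v 1 (aeval x (∏ s ∈ S, (X - C s)) * y) := fun v a hv ha => by
    have hvx : 0 ≤ v.ord x :=
      ord_nonneg_of_coordSub_pos (x := x) (a := a) (by rwa [coe_coordSub])
    rw [← Finset.mul_prod_erase _ _ ha, map_mul, map_sub, aeval_X, aeval_C]
    have h1 := ordGe_of_trace_poly hx hy a hv
    refine (((ordGe_ord (v := v) _).mul (aeval_mem_finReg x _ v hvx)).mul h1).mono ?_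
    omega
  refine ⟨fun v hv => ?_, fun s hs v hv => hmain v s hv hs⟩
  obtain ⟨a, ha⟩ := exists_value_finite hv
  have hpos := ord_pos_of_value hx ha
  by_cases haS : a ∈ S
  · exact (hmain v a hpos haS).mono zero_le_one
  · have h1 := ordGe_of_trace_poly hx hy a hpos
    rw [hunr a haS v hpos, sub_self] at h1
    have h' := (aeval_mem_finReg x (∏ s ∈ S, (X - C s)) v hv).mul h1
    rwa [zero_add] at h'

end FLTAgent.GoodRed
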