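import Fermat.Agent.GoodRed.TraceLattice
import Fermat.Agent.GoodRed.DualSpace
import Mathlib.RingTheory.Discriminant
import Mathlib.FieldTheory.PrimitiveElement

/-!
# Charts at a general point

Moving a point `c` of the line with nonvanishing discriminant to infinity makes the Gram
determinant of a generator of exact degree.
-/

set_option autoImplicit false
set_option linter.unusedSectionVars false

noncomputable section

open AlgebraicCurve Polynomial
open scoped IntermediateField Matrix

namespace FLTAgent.GoodRed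

open FLTAgent.FunctionField

variable {K F : Type*} [Field K] [Field F] [Algebra K F]

theorem adjoin_inv_sub (x : F) (c : K) : K⟮(x - algebraMap K F c)⁻¹⟯ = K⟮x⟯ := by
  refine le_antisymm (IntermediateField.adjoin_simple_le_iff.2 (inv_mem (sub_mem
    (IntermediateField.mem_adjoin_simple_self K x) (IntermediateField.algebraMap_mem _ c))))
    (IntermediateField.adjoin_simple_le_iff.2 ?_)
  have h := add_mem (inv_mem (IntermediateField.mem_adjoin_simple_self K
    (x - algebraMap K F c)⁻¹)) (IntermediateField.algebraMap_mem K⟮(x - algebraMap K F c)⁻¹⟯ c)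
  rwa [inv_inv, sub_add_cancel] at h

theorem finrank_inv_sub (x : F) (c : K) :
    Module.finrank K⟮(x - algebraMap K F c)⁻¹⟯ F = Module.finrank K⟮x⟯ F := by
  rw [adjoin_inv_sub]

theorem trace_inv_sub (x : F) (c : K) (y : F) :
    (Algebra.trace K⟮(x - algebraMap K F c)⁻¹⟯ F y : F) = (Algebra.trace K⟮x⟯ F y : F) := by
  rw [adjoin_inv_sub]

variable [IsFunctionField K F] [IsAlgClosed K] {x : F}

theorem transcendental_inv_sub (hx : Transcendental K x) (c : K) :
    Transcendental K (x - algebraMap K F c)⁻¹ := by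
  intro h
  refine hx ?_
  have h' := h.inv.add (isAlgebraic_algebraMap c)
  rwa [inv_inv, sub_add_cancel] at h'

theorem ord_sub_of_ord_neg {v : Place K F} (hv : v.ord x < 0) (c : K) :
    v.ord (x - algebraMap K F c) = v.ord x := by
  have h := (ord_aeval_of_ord_neg hv _ (X_sub_C_ne_zero c)).2
  rwa [natDegree_X_sub_C, map_sub, aeval_X, aeval_C, Nat.cast_one, one_mul] at h

theorem inv_sub_mem_finReg (hx : Transcendental K x) {u : F} {m : ℕ} (c : K)
    (hu : u ∈ finReg K x) (hp : PoleLe K x m u) :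
    u * (x - algebraMap K F c)⁻¹ ^ m ∈ finReg K (x - algebraMap K F c)⁻¹ := by
  intro v hv
  rw [v.ord_inv] at hv
  rcases lt_or_ge (v.ord x) 0 with h | h
  · refine ((hp v h).mul (ordGe_ord (v := v) _)).mono ?_
    rw [ord_pow, v.ord_inv, ord_sub_of_ord_neg h]
    nlinarith
  · have h0 : 0 ≤ v.ord (x - algebraMap K F c) := by
      have h1 := (aeval_mem_finReg x (X - C c) v h).le_ord (by
        simpa [sub_eq_zero] using fun h' : x = algebraMap K F c =>
          hx (h' ▸ isAlgebraic_algebraMap c))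
      simpa using h1
    refine ((hu v h).mul (ordGe_ord (v := v) _)).mono ?_
    rw [ord_pow, v.ord_inv, show v.ord (x - algebraMap K F c) = 0 by omega]
    simp

theorem inv_sub_poleLe {u : F} {m : ℕ} (c : K) (hu : u ∈ finReg K x) :
    PoleLe K (x - algebraMap K F c)⁻¹ m (u * (x - algebraMap K F c)⁻¹ ^ m) := by
  intro v hv
  rw [v.ord_inv] at hv
  have h : 0 ≤ v.ord x := by
    by_contra h
    rw [ord_sub_of_ord_neg (not_le.1 h)] at hv
    omega
  refine ((hu v h).mul (ordGe_ord (v := v) _)).mono ?_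
  rw [ord_pow]
  omega

/-- A pole bound. -/
theorem exists_poleLe (x u : F) : ∃ m : ℕ, PoleLe K x m u := by
  classical
  refine ⟨∑ v ∈ (finite_setOf_ord_ne_zero (K := K) u).toFinset, (v.ord u).natAbs, fun v hv => ?_⟩
  refine ordGe_of_le_ord ?_
  set M := ∑ v ∈ (finite_setOf_ord_ne_zero (K := K) u).toFinset, (v.ord u).natAbs
  have h1 : (v.ord u).natAbs ≤ M := by
    by_cases hu : v.ord u = 0
    · simp [hu]
    · exact Finset.single_le_sum (f := fun w : Place K F => (w.ord u).natAbs)
        (fun _ _ => Nat.zero_le _) ((finite_setOf_ord_ne_zero (K := K) u).mem_toFinset.2 hu)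
  have h2 : (M : ℤ) * v.ord x ≤ (M : ℤ) * (-1) :=
    mul_le_mul_of_nonneg_left (by omega) (Int.natCast_nonneg _)
  omega

variable [FiniteDimensional K⟮x⟯ F] {n m : ℕ}

theorem exists_gram (hx : Transcendental K x) {u : F} (hu : u ∈ finReg K x) (n : ℕ) :
    ∃ G : Matrix (Fin n) (Fin n) K[X],
      ∀ i j : Fin n, Algebra.trace K⟮x⟯ F (u ^ (i : ℕ) * u ^ (j : ℕ)) = ev x (G i j) := by
  choose G hG using fun i j : Fin n =>
    exists_trace_eq_ev hx (mul_mem_finReg (pow_mem_finReg hu (i : ℕ)) (pow_mem_finReg hu (j : ℕ)))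
  exact ⟨G, hG⟩

theorem pdeg_gram_det (hx : Transcendental K x) {u : F} (hp : PoleLe K x m u)
    {G : Matrix (Fin n) (Fin n) K[X]}
    (hG : ∀ i j : Fin n, Algebra.trace K⟮x⟯ F (u ^ (i : ℕ) * u ^ (j : ℕ)) = ev x (G i j)) :
    PDeg G.det (gramDeg n m) := by
  refine (pdeg_det (α := fun i : Fin n => ((i : ℕ) : ℤ) * m) (β := fun i => ((i : ℕ) : ℤ) * m)
    fun i j => pdeg_trace hx (by positivity) (hG i j) ((hp.pow _).mul (hp.pow _))).mono
    (le_of_eq ?_)
  rw [← sum_weights]
  ring

/-- The Gram determinant after moving `c` to infinity. -/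
theorem coeff_gram_det_inv_sub (hx : Transcendental K x) {u : F} (c : K)
    [FiniteDimensional K⟮(x - algebraMap K F c)⁻¹⟯ F]
    (hp : PoleLe K (x - algebraMap K F c)⁻¹ m (u * (x - algebraMap K F c)⁻¹ ^ m))
    {G G' : Matrix (Fin n) (Fin n) K[X]}
    (hG : ∀ i j : Fin n, Algebra.trace K⟮x⟯ F (u ^ (i : ℕ) * u ^ (j : ℕ)) = ev x (G i j))
    (hG' : ∀ i j : Fin n, Algebra.trace K⟮(x - algebraMap K F c)⁻¹⟯ F
      ((u * (x - algebraMap K F c)⁻¹ ^ m) ^ (i : ℕ) * (u * (x - algebraMap K F c)⁻¹ ^ m) ^ (j : ℕ))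
        = ev (x - algebraMap K F c)⁻¹ (G' i j)) :
    G'.det.coeff (gramDeg n m) = G.det.eval c := by
  classical
  set t := (x - algebraMap K F c)⁻¹ with ht
  have ht0 : t ≠ 0 := inv_ne_zero (sub_algebraMap_ne_zero hx c)
  have hGt : ∀ i j : Fin n, aeval t (G' i j) =
      t ^ ((i : ℕ) * m) * aeval x (G i j) * t ^ ((j : ℕ) * m) := by
    intro i j
    have hmem : t ^ ((i : ℕ) * m + (j : ℕ) * m) ∈ K⟮x⟯ :=
      pow_mem (inv_mem (sub_mem (IntermediateField.mem_adjoin_simple_self K x)
        (IntermediateField.algebraMap_mem _ c))) _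
    have h := congrArg (fun e : K⟮t⟯ => (e : F)) (hG' i j)
    simp only [coe_ev] at h
    rw [← h, trace_inv_sub x c, show (u * t ^ m) ^ (i : ℕ) * (u * t ^ m) ^ (j : ℕ) =
      (⟨_, hmem⟩ : K⟮x⟯) • (u ^ (i : ℕ) * u ^ (j : ℕ)) by
        rw [Algebra.smul_def]
        show _ = t ^ ((i : ℕ) * m + (j : ℕ) * m) * _
        rw [mul_pow, mul_pow, ← pow_mul, ← pow_mul, mul_comm m, mul_comm m, pow_add]
        ring,
      map_smul, hG, smul_eq_mul, IntermediateField.coe_mul, coe_ev]
    show t ^ ((i : ℕ) * m + (j : ℕ) * m) * _ = _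
    rw [pow_add]; ring
  have hdet : aeval t G'.det = t ^ gramDeg n m * aeval x G.det := by
    have hmat : G'.map (aeval t : K[X] →ₐ[K] F) =
        Matrix.diagonal (fun i : Fin n => t ^ ((i : ℕ) * m)) *
          G.map (aeval x : K[X] →ₐ[K] F) * Matrix.diagonal fun i : Fin n => t ^ ((i : ℕ) * m) := by
      ext i j
      rw [Matrix.mul_diagonal, Matrix.diagonal_mul, Matrix.map_apply, Matrix.map_apply]
      exact hGt i j
    rw [AlgHom.map_det, AlgHom.map_det, AlgHom.mapMatrix_apply, AlgHom.mapMatrix_apply, hmat,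
      Matrix.det_mul, Matrix.det_mul, Matrix.det_diagonal, Finset.prod_pow_eq_pow_sum]
    rw [mul_comm (t ^ _) (Matrix.det _), mul_assoc, ← pow_add, mul_comm]
    congr 2
    have h2 := sum_weights n m
    exact_mod_cast (show ((∑ i : Fin n, (i : ℕ) * m : ℕ) : ℤ) + (∑ i : Fin n, (i : ℕ) * m : ℕ) =
      gramDeg n m by push_cast at h2 ⊢; linarith)
  have hle : G'.det.natDegree ≤ gramDeg n m := by
    rw [natDegree_le_iff_coeff_eq_zero]
    exact fun i hi => pdeg_gram_det (transcendental_inv_sub hx c) hp hG' i (by exact_mod_cast hi)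
  let : Invertible t := invertibleOfNonzero ht0
  have h1 := eval₂_reflect_mul_pow (algebraMap K F) t (gramDeg n m) G'.det hle
  rw [← aeval_def, ← aeval_def, hdet, invOf_eq_inv, ht, inv_inv, ← ht,
    mul_comm (t ^ _) (aeval x _)] at h1
  have h2 := mul_right_cancel₀ (pow_ne_zero _ ht0) h1
  have h3 : reflect (gramDeg n m) G'.det = G.det.comp (X + C c) := by
    have htr : Transcendental K (x - algebraMap K F c) := fun h =>
      hx (by simpa using h.add (isAlgebraic_algebraMap c))
    refine sub_eq_zero.1 (transcendental_iff.1 htr _ ?_)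
    rw [map_sub, h2, aeval_comp, map_add, aeval_X, aeval_C, sub_add_cancel, sub_self]
  have h4 := congrArg (fun p : K[X] => p.coeff 0) h3
  simp only [coeff_reflect] at h4
  rwa [revAt_le (Nat.zero_le _), Nat.sub_zero, coeff_zero_eq_eval_zero (G.det.comp _), eval_comp,
    eval_add, eval_X, eval_C, zero_add] at h4

/-- A separable generator has nonzero Gram determinant. -/
theorem gram_det_ne_zero [Algebra.IsSeparable K⟮x⟯ F] {u : F}
    (hu : IntermediateField.adjoin K⟮x⟯ {u} = ⊤) (hn : Module.finrank K⟮x⟯ F = n)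
    {G : Matrix (Fin n) (Fin n) K[X]}
    (hG : ∀ i j : Fin n, Algebra.trace K⟮x⟯ F (u ^ (i : ℕ) * u ^ (j : ℕ)) = ev x (G i j)) :
    G.det ≠ 0 := by
  classical
  have hd : (minpoly K⟮x⟯ u).natDegree = n := by
    rw [← IntermediateField.adjoin.finrank (Algebra.IsIntegral.isIntegral u), hu,
      IntermediateField.finrank_top', hn]
  have hli : LinearIndependent K⟮x⟯ fun i : Fin n => u ^ (i : ℕ) := by
    subst hd
    exact linearIndependent_pow u
  have hne : Nonempty (Fin n) := ⟨⟨0, hn ▸ Module.finrank_pos⟩⟩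
  set b := basisOfLinearIndependentOfCardEqFinrank hli (by rw [Fintype.card_fin, hn])
  intro h0
  have hdisc := Algebra.discr_not_zero_of_basis K⟮x⟯ b
  rw [Algebra.discr_def] at hdisc
  refine hdisc ?_
  have hmat : Algebra.traceMatrix K⟮x⟯ b = (ev x).toRingHom.mapMatrix G := by
    ext i j
    simp only [Algebra.traceMatrix, Matrix.of_apply, Algebra.traceForm_apply, b,
      coe_basisOfLinearIndependentOfCardEqFinrank, RingHom.mapMatrix_apply, Matrix.map_apply]
    exact congrArg Subtype.val (hG i j)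
  rw [hmat, ← RingHom.map_det, h0, map_zero]

end FLTAgent.GoodRed
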