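import Fermat.Agent.GoodRed.NumCompare
import Fermat.Agent.GoodRed.Mobius
import Fermat.Agent.FunctionField.RiemannRoch

/-!
# Equality of genus under good reduction

If a coordinate keeps its degree under reduction, the residue extension is separable, and `F` is
unramified over all finite points outside a finite set with distinct reductions, then `F` and the
residue field have the same genus.
-/

set_option autoImplicit false
set_option linter.unusedSectionVars false

noncomputable section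

open AlgebraicCurve Polynomial
open scoped IntermediateField

namespace FLTAgent.GoodRed

open FLTAgent.FunctionField RedDatum

variable {L k : Type*} [Field L] [Field k] {A : ValuationSubring L} {π : A →+* k}
  {F Fb : Type*} [Field F] [Algebra L F] [Field Fb] [Algebra k Fb]
  [IsFunctionField L F] [IsFunctionField k Fb] [IsAlgClosed L] [IsAlgClosed k]
  {D : RedDatum A π F Fb} {x : F} {xb : Fb}

/-- A linear form over `A`, primitive, vanishing at `b`. -/
theorem exists_primitive_linear (hπ : IsResidueMap A π) (b : L) :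
    ∃ l : A[X], l.map π ≠ 0 ∧ (l.map A.subtype).IsRoot b := by
  by_cases hb : b ∈ A
  · refine ⟨X - C ⟨b, hb⟩, ?_, ?_⟩
    · rw [Polynomial.map_sub, map_X, map_C]; exact X_sub_C_ne_zero _
    · simp [IsRoot]
  · have hb' : b⁻¹ ∈ A := (A.mem_or_inv_mem b).resolve_left hb
    have hb0 : b ≠ 0 := fun h => hb (h ▸ zero_mem _)
    refine ⟨C ⟨b⁻¹, hb'⟩ * X - 1, fun h => ?_, ?_⟩
    · have := congrArg (fun p : k[X] => p.coeff 0) h
      simp at this
    · simp [IsRoot, inv_mul_cancel₀ hb0]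

/-- Clearing the finite poles by a primitive polynomial. -/
theorem exists_mul_mem_finReg (D : RedDatum A π F Fb) {y : F} [FiniteDimensional L⟮x⟯ F]
    (hxt : Transcendental L x) :
    ∃ q : A[X], q.map π ≠ 0 ∧ aeval x (q.map A.subtype) * y ∈ finReg L x := by
  classical
  rcases eq_or_ne y 0 with rfl | hy0
  · exact ⟨1, by simp, by rw [mul_zero]; exact zero_mem _⟩
  set P : Finset (Place L F) :=
    (finite_setOf_ord_ne_zero (K := L) y).toFinset.filter fun v => 0 ≤ v.ord x ∧ v.ord y < 0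
  choose b hb using fun v : {v // v ∈ P} =>
    exists_value_finite (x := x) (Finset.mem_filter.1 v.2).2.1
  choose l hl hlr using fun v => exists_primitive_linear D.isResidue (b v)
  refine ⟨∏ v ∈ P.attach, l v ^ (-v.1.ord y).toNat, ?_, fun v hv => ?_⟩
  · rw [Polynomial.map_prod, Finset.prod_ne_zero_iff]
    exact fun v _ => by rw [Polynomial.map_pow]; exact pow_ne_zero _ (hl v)
  by_cases hvy : 0 ≤ v.ord y
  · have h := (aeval_mem_finReg x ((∏ v ∈ P.attach, l v ^ (-v.1.ord y).toNat).map A.subtype) v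
      hv).mul (ordGe_of_le_ord (v := v) (f := y) hvy)
    rwa [zero_add] at h
  have hvP : v ∈ P := Finset.mem_filter.2 ⟨(finite_setOf_ord_ne_zero (K := L) y).mem_toFinset.2
    (show v.ord y ≠ 0 by omega), hv, by omega⟩
  obtain ⟨r, hr⟩ := dvd_iff_isRoot.2 (hlr ⟨v, hvP⟩)
  obtain ⟨rest, hrest⟩ : (X - C (b ⟨v, hvP⟩)) ^ (-v.ord y).toNat ∣
      (∏ w ∈ P.attach, l w ^ (-w.1.ord y).toNat).map A.subtype := by
    rw [Polynomial.map_prod]
    refine dvd_trans ?_ (Finset.dvd_prod_of_mem _ (Finset.mem_attach P ⟨v, hvP⟩))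
    rw [Polynomial.map_pow]
    exact pow_dvd_pow_of_dvd ⟨r, hr⟩ _
  rw [hrest, map_mul, map_pow, map_sub, aeval_X, aeval_C]
  have h2 : OrdGe v (-v.ord y) ((x - algebraMap L F (b ⟨v, hvP⟩)) ^ (-v.ord y).toNat) := by
    refine ordGe_of_le_ord ?_
    rw [ord_pow]
    have h1 := ord_pos_of_value hxt (hb ⟨v, hvP⟩)
    have h3 : ((-v.ord y).toNat : ℤ) = -v.ord y := Int.toNat_of_nonneg (by omega)
    rw [h3]
    nlinarith
  have h := (h2.mul (aeval_mem_finReg x rest v hv)).mul (ordGe_ord (v := v) y)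
  simpa using h

/-- Charts reducing into each other. -/
theorem exists_charts [FiniteDimensional L⟮x⟯ F] [FiniteDimensional k⟮xb⟯ Fb]
    [Algebra.IsSeparable k⟮xb⟯ Fb] [DecidableEq k] (hx : D.Red x xb) (hxb : Transcendental k xb)
    (hd : NoDefect L⟮x⟯ k⟮xb⟯ F Fb) (S : Finset A) :
    ∃ (c : A) (m n : ℕ)
      (_ : FiniteDimensional L⟮(x - algebraMap L F c)⁻¹⟯ F)
      (_ : FiniteDimensional k⟮(xb - algebraMap k Fb (π c))⁻¹⟯ Fb)
      (H : Chart L (x - algebraMap L F c)⁻¹ n m)
      (Hb : Chart k (xb - algebraMap k Fb (π c))⁻¹ n m),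
      D.Red H.u Hb.u ∧ π c ∉ S.image π := by
  classical
  have hxt := transcendental_of_red hx hxb
  obtain ⟨θ, hθ⟩ := Field.exists_primitive_element k⟮xb⟯ Fb
  obtain ⟨y, hy⟩ := D.exists_lift θ
  obtain ⟨q, hq, hqy⟩ := exists_mul_mem_finReg (x := x) (y := y) D hxt
  set u := aeval x (q.map A.subtype) * y
  set ub := aeval xb (q.map π) * θ
  have hu : D.Red u ub := (red_aeval hx q).mul hy
  have hub : ub ∈ finReg k xb := red_mem_finReg hx hxb hd hu hqy
  have hgen : IntermediateField.adjoin k⟮xb⟯ {ub} = ⊤ := by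
    refine top_le_iff.1 (hθ ▸ IntermediateField.adjoin_simple_le_iff.2 ?_)
    have hq0 : aeval xb (q.map π) ≠ 0 := fun h => hq (transcendental_iff.1 hxb _ h)
    have hmem : ((ev xb (q.map π) : k⟮xb⟯) : Fb)⁻¹ * ub ∈ IntermediateField.adjoin k⟮xb⟯ {ub} :=
      mul_mem (inv_mem (IntermediateField.algebraMap_mem _ (ev xb (q.map π))))
        (IntermediateField.mem_adjoin_simple_self _ _)
    rwa [coe_ev, ← mul_assoc, inv_mul_cancel₀ hq0, one_mul] at hmem
  obtain ⟨G₀, hG₀⟩ := exists_gram hxb hub (Module.finrank k⟮xb⟯ Fb)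
  have hG₀0 : G₀.det ≠ 0 := gram_det_ne_zero hgen rfl hG₀
  obtain ⟨cb, hcb⟩ := Infinite.exists_notMem_finset (S.image π ∪ G₀.det.roots.toFinset)
  rw [Finset.mem_union, not_or, Multiset.mem_toFinset, mem_roots hG₀0] at hcb
  obtain ⟨c, rfl⟩ := D.isResidue.surj cb
  obtain ⟨m₁, hm₁⟩ := exists_poleLe (K := L) x u
  obtain ⟨m₂, hm₂⟩ := exists_poleLe (K := k) xb ub
  have hp : PoleLe L x (max m₁ m₂ : ℕ) u := hm₁.mono (by omega)
  have hpb : PoleLe k xb (max m₁ m₂ : ℕ) ub := hm₂.mono (by omega)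
  set m := max m₁ m₂
  set t := (x - algebraMap L F c)⁻¹
  set tb := (xb - algebraMap k Fb (π c))⁻¹
  have htr : D.Red (x - algebraMap L F c) (xb - algebraMap k Fb (π c)) :=
    hx.sub (red_algebraMap c)
  have hne : xb - algebraMap k Fb (π c) ≠ 0 := fun h =>
    hxb (by rw [sub_eq_zero.1 h]; exact isAlgebraic_algebraMap _)
  have ht : D.Red t tb := htr.inv hne
  have htbt : Transcendental k tb := transcendental_inv_sub hxb _
  have : FiniteDimensional L⟮t⟯ F :=
    finiteDimensional_adjoin_of_transcendental (transcendental_inv_sub hxt _)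
  have : FiniteDimensional k⟮tb⟯ Fb := finiteDimensional_adjoin_of_transcendental htbt
  have hd' : NoDefect L⟮t⟯ k⟮tb⟯ F Fb := by
    unfold NoDefect at hd ⊢
    rw [finrank_inv_sub, finrank_inv_sub, hd]
  have hu' : D.Red (u * t ^ m) (ub * tb ^ m) := hu.mul (ht.pow m)
  have hreg := inv_sub_mem_finReg hxt (c : L) hqy hp
  have hregb := inv_sub_mem_finReg hxb (π c) hub hpb
  obtain ⟨G, hG⟩ := exists_gram (transcendental_inv_sub hxt _) hreg (Module.finrank k⟮xb⟯ Fb)
  obtain ⟨Gb, hGb⟩ := exists_gram htbt hregb (Module.finrank k⟮xb⟯ Fb)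
  have hdetb : Gb.det.coeff (gramDeg (Module.finrank k⟮xb⟯ Fb) m) ≠ 0 := by
    rw [coeff_gram_det_inv_sub hxb (π c) (inv_sub_poleLe (π c) hub) hG₀ hGb]
    exact hcb.2
  choose GA hGA using fun i j => exists_lift_poly (p := G i j) (pb := Gb i j) ht htbt (by
    have h := (compat_lineDatum ht htbt).red_trace hd'
      ((hu'.pow (i : ℕ)).mul (hu'.pow (j : ℕ)))
    rw [hG, hGb, lineDatum_red_iff, coe_ev, coe_ev] at h
    exact h)
  have hdet : G.det.coeff (gramDeg (Module.finrank k⟮xb⟯ Fb) m) ≠ 0 := by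
    intro h
    refine hdetb ?_
    have h1 : (Matrix.of GA).det.map A.subtype = G.det := by
      rw [← coe_mapRingHom, RingHom.map_det, RingHom.mapMatrix_apply]
      congr 1
      exact Matrix.ext fun i j => (hGA i j).1
    have h2 : (Matrix.of GA).det.map π = Gb.det := by
      rw [← coe_mapRingHom, RingHom.map_det, RingHom.mapMatrix_apply]
      congr 1
      exact Matrix.ext fun i j => (hGA i j).2
    rw [← h2, coeff_map, show (Matrix.of GA).det.coeff (gramDeg (Module.finrank k⟮xb⟯ Fb) m) = 0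
      from Subtype.ext (by rw [← h1, coeff_map] at h; exact h), map_zero]
  refine ⟨c, m, Module.finrank k⟮xb⟯ Fb, ‹_›, ‹_›,
    ⟨transcendental_inv_sub hxt _, ?_, u * t ^ m, hreg, inv_sub_poleLe (c : L) hqy, G, hG, hdet⟩,
    ⟨htbt, ?_, ub * tb ^ m, hregb, inv_sub_poleLe (π c) hub, Gb, hGb, hdetb⟩, hu', hcb.1⟩
  · rw [finrank_inv_sub]; exact hd.symm
  · rw [finrank_inv_sub]

/-- Unramifiedness in the new coordinate. -/
theorem ord_inv_sub_sub (hxt : Transcendental L x) {c a' : L} (ha' : a' ≠ 0) {v : Place L F}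
    (hv : 0 < v.ord ((x - algebraMap L F c)⁻¹ - algebraMap L F a')) :
    0 < v.ord (x - algebraMap L F (c + a'⁻¹)) ∧
      v.ord ((x - algebraMap L F c)⁻¹ - algebraMap L F a') =
        v.ord (x - algebraMap L F (c + a'⁻¹)) := by
  have hne : ∀ a : L, x - algebraMap L F a ≠ 0 := fun a h =>
    hxt (by rw [sub_eq_zero.1 h]; exact isAlgebraic_algebraMap a)
  set t := (x - algebraMap L F c)⁻¹ with ht
  have hfac : t - algebraMap L F a' =
      algebraMap L F (-a') * (x - algebraMap L F (c + a'⁻¹)) * t := by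
    have h0 : algebraMap L F a' ≠ 0 := by simpa using ha'
    rw [ht, map_add, map_neg, map_inv₀]
    field_simp [hne c]
    ring
  have htc : algebraMap L F (-a') ≠ 0 := by simpa using ha'
  have h1 : OrdGe v 1 (t - algebraMap L F a') := ordGe_of_le_ord (by omega)
  have h2 := ord_eq_of_ordGe_sub (v := v) (f := t) (g := algebraMap L F a') (n := 1) h1
    (by simpa using ha') (by rw [ord_algebraMap]; omega)
  have hord : v.ord (t - algebraMap L F a') = v.ord (x - algebraMap L F (c + a'⁻¹)) := by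
    rw [hfac, v.ord_mul (mul_ne_zero htc (hne _)) (inv_ne_zero (hne c)),
      v.ord_mul htc (hne _), ord_algebraMap, h2.2, ord_algebraMap]
    ring
  exact ⟨hord ▸ hv, hord⟩

theorem finrank_rr_eq_add (K : Type*) {E : Type*} [Field K] [IsAlgClosed K] [Field E] [Algebra K E]
    [IsFunctionField K E] (W : Divisor K E) (hW : Module.finrank K (H1 W) = 0) :
    (Module.finrank K (riemannRochSpace W) : ℤ) = Divisor.degree W + 1 - genusFF K E := by
  have h := riemann_roch_isAlgClosed W
  rw [ell, hW] at h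
  simpa using h

/-- **Equality of genus under good reduction.** -/
theorem genusFF_eq_of_coordinate [CharZero L] (hx : D.Red x xb) (hxb : Transcendental k xb)
    (hd : NoDefect L⟮x⟯ k⟮xb⟯ F Fb) (hsep : Algebra.IsSeparable k⟮xb⟯ Fb)
    (S : Finset A) (hS : Set.InjOn π S)
    (hunr : ∀ a : L, (∀ s ∈ S, (s : L) ≠ a) → ∀ v : Place L F,
      0 < v.ord (x - algebraMap L F a) → v.ord (x - algebraMap L F a) = 1) :
    genusFF L F = genusFF k Fb := by
  classical
  have hxt := transcendental_of_red hx hxb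
  let := hsep
  have := finiteDimensional_adjoin_of_transcendental hxt
  have := finiteDimensional_adjoin_of_transcendental hxb
  obtain ⟨c, m, n, hcharts⟩ := exists_charts hx hxb hd S
  set t := (x - algebraMap L F c)⁻¹
  set tb := (xb - algebraMap k Fb (π c))⁻¹
  obtain ⟨i1, i2, H, Hb, hu, hc⟩ := hcharts
  have hne : xb - algebraMap k Fb (π c) ≠ 0 := fun h =>
    hxb (by rw [sub_eq_zero.1 h]; exact isAlgebraic_algebraMap _)
  have ht : D.Red t tb := (hx.sub (red_algebraMap c)).inv hne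
  have hd' : NoDefect L⟮t⟯ k⟮tb⟯ F Fb := by
    show Module.finrank _ _ = _
    rw [Hb.finrank_eq, H.finrank_eq]
  -- the exceptional set in the new coordinate
  have hsc : ∀ s ∈ S, π (s - c) ≠ 0 := fun s hs h =>
    hc (Finset.mem_image.2 ⟨s, hs, by rwa [map_sub, sub_eq_zero] at h⟩)
  set S' : Finset A := insert 0 (S.attach.image fun s =>
    (⟨_, D.isResidue.inv_mem (hsc s.1 s.2)⟩ : A))
  have hπinv : ∀ s : {s // s ∈ S}, π ⟨_, D.isResidue.inv_mem (hsc s.1 s.2)⟩ = (π (s.1 - c))⁻¹ := by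
    intro s
    refine eq_inv_of_mul_eq_one_left ?_
    rw [← map_mul, ← map_one π]
    congr 1
    refine Subtype.ext (inv_mul_cancel₀ fun h0 => hsc s.1 s.2 ?_)
    rw [show s.1 - c = 0 from Subtype.ext h0, map_zero]
  have hS' : Set.InjOn π S' := by
    intro a ha b hb hab
    simp only [S', Finset.coe_insert, Set.mem_insert_iff, Finset.coe_image, Set.mem_image] at ha hb
    rcases ha with rfl | ⟨s, -, rfl⟩ <;> rcases hb with rfl | ⟨s', -, rfl⟩
    · rfl
    · rw [map_zero, hπinv] at hab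
      exact absurd hab.symm (inv_ne_zero (hsc s'.1 s'.2))
    · rw [map_zero, hπinv] at hab
      exact absurd hab (inv_ne_zero (hsc s.1 s.2))
    · rw [hπinv, hπinv, inv_inj, map_sub, map_sub, sub_left_inj] at hab
      obtain rfl : s = s' := Subtype.ext (hS s.2 s'.2 hab)
      rfl
  have hunr' : ∀ a' : L, (∀ s ∈ S', (s : L) ≠ a') → ∀ v : Place L F,
      0 < v.ord (t - algebraMap L F a') → v.ord (t - algebraMap L F a') = 1 := by
    intro a' ha' v hv
    have ha0 : a' ≠ 0 := fun h => ha' 0 (Finset.mem_insert_self _ _) h.symm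
    obtain ⟨h1, h2⟩ := ord_inv_sub_sub hxt ha0 hv
    rw [h2]
    refine hunr _ (fun s hs hsa => ha' _ (Finset.mem_insert_of_mem (Finset.mem_image.2
      ⟨⟨s, hs⟩, Finset.mem_attach _ _, rfl⟩)) ?_) v h1
    show ((s - c : A) : L)⁻¹ = a'
    rw [AddSubgroupClass.coe_sub, hsa, add_sub_cancel_left, inv_inv]
  have hnum := Chart.finrank_num_eq H Hb ht hd' hu S' hS' hunr'
  -- Riemann-Roch in large degree
  obtain ⟨d₁, hd₁⟩ := exists_forall_finrank_H1_eq_zero (K := L) (F := F)
  obtain ⟨d₂, hd₂⟩ := exists_forall_finrank_H1_eq_zero (K := k) (F := Fb)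
  obtain ⟨s, hs⟩ : ∃ s : ℕ, (n - 1) * m ≤ s ∧ d₁ ≤ (s : ℤ) ∧ d₂ ≤ (s : ℤ) :=
    ⟨(n - 1) * m + d₁.toNat + d₂.toNat, by omega, by omega, by omega⟩
  have hn : 0 < n := H.finrank_eq ▸ Module.finrank_pos
  have hT : Divisor.degree (s • zeroDivisor (K := L) t⁻¹) = s * n := by
    have h := degree_divisorOf (K := L) t
    rw [← zeroDivisor_sub_zeroDivisor_inv, map_sub, degree_zeroDivisor H.transcendental,
      H.finrank_eq, sub_eq_zero] at h
    rw [map_nsmul, ← h, nsmul_eq_mul]
  have hTb : Divisor.degree (s • zeroDivisor (K := k) tb⁻¹) = s * n := by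
    have h := degree_divisorOf (K := k) tb
    rw [← zeroDivisor_sub_zeroDivisor_inv, map_sub, degree_zeroDivisor Hb.transcendental,
      Hb.finrank_eq, sub_eq_zero] at h
    rw [map_nsmul, ← h, nsmul_eq_mul]
  have hsn : (s : ℤ) ≤ (s : ℤ) * n := by
    have : (1 : ℤ) ≤ n := by exact_mod_cast hn
    nlinarith
  have h1 := finrank_rr_eq_add L _ (hd₁ (s • zeroDivisor (K := L) t⁻¹) (by rw [hT]; omega))
  have h2 := finrank_rr_eq_add k _ (hd₂ (s • zeroDivisor (K := k) tb⁻¹) (by rw [hTb]; omega))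
  rw [H.finrank_rr hs.1, hT] at h1
  rw [Hb.finrank_rr hs.1, hTb] at h2
  rw [hnum] at h1
  omega

/-- Equal genus gives the Riemann-Roch equality in large degree with one genus. -/
theorem exists_rrLarge_of_genus_eq (h : genusFF L F = genusFF k Fb) :
    ∃ g c, RRLarge L F g c ∧ RRLarge k Fb g c := by
  obtain ⟨d₁, hd₁⟩ := exists_forall_finrank_H1_eq_zero (K := L) (F := F)
  obtain ⟨d₂, hd₂⟩ := exists_forall_finrank_H1_eq_zero (K := k) (F := Fb)
  refine ⟨genusFF L F, max d₁ d₂, fun W hW => ?_, fun W hW => ?_⟩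
  · exact finrank_rr_eq_add L W (hd₁ W (by omega))
  · rw [h]; exact finrank_rr_eq_add k W (hd₂ W (by omega))

end FLTAgent.GoodRed
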