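import Fermat.Agent.GoodRed.X0Field
import Fermat.Agent.GoodRed.Genus
import Fermat.Agent.Genus.Places
import Fermat.Agent.Genus.FieldBasic
import Fermat.Agent.ModPoly.Generation
import Mathlib.Analysis.Complex.Polynomial.Basic

/-!
# Good reduction of the function field of level `M` at `l ≥ 5`, `l ∤ M`
-/

set_option autoImplicit false
set_option linter.unusedSectionVars false
set_option synthInstance.maxHeartbeats 100000

noncomputable section

open Polynomial ModularCurve IsLocalRing AlgebraicCurve
open scoped IntermediateField

namespace FLTAgent.GoodRed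

open FLTAgent.FunctionField

local notation "Qbar" => AlgebraicClosure ℚ

theorem ord_eq_one_of_eq_modularC {M : ℕ} [NeZero M]
    {E : IntermediateField Qbar (LaurentSeries Qbar)} (hE : E = modularFunctionFieldC Qbar M)
    (x : E) (hx : (x : LaurentSeries Qbar) = jqModC Qbar) {a : Qbar} (h0 : a ≠ 0) (h1 : a ≠ 1728)
    (v : Place Qbar E) (hv : 0 < v.ord (x - algebraMap Qbar E a)) :
    v.ord (x - algebraMap Qbar E a) = 1 := by
  subst hE
  have he : x = Genus.jEl Qbar M := Subtype.ext hx
  subst he
  have : Algebra.IsAlgebraic ℚ Qbar := AlgebraicClosure.isAlgebraic ℚ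
  exact Genus.ord_eq_one_of_ne
    (IsAlgClosed.lift (R := ℚ) (S := Qbar) (M := ℂ)).toRingHom h0 h1 hv

theorem isFunctionField_bar' (M : ℕ) [NeZero M] :
    IsFunctionField Qbar (modularFunctionFieldBar M) := by
  rw [ModPoly.modularFunctionFieldBar_eq M]
  exact Genus.isFunctionField_modularFunctionFieldC

instance instIsFunctionFieldBar (M : ℕ) [NeZero M] :
    IsFunctionField Qbar (modularFunctionFieldBar M) :=
  isFunctionField_bar' M

variable (A : ValuationSubring (AlgebraicClosure ℚ)) {l : ℕ} [Fact l.Prime]
  (hA : A.LiesOverPrime l) (M : ℕ) [NeZero M] (hlM : ¬ l ∣ M)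

include hA hlM in
/-- Equality of genus at `l ≥ 5`. -/
theorem genusFF_eq_x0_of_five_le (hl : 5 ≤ l) :
    genusFF Qbar (modularFunctionFieldBar M) =
      genusFF (ResidueField A) (modularFunctionFieldFullC (ResidueField A) M) := by
  classical
  have := isFunctionField_bar A hA M hlM
  have := isFunctionField_fullC A hA M hlM
  have := isAlgClosed_residue A
  refine genusFF_eq_of_coordinate (D := x0Datum A hA M hlM) (red_x0J A hA M hlM)
    (transcendental_x0Jb A hA M hlM) (noDefect_x0J A hA M hlM) (isSeparable_x0Jb A hA M hlM)
    {0, 1728} ?_ ?_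
  · have h1728 : (1728 : ResidueField A) ≠ 0 := by
      have h : ¬ l ∣ 1728 := fun h => by
        have h2 : l ∣ 2 ∨ l ∣ 3 := by
          rw [show 1728 = 2 ^ 6 * 3 ^ 3 by norm_num] at h
          rcases (Fact.out : l.Prime).dvd_mul.1 h with h | h
          · exact Or.inl ((Fact.out : l.Prime).dvd_of_dvd_pow h)
          · exact Or.inr ((Fact.out : l.Prime).dvd_of_dvd_pow h)
        rcases h2 with h2 | h2
        · have := Nat.le_of_dvd (by norm_num) h2; omega
        · have := Nat.le_of_dvd (by norm_num) h2; omega
      have := natCast_residue_ne_zero hA h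
      exact_mod_cast this
    intro a ha b hb hab
    simp only [Finset.coe_insert, Finset.coe_singleton, Set.mem_insert_iff,
      Set.mem_singleton_iff] at ha hb
    rcases ha with rfl | rfl <;> rcases hb with rfl | rfl <;>
      simp only [map_zero, map_ofNat] at hab <;>
      first
        | rfl
        | exact absurd hab h1728
        | exact absurd hab.symm h1728
  · intro a ha v hv
    refine ord_eq_one_of_eq_modularC (ModPoly.modularFunctionFieldBar_eq M) _
      (coe_x0J A hA M hlM) ?_ ?_ v hv
    · exact fun h => ha 0 (by simp) (by simp [h])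
    · exact fun h => ha 1728 (by simp) (by rw [h]; exact map_ofNat A.subtype 1728)

include hA hlM in
/-- Equal genus gives Riemann-Roch in large degree on both fibres and a reduction of places. -/
theorem exists_placeRed_x0_of_genus_eq
    [IsFunctionField (ResidueField A) (modularFunctionFieldFullC (ResidueField A) M)]
    (h : genusFF Qbar (modularFunctionFieldBar M) =
      genusFF (ResidueField A) (modularFunctionFieldFullC (ResidueField A) M)) :
    (∃ g c, RRLarge Qbar (modularFunctionFieldBar M) g c ∧
      RRLarge (ResidueField A) (modularFunctionFieldFullC (ResidueField A) M) g c) ∧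
      Nonempty (PlaceRed (x0Datum A hA M hlM)) := by
  have := isAlgClosed_residue A
  obtain ⟨g, c, hL, hk⟩ := exists_rrLarge_of_genus_eq h
  exact ⟨⟨g, c, hL, hk⟩, exists_placeRed hL hk⟩

end FLTAgent.GoodRed
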