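import Fermat.Agent.GoodRed.Series
import Fermat.Agent.Reduction.Rational
import Fermat.Agent.Reduction.RootLift
import Fermat.Agent.WeilPairing.FrobeniusTrace
import Fermat.Agent.Igusa.PrimeEquation

/-!
# Places of the algebraic numbers above a prime
-/

set_option autoImplicit false

noncomputable section

open IsLocalRing Polynomial

namespace FLTAgent.GoodRed

local notation "Qbar" => AlgebraicClosure ℚ

variable {A : ValuationSubring (AlgebraicClosure ℚ)} {l : ℕ}

theorem isResidueMap_residue {L : Type*} [Field L] (A : ValuationSubring L) :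
    IsResidueMap A (residue A) :=
  ⟨residue_surjective, fun a => by
    rw [residue_eq_zero_iff, ← ValuationSubring.coe_mem_nonunits_iff]⟩

/-- Some power of the value of a nonzero algebraic number is a power of the value of `l`. -/
theorem exists_pow_value_eq_zpow (hA : A.LiesOverPrime l) (hl : l.Prime) {c : Qbar} (hc : c ≠ 0) :
    ∃ (d : ℕ) (e : ℤ), 0 < d ∧ A.valuation c ^ d = A.valuation (l : Qbar) ^ e := by
  classical
  have : Algebra.IsAlgebraic ℚ Qbar := AlgebraicClosure.isAlgebraic ℚ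
  have hint : IsIntegral ℚ c := (Algebra.IsAlgebraic.isAlgebraic c).isIntegral
  set P := minpoly ℚ c
  set S := P.support
  have hsum : ∑ i ∈ S, algebraMap ℚ Qbar (P.coeff i) * c ^ i = 0 := by
    have h := minpoly.aeval ℚ c
    rw [aeval_def, eval₂_eq_sum, Polynomial.sum_def] at h
    exact h
  set f := fun i : ℕ => A.valuation (algebraMap ℚ Qbar (P.coeff i) * c ^ i)
  obtain ⟨i, hi, j, hj, hij, hf⟩ : ∃ i ∈ S, ∃ j ∈ S, i < j ∧ f i = f j := by
    by_contra hne
    push Not at hne
    obtain ⟨i₀, hi₀, hmax⟩ := Finset.exists_max_image S f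
      ⟨P.natDegree, mem_support_iff.2 (by
        rw [(minpoly.monic hint).coeff_natDegree]; exact one_ne_zero)⟩
    have hinj : ∀ i ∈ S, i ≠ i₀ → f i < f i₀ := fun i hi hne' =>
      lt_of_le_of_ne (hmax i hi) fun h => by
        rcases lt_or_gt_of_ne hne' with hlt | hlt
        · exact hne i hi i₀ hi₀ hlt h
        · exact hne i₀ hi₀ i hi hlt h.symm
    have h0 : f i₀ ≠ 0 := (_root_.map_ne_zero A.valuation).2 (mul_ne_zero
      ((_root_.map_ne_zero _).2 (mem_support_iff.1 hi₀)) (pow_ne_zero _ hc))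
    have hlt : A.valuation (∑ i ∈ S.erase i₀, algebraMap ℚ Qbar (P.coeff i) * c ^ i) < f i₀ :=
      Valuation.map_sum_lt _ h0 fun i hi =>
        hinj i (Finset.mem_of_mem_erase hi) (Finset.ne_of_mem_erase hi)
    have h2 := Valuation.map_add_eq_of_lt_left _ hlt
    rw [Finset.add_sum_erase S (fun i => algebraMap ℚ Qbar (P.coeff i) * c ^ i) hi₀, hsum,
      map_zero] at h2
    exact h0 h2.symm
  obtain ⟨ei, hei⟩ := Reduction.exists_v_rat_eq_zpow hA hl (mem_support_iff.1 hi)
  obtain ⟨ej, hej⟩ := Reduction.exists_v_rat_eq_zpow hA hl (mem_support_iff.1 hj)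
  refine ⟨j - i, ei - ej, Nat.sub_pos_of_lt hij, ?_⟩
  have hV : A.valuation (l : Qbar) ≠ 0 :=
    (_root_.map_ne_zero A.valuation).2 (Nat.cast_ne_zero.2 hl.ne_zero)
  have hC : A.valuation c ≠ 0 := (_root_.map_ne_zero A.valuation).2 hc
  simp only [f, map_mul, map_pow, eq_ratCast, hei, hej] at hf
  rw [zpow_sub₀ hV, eq_div_iff (zpow_ne_zero _ hV)]
  refine mul_right_cancel₀ (pow_ne_zero i hC) ?_
  calc A.valuation c ^ (j - i) * A.valuation (l : Qbar) ^ ej * A.valuation c ^ i
      = A.valuation (l : Qbar) ^ ej * (A.valuation c ^ (j - i) * A.valuation c ^ i) := by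
        rw [mul_comm (A.valuation c ^ (j - i)) (A.valuation (l : Qbar) ^ ej), mul_assoc]
    _ = _ := by rw [← pow_add, Nat.sub_add_cancel hij.le, hf]

theorem isRankOne_of_liesOverPrime (hA : A.LiesOverPrime l) (hl : l.Prime) : IsRankOne A := by
  intro a c ha hc
  set V := A.valuation (l : Qbar)
  have hV1 : V < 1 := Reduction.v_q_lt_one hA
  have hV0 : V ≠ 0 := (_root_.map_ne_zero A.valuation).2 (Nat.cast_ne_zero.2 hl.ne_zero)
  rcases eq_or_ne c 0 with rfl | hc0
  · exact ⟨1, by rw [pow_one, map_zero]; exact zero_le'⟩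
  rcases le_or_gt 1 (A.valuation a) with ha1 | ha1
  · exact ⟨0, by rw [pow_zero]; exact ha1⟩
  have hc1 : A.valuation c < 1 := A.mem_nonunits_iff.1 hc
  obtain ⟨d, e, hd, he⟩ := exists_pow_value_eq_zpow hA hl hc0
  obtain ⟨d', e', hd', he'⟩ := exists_pow_value_eq_zpow hA hl ha
  have he0 : 0 < e := by
    by_contra h
    have h1 : A.valuation c ^ d < 1 := pow_lt_one₀ zero_le' hc1 hd.ne'
    rw [he] at h1
    exact absurd h1 (not_lt.2 (one_le_zpow_of_nonpos₀ (zero_lt_iff.2 hV0) hV1.le (not_lt.1 h)))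
  refine ⟨d * e'.toNat, ?_⟩
  rw [pow_mul, he, ← zpow_natCast, ← zpow_mul]
  have h3 : V ^ (e * (e'.toNat : ℤ)) ≤ V ^ e' :=
    zpow_le_zpow_right_of_le_one₀ (zero_lt_iff.2 hV0) hV1.le (by
      have := Int.self_le_toNat e'
      nlinarith)
  refine h3.trans ?_
  rw [← he']
  exact pow_le_of_le_one zero_le' ha1.le hd'.ne'

theorem isAlgClosed_residue (A : ValuationSubring (AlgebraicClosure ℚ)) :
    IsAlgClosed (ResidueField A) :=
  WeilPairing.isAlgClosed_residueField A

theorem natCast_residue_ne_zero [Fact l.Prime] (hA : A.LiesOverPrime l) {M : ℕ} (h : ¬ l ∣ M) :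
    (M : ResidueField A) ≠ 0 := fun h0 => by
  have := WeilPairing.charP_residueField (Fact.out : l.Prime) hA
  exact h ((CharP.cast_eq_zero_iff (ResidueField A) l M).1 h0)

/-- Algebraic integers map to the residue field. -/
theorem exists_algInt_residue (A : ValuationSubring (AlgebraicClosure ℚ)) :
    Nonempty (Igusa.AlgInt →+* ResidueField A) := by
  have : Algebra.IsAlgebraic ℚ Qbar := AlgebraicClosure.isAlgebraic ℚ
  obtain ⟨ι⟩ : Nonempty (Qbar →ₐ[ℚ] ℂ) := ⟨IsAlgClosed.lift⟩
  have hex : ∀ z : Igusa.AlgInt, ∃ a : A, ι (a : Qbar) = (z : ℂ) := by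
    intro z
    have hz : IsIntegral ℤ (z : ℂ) := z.2
    obtain ⟨P, hPm, hP⟩ := hz
    have hroot : (z : ℂ) ∈ ((P.map (Int.castRingHom Qbar)).map ι.toRingHom).roots := by
      rw [Polynomial.map_map, mem_roots (hPm.map _).ne_zero, IsRoot, eval_map,
        show ι.toRingHom.comp (Int.castRingHom Qbar) = algebraMap ℤ ℂ from RingHom.ext_int _ _]
      exact hP
    rw [(IsAlgClosed.splits _).roots_map, Multiset.mem_map] at hroot
    obtain ⟨w, hw, hwz⟩ := hroot
    have hwint : IsIntegral A w := by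
      refine ⟨P.map (Int.castRingHom A), hPm.map _, ?_⟩
      rw [mem_roots (hPm.map _).ne_zero, IsRoot, eval_map] at hw
      rw [eval₂_map, show (algebraMap A Qbar).comp (Int.castRingHom A) = Int.castRingHom Qbar from
        RingHom.ext_int _ _]
      exact hw
    obtain ⟨a, rfl⟩ := IsIntegrallyClosed.isIntegral_iff.1 hwint
    exact ⟨a, hwz⟩
  choose f hf using hex
  have hinj : Function.Injective fun a : A => ι (a : Qbar) := fun a b h => Subtype.ext (ι.injective h)
  let φ : Igusa.AlgInt →+* A :=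
    { toFun := f
      map_one' := hinj (by simp only [hf]; simp)
      map_mul' := fun x y => hinj (by simp only [hf, MulMemClass.coe_mul, map_mul])
      map_zero' := hinj (by simp only [hf]; simp)
      map_add' := fun x y => hinj (by simp only [hf, AddMemClass.coe_add, map_add]) }
  exact ⟨(residue A).comp φ⟩

end FLTAgent.GoodRed
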