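import Fermat.Agent.GoodRed.Newton

/-!
# Injectivity of reduction on torsion prime to the residue characteristic
-/

set_option autoImplicit false
set_option linter.unusedSectionVars false

noncomputable section

open AlgebraicCurve

namespace FLTAgent.GoodRed

open FLTAgent.FunctionField RedDatum

theorem exists_eq_algebraMap_of_divisorOf_eq_zero {K F : Type*} [Field K] [Field F] [Algebra K F]
    [IsFunctionField K F] [IsAlgClosed K] {z : F} (h : divisorOf (K := K) z = 0) :
    ∃ a : K, algebraMap K F a = z := by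
  have halg : IsAlgebraic K z := by
    by_contra hz
    obtain ⟨v, hv⟩ := exists_place_ord_pos hz
    rw [← divisorOf_apply, h, Finsupp.zero_apply] at hv
    exact lt_irrefl _ hv
  have hbij : Function.Bijective (algebraMap K (IntermediateField.adjoin K {z})) :=
    have := IntermediateField.adjoin.finiteDimensional halg.isIntegral
    IsAlgClosed.algebraMap_bijective_of_isIntegral
  obtain ⟨a, ha⟩ := hbij.2 ⟨z, IntermediateField.mem_adjoin_simple_self K z⟩
  exact ⟨a, congrArg Subtype.val ha⟩

variable {L k : Type*} [Field L] [Field k] {A : ValuationSubring L} {π : A →+* k}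
  {F Fb : Type*} [Field F] [Algebra L F] [Field Fb] [Algebra k Fb]
  [IsFunctionField L F] [IsFunctionField k Fb] [IsAlgClosed L] [IsAlgClosed k]
  {D : RedDatum A π F Fb} (R : PlaceRed D) {g c : ℤ}

/-- A divisor class of order prime to the residue characteristic with principal reduction is
principal. -/
theorem torsion_principal (hL : RRLarge L F g c) (hk : RRLarge k Fb g c) (hA : IsRankOne A)
    {m : ℕ} (hm : (m : k) ≠ 0) {X : Divisor L F} (hX : Divisor.degree X = 0)
    {f₀ : F} (hf₀ : f₀ ≠ 0) (hmX : m • X = divisorOf f₀) {zb : Fb} (hzb : zb ≠ 0)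
    (hr : Finsupp.mapDomain R.r X = divisorOf zb) :
    ∃ h : F, h ≠ 0 ∧ X = divisorOf h := by
  classical
  have := infinite_place k Fb
  obtain ⟨S, hS⟩ := Infinite.exists_subset_card_eq (Place k Fb) c.toNat
  choose P hP using exists_r_eq R hL hk
  set D₀ : Divisor L F := ∑ Q ∈ S, Finsupp.single (P Q) 1 with hD₀
  have hD₀0 : 0 ≤ D₀ := Finset.sum_nonneg fun Q _ => Finsupp.single_nonneg.2 zero_le_one
  have hdeg : Divisor.degree D₀ = (S.card : ℤ) := by
    rw [hD₀, map_sum]
    simp [deg_eq_one]
  have hmap : Finsupp.mapDomain R.r D₀ = ∑ Q ∈ S, Finsupp.single Q 1 := by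
    rw [hD₀, Finsupp.mapDomain_finsetSum]
    exact Finset.sum_congr rfl fun Q _ => by rw [Finsupp.mapDomain_single, hP]
  have hdeg' : c ≤ Divisor.degree D₀ := by rw [hdeg, hS]; omega
  obtain ⟨y, E, hy, hE, hED, hEmap⟩ :=
    exists_effective_move R hL hk hX hD₀0 hdeg' hzb hr
  set f₁ := f₀ * y ^ m with hf₁
  have hf₁0 : f₁ ≠ 0 := mul_ne_zero hf₀ (pow_ne_zero _ hy)
  have hdiv₁ : divisorOf f₁ = m • (E - D₀) := by
    rw [hED, smul_add, hmX, hf₁, divisorOf_mul hf₀ (pow_ne_zero _ hy)]
    congr 1
    ext v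
    simp [FunctionField.ord_pow]
  obtain ⟨a, z, ha, hz, hred⟩ := D.exists_scale hf₁0
  have hdiva : divisorOf (a • f₁) = m • (E - D₀) := by
    rw [Algebra.smul_def, divisorOf_mul (by simpa using ha) hf₁0, hdiv₁]
    have : divisorOf (K := L) (algebraMap L F a) = 0 := Finsupp.ext fun v => by simp
    rw [this, zero_add]
  have hz0 : divisorOf (K := k) z = 0 := by
    rw [← R.map_divisorOf _ _ hred hz, hdiva]
    rw [show Finsupp.mapDomain R.r (m • (E - D₀)) = m • Finsupp.mapDomain R.r (E - D₀) from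
      map_nsmul (Finsupp.mapDomain.addMonoidHom R.r) _ _,
      Finsupp.mapDomain_sub, hEmap, sub_self, smul_zero]
  obtain ⟨s, hs⟩ := exists_eq_algebraMap_of_divisorOf_eq_zero hz0
  obtain ⟨u, hu⟩ := D.isResidue.surj s⁻¹
  have hs0 : s ≠ 0 := fun h => hz (by rw [← hs, h, map_zero])
  have hu0 : (u : L) ≠ 0 := fun h => inv_ne_zero hs0 (by
    rw [← hu, show u = 0 from Subtype.ext h, map_zero])
  have hred' : D.Red (((u : L) * a) • f₁) 1 := by
    have := red_smul u hred
    rwa [smul_smul, hu, Algebra.smul_def s⁻¹, ← hs, ← map_mul, inv_mul_cancel₀ hs0, map_one] at this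
  have hdivf : divisorOf (((u : L) * a) • f₁) = m • (E - D₀) := by
    rw [Algebra.smul_def, divisorOf_mul ((map_ne_zero _).2 (mul_ne_zero hu0 ha)) hf₁0, hdiv₁]
    have : divisorOf (K := L) (algebraMap L F ((u : L) * a)) = 0 := Finsupp.ext fun v => by
      rw [divisorOf_apply, ord_algebraMap]; rfl
    rw [this, zero_add]
  let τd : TorsionData R :=
    { m := m, m_ne := hm, E := E, D₀ := D₀, E_nonneg := hE, D₀_nonneg := hD₀0,
      map_eq := hEmap, f := ((u : L) * a) • f₁, red_f := hred', div_f := hdivf,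
      reduced := fun Q => by
        rw [hmap, Finset.sum_apply']
        simp only [Finsupp.single_apply]
        rw [Finset.sum_ite_eq' S Q (fun _ => (1 : ℤ))]
        split <;> norm_num }
  obtain ⟨h, hh⟩ := τd.exists_root hL hk hdeg' hA
  have hhf : h ^ m = ((u : L) * a) • f₁ := hh
  have hh0 : h ≠ 0 := fun h0 => hred'.ne_zero one_ne_zero (by
    rw [← hhf, h0, zero_pow τd.m_pos.ne'])
  refine ⟨h / y, div_ne_zero hh0 hy, Finsupp.ext fun v => ?_⟩
  have h1 := congrArg (fun Y : Divisor L F => Y v) hdivf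
  simp only [divisorOf_apply, Finsupp.smul_apply, nsmul_eq_mul] at h1
  rw [← hhf, FunctionField.ord_pow, hED, Finsupp.add_apply, divisorOf_apply] at h1
  have hmpos : (0 : ℤ) < m := by exact_mod_cast τd.m_pos
  have h2 := mul_left_cancel₀ hmpos.ne' h1
  rw [divisorOf_apply, FunctionField.ord_div hh0 hy, h2]
  ring

end FLTAgent.GoodRed
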