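import Fermat.Agent.GoodRed.Restrict
import Fermat.Prelude.Def_ModularCurve_LaurentCoeff
import Mathlib.FieldTheory.IntermediateField.Adjoin.Basic

/-!
# The Gauss reduction datum of a field of Laurent series

A field `F` of Laurent series spanned over `L(x)` by series with integral coefficients whose
reductions are independent over `k[x̄]` carries the Gauss valuation, with residues series over `k`.
-/

set_option autoImplicit false
set_option linter.unusedSectionVars false
set_option maxHeartbeats 300000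

noncomputable section

open Polynomial ModularCurve

namespace FLTAgent.GoodRed

variable {L k : Type*} [Field L] [Field k] {A : ValuationSubring L}

/-- Series over `A` as series over `L`. -/
abbrev iotaL (A : ValuationSubring L) : LaurentSeries A →+* LaurentSeries L := coeffMap A.subtype

theorem iotaL_injective : Function.Injective (iotaL A) := fun _ _ h =>
  HahnSeries.ext (funext fun i => Subtype.ext (congrArg (fun z : LaurentSeries L => z.coeff i) h))

theorem algebraMap_laurent_eq_single (R : Type*) [CommRing R] (r : R) :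
    algebraMap R (LaurentSeries R) r = HahnSeries.single 0 r := by
  have h1 : algebraMap R (PowerSeries R) r = PowerSeries.C r := by simp
  rw [HahnSeries.algebraMap_apply', h1, HahnSeries.ofPowerSeries_C]
  rfl

theorem coeffMap_algebraMap_laurent {R S : Type*} [CommRing R] [CommRing S] (f : R →+* S) (r : R) :
    coeffMap f (algebraMap R (LaurentSeries R) r) = algebraMap S (LaurentSeries S) (f r) := by
  rw [algebraMap_laurent_eq_single, algebraMap_laurent_eq_single, coeffMap_single]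

theorem coeffMap_aeval {R S : Type*} [CommRing R] [CommRing S] (f : R →+* S) (x : LaurentSeries R)
    (p : R[X]) : coeffMap f (aeval x p) = aeval (coeffMap f x) (p.map f) := by
  induction p using Polynomial.induction_on' with
  | add p q hp hq => simp [hp, hq]
  | monomial n a => simp [aeval_monomial, coeffMap_algebraMap_laurent, map_monomial]

/-- Simultaneous primitive scaling of finitely many polynomials. -/
theorem exists_scale_polys (A : ValuationSubring L) (π : A →+* k) {n : ℕ} (p : Fin n → L[X])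
    (hp : ∃ i, p i ≠ 0) :
    ∃ (c : L) (q : Fin n → A[X]), c ≠ 0 ∧ (∀ i, (q i).map A.subtype = C c * p i) ∧
      ∃ i, (q i).map π ≠ 0 := by
  classical
  set N := ∑ i, ((p i).natDegree + 1)
  have hN : ∀ i, (p i).natDegree < N := fun i =>
    lt_of_lt_of_le (Nat.lt_succ_self _)
      (Finset.single_le_sum (f := fun i => (p i).natDegree + 1) (fun _ _ => Nat.zero_le _)
        (Finset.mem_univ i))
  obtain ⟨i₀, hi₀⟩ := hp
  obtain ⟨⟨i₁, j₁⟩, hj, hjA⟩ := exists_max_valuation A
    (fun ij : Fin n × Fin N => (p ij.1).coeff (ij.2 : ℕ)) (fun h => hi₀ (leadingCoeff_eq_zero.1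
      (congrFun h (i₀, ⟨_, hN i₀⟩))))
  have hmem : ∀ i l, (C ((p i₁).coeff (j₁ : ℕ))⁻¹ * p i).coeff l ∈ A := fun i l => by
    rw [coeff_C_mul]
    rcases lt_or_ge (p i).natDegree l with hl | hl
    · rw [coeff_eq_zero_of_natDegree_lt hl, mul_zero]; exact zero_mem _
    · rw [← div_eq_inv_mul]; exact hjA (i, ⟨l, lt_of_le_of_lt hl (hN i)⟩)
  choose q hq using fun i =>
    (show ∃ q : A[X], q.map A.subtype = C ((p i₁).coeff (j₁ : ℕ))⁻¹ * p i by
      rw [← Polynomial.mem_lifts, lifts_iff_coeff_lifts]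
      exact fun l => ⟨⟨_, hmem i l⟩, rfl⟩)
  refine ⟨_, q, inv_ne_zero hj, hq, i₁, fun h0 => ?_⟩
  have hqj : (q i₁).coeff (j₁ : ℕ) = 1 := by
    refine Subtype.ext ?_
    have h1 := congrArg (fun r : L[X] => r.coeff (j₁ : ℕ)) (hq i₁)
    simp only [coeff_map, coeff_C_mul] at h1
    rwa [inv_mul_cancel₀ hj] at h1
  simpa [hqj] using congrArg (fun r : k[X] => r.coeff (j₁ : ℕ)) h0

variable (π : A →+* k) (F : IntermediateField L (LaurentSeries L))
  (Fb : IntermediateField k (LaurentSeries k))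

/-- A spanning family of integral series with residually independent reductions. -/
structure GaussBasis (n : ℕ) where
  /-- the coordinate -/
  x : LaurentSeries A
  /-- the family -/
  e : Fin n → LaurentSeries A
  x_mem : iotaL A x ∈ F
  xb_mem : coeffMap π x ∈ Fb
  e_mem : ∀ i, iotaL A (e i) ∈ F
  eb_mem : ∀ i, coeffMap π (e i) ∈ Fb
  xb_transcendental : Transcendental k (coeffMap π x)
  indep : ∀ p : Fin n → k[X],
    ∑ i, aeval (coeffMap π x) (p i) * coeffMap π (e i) = 0 → ∀ i, p i = 0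
  span : ∀ y ∈ F, ∃ (p : Fin n → L[X]) (q : L[X]), q ≠ 0 ∧
    y * aeval (iotaL A x) q = ∑ i, aeval (iotaL A x) (p i) * iotaL A (e i)
  residue : ∀ z ∈ Fb, ∃ (a b : LaurentSeries A) (_ : coeffMap π b ≠ 0),
    iotaL A a / iotaL A b ∈ F ∧ z * coeffMap π b = coeffMap π a

variable {π F Fb} {n : ℕ} (G : GaussBasis π F Fb n) (hπ : IsResidueMap A π)

namespace GaussBasis

/-- `∑ pᵢ(x) eᵢ`. -/
def num (p : Fin n → A[X]) : LaurentSeries A := ∑ i, aeval G.x (p i) * G.e i

theorem coeffMap_num (p : Fin n → A[X]) : coeffMap π (G.num p) =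
    ∑ i, aeval (coeffMap π G.x) ((p i).map π) * coeffMap π (G.e i) := by
  simp [num, coeffMap_aeval]

theorem iotaL_num (p : Fin n → A[X]) : iotaL A (G.num p) =
    ∑ i, aeval (iotaL A G.x) ((p i).map A.subtype) * iotaL A (G.e i) := by
  simp [num, coeffMap_aeval, iotaL]

theorem coeffMap_num_ne_zero {p : Fin n → A[X]} (h : ∃ i, (p i).map π ≠ 0) :
    coeffMap π (G.num p) ≠ 0 := fun h0 => by
  rw [coeffMap_num] at h0
  exact h.elim fun i hi => hi (G.indep _ h0 i)

theorem coeffMap_num_mem (p : Fin n → A[X]) : coeffMap π (G.num p) ∈ Fb := by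
  rw [coeffMap_num]
  refine sum_mem fun i _ => mul_mem ?_ (G.eb_mem i)
  rw [aeval_eq_sum_range]
  exact sum_mem fun l _ => Fb.smul_mem (pow_mem G.xb_mem l)

theorem coeffMap_den_ne_zero {q : A[X]} (hq : q.map π ≠ 0) : coeffMap π (aeval G.x q) ≠ 0 := by
  rw [coeffMap_aeval]
  exact fun h => hq (transcendental_iff.1 G.xb_transcendental _ h)

theorem coeffMap_den_mem (q : A[X]) : coeffMap π (aeval G.x q) ∈ Fb := by
  rw [coeffMap_aeval, aeval_eq_sum_range]
  exact sum_mem fun l _ => Fb.smul_mem (pow_mem G.xb_mem l)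

include G in
/-- The normal form of a nonzero element. -/
theorem exists_normal {y : LaurentSeries L} (hy : y ∈ F) (hy0 : y ≠ 0) :
    ∃ (c : L) (a b : LaurentSeries A), c ≠ 0 ∧ coeffMap π a ≠ 0 ∧ coeffMap π b ≠ 0 ∧
      coeffMap π a / coeffMap π b ∈ Fb ∧
      y * iotaL A b = algebraMap L (LaurentSeries L) c * iotaL A a := by
  obtain ⟨p, q, hq, hpq⟩ := G.span y hy
  obtain ⟨c₂, qA, hc₂, hqA, hqb⟩ := RedDatum.exists_scale_poly A π hq
  have hden : iotaL A (aeval G.x qA) = algebraMap L _ c₂ * aeval (iotaL A G.x) q := by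
    rw [iotaL, coeffMap_aeval, hqA, map_mul, aeval_C]
  have hdb := G.coeffMap_den_ne_zero hqb
  have hd0 : iotaL A (aeval G.x qA) ≠ 0 := fun h => hdb (by
    rw [iotaL_injective (h.trans (map_zero _).symm), map_zero])
  have hp : ∃ i, p i ≠ 0 := by
    by_contra h
    push Not at h
    simp only [h, map_zero, zero_mul, Finset.sum_const_zero, mul_eq_zero] at hpq
    rcases hpq with hpq | hpq
    · exact hy0 hpq
    · exact hd0 (by rw [hden, hpq, mul_zero])
  obtain ⟨c₁, pA, hc₁, hpA, hpb⟩ := exists_scale_polys A π p hp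
  refine ⟨c₂ / c₁, G.num pA, aeval G.x qA, div_ne_zero hc₂ hc₁, G.coeffMap_num_ne_zero hpb, hdb,
    div_mem (G.coeffMap_num_mem pA) (G.coeffMap_den_mem qA), ?_⟩
  have hnum : iotaL A (G.num pA) =
      algebraMap L _ c₁ * ∑ i, aeval (iotaL A G.x) (p i) * iotaL A (G.e i) := by
    rw [iotaL_num, Finset.mul_sum]
    exact Finset.sum_congr rfl fun i _ => by rw [hpA, map_mul, aeval_C, mul_assoc]
  rw [hden, hnum, ← hpq, map_div₀]
  have : algebraMap L (LaurentSeries L) c₁ ≠ 0 := by simpa using hc₁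
  field_simp

variable (π) in
/-- `y` is a quotient of integral series with reductions `a`, `b`, `b ≠ 0`. -/
def Rep (y : LaurentSeries L) (a b : LaurentSeries A) : Prop :=
  coeffMap π b ≠ 0 ∧ y * iotaL A b = iotaL A a

theorem Rep.unique {y : LaurentSeries L} {a b a' b' : LaurentSeries A} (h : Rep π y a b)
    (h' : Rep π y a' b') : coeffMap π a / coeffMap π b = coeffMap π a' / coeffMap π b' := by
  rw [div_eq_div_iff h.1 h'.1, ← map_mul, ← map_mul]
  congr 1
  apply iotaL_injective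
  rw [map_mul, map_mul, ← h.2, ← h'.2]
  ring

theorem Rep.add {y y' : LaurentSeries L} {a b a' b' : LaurentSeries A} (h : Rep π y a b)
    (h' : Rep π y' a' b') : Rep π (y + y') (a * b' + a' * b) (b * b') :=
  ⟨by rw [map_mul]; exact mul_ne_zero h.1 h'.1,
    by rw [map_add, map_mul, map_mul, map_mul, ← h.2, ← h'.2]; ring⟩

theorem Rep.mul {y y' : LaurentSeries L} {a b a' b' : LaurentSeries A} (h : Rep π y a b)
    (h' : Rep π y' a' b') : Rep π (y * y') (a * a') (b * b') :=
  ⟨by rw [map_mul]; exact mul_ne_zero h.1 h'.1,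
    by rw [map_mul, map_mul, ← h.2, ← h'.2]; ring⟩

theorem rep_algebraMap (a : A) :
    Rep π (algebraMap L (LaurentSeries L) a) (algebraMap A (LaurentSeries A) a) 1 :=
  ⟨by rw [map_one]; exact one_ne_zero,
    by rw [map_one, mul_one, iotaL, coeffMap_algebraMap_laurent]; rfl⟩

theorem rep_one : Rep π (1 : LaurentSeries L) 1 1 :=
  ⟨by rw [map_one]; exact one_ne_zero, by rw [one_mul]⟩

variable (π F) in
/-- The valuation ring as a subring. -/
def ring : Subring F where
  carrier := {y | ∃ a b, Rep π (y : LaurentSeries L) a b}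
  one_mem' := ⟨1, 1, rep_one⟩
  zero_mem' := ⟨0, 1, by rw [map_one]; exact one_ne_zero,
    by rw [map_zero, IntermediateField.coe_zero, zero_mul]⟩
  mul_mem' := fun ⟨_, _, h⟩ ⟨_, _, h'⟩ => ⟨_, _, h.mul h'⟩
  add_mem' := fun ⟨_, _, h⟩ ⟨_, _, h'⟩ => ⟨_, _, h.add h'⟩
  neg_mem' := fun {y} ⟨a, b, h⟩ => ⟨-a, b, h.1, by
    rw [IntermediateField.coe_neg, neg_mul, h.2, map_neg]⟩

include G in
theorem mem_or_inv_mem (y : F) : y ∈ ring π F ∨ y⁻¹ ∈ ring π F := by
  rcases eq_or_ne y 0 with rfl | hy0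
  · exact Or.inl (zero_mem _)
  have hy0' : (y : LaurentSeries L) ≠ 0 := by simpa using hy0
  obtain ⟨c, a, b, hc, ha, hb, -, hy⟩ := G.exists_normal y.2 hy0'
  rcases A.mem_or_inv_mem c with hcA | hcA
  · exact Or.inl ⟨algebraMap A _ ⟨c, hcA⟩ * a, b, hb, by
      rw [hy, map_mul, iotaL, coeffMap_algebraMap_laurent]; rfl⟩
  · refine Or.inr ⟨algebraMap A _ ⟨c⁻¹, hcA⟩ * b, a, ha, ?_⟩
    have hc0 : algebraMap L (LaurentSeries L) c ≠ 0 := by simpa using hc
    rw [IntermediateField.coe_inv, map_mul, iotaL, coeffMap_algebraMap_laurent,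
      show A.subtype ⟨c⁻¹, hcA⟩ = c⁻¹ from rfl, map_inv₀, inv_mul_eq_iff_eq_mul₀ hy0', ← iotaL,
      mul_left_comm, hy, inv_mul_cancel_left₀ hc0]

include G hπ in
theorem value_mem {y : F} {a b : LaurentSeries A} (h : Rep π (y : LaurentSeries L) a b) :
    coeffMap π a / coeffMap π b ∈ Fb := by
  rcases eq_or_ne y 0 with rfl | hy0
  · rw [h.unique (y := ((0 : F) : LaurentSeries L)) (a' := 0) (b' := 1)
      ⟨by rw [map_one]; exact one_ne_zero, by
        rw [map_zero, IntermediateField.coe_zero, zero_mul]⟩, map_zero, zero_div]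
    exact zero_mem _
  obtain ⟨c, a₀, b₀, hc, ha₀, hb₀, hmem, hy⟩ := G.exists_normal y.2 (by simpa using hy0)
  by_cases hcA : c ∈ A
  · rw [h.unique (a' := algebraMap A _ ⟨c, hcA⟩ * a₀) (b' := b₀) ⟨hb₀, by
      rw [hy, map_mul, iotaL, coeffMap_algebraMap_laurent]; rfl⟩, map_mul,
      coeffMap_algebraMap_laurent, mul_div_assoc]
    exact mul_mem (IntermediateField.algebraMap_mem _ _) hmem
  · exfalso
    have hcA' : c⁻¹ ∈ A := (A.mem_or_inv_mem c).resolve_left hcA
    have hz : π ⟨c⁻¹, hcA'⟩ = 0 := (hπ.eq_zero_iff _).2 (by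
      rw [ValuationSubring.inv_mem_nonunits_iff]; exact Or.inr hcA)
    have hrep : algebraMap A (LaurentSeries A) ⟨c⁻¹, hcA'⟩ * a * b₀ = a₀ * b := by
      apply iotaL_injective
      rw [map_mul, map_mul, map_mul, iotaL, coeffMap_algebraMap_laurent,
        show A.subtype ⟨c⁻¹, hcA'⟩ = c⁻¹ from rfl, map_inv₀, ← iotaL, ← h.2,
        mul_assoc _ _ (iotaL A b₀), mul_right_comm (y : LaurentSeries L), hy]
      have : algebraMap L (LaurentSeries L) c ≠ 0 := by simpa using hc
      field_simp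
    have h2 := congrArg (coeffMap π) hrep
    rw [map_mul, map_mul, map_mul, coeffMap_algebraMap_laurent, hz, map_zero, zero_mul, zero_mul]
      at h2
    exact mul_ne_zero ha₀ h.1 h2.symm

/-- The valuation ring. -/
def valRing : ValuationSubring F := ⟨ring π F, G.mem_or_inv_mem⟩

/-- The value of the residue map. -/
def resVal (y : G.valRing) : Fb :=
  ⟨_, G.value_mem hπ y.2.choose_spec.choose_spec⟩

theorem resVal_eq (y : G.valRing) {a b : LaurentSeries A}
    (h : Rep π ((y : F) : LaurentSeries L) a b) :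
    (G.resVal hπ y : LaurentSeries k) = coeffMap π a / coeffMap π b :=
  y.2.choose_spec.choose_spec.unique h

/-- The residue map. -/
def resHom : G.valRing →+* Fb where
  toFun := G.resVal hπ
  map_one' := Subtype.ext (by
    rw [G.resVal_eq hπ 1 (a := 1) (b := 1) rep_one, map_one, div_one]; rfl)
  map_zero' := Subtype.ext (by
    rw [G.resVal_eq hπ 0 (a := 0) (b := 1) ⟨by rw [map_one]; exact one_ne_zero, by
      rw [map_zero]; exact zero_mul _⟩, map_zero, zero_div]; rfl)
  map_mul' y z := Subtype.ext (by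
    obtain ⟨a, b, h⟩ := y.2
    obtain ⟨a', b', h'⟩ := z.2
    rw [IntermediateField.coe_mul, G.resVal_eq hπ y h, G.resVal_eq hπ z h',
      G.resVal_eq hπ (y * z) (h.mul h'), map_mul, map_mul, mul_div_mul_comm])
  map_add' y z := Subtype.ext (by
    obtain ⟨a, b, h⟩ := y.2
    obtain ⟨a', b', h'⟩ := z.2
    rw [IntermediateField.coe_add, G.resVal_eq hπ y h, G.resVal_eq hπ z h',
      G.resVal_eq hπ (y + z) (h.add h'), map_add, map_mul, map_mul, map_mul,
      div_add_div _ _ h.1 h'.1, mul_comm (coeffMap π a') (coeffMap π b)])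

include hπ in
theorem mem_valRing_algebraMap (c : L) : algebraMap L F c ∈ G.valRing ↔ c ∈ A := by
  refine ⟨fun h => ?_, fun h => ⟨_, _, rep_algebraMap (π := π) ⟨c, h⟩⟩⟩
  by_contra hc
  have hc' : c⁻¹ ∈ A := (A.mem_or_inv_mem c).resolve_left hc
  have hz : π ⟨c⁻¹, hc'⟩ = 0 := (hπ.eq_zero_iff _).2 (by
    rw [ValuationSubring.inv_mem_nonunits_iff]; exact Or.inr hc)
  have hc0 : c ≠ 0 := fun h0 => hc (h0 ▸ zero_mem _)
  obtain ⟨a, b, hb, hab⟩ := h
  have h2 : algebraMap A (LaurentSeries A) ⟨c⁻¹, hc'⟩ * a = b := by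
    apply iotaL_injective
    rw [map_mul, iotaL, coeffMap_algebraMap_laurent, show A.subtype ⟨c⁻¹, hc'⟩ = c⁻¹ from rfl,
      map_inv₀, ← iotaL, ← hab]
    show (algebraMap L (LaurentSeries L) c)⁻¹ * (algebraMap L (LaurentSeries L) c * _) = _
    rw [inv_mul_cancel_left₀ (by simpa using hc0)]
  exact hb (by rw [← h2, map_mul, coeffMap_algebraMap_laurent, hz, map_zero, zero_mul])

theorem orth_elems (s : Finset F) :
    ∃ (N : ℕ) (q : A[X]), q.map π ≠ 0 ∧ ∀ y ∈ s, ∃ p : Fin n → L[X],
      (∀ i, p i ∈ degreeLT L N) ∧ (y : LaurentSeries L) * aeval (iotaL A G.x) (q.map A.subtype) =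
        ∑ i, aeval (iotaL A G.x) (p i) * iotaL A (G.e i) := by
  classical
  choose P Q hQ hPQ using fun y : F => G.span (y : LaurentSeries L) y.2
  have hQ0 : ∏ y ∈ s, Q y ≠ 0 := Finset.prod_ne_zero_iff.2 fun y _ => hQ y
  obtain ⟨c, qA, hc, hqA, hqb⟩ := RedDatum.exists_scale_poly A π hQ0
  refine ⟨∑ y ∈ s, ∑ i, ((P y i * ∏ z ∈ s.erase y, Q z).natDegree + 1), qA, hqb, fun y hy => ?_⟩
  refine ⟨fun i => C c * (P y i * ∏ z ∈ s.erase y, Q z), fun i => ?_, ?_⟩
  · rw [mem_degreeLT]
    refine lt_of_le_of_lt degree_le_natDegree (Nat.cast_lt.2 ?_)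
    rw [natDegree_C_mul hc]
    refine lt_of_lt_of_le (Nat.lt_succ_self _) ?_
    refine le_trans ?_ (Finset.single_le_sum (f := fun y => ∑ i,
      ((P y i * ∏ z ∈ s.erase y, Q z).natDegree + 1)) (fun _ _ => Nat.zero_le _) hy)
    exact Finset.single_le_sum (f := fun i => (P y i * ∏ z ∈ s.erase y, Q z).natDegree + 1)
      (fun _ _ => Nat.zero_le _) (Finset.mem_univ i)
  · rw [hqA, ← Finset.mul_prod_erase s Q hy, map_mul, map_mul, aeval_C]
    calc _ = algebraMap L _ c * aeval (iotaL A G.x) (∏ z ∈ s.erase y, Q z) *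
          ((y : LaurentSeries L) * aeval (iotaL A G.x) (Q y)) := by ring
      _ = _ := by
        rw [hPQ y, Finset.mul_sum]
        exact Finset.sum_congr rfl fun i _ => by rw [map_mul, map_mul, aeval_C]; ring

theorem resHom_coe (y : G.valRing) {a b : LaurentSeries A}
    (h : Rep π ((y : F) : LaurentSeries L) a b) :
    (G.resHom hπ y : LaurentSeries k) = coeffMap π a / coeffMap π b :=
  G.resVal_eq hπ y h

theorem resHom_eq_zero (y : G.valRing) : G.resHom hπ y = 0 ↔ (y : F) ∈ G.valRing.nonunits := by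
  rw [G.valRing.mem_nonunits_iff_or]
  constructor
  · intro h0
    by_contra hn
    push Not at hn
    obtain ⟨hy0, hyi⟩ := hn
    have h1 : y * ⟨(y : F)⁻¹, hyi⟩ = 1 := Subtype.ext (mul_inv_cancel₀ hy0)
    have h2 := congrArg (G.resHom hπ) h1
    rw [map_mul, h0, zero_mul, map_one] at h2
    exact zero_ne_one h2
  · intro h
    by_contra h0
    rcases h with h | h
    · refine h0 ?_
      rw [show y = 0 from Subtype.ext h, map_zero]
    · obtain ⟨a, b, hr⟩ := y.2
      refine h ⟨b, a, fun ha => h0 (Subtype.ext ?_), ?_⟩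
      · rw [G.resHom_coe hπ y hr, ha, zero_div]
        rfl
      · rw [IntermediateField.coe_inv, ← hr.2, ← mul_assoc, inv_mul_cancel₀, one_mul]
        intro hy
        refine h0 ?_
        rw [show y = 0 from Subtype.ext (Subtype.ext hy), map_zero]

theorem resHom_surjective : Function.Surjective (G.resHom hπ) := by
  intro z
  obtain ⟨a, b, hb, hab, hz⟩ := G.residue z z.2
  have hb0 : iotaL A b ≠ 0 := fun h => hb (by
    rw [iotaL_injective (h.trans (map_zero _).symm), map_zero])
  set y : F := ⟨iotaL A a / iotaL A b, hab⟩ with hy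
  have hyv : (y : LaurentSeries L) = iotaL A a / iotaL A b := rfl
  have hr : Rep π (y : LaurentSeries L) a b :=
    ⟨hb, hyv.symm ▸ div_mul_cancel₀ (iotaL A a) hb0⟩
  have hmem : y ∈ G.valRing := ⟨a, b, hr⟩
  refine ⟨⟨y, hmem⟩, Subtype.ext ?_⟩
  rw [G.resHom_coe hπ ⟨y, hmem⟩ hr, ← hz, mul_div_cancel_right₀ _ hb]

/-- `x^j eᵢ / q(x)`. -/
def elem (q : A[X]) (hq : q.map π ≠ 0) (i : Fin n) (j : ℕ) : G.valRing :=
  ⟨⟨iotaL A (G.x ^ j * G.e i) / iotaL A (aeval G.x q), div_mem
      (by rw [map_mul, map_pow]; exact mul_mem (pow_mem G.x_mem _) (G.e_mem _))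
      (by
        rw [iotaL, coeffMap_aeval, aeval_eq_sum_range]
        exact sum_mem fun l _ => F.smul_mem (pow_mem G.x_mem l))⟩,
    G.x ^ j * G.e i, aeval G.x q, G.coeffMap_den_ne_zero hq,
    div_mul_cancel₀ _ fun h => G.coeffMap_den_ne_zero hq (by
      rw [iotaL_injective (h.trans (map_zero _).symm), map_zero])⟩

theorem coe_elem (q : A[X]) (hq : q.map π ≠ 0) (i : Fin n) (j : ℕ) :
    ((G.elem q hq i j : F) : LaurentSeries L) * iotaL A (aeval G.x q) =
      iotaL A (G.x ^ j * G.e i) :=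
  div_mul_cancel₀ _ fun h => G.coeffMap_den_ne_zero hq (by
    rw [iotaL_injective (h.trans (map_zero _).symm), map_zero])

theorem resHom_elem (q : A[X]) (hq : q.map π ≠ 0) (i : Fin n) (j : ℕ) :
    (G.resHom hπ (G.elem q hq i j) : LaurentSeries k) * coeffMap π (aeval G.x q) =
      coeffMap π (G.x ^ j * G.e i) := by
  rw [G.resHom_coe hπ _ ⟨G.coeffMap_den_ne_zero hq, G.coe_elem q hq i j⟩,
    div_mul_cancel₀ _ (G.coeffMap_den_ne_zero hq)]

theorem linearIndependent_elem (q : A[X]) (hq : q.map π ≠ 0) (N : ℕ) :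
    LinearIndependent k fun ij : Fin n × Fin N => G.resHom hπ (G.elem q hq ij.1 ij.2) := by
  rw [Fintype.linearIndependent_iff]
  intro g hg
  have h0 : ∑ ij : Fin n × Fin N,
      algebraMap k (LaurentSeries k) (g ij) * coeffMap π (G.x ^ (ij.2 : ℕ) * G.e ij.1) = 0 := by
    have h := congrArg (fun z : LaurentSeries k => z * coeffMap π (aeval G.x q))
      (congrArg Fb.val hg)
    simp only [map_sum, map_zero, zero_mul, Finset.sum_mul] at h
    refine Eq.trans (Finset.sum_congr rfl fun ij _ => ?_) h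
    rw [← G.resHom_elem hπ q hq ij.1 ij.2, Algebra.smul_def (A := Fb), map_mul, AlgHom.commutes,
      mul_assoc]
    rfl
  rw [Fintype.sum_prod_type] at h0
  have h1 := G.indep (fun i => ∑ j : Fin N, monomial (j : ℕ) (g (i, j))) (by
    refine Eq.trans ?_ h0
    refine Finset.sum_congr rfl fun i _ => ?_
    rw [map_sum, Finset.sum_mul]
    exact Finset.sum_congr rfl fun j _ => by
      rw [aeval_monomial, map_mul, map_pow, mul_assoc])
  rintro ⟨i, j⟩
  have h2 := congrArg (fun p : k[X] => p.coeff (j : ℕ)) (h1 i)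
  simpa [finsetSum_coeff, coeff_monomial, Fin.val_inj] using h2

theorem aeval_eq_sum_fin {R S : Type*} [CommRing R] [CommRing S] [Algebra R S] (x : S) {N : ℕ}
    {p : R[X]} (hp : p ∈ degreeLT R N) :
    aeval x p = ∑ j : Fin N, algebraMap R S (p.coeff (j : ℕ)) * x ^ (j : ℕ) := by
  rcases eq_or_ne p 0 with rfl | h0
  · simp
  rw [mem_degreeLT, ← natDegree_lt_iff_degree_lt h0] at hp
  rw [aeval_eq_sum_range' hp, Fin.sum_univ_eq_sum_range fun j => algebraMap R S (p.coeff j) * x ^ j]
  exact Finset.sum_congr rfl fun j _ => Algebra.smul_def _ _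

theorem mem_span_elem (q : A[X]) (hq : q.map π ≠ 0) {N : ℕ} {y : F} {p : Fin n → L[X]}
    (hp : ∀ i, p i ∈ degreeLT L N)
    (hpy : (y : LaurentSeries L) * aeval (iotaL A G.x) (q.map A.subtype) =
        ∑ i, aeval (iotaL A G.x) (p i) * iotaL A (G.e i)) :
    y ∈ Submodule.span L
      (Set.range fun ij : Fin n × Fin N => (G.elem q hq ij.1 ij.2 : F)) := by
  rw [Submodule.mem_span_range_iff_exists_fun]
  refine ⟨fun ij => (p ij.1).coeff (ij.2 : ℕ), Subtype.ext ?_⟩
  have hd0 : iotaL A (aeval G.x q) ≠ 0 := fun h => G.coeffMap_den_ne_zero hq (by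
    rw [iotaL_injective (h.trans (map_zero _).symm), map_zero])
  refine mul_right_cancel₀ hd0 ?_
  show F.val _ * _ = _
  rw [map_sum, Finset.sum_mul, Fintype.sum_prod_type]
  have he : iotaL A (aeval G.x q) = aeval (iotaL A G.x) (q.map A.subtype) := coeffMap_aeval _ _ _
  conv_rhs => rw [he, hpy]

  refine Finset.sum_congr rfl fun i _ => ?_
  rw [aeval_eq_sum_fin _ (hp i), Finset.sum_mul]
  refine Finset.sum_congr rfl fun j _ => ?_
  rw [Algebra.smul_def (A := F), map_mul, AlgHom.commutes, mul_assoc, mul_assoc]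
  congr 1
  show ((G.elem q hq i j : F) : LaurentSeries L) * _ = _
  rw [G.coe_elem, map_mul, map_pow]

theorem exists_orth (s : Finset F) : ∃ (m : ℕ) (e : Fin m → G.valRing),
    LinearIndependent k (fun i => G.resHom hπ (e i)) ∧
      (s : Set F) ⊆ Submodule.span L (Set.range fun i => (e i : F)) := by
  obtain ⟨N, q, hq, hs⟩ := G.orth_elems s
  refine ⟨n * N, fun l => G.elem q hq (finProdFinEquiv.symm l).1 (finProdFinEquiv.symm l).2,
    (G.linearIndependent_elem hπ q hq N).comp _ finProdFinEquiv.symm.injective, fun y hy => ?_⟩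
  obtain ⟨p, hp, hpy⟩ := hs y hy
  have h := G.mem_span_elem q hq hp hpy
  have hr : (Set.range fun l => (G.elem q hq (finProdFinEquiv.symm l).1
      (finProdFinEquiv.symm l).2 : F)) =
      Set.range fun ij : Fin n × Fin N => (G.elem q hq ij.1 ij.2 : F) :=
    finProdFinEquiv.symm.surjective.range_comp fun ij : Fin n × Fin N =>
      (G.elem q hq ij.1 ij.2 : F)
  rw [SetLike.mem_coe, hr]
  exact h

theorem mem_valRing_iff {y : F} :
    y ∈ G.valRing ↔ ∃ a b, Rep π (y : LaurentSeries L) a b := Iff.rfl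

theorem coe_algebraMap_field (c : L) :
    ((algebraMap L F c : F) : LaurentSeries L) = algebraMap L (LaurentSeries L) c := rfl

theorem resHom_algebraMap (a : A) (h : algebraMap L F (a : L) ∈ G.valRing) :
    G.resHom hπ ⟨algebraMap L F (a : L), h⟩ = algebraMap k Fb (π a) := by
  refine Subtype.ext ?_
  have hr : Rep π ((algebraMap L F (a : L) : F) : LaurentSeries L)
      (algebraMap A (LaurentSeries A) a) 1 := by
    rw [coe_algebraMap_field]; exact rep_algebraMap a
  refine (G.resHom_coe hπ ⟨algebraMap L F (a : L), h⟩ hr).trans ?_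
  rw [map_one, div_one, coeffMap_algebraMap_laurent]
  rfl

/-- The reduction datum. -/
def datum : RedDatum A π F Fb where
  isResidue := hπ
  V := G.valRing
  mem_iff := G.mem_valRing_algebraMap hπ
  res := G.resHom hπ
  res_algebraMap a := G.resHom_algebraMap hπ a _
  res_eq_zero := G.resHom_eq_zero hπ
  res_surj := G.resHom_surjective hπ
  orth := G.exists_orth hπ

theorem red_iff {y : F} {z : Fb} :
    (G.datum hπ).Red y z ↔ ∃ a b : LaurentSeries A,
      Rep π (y : LaurentSeries L) a b ∧ (z : LaurentSeries k) * coeffMap π b = coeffMap π a := by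
  constructor
  · intro hred
    obtain ⟨hy, hz⟩ := hred
    obtain ⟨a, b, h⟩ := G.mem_valRing_iff.1 hy
    have hz' : G.resHom hπ ⟨y, hy⟩ = z := hz
    refine ⟨a, b, h, ?_⟩
    rw [← hz', G.resHom_coe hπ ⟨y, hy⟩ h, div_mul_cancel₀ _ h.1]
  · rintro ⟨a, b, h, hz⟩
    have hy : y ∈ G.valRing := G.mem_valRing_iff.2 ⟨a, b, h⟩
    refine ⟨hy, ?_⟩
    show G.resHom hπ ⟨y, hy⟩ = z
    refine Subtype.ext ?_
    rw [G.resHom_coe hπ ⟨y, hy⟩ h, ← hz, mul_div_cancel_right₀ _ h.1]

/-- An integral series in `F` reduces coefficientwise. -/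
theorem red_of_series {y : F} {z : Fb} {a : LaurentSeries A}
    (hy : (y : LaurentSeries L) = iotaL A a) (hz : (z : LaurentSeries k) = coeffMap π a) :
    (G.datum hπ).Red y z :=
  (G.red_iff hπ).2 ⟨a, 1, ⟨by rw [map_one]; exact one_ne_zero, by rw [map_one, mul_one, hy]⟩,
    by rw [map_one, mul_one, hz]⟩

end GaussBasis

end FLTAgent.GoodRed
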