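import Fermat.Agent.GoodRed.GaussDatum
import Fermat.Agent.GoodRed.QbarPlace
import Fermat.Agent.Igusa.Basis
import Fermat.Prelude.Def_ModularCurve_ReductionModL
import Mathlib.RingTheory.Algebraic.Integral

/-!
# The Gauss datum of the modular function field of level `M` at `A` above `l ∤ M`
-/

set_option autoImplicit false
set_option linter.unusedSectionVars false

noncomputable section

open Polynomial ModularCurve IsLocalRing
open scoped IntermediateField

namespace FLTAgent.GoodRed

local notation "Qbar" => AlgebraicClosure ℚ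

variable (A : ValuationSubring (AlgebraicClosure ℚ)) {l : ℕ} [Fact l.Prime]
  (hA : A.LiesOverPrime l) (M : ℕ) [NeZero M]

/-- `ℤ[j(q^d)]` over `A`. -/
abbrev intA : LaurentSeries ℤ →+* LaurentSeries A := coeffMap (Int.castRingHom A)

theorem intSeries_jqModC : intA A (jqModC ℤ) = jqModC A := coeffMap_jqModC _

theorem iotaL_intA (z : LaurentSeries ℤ) : iotaL A (intA A z) = coeffMap (Int.castRingHom Qbar) z := by
  rw [iotaL, intA, coeffMap_coeffMap]
  exact coeffMap_congr (RingHom.ext_int _ _) z

theorem residue_intA (z : LaurentSeries ℤ) :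
    coeffMap (residue A) (intA A z) = coeffMap (Int.castRingHom (ResidueField A)) z := by
  rw [intA, coeffMap_coeffMap]
  exact coeffMap_congr (RingHom.ext_int _ _) z

theorem intA_mem_bar (z : Igusa.intModRing M) :
    iotaL A (intA A (z : LaurentSeries ℤ)) ∈ modularFunctionFieldBar M := by
  rw [iotaL_intA, show coeffMap (Int.castRingHom Qbar) (z : LaurentSeries ℤ) =
      coeffEmb Qbar (Igusa.intToRat (z : LaurentSeries ℤ)) from by
    rw [coeffEmb, Igusa.intToRat, coeffMap_coeffMap]
    exact coeffMap_congr (RingHom.ext_int _ _) _]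
  exact coeffEmb_mem_laurentBaseChange _ (Igusa.intToRat_mem_full M z)

theorem intA_mem_fullC (z : Igusa.intModRing M) :
    coeffMap (residue A) (intA A (z : LaurentSeries ℤ)) ∈
      modularFunctionFieldFullC (ResidueField A) M := by
  rw [residue_intA]
  obtain ⟨x, hx⟩ := z
  induction hx using Subring.closure_induction with
  | mem z hz =>
    obtain ⟨d, hd0, hd, rfl⟩ := hz
    rw [coeffMap_qExpand, coeffMap_jqModC]
    exact jqModCd_mem_full _ M hd
  | zero => rw [map_zero]; exact zero_mem _
  | one => rw [map_one]; exact one_mem _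
  | add a b _ _ ha hb => rw [map_add]; exact add_mem ha hb
  | neg a _ ha => rw [map_neg]; exact neg_mem ha
  | mul a b _ _ ha hb => rw [map_mul]; exact mul_mem ha hb

theorem transcendental_jqModC (K : Type) [Field K] : Transcendental K (jqModC K) := by
  rw [transcendental_iff_injective]
  simpa [qExpand_one_apply] using Igusa.injective_aeval_qExpand_jqModC (k := K) 1

include hA in
/-- Reductions independent over the prime field stay independent over the residue field. -/
theorem indep_residue {ι : Type*} [Fintype ι] (b : ι → LaurentSeries ℤ)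
    (hb : ∀ P : ι → (ZMod l)[X],
      ∑ i, aeval (jqModC (ZMod l)) (P i) * coeffMap (Int.castRingHom (ZMod l)) (b i) = 0 →
        ∀ i, P i = 0)
    (p : ι → (ResidueField A)[X])
    (hp : ∑ i, aeval (jqModC (ResidueField A)) (p i) *
      coeffMap (Int.castRingHom (ResidueField A)) (b i) = 0) : ∀ i, p i = 0 := by
  classical
  have : CharP (ResidueField A) l := WeilPairing.charP_residueField Fact.out hA
  let _ : Algebra (ZMod l) (ResidueField A) := ZMod.algebra _ l
  set f := algebraMap (ZMod l) (ResidueField A)
  intro i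
  ext a
  rw [coeff_zero]
  refine (Module.forall_dual_apply_eq_zero_iff (ZMod l) _).1 fun s => ?_
  -- apply `s` to all coefficients
  set N := (Finset.univ.sup fun i => (p i).natDegree) + 1 + a
  have hN : ∀ i, (p i).natDegree < N := fun i => by
    have := Finset.le_sup (f := fun i => (p i).natDegree) (Finset.mem_univ i)
    omega
  set c : ι → Fin N → LaurentSeries (ZMod l) := fun i a =>
    jqModC (ZMod l) ^ (a : ℕ) * coeffMap (Int.castRingHom (ZMod l)) (b i)
  have hc : ∀ i (a : Fin N), jqModC (ResidueField A) ^ (a : ℕ) *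
      coeffMap (Int.castRingHom (ResidueField A)) (b i) = coeffMap f (c i a) := fun i a => by
    rw [map_mul, map_pow, coeffMap_jqModC, coeffMap_coeffMap]
    congr 1
    exact coeffMap_congr (RingHom.ext_int _ _) _
  have hexp : ∑ i, ∑ a : Fin N, HahnSeries.C ((p i).coeff (a : ℕ)) * coeffMap f (c i a) = 0 := by
    refine Eq.trans (Finset.sum_congr rfl fun i _ => ?_) hp
    rw [aeval_eq_sum_range' (hN i), Finset.sum_mul, Finset.sum_range]
    refine Finset.sum_congr rfl fun a _ => ?_
    rw [Algebra.smul_def, algebraMap_laurent_eq_single, ← HahnSeries.C_apply, mul_assoc, hc]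
  have hzero : ∑ i, aeval (jqModC (ZMod l)) (∑ a : Fin N, monomial (a : ℕ) (s ((p i).coeff a))) *
      coeffMap (Int.castRingHom (ZMod l)) (b i) = 0 := by
    ext n
    have h := congrArg (fun z : LaurentSeries (ResidueField A) => s (z.coeff n)) hexp
    simp only [HahnSeries.coeff_sum, HahnSeries.C_apply, HahnSeries.coeff_single_zero_mul,
      coeffMap_coeff, map_sum, HahnSeries.coeff_zero, map_zero] at h
    rw [HahnSeries.coeff_zero, ← h, HahnSeries.coeff_sum]
    refine Finset.sum_congr rfl fun i _ => ?_
    rw [map_sum, Finset.sum_mul, HahnSeries.coeff_sum]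
    refine Finset.sum_congr rfl fun a _ => ?_
    rw [aeval_monomial, algebraMap_laurent_eq_single, mul_assoc, HahnSeries.coeff_single_zero_mul,
      mul_comm ((p i).coeff _) _, ← Algebra.smul_def, map_smul, smul_eq_mul, mul_comm]
  have h := congrArg (fun q : (ZMod l)[X] => q.coeff a) (hb _ hzero i)
  rw [finsetSum_coeff] at h
  simp only [coeff_monomial] at h
  rw [Finset.sum_eq_single (⟨a, by omega⟩ : Fin N)
    (fun b _ hb => if_neg fun he => hb (Fin.ext he))
    (fun hn => absurd (Finset.mem_univ _) hn), if_pos rfl, coeff_zero] at h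
  exact h

include hA in
/-- Residual independence gives independence over `Qbar(j)`. -/
theorem linearIndependent_bar {n : ℕ} (e : Fin n → LaurentSeries A)
    (he : ∀ p : Fin n → (ResidueField A)[X],
      ∑ i, aeval (jqModC (ResidueField A)) (p i) * coeffMap (residue A) (e i) = 0 → ∀ i, p i = 0)
    (p : Fin n → Qbar[X])
    (hp : ∑ i, aeval (jqModC Qbar) (p i) * iotaL A (e i) = 0) : ∀ i, p i = 0 := by
  by_contra hne
  obtain ⟨c, q, hc, hq, i, hi⟩ := exists_scale_polys A (residue A) p (not_forall.1 hne)
  refine hi (he (fun i => (q i).map (residue A)) ?_ i)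
  have h0 : (∑ i, aeval (jqModC A) (q i) * e i : LaurentSeries A) = 0 := by
    apply iotaL_injective
    rw [map_sum, map_zero, ← mul_zero (algebraMap Qbar (LaurentSeries Qbar) c), ← hp, Finset.mul_sum]
    refine Finset.sum_congr rfl fun i _ => ?_
    rw [map_mul, iotaL, coeffMap_aeval, hq, coeffMap_jqModC, map_mul, aeval_C, mul_assoc]
  have h := congrArg (coeffMap (residue A)) h0
  rw [map_sum, map_zero] at h
  refine Eq.trans (Finset.sum_congr rfl fun i _ => ?_) h
  rw [map_mul, coeffMap_aeval, coeffMap_jqModC]

theorem ratBase_coeffEmb {c : LaurentSeries ℚ} (hc : c ∈ Igusa.ratBase) :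
    coeffEmb Qbar c ∈ Qbar⟮jqModC Qbar⟯ := by
  induction hc using IntermediateField.adjoin_induction with
  | mem y hy =>
    rw [Set.mem_singleton_iff.1 hy, ← jqModC_rat, coeffEmb, coeffMap_jqModC]
    exact IntermediateField.mem_adjoin_simple_self _ _
  | algebraMap r =>
    rw [coeffEmb, algebraMap_laurent_eq_single, coeffMap_single, ← algebraMap_laurent_eq_single]
    exact IntermediateField.algebraMap_mem _ _
  | add y z _ _ hy hz => rw [map_add]; exact add_mem hy hz
  | inv y _ hy => rw [map_inv₀]; exact inv_mem hy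
  | mul y z _ _ hy hz => rw [map_mul]; exact mul_mem hy hz

/-- The modular function field lies in a space of dimension at most `ψ(M)` over `Qbar(j)`. -/
theorem exists_span_bar (hlM : ¬ l ∣ M) :
    ∃ b : Fin (Igusa.psiProd M) → LaurentSeries Qbar, ∀ y ∈ modularFunctionFieldBar M,
      y ∈ Submodule.span Qbar⟮jqModC Qbar⟯ (Set.range b) := by
  classical
  obtain ⟨b, -, -, hspan⟩ := Igusa.exists_gauss_basis M l hlM
  refine ⟨fun i => coeffEmb Qbar (b i), fun y hy => ?_⟩
  set E := Qbar⟮jqModC Qbar⟯
  set S := Submodule.span E (Set.range fun i => coeffEmb Qbar (b i))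
  set R : Subalgebra E (LaurentSeries Qbar) :=
    Algebra.adjoin E (coeffEmb Qbar '' (modularFunctionFieldFull M : Set (LaurentSeries ℚ)))
  have himg : ∀ z ∈ modularFunctionFieldFull M, coeffEmb Qbar z ∈ S := fun z hz => by
    obtain ⟨c, rfl, -⟩ := hspan z hz
    rw [map_sum]
    exact Submodule.sum_mem _ fun i _ => by
      rw [map_mul]
      exact Submodule.smul_mem S (⟨_, ratBase_coeffEmb (c i).2⟩ : E) (Submodule.subset_span ⟨i, rfl⟩)
  have hRS : R.toSubmodule ≤ S := by
    rw [Algebra.adjoin_eq_span]
    refine Submodule.span_le.2 fun z hz => ?_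
    have hsub : (coeffEmb Qbar '' (modularFunctionFieldFull M : Set (LaurentSeries ℚ))) ⊆
        ((modularFunctionFieldFull M).toSubalgebra.toSubring.toSubmonoid.map
          (coeffEmb Qbar : LaurentSeries ℚ →* LaurentSeries Qbar) : Set (LaurentSeries Qbar)) := by
      rintro w ⟨v, hv, rfl⟩
      exact ⟨v, hv, rfl⟩
    have : z ∈ (modularFunctionFieldFull M).toSubalgebra.toSubring.toSubmonoid.map
        (coeffEmb Qbar : LaurentSeries ℚ →* LaurentSeries Qbar) :=
      (Submonoid.closure_le.2 hsub) hz
    obtain ⟨v, hv, rfl⟩ := this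
    exact himg v hv
  have : FiniteDimensional E S := FiniteDimensional.span_of_finite E (Set.finite_range _)
  have hfin : Module.Finite E R :=
    Module.Finite.of_injective (Submodule.inclusion hRS) (Submodule.inclusion_injective hRS)
  have halg : ∀ z ∈ R, IsAlgebraic E z := fun z hz =>
    ((Algebra.IsIntegral.isIntegral (R := E) (⟨z, hz⟩ : R)).map R.val).isAlgebraic
  let T : IntermediateField E (LaurentSeries Qbar) := R.toIntermediateField fun z hz => by
    exact R.inv_mem_of_algebraic (x := ⟨z, hz⟩) (halg z hz)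
  have hle : modularFunctionFieldBar M ≤ T.restrictScalars Qbar :=
    IntermediateField.adjoin_le_iff.2 fun z hz => Algebra.subset_adjoin hz
  exact hRS (hle hy)

/-- Elements of `L(x)` cleared of denominators. -/
theorem exists_clear_denom {K E : Type*} [Field K] [Field E] [Algebra K E] {n : ℕ} {x : E}
    (hx : Transcendental K x) (c : Fin n → K⟮x⟯) :
    ∃ (p : Fin n → K[X]) (q : K[X]), q ≠ 0 ∧ ∀ i, (c i : E) * aeval x q = aeval x (p i) := by
  classical
  have h : ∀ i, ∃ r s : K[X], s ≠ 0 ∧ (c i : E) * aeval x s = aeval x r := fun i => by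
    obtain ⟨r, s, hrs⟩ := (IntermediateField.mem_adjoin_simple_iff K (c i : E)).1 (c i).2
    rcases eq_or_ne s 0 with rfl | hs
    · exact ⟨0, 1, one_ne_zero, by rw [hrs]; simp⟩
    · exact ⟨r, s, hs, by
        rw [hrs, div_mul_cancel₀ _ fun h0 => hs (transcendental_iff.1 hx _ h0)]⟩
  choose r s hs hrs using h
  refine ⟨fun i => r i * ∏ j ∈ Finset.univ.erase i, s j, ∏ j, s j,
    Finset.prod_ne_zero_iff.2 fun j _ => hs j, fun i => ?_⟩
  rw [← Finset.mul_prod_erase Finset.univ s (Finset.mem_univ i), map_mul, map_mul, ← mul_assoc, hrs]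

include hA in
/-- The basis for the Gauss datum of level `M`. -/
theorem exists_gaussBasis (hlM : ¬ l ∣ M) :
    ∃ G : GaussBasis (residue A) (modularFunctionFieldBar M)
      (modularFunctionFieldFullC (ResidueField A) M) (Igusa.psiProd M), G.x = jqModC A := by
  classical
  obtain ⟨bz, hbz⟩ := Igusa.exists_independent_reductions M l hlM
  set e : Fin (Igusa.psiProd M) → LaurentSeries A := fun i => intA A (bz i : LaurentSeries ℤ)
  have hx : iotaL A (jqModC A) = jqModC Qbar := coeffMap_jqModC _
  have hxb : coeffMap (residue A) (jqModC A) = jqModC (ResidueField A) := coeffMap_jqModC _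
  have hind : ∀ p : Fin (Igusa.psiProd M) → (ResidueField A)[X],
      ∑ i, aeval (jqModC (ResidueField A)) (p i) * coeffMap (residue A) (e i) = 0 →
        ∀ i, p i = 0 := fun p hp =>
    indep_residue A hA (fun i => (bz i : LaurentSeries ℤ)) hbz p (by
      simpa only [e, residue_intA] using hp)
  obtain ⟨b, hb⟩ := exists_span_bar (l := l) M hlM
  set E := Qbar⟮jqModC Qbar⟯
  have hspan : ∀ y ∈ modularFunctionFieldBar M,
      ∃ c : Fin (Igusa.psiProd M) → E, ∑ i, c i • iotaL A (e i) = y := by
    intro y hy
    rw [← Submodule.mem_span_range_iff_exists_fun]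
    have hli : LinearIndependent E fun i => iotaL A (e i) := by
      rw [Fintype.linearIndependent_iff]
      intro c hc i
      obtain ⟨p, q, hq, hpq⟩ := exists_clear_denom (transcendental_jqModC Qbar) c
      have h0 := linearIndependent_bar A hA e hind p (by
        refine Eq.trans ?_ ((congrArg (· * aeval (jqModC Qbar) q) hc).trans (zero_mul _))
        rw [Finset.sum_mul]
        refine Finset.sum_congr rfl fun i _ => ?_
        rw [← hpq, Algebra.smul_def]
        show _ = ((c i : LaurentSeries Qbar) * _) * _
        ring) i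
      have h1 := hpq i
      rw [h0, map_zero, mul_eq_zero] at h1
      exact Subtype.ext (h1.resolve_right fun h =>
        hq (transcendental_iff.1 (transcendental_jqModC Qbar) _ h))
    set S := Submodule.span E (Set.range b)
    have hle : Submodule.span E (Set.range fun i => iotaL A (e i)) ≤ S :=
      Submodule.span_le.2 (Set.range_subset_iff.2 fun i => hb _ (intA_mem_bar A M (bz i)))
    have : FiniteDimensional E S := FiniteDimensional.span_of_finite E (Set.finite_range b)
    have heq : Submodule.span E (Set.range fun i => iotaL A (e i)) = S := by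
      refine Submodule.eq_of_le_of_finrank_le hle ?_
      rw [finrank_span_eq_card hli]
      exact finrank_range_le_card b
    rw [heq]
    exact hb y hy
  refine ⟨⟨jqModC A, e, ?_, ?_, fun i => intA_mem_bar A M (bz i), fun i => intA_mem_fullC A M (bz i),
    hxb ▸ transcendental_jqModC _, ?_, ?_, ?_⟩, rfl⟩
  · have := intA_mem_bar A M ⟨qExpand ℤ 1 (jqModC ℤ),
      Subring.subset_closure ⟨1, inferInstance, one_dvd _, rfl⟩⟩
    simpa [qExpand_one_apply, intSeries_jqModC] using this
  · rw [hxb]; exact jqModC_mem_full _ M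
  · intro p hp
    rw [hxb] at hp
    exact hind p hp
  · intro y hy
    obtain ⟨c, rfl⟩ := hspan y hy
    obtain ⟨p, q, hq, hpq⟩ := exists_clear_denom (transcendental_jqModC Qbar) c
    refine ⟨p, q, hq, ?_⟩
    rw [hx, Finset.sum_mul]
    refine Finset.sum_congr rfl fun i _ => ?_
    rw [← hpq, Algebra.smul_def]
    show ((c i : LaurentSeries Qbar) * _) * _ = _
    ring
  · intro z hz
    induction hz using IntermediateField.adjoin_induction with
    | mem w hw =>
      obtain ⟨d, hd0, hd, rfl⟩ := hw
      have hm := intA_mem_bar A M ⟨qExpand ℤ d (jqModC ℤ),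
        Subring.subset_closure ⟨d, hd0, hd, rfl⟩⟩
      refine ⟨intA A (qExpand ℤ d (jqModC ℤ)), 1, by rw [map_one]; exact one_ne_zero,
        by rw [map_one, div_one]; exact hm, ?_⟩
      rw [map_one, mul_one, residue_intA, coeffMap_qExpand, coeffMap_jqModC]
    | algebraMap r =>
      obtain ⟨r, rfl⟩ := residue_surjective r
      refine ⟨algebraMap A _ r, 1, by rw [map_one]; exact one_ne_zero, ?_, ?_⟩
      · rw [map_one, div_one, iotaL, coeffMap_algebraMap_laurent]
        exact IntermediateField.algebraMap_mem _ _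
      · rw [map_one, mul_one, coeffMap_algebraMap_laurent]
    | add u v _ _ hu hv =>
      obtain ⟨a, b, hb, hab, hu⟩ := hu
      obtain ⟨a', b', hb', hab', hv⟩ := hv
      have hne : ∀ {w : LaurentSeries A}, coeffMap (residue A) w ≠ 0 → iotaL A w ≠ 0 :=
        fun hw h => hw (by rw [iotaL_injective (h.trans (map_zero _).symm), map_zero])
      refine ⟨a * b' + a' * b, b * b', by rw [map_mul]; exact mul_ne_zero hb hb', ?_, ?_⟩
      · rw [map_add, map_mul, map_mul, map_mul, mul_comm (iotaL A a') (iotaL A b),
          ← div_add_div _ _ (hne hb) (hne hb')]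
        exact add_mem hab hab'
      · rw [map_add, map_mul, map_mul, map_mul, ← hu, ← hv]; ring
    | inv u _ hu =>
      obtain ⟨a, b, hb, hab, hu⟩ := hu
      rcases eq_or_ne u 0 with rfl | hu0
      · exact ⟨0, 1, by rw [map_one]; exact one_ne_zero, by simp, by simp⟩
      refine ⟨b, a, by rw [← hu]; exact mul_ne_zero hu0 hb, ?_, ?_⟩
      · rw [← inv_div]; exact inv_mem hab
      · rw [← hu, inv_mul_cancel_left₀ hu0]
    | mul u v _ _ hu hv =>
      obtain ⟨a, b, hb, hab, hu⟩ := hu
      obtain ⟨a', b', hb', hab', hv⟩ := hv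
      refine ⟨a * a', b * b', by rw [map_mul]; exact mul_ne_zero hb hb', ?_, ?_⟩
      · rw [map_mul, map_mul, mul_div_mul_comm]; exact mul_mem hab hab'
      · rw [map_mul, map_mul, ← hu, ← hv]; ring

/-- The Gauss basis of level `M`. -/
def x0Basis (hlM : ¬ l ∣ M) : GaussBasis (residue A) (modularFunctionFieldBar M)
    (modularFunctionFieldFullC (ResidueField A) M) (Igusa.psiProd M) :=
  (exists_gaussBasis A hA M hlM).choose

theorem x0Basis_x (hlM : ¬ l ∣ M) : (x0Basis A hA M hlM).x = jqModC A :=
  (exists_gaussBasis A hA M hlM).choose_spec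

/-- The Gauss reduction datum of level `M`. -/
def x0Datum (hlM : ¬ l ∣ M) : RedDatum A (residue A) (modularFunctionFieldBar M)
    (modularFunctionFieldFullC (ResidueField A) M) :=
  (x0Basis A hA M hlM).datum (isResidueMap_residue A)

end FLTAgent.GoodRed
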