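import Fermat.Agent.GoodRed.Cover
import Fermat.Agent.GoodRed.Genus
import Mathlib.RingTheory.Nakayama

/-!
# Descent of good reduction along a cover

A residue field whose cover has a reduction of places has the same genus as its lift: reductions
of functions regular off the poles of a coordinate fill the regular functions, by Nakayama.
-/

set_option autoImplicit false
set_option linter.unusedSectionVars false
set_option linter.unusedVariables false

noncomputable section

open AlgebraicCurve Polynomial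
open scoped IntermediateField

namespace FLTAgent.GoodRed

open FLTAgent.FunctionField RedDatum

section Regular

variable {K F : Type*} [Field K] [IsAlgClosed K] [Field F] [Algebra K F] [IsFunctionField K F]
  {x : F} [FiniteDimensional K⟮x⟯ F]

theorem exists_finite_place_over (hx : Transcendental K x) {p : Place K F} (hp : 0 ≤ p.ord x) :
    ∃ q : Place K F, 0 ≤ q.ord x ∧ q ≠ p := by
  obtain ⟨a, ha⟩ := exists_value_finite hp
  obtain ⟨b, hb⟩ := Infinite.exists_notMem_finset ({a} : Finset K)
  have hne : x - algebraMap K F b ≠ 0 := sub_algebraMap_ne_zero hx b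
  have ht : Transcendental K (x - algebraMap K F b) := fun h =>
    hx (by simpa using h.add (isAlgebraic_algebraMap b))
  have hdeg := degree_zeroDivisor (K := K) ht
  have := finiteDimensional_adjoin_of_transcendental ht
  obtain ⟨q, hq⟩ : ∃ q : Place K F, 0 < q.ord (x - algebraMap K F b) := by
    by_contra hall
    push Not at hall
    have h0 : zeroDivisor (K := K) (x - algebraMap K F b) = 0 := Finsupp.ext fun v => by
      rw [zeroDivisor_apply, max_eq_right (hall v)]; rfl
    rw [h0, map_zero] at hdeg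
    have := Module.finrank_pos (R := K⟮x - algebraMap K F b⟯) (M := F)
    omega
  refine ⟨q, ord_nonneg_of_coordSub_pos (a := b) (by rwa [coe_coordSub]), fun h => ?_⟩
  subst h
  rw [ord_sub_eq_zero ha (fun e => hb (Finset.mem_singleton.2 e))] at hq
  omega

/-- A regular function, a unit at `v₀`, vanishing to high order at given other finite places. -/
theorem exists_reg_unit (hx : Transcendental K x) {v₀ : Place K F} (hv₀ : 0 ≤ v₀.ord x)
    (P : Finset (Place K F)) (hP : v₀ ∉ P) (hPx : ∀ v ∈ P, 0 ≤ v.ord x) (N : ℕ) :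
    ∃ a ∈ finReg K x, a ≠ 0 ∧ v₀.ord a = 0 ∧ ∀ v ∈ P, OrdGe v N a := by
  classical
  obtain ⟨b, hb⟩ := exists_value_finite hv₀
  have hpos := ord_pos_of_value hx hb
  set Sb : Finset (Place K F) := (finite_setOf_ord_pos (K := K) (x - algebraMap K F b)).toFinset
  have hv₀S : v₀ ∈ Sb := (finite_setOf_ord_pos (K := K) _).mem_toFinset.2 hpos
  obtain ⟨z, hz⟩ := exists_ordGe_sub (insert v₀ (P ∪ Sb))
    (fun v => if v = v₀ then 1 else 0) (fun v => if v = v₀ then 1 else (N : ℤ))
  have hzv : OrdGe v₀ 1 (z - 1) := by simpa using hz v₀ (Finset.mem_insert_self _ _)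
  have hzw : ∀ v ∈ P ∪ Sb, v ≠ v₀ → OrdGe v N z := fun v hv hne => by
    simpa [hne] using hz v (Finset.mem_insert_of_mem hv)
  have hreg : ∀ v : Place K F, 0 < v.ord (x - algebraMap K F b) → OrdGe v 0 z := by
    intro v hv
    rcases eq_or_ne v v₀ with rfl | hne
    · have h1 : OrdGe v 0 (1 : F) := ordGe_of_le_ord (by simp)
      simpa using (hzv.mono zero_le_one).add h1
    · exact (hzw v (Finset.mem_union_right _ ((finite_setOf_ord_pos (K := K) _).mem_toFinset.2 hv))
        hne).mono (by omega)
  obtain ⟨h, hh, hzh⟩ := exists_reg_congr hx b hreg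
  have h5 : OrdGe v₀ 1 (aeval x h - 1) := by
    obtain ⟨q, hq⟩ := X_sub_C_dvd_sub_C_eval (a := b) (p := h)
    have : aeval x h - 1 = (x - algebraMap K F b) * aeval x q := by
      have := congrArg (aeval x) hq
      rwa [hh, map_sub, map_one (C : K →+* K[X]), map_one, map_mul, map_sub, aeval_X, aeval_C]
        at this
    rw [this]
    exact ((ordGe_ord (v := v₀) _).mul (aeval_mem_finReg x q v₀ hv₀)).mono (by omega)
  have h6 : OrdGe v₀ 1 (z * aeval x h - 1) := by
    rw [show z * aeval x h - 1 = (z - 1) * aeval x h + (aeval x h - 1) by ring]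
    exact (by simpa using hzv.mul (aeval_mem_finReg x h v₀ hv₀) :
      OrdGe v₀ 1 ((z - 1) * aeval x h)).add h5
  have h7 := ord_eq_of_ordGe_sub (v := v₀) h6 one_ne_zero (by simp)
  refine ⟨_, hzh, h7.1, by simpa using h7.2, fun v hv => ?_⟩
  simpa using (hzw v (Finset.mem_union_left _ hv) (fun e => hP (e ▸ hv))).mul
    (aeval_mem_finReg x h v (hPx v hv))

/-- A set closed under the operations and vanishing identically at no finite place has `1`. -/
theorem one_mem_of_forall_place (hx : Transcendental K x) (I : Submodule K F)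
    (hmul : ∀ a ∈ I, ∀ r ∈ finReg K x, r * a ∈ I)
    (hne : ∀ v : Place K F, 0 ≤ v.ord x → ∃ a ∈ I, ¬ OrdGe v 1 a) : (1 : F) ∈ I := by
  classical
  -- the polynomials in `I`
  let J : Ideal K[X] :=
    { carrier := {p | aeval x p ∈ I}
      zero_mem' := by simp
      add_mem' := fun {p q} hp hq => by
        show aeval x (p + q) ∈ I
        rw [map_add]; exact add_mem hp hq
      smul_mem' := fun p q hq => by
        show aeval x (p * q) ∈ I
        rw [map_mul]; exact hmul _ hq _ (aeval_mem_finReg x p) }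
  have hkey : ∀ b : K, ∃ p ∈ J, p.eval b ≠ 0 := by
    intro b
    set Sb : Finset (Place K F) := (finite_setOf_ord_pos (K := K) (x - algebraMap K F b)).toFinset
    have hSb : ∀ v ∈ Sb, 0 ≤ v.ord x := fun v hv => ord_nonneg_of_coordSub_pos (a := b) (by
      rw [coe_coordSub]
      exact (finite_setOf_ord_pos (K := K) _).mem_toFinset.1 hv)
    rcases Sb.eq_empty_or_nonempty with he | ⟨v₁, hv₁⟩
    · -- cannot happen, but `I` is then enough
      obtain ⟨h, hh, hzh⟩ := exists_reg_congr (K := K) hx b (z := (0 : F))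
        (fun v _ => ordGe_zero _)
      exfalso
      have ht : Transcendental K (x - algebraMap K F b) := fun h' =>
        hx (by simpa using h'.add (isAlgebraic_algebraMap b))
      have hdeg := degree_zeroDivisor (K := K) ht
      have := finiteDimensional_adjoin_of_transcendental ht
      have h0 : zeroDivisor (K := K) (x - algebraMap K F b) = 0 := Finsupp.ext fun v => by
        rw [zeroDivisor_apply, max_eq_right (not_lt.1 fun hv => ?_)]
        · rfl
        · have : v ∈ Sb := (finite_setOf_ord_pos (K := K) _).mem_toFinset.2 hv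
          rw [he] at this
          simp at this
      rw [h0, map_zero] at hdeg
      have := Module.finrank_pos (R := K⟮x - algebraMap K F b⟯) (M := F)
      omega
    let U : Sb → Submodule K I := fun v =>
      { carrier := {a | OrdGe v.1 1 (a : F)}
        zero_mem' := ordGe_zero _
        add_mem' := fun ha hb => ha.add hb
        smul_mem' := fun t a ha => by
          show OrdGe _ _ ((t • a : I) : F)
          rw [Submodule.coe_smul, Algebra.smul_def]
          simpa using (ordGe_algebraMap t).mul ha }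
    have hU : ∀ v, U v ≠ ⊤ := fun v htop => by
      obtain ⟨a, ha, hna⟩ := hne v.1 (hSb v.1 v.2)
      exact hna (show (⟨a, ha⟩ : I) ∈ U v by rw [htop]; trivial)
    obtain ⟨⟨a, ha⟩, hau⟩ := Submodule.exists_forall_notMem_of_forall_ne_top U hU
    have ha0 : a ≠ 0 := fun h0 => hau ⟨v₁, hv₁⟩ (show OrdGe v₁ 1 a by rw [h0]; exact ordGe_zero _)
    have hinv : ∀ v : Place K F, 0 < v.ord (x - algebraMap K F b) → OrdGe v 0 a⁻¹ := by
      intro v hv
      have hmem : v ∈ Sb := (finite_setOf_ord_pos (K := K) _).mem_toFinset.2 hv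
      have h1 : ¬ OrdGe v 1 a := hau ⟨v, hmem⟩
      rw [ordGe_iff_of_ne_zero ha0] at h1
      exact ordGe_of_le_ord (by rw [v.ord_inv]; omega)
    obtain ⟨h, hh, hr⟩ := exists_reg_congr hx b hinv
    refine ⟨h, ?_, by rw [hh]; exact one_ne_zero⟩
    show aeval x h ∈ I
    have := hmul a ha _ hr
    rwa [mul_right_comm, inv_mul_cancel₀ ha0, one_mul] at this
  have hJ : J = ⊤ := by
    by_contra hJ
    obtain ⟨M, hM, hJM⟩ := J.exists_le_maximal hJ
    obtain ⟨p, rfl⟩ := IsPrincipalIdealRing.principal M
    have hp0 : p ≠ 0 := by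
      rintro rfl
      obtain ⟨q, hq, hq0⟩ := hkey 0
      have := hJM hq
      rw [Ideal.submodule_span_eq, Ideal.mem_span_singleton, zero_dvd_iff] at this
      exact hq0 (by simp [this])
    have hp : Irreducible p := ((Ideal.span_singleton_prime hp0).1 hM.isPrime).irreducible
    obtain ⟨b, hb⟩ := IsAlgClosed.exists_root p (ne_of_gt (degree_pos_of_irreducible hp))
    obtain ⟨q, hq, hq0⟩ := hkey b
    have := hJM hq
    rw [Ideal.submodule_span_eq, Ideal.mem_span_singleton] at this
    exact hq0 (eval_eq_zero_of_dvd_of_eval_eq_zero this hb)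
  have h1 : (1 : K[X]) ∈ J := hJ ▸ trivial
  have h2 : aeval x (1 : K[X]) ∈ I := h1
  rwa [map_one] at h2

/-- Finitely many regular functions generate the regular functions over `K[x]`. -/
theorem Chart.exists_generators {n m : ℕ} (H : Chart K x n m) :
    ∃ G : Finset F, (↑G : Set F) ⊆ finReg K x ∧ ∀ M : AddSubmonoid F, (↑G : Set F) ⊆ M →
      (∀ (p : K[X]), ∀ g ∈ M, aeval x p * g ∈ M) → ∀ {w : F}, w ∈ finReg K x → w ∈ M := by
  classical
  set b := Module.finBasis K H.num
  set f : H.Coord →ₗ[K] F := H.comb ∘ₗ H.val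
  refine ⟨Finset.univ.image (fun i => f (b i).1) ∪ Finset.univ.image H.e, ?_, ?_⟩
  · intro w hw
    rw [Finset.mem_coe, Finset.mem_union, Finset.mem_image, Finset.mem_image] at hw
    rcases hw with ⟨i, -, rfl⟩ | ⟨i, -, rfl⟩
    · exact (b i).2
    · exact H.e_reg i
  intro M hGM hM w hw
  obtain ⟨p, rfl⟩ := H.exists_comb hw
  rw [H.comb_eq_reduceD_add p]
  refine M.add_mem ?_ (sum_mem fun i _ => hM _ _ (hGM
    (Finset.mem_union_right _ (Finset.mem_image_of_mem _ (Finset.mem_univ _)))))
  have h : ((f ∘ₗ H.num.subtype) ⟨_, H.reduceD_mem_num hw⟩ : F) ∈ M := by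
    rw [← b.sum_repr ⟨_, H.reduceD_mem_num hw⟩, map_sum]
    refine sum_mem fun i _ => ?_
    rw [map_smul, Algebra.smul_def, ← aeval_C x]
    exact hM _ _ (hGM (Finset.mem_union_left _
      (Finset.mem_image_of_mem (fun i => f (b i).1) (Finset.mem_univ i))))
  exact h

end Regular

variable {L k : Type*} [Field L] [Field k] {A : ValuationSubring L} {π : A →+* k}
  {F Fb : Type*} [Field F] [Algebra L F] [Field Fb] [Algebra k Fb]
  [IsFunctionField L F] [IsFunctionField k Fb] [IsAlgClosed L] [IsAlgClosed k]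

variable (D : RedDatum A π F Fb) (x : F) {xb : Fb}

/-- Reductions of functions regular off the poles of `x`. -/
def redReg [FiniteDimensional L⟮x⟯ F] [FiniteDimensional k⟮xb⟯ Fb] (hx : D.Red x xb) :
    Subalgebra k Fb where
  carrier := {z | ∃ y ∈ finReg L x, D.Red y z}
  zero_mem' := ⟨0, zero_mem _, red_zero⟩
  one_mem' := ⟨1, one_mem_finReg, red_one⟩
  add_mem' := fun ⟨y, hy, hr⟩ ⟨y', hy', hr'⟩ => ⟨y + y', add_mem hy hy', hr.add hr'⟩
  mul_mem' := fun ⟨y, hy, hr⟩ ⟨y', hy', hr'⟩ => ⟨y * y', mul_mem_finReg hy hy', hr.mul hr'⟩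
  algebraMap_mem' r := by
    obtain ⟨a, rfl⟩ := D.isResidue.surj r
    exact ⟨algebraMap L F a, by simpa using aeval_mem_finReg x (C (a : L)), red_algebraMap a⟩

variable {D x}

set_option maxHeartbeats 1000000 in
/-- Separation by norms makes the reductions fill the regular functions. -/
theorem redReg_eq_finReg [FiniteDimensional L⟮x⟯ F] [FiniteDimensional k⟮xb⟯ Fb] {n m : ℕ}
    (hx : D.Red x xb) (hd : NoDefect L⟮x⟯ k⟮xb⟯ F Fb) (Hb : Chart k xb n m)
    (hsep : ∀ Q Q' : Place k Fb, 0 ≤ Q.ord xb → 0 ≤ Q'.ord xb → Q' ≠ Q →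
      ∃ y z, D.Red y z ∧ z ≠ 0 ∧ y ∈ finReg L x ∧ Q.ord z = 1 ∧ Q'.ord z = 0)
    {z : Fb} (hz : z ∈ finReg k xb) : z ∈ redReg D x hx := by
  classical
  set R := redReg D x hx
  have hRO : ∀ r : R, (r : Fb) ∈ finReg k xb := fun ⟨_, y, hy, hr⟩ =>
    red_mem_finReg hx Hb.transcendental hd hr hy
  let O : Submodule R Fb :=
    { carrier := (finReg k xb : Set Fb)
      zero_mem' := zero_mem _
      add_mem' := fun ha hb => add_mem ha hb
      smul_mem' := fun r a ha => mul_mem_finReg (hRO r) ha }
  have hxR : ∀ p : k[X], aeval xb p ∈ R := by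
    intro p
    have hxmem : xb ∈ R := ⟨x, by simpa using aeval_mem_finReg x (X : L[X]), hx⟩
    rw [aeval_eq_sum_range]
    exact sum_mem fun i _ => R.smul_mem (pow_mem hxmem i) _
  have hfgO : O.FG := by
    obtain ⟨G, hG, hgen⟩ := Hb.exists_generators
    refine ⟨G, le_antisymm (Submodule.span_le.2 hG) fun w hw => ?_⟩
    exact hgen (Submodule.span R (G : Set Fb)).toAddSubmonoid (fun g hg => Submodule.subset_span hg)
      (fun p g hg => Submodule.smul_mem (Submodule.span R (G : Set Fb)) ⟨_, hxR p⟩ hg) hw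
  -- conductors avoiding a given place
  have hcond : ∀ Q : Place k Fb, 0 ≤ Q.ord xb →
      ∃ r ∈ R, ¬ OrdGe Q 1 r ∧ ∀ w ∈ finReg k xb, r * w ∈ R := by
    intro Q hQ
    let P : Ideal R :=
      { carrier := {r | OrdGe Q 1 (r : Fb)}
        zero_mem' := ordGe_zero _
        add_mem' := fun ha hb => ha.add hb
        smul_mem' := fun r a ha => by
          show OrdGe Q 1 ((r : Fb) * (a : Fb))
          simpa using (hRO r Q hQ).mul ha }
    set PO : Submodule R Fb := P • O
    have hPOmem : ∀ (r : R) (w : Fb), r ∈ P → w ∈ finReg k xb → (r : Fb) * w ∈ PO :=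
      fun r w hr hw => Submodule.smul_mem_smul hr (show w ∈ O from hw)
    have hPOO : ∀ r ∈ finReg k xb, ∀ w ∈ PO, r * w ∈ PO := by
      intro r hr w hw
      refine Submodule.smul_induction_on hw (fun a ha b hb => ?_)
        (fun a b ha hb => by rw [mul_add]; exact add_mem ha hb)
      rw [show r * (a • b) = (a : Fb) * (r * b) from mul_left_comm r (a : Fb) b]
      exact hPOmem a _ ha (mul_mem_finReg hr hb)
    -- functions vanishing at `Q`
    have hvan : ∀ y ∈ finReg k xb, OrdGe Q 1 y → y ∈ PO := by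
      intro y hy hy1
      let I : Submodule k Fb :=
        { carrier := {a | a ∈ finReg k xb ∧ a * y ∈ PO}
          zero_mem' := ⟨zero_mem _, by rw [zero_mul]; exact zero_mem _⟩
          add_mem' := fun ha hb => ⟨add_mem ha.1 hb.1, by rw [add_mul]; exact add_mem ha.2 hb.2⟩
          smul_mem' := fun t a ha => ⟨Submodule.smul_mem _ t ha.1, by
            rw [Algebra.smul_def, mul_assoc]
            exact hPOO _ (by simpa using aeval_mem_finReg xb (C t)) _ ha.2⟩ }
      suffices h : (1 : Fb) ∈ I by simpa using h.2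
      refine one_mem_of_forall_place Hb.transcendental I
        (fun a ha r hr => ⟨mul_mem_finReg hr ha.1, by rw [mul_assoc]; exact hPOO r hr _ ha.2⟩)
        fun V hV => ?_
      rcases eq_or_ne V Q with rfl | hne
      · obtain ⟨Q', hQ', hne'⟩ := exists_finite_place_over Hb.transcendental hV
        obtain ⟨u, f, hf, hf0, hu, hf1, -⟩ := hsep V Q' hV hQ' hne'
        set Z : Finset (Place k Fb) :=
          (finite_setOf_ord_pos (K := k) f).toFinset.filter fun v => 0 ≤ v.ord xb ∧ v ≠ V
        obtain ⟨N, hN⟩ : ∃ N : ℕ, ∀ v : Place k Fb, v.ord f ≤ N := by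
          refine ⟨(Divisor.degree (zeroDivisor (K := k) f)).toNat, fun v => ?_⟩
          have h1 := apply_le_degree (zeroDivisor_nonneg f) v
          rw [zeroDivisor_apply] at h1
          omega
        obtain ⟨a, ha, ha0, haV, haZ⟩ := exists_reg_unit Hb.transcendental hV Z
          (fun h => (Finset.mem_filter.1 h).2.2 rfl) (fun v hv => (Finset.mem_filter.1 hv).2.1) N
        refine ⟨a, ⟨ha, ?_⟩, fun h => by have := h.le_ord ha0; omega⟩
        have hq : a * y / f ∈ finReg k xb := by
          intro v hv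
          rw [div_eq_mul_inv]
          rcases eq_or_ne v V with rfl | hvV
          · exact (((ha v hv).mul hy1).mul (ordGe_ord (v := v) f⁻¹)).mono
              (by rw [v.ord_inv]; omega)
          by_cases hfv : 0 < v.ord f
          · have hvZ : v ∈ Z := Finset.mem_filter.2
              ⟨(finite_setOf_ord_pos (K := k) f).mem_toFinset.2 hfv, hv, hvV⟩
            exact (((haZ v hvZ).mul (hy v hv)).mul (ordGe_ord (v := v) f⁻¹)).mono
              (by rw [v.ord_inv]; have := hN v; omega)
          · exact (((ha v hv).mul (hy v hv)).mul (ordGe_ord (v := v) f⁻¹)).mono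
              (by rw [v.ord_inv]; omega)
        rw [show a * y = f * (a * y / f) by field_simp]
        exact hPOmem ⟨f, u, hu, hf⟩ _ (show OrdGe V 1 f from ordGe_of_le_ord (by omega)) hq
      · obtain ⟨u, f, hf, hf0, hu, hf1, hf2⟩ := hsep Q V hQ hV hne
        exact ⟨f, ⟨red_mem_finReg hx Hb.transcendental hd hf hu,
          hPOmem ⟨f, u, hu, hf⟩ y (show OrdGe Q 1 f from ordGe_of_le_ord (by omega)) hy⟩,
          fun h => by have := h.le_ord hf0; omega⟩
    -- Nakayama modulo `R`
    set N : Submodule R (Fb ⧸ (1 : Submodule R Fb)) := O.map (1 : Submodule R Fb).mkQ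
    have hNN : N ≤ P • N := by
      rintro _ ⟨w, hw, rfl⟩
      obtain ⟨t, ht⟩ := exists_value (hw Q hQ)
      have hwt : w - algebraMap k Fb t ∈ PO :=
        hvan _ (sub_mem hw (by simpa using aeval_mem_finReg xb (C t))) ht
      have h0 : (1 : Submodule R Fb).mkQ (algebraMap k Fb t) = 0 := by
        rw [Submodule.mkQ_apply, Submodule.Quotient.mk_eq_zero, Submodule.mem_one]
        exact ⟨⟨_, R.algebraMap_mem t⟩, rfl⟩
      rw [show N = O.map (1 : Submodule R Fb).mkQ from rfl, ← Submodule.map_smul'']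
      refine ⟨_, hwt, ?_⟩
      rw [map_sub, h0, sub_zero]
    obtain ⟨r, hr1, hr⟩ :=
      Submodule.exists_sub_one_mem_and_smul_eq_zero_of_fg_of_le_smul P N (hfgO.map _) hNN
    refine ⟨r, r.2, fun h => ?_, fun w hw => ?_⟩
    · have h1 : OrdGe Q 1 ((r : Fb) - 1) := hr1
      have h2 := h.sub h1
      rw [sub_sub_cancel] at h2
      have := h2.le_ord one_ne_zero
      simp at this
    · have := hr _ ⟨w, hw, rfl⟩
      rw [← map_smul, Submodule.mkQ_apply, Submodule.Quotient.mk_eq_zero, Submodule.mem_one]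
        at this
      obtain ⟨q, hq⟩ := this
      rw [show (r : Fb) * w = r • w from rfl, ← hq]
      exact q.2
  let C₀ : Submodule k Fb :=
    { carrier := {a | a ∈ finReg k xb ∧ ∀ w ∈ finReg k xb, a * w ∈ R}
      zero_mem' := ⟨zero_mem _, fun w _ => by rw [zero_mul]; exact zero_mem _⟩
      add_mem' := fun ha hb => ⟨add_mem ha.1 hb.1,
        fun w hw => by rw [add_mul]; exact add_mem (ha.2 w hw) (hb.2 w hw)⟩
      smul_mem' := fun t a ha => ⟨Submodule.smul_mem _ t ha.1, fun w hw => by
        rw [smul_mul_assoc]; exact R.smul_mem (ha.2 w hw) t⟩ }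
  have h1 : (1 : Fb) ∈ C₀ := by
    refine one_mem_of_forall_place Hb.transcendental C₀
      (fun a ha r hr => ⟨mul_mem_finReg hr ha.1, fun w hw => by
        rw [show r * a * w = a * (r * w) by ring]; exact ha.2 _ (mul_mem_finReg hr hw)⟩)
      fun V hV => ?_
    obtain ⟨r, hr, hr1, hr2⟩ := hcond V hV
    exact ⟨r, ⟨hRO ⟨r, hr⟩, hr2⟩, hr1⟩
  simpa using h1.2 z hz

theorem finrank_redCoord_le (hπ : IsResidueMap A π) {n : ℕ} (W : Submodule L (Fin n → L)) :
    Module.finrank k (redCoord π hπ W) ≤ Module.finrank L W := by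
  classical
  set b := Module.finBasis k (redCoord π hπ W)
  choose a ha hab using fun i => mem_redCoord.1 (b i).2
  have hli : LinearIndependent L (fun i => (⟨fun j => (a i j : L), ha i⟩ : W)) := by
    rw [Fintype.linearIndependent_iff]
    intro c hc i
    by_contra hi
    obtain ⟨j, hj, hjA⟩ := exists_max_valuation A c fun h => hi (congrFun h i)
    set c' : Fin _ → A := fun i => ⟨c i / c j, hjA i⟩
    have h0 : ∀ l, ∑ i, c' i * a i l = 0 := fun l => by
      refine Subtype.ext ?_
      push_cast
      have h := congrFun (congrArg Subtype.val hc) l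
      simp only [AddSubmonoidClass.coe_finsetSum, Finset.sum_apply, Submodule.coe_smul,
        Pi.smul_apply, smul_eq_mul, ZeroMemClass.coe_zero, Pi.zero_apply] at h
      calc ∑ i, c i / c j * (a i l : L) = (∑ i, c i * (a i l : L)) / c j := by
            rw [Finset.sum_div]; exact Finset.sum_congr rfl fun i _ => by ring
        _ = 0 := by rw [h, zero_div]
    have h1 : ∑ i, π (c' i) • b i = 0 := by
      refine Subtype.ext (funext fun l => ?_)
      simp only [AddSubmonoidClass.coe_finsetSum, Finset.sum_apply, Submodule.coe_smul,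
        Pi.smul_apply, smul_eq_mul, ZeroMemClass.coe_zero, Pi.zero_apply]
      have h2 := congrArg π (h0 l)
      rw [map_sum, map_zero] at h2
      refine Eq.trans (Finset.sum_congr rfl fun i _ => ?_) h2
      rw [map_mul, ← congrFun (hab i) l]
    have h2 := Fintype.linearIndependent_iff.1 b.linearIndependent _ h1 j
    rw [show c' j = 1 from Subtype.ext (div_self hj), map_one] at h2
    exact one_ne_zero h2
  simpa using hli.fintype_card_le_finrank

namespace Chart

variable [FiniteDimensional L⟮x⟯ F] [FiniteDimensional k⟮xb⟯ Fb] {n m : ℕ}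
  (H : Chart L x n m) (Hb : Chart k xb n m)

theorem finrank_num_ge (hx : D.Red x xb) (hd : NoDefect L⟮x⟯ k⟮xb⟯ F Fb) (hu : D.Red H.u Hb.u)
    (hfill : ∀ z ∈ finReg k xb, z ∈ redReg D x hx) :
    Module.finrank k Hb.num ≤ Module.finrank L H.num := by
  classical
  set eL := flatEquiv L n (gramDeg n m)
  set ek := flatEquiv k n (gramDeg n m)
  rw [← (eL.ofSubmodule' H.num).finrank_eq, ← (ek.ofSubmodule' Hb.num).finrank_eq]
  refine (Submodule.finrank_mono ?_).trans (finrank_redCoord_le D.isResidue _)
  intro zc hzc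
  rw [Submodule.mem_comap, mem_num] at hzc
  obtain ⟨y, hy, hyr⟩ := hfill _ hzc
  choose τ hτ using fun j : Fin n =>
    exists_trace_eq_ev H.transcendental (mul_mem_finReg hy (H.e_reg j))
  choose τb hτb using fun j : Fin n =>
    exists_trace_eq_ev Hb.transcendental (mul_mem_finReg hzc (Hb.e_reg j))
  choose q hq hqb using fun j => exists_lift_poly (p := τ j) (pb := τb j) hx Hb.transcendental (by
    have h := (compat_lineDatum hx Hb.transcendental).red_trace hd (hyr.mul (hu.pow (j : ℕ)))
    rw [show Algebra.trace L⟮x⟯ F (y * H.u ^ (j : ℕ)) = _ from hτ j,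
      show Algebra.trace k⟮xb⟯ Fb _ = _ from hτb j, lineDatum_red_iff, coe_ev, coe_ev] at h
    exact h)
  obtain ⟨DA, sol, hDA, hDAb, hsol⟩ := exists_solve_lift H Hb hx hd hu
  have hDm : DA.Monic := by
    exact Polynomial.monic_of_injective (f := A.subtype) Subtype.val_injective (hDA ▸ H.monic_D)
  have e1 : H.comb (fun i => (sol q i).map A.subtype) = y := by
    have : (fun i => (sol q i).map A.subtype) = H.solve τ := funext fun i => by
      rw [(hsol q).1 i]; simp only [hq]
    rw [this, H.comb_solve_eq hτ]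
  have e2 : (fun i => (sol q i).map π) = Hb.val (ek zc) := by
    refine Hb.comb_injective ?_
    have : (fun i => (sol q i).map π) = Hb.solve τb := funext fun i => by
      rw [(hsol q).2 i]; simp only [hqb]
    rw [this, Hb.comb_solve_eq hτb]
    rfl
  set r : Fin n → A[X] := fun i => sol q i %ₘ DA
  have hrdeg : ∀ i, (r i).map A.subtype ∈ degreeLT L (gramDeg n m) := fun i => by
    rw [map_modByMonic _ hDm, hDA]
    exact H.modByMonic_mem_degreeLT _
  refine mem_redCoord.2 ⟨fun l => (r (finProdFinEquiv.symm l).1).coeff (finProdFinEquiv.symm l).2,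
    ?_, funext fun l => ?_⟩
  · rw [Submodule.mem_comap]
    have h1 := H.reduceD_mem_num (p := fun i => (sol q i).map A.subtype) (by rw [e1]; exact hy)
    convert h1 using 1
    refine eL.eq_symm_apply.1 (funext fun l => ?_)
    show _ = (((H.reduceD _) (finProdFinEquiv.symm l).1 : degreeLT L _) : L[X]).coeff _
    rw [reduceD]
    simp only
    rw [← hDA, ← map_modByMonic _ hDm, coeff_map]
    rfl
  · have h2 := congrFun e2 (finProdFinEquiv.symm l).1
    rw [← coeff_map, map_modByMonic _ hDm, hDAb, h2, val_apply,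
      (modByMonic_eq_self_iff Hb.monic_D).2 (by
        rw [degree_eq_natDegree Hb.monic_D.ne_zero, Hb.natDegree_D]
        exact mem_degreeLT.1 (ek zc _).2)]
    conv_rhs => rw [← ek.symm_apply_apply zc]
    rfl

end Chart

/-- Equal numerators give equal genus. -/
theorem genusFF_eq_of_finrank_num_eq [FiniteDimensional L⟮x⟯ F] [FiniteDimensional k⟮xb⟯ Fb]
    {n m : ℕ} (H : Chart L x n m) (Hb : Chart k xb n m)
    (hnum : Module.finrank L H.num = Module.finrank k Hb.num) :
    genusFF L F = genusFF k Fb := by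
  obtain ⟨d₁, hd₁⟩ := exists_forall_finrank_H1_eq_zero (K := L) (F := F)
  obtain ⟨d₂, hd₂⟩ := exists_forall_finrank_H1_eq_zero (K := k) (F := Fb)
  obtain ⟨s, hs⟩ : ∃ s : ℕ, (n - 1) * m ≤ s ∧ d₁ ≤ (s : ℤ) ∧ d₂ ≤ (s : ℤ) :=
    ⟨(n - 1) * m + d₁.toNat + d₂.toNat, by omega, by omega, by omega⟩
  have hn : 0 < n := H.finrank_eq ▸ Module.finrank_pos
  have hT : Divisor.degree (s • zeroDivisor (K := L) x⁻¹) = s * n := by
    have h := degree_divisorOf (K := L) x
    rw [← zeroDivisor_sub_zeroDivisor_inv, map_sub, degree_zeroDivisor H.transcendental,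
      H.finrank_eq, sub_eq_zero] at h
    rw [map_nsmul, ← h, nsmul_eq_mul]
  have hTb : Divisor.degree (s • zeroDivisor (K := k) xb⁻¹) = s * n := by
    have h := degree_divisorOf (K := k) xb
    rw [← zeroDivisor_sub_zeroDivisor_inv, map_sub, degree_zeroDivisor Hb.transcendental,
      Hb.finrank_eq, sub_eq_zero] at h
    rw [map_nsmul, ← h, nsmul_eq_mul]
  have hsn : (s : ℤ) ≤ (s : ℤ) * n := by
    have : (1 : ℤ) ≤ n := by exact_mod_cast hn
    nlinarith
  have h1 := finrank_rr_eq_add L _ (hd₁ (s • zeroDivisor (K := L) x⁻¹) (by rw [hT]; omega))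
  have h2 := finrank_rr_eq_add k _ (hd₂ (s • zeroDivisor (K := k) xb⁻¹) (by rw [hTb]; omega))
  rw [H.finrank_rr hs.1, hT] at h1
  rw [Hb.finrank_rr hs.1, hTb] at h2
  rw [hnum] at h1
  omega

/-- **Descent.**  A cover with reduction of places forces equality of genus. -/
theorem genusFF_eq_of_cover {F' Fb' : Type*} [Field F'] [Algebra L F'] [Field Fb'] [Algebra k Fb']
    [Algebra F F'] [Algebra Fb Fb'] [IsScalarTower L F F'] [IsScalarTower k Fb Fb']
    [IsFunctionField L F'] [IsFunctionField k Fb'] [FiniteDimensional F F']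
    {D' : RedDatum A π F' Fb'} (h : CompatRed D D') (hd : NoDefect F Fb F' Fb')
    (R' : PlaceRed D') {g c₀ : ℤ} (hL : RRLarge L F' g c₀) (hk : RRLarge k Fb' g c₀)
    (hx : D.Red x xb) (hxb : Transcendental k xb) (hdx : NoDefect L⟮x⟯ k⟮xb⟯ F Fb)
    (hsep : Algebra.IsSeparable k⟮xb⟯ Fb) :
    genusFF L F = genusFF k Fb := by
  classical
  have hxt := transcendental_of_red hx hxb
  let := hsep
  have := finiteDimensional_adjoin_of_transcendental hxt
  have := finiteDimensional_adjoin_of_transcendental hxb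
  obtain ⟨c, m, n, hcharts⟩ := exists_charts hx hxb hdx ∅
  obtain ⟨i1, i2, H, Hb, hu, -⟩ := hcharts
  have hne : xb - algebraMap k Fb (π c) ≠ 0 := fun h =>
    hxb (by rw [sub_eq_zero.1 h]; exact isAlgebraic_algebraMap _)
  have ht := (hx.sub (red_algebraMap c)).inv hne
  have hd' : NoDefect L⟮(x - algebraMap L F c)⁻¹⟯ k⟮(xb - algebraMap k Fb (π c))⁻¹⟯ F Fb := by
    show Module.finrank _ _ = _
    rw [Hb.finrank_eq, H.finrank_eq]
  refine genusFF_eq_of_finrank_num_eq H Hb (le_antisymm (Chart.finrank_num_le H Hb ht hd' hu)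
    (Chart.finrank_num_ge H Hb ht hd' hu fun z hz => redReg_eq_finReg ht hd' Hb
      (fun Q Q' hQ hQ' hne => exists_red_finReg_ord h hd R' hL hk ht Hb.transcendental hd'
        hQ hQ' hne) hz))

end FLTAgent.GoodRed
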