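import Fermat.Agent.GoodRed.X0Good
import Fermat.Agent.GoodRed.Descent

/-!
# Change of level and descent of good reduction
-/

set_option autoImplicit false
set_option linter.unusedSectionVars false
set_option synthInstance.maxHeartbeats 100000

noncomputable section

open Polynomial ModularCurve IsLocalRing AlgebraicCurve
open scoped IntermediateField

namespace FLTAgent.GoodRed

open FLTAgent.FunctionField

local notation "Qbar" => AlgebraicClosure ℚ

theorem modularFunctionFieldBar_le {N M : ℕ} [NeZero N] [NeZero M] (h : N ∣ M) :
    modularFunctionFieldBar N ≤ modularFunctionFieldBar M := by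
  refine IntermediateField.adjoin_le_iff.2 ?_
  rintro _ ⟨y, hy, rfl⟩
  exact coeffEmb_mem_laurentBaseChange _ (full_degeneracy_le h hy)

section Inclusion

variable {K Ω : Type*} [Field K] [Field Ω] [Algebra K Ω] {E E' : IntermediateField K Ω}

/-- The algebra structure of an inclusion. -/
@[reducible]
def inclAlgebra (h : E ≤ E') : Algebra E E' :=
  (IntermediateField.inclusion h).toRingHom.toAlgebra

theorem isScalarTower_incl (h : E ≤ E') :
    letI := inclAlgebra h
    IsScalarTower K E E' := by
  let := inclAlgebra h
  exact IsScalarTower.of_algebraMap_eq fun a => Subtype.ext rfl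

theorem coe_algebraMap_incl (h : E ≤ E') (y : E) :
    letI := inclAlgebra h
    ((algebraMap E E' y : E') : Ω) = y :=
  rfl

end Inclusion

/-- Gauss data of nested fields of series are compatible. -/
theorem GaussBasis.compatRed {L k : Type*} [Field L] [Field k] {A : ValuationSubring L}
    {π : A →+* k} {F F' : IntermediateField L (LaurentSeries L)}
    {Fb Fb' : IntermediateField k (LaurentSeries k)} {n n' : ℕ} (G : GaussBasis π F Fb n)
    (G' : GaussBasis π F' Fb' n') (hπ : IsResidueMap A π) (hF : F ≤ F') (hFb : Fb ≤ Fb') :
    letI := inclAlgebra hF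
    letI := inclAlgebra hFb
    CompatRed (G.datum hπ) (G'.datum hπ) := by
  intro y z hyz
  obtain ⟨a, b, hr, hz⟩ := (G.red_iff hπ).1 hyz
  exact (G'.red_iff hπ).2 ⟨a, b, hr, hz⟩

variable (A : ValuationSubring (AlgebraicClosure ℚ)) {l : ℕ} [Fact l.Prime]
  (hA : A.LiesOverPrime l)

/-- The reduction data of two levels are compatible. -/
theorem compatRed_level {N M : ℕ} [NeZero N] [NeZero M] (h : N ∣ M) (hlN : ¬ l ∣ N)
    (hlM : ¬ l ∣ M) :
    letI := inclAlgebra (modularFunctionFieldBar_le h)
    letI := inclAlgebra (full_degeneracyC_le (ResidueField A) h)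
    CompatRed (x0Datum A hA N hlN) (x0Datum A hA M hlM) :=
  (x0Basis A hA N hlN).compatRed (x0Basis A hA M hlM) (isResidueMap_residue A)
    (modularFunctionFieldBar_le h) (full_degeneracyC_le (ResidueField A) h)

set_option maxHeartbeats 800000 in
include hA in
/-- Equality of genus descends to divisors of the level. -/
theorem genusFF_eq_x0_of_dvd {N M : ℕ} [NeZero N] [NeZero M] (h : N ∣ M) (hlM : ¬ l ∣ M)
    (hM : genusFF Qbar (modularFunctionFieldBar M) =
      genusFF (ResidueField A) (modularFunctionFieldFullC (ResidueField A) M)) :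
    genusFF Qbar (modularFunctionFieldBar N) =
      genusFF (ResidueField A) (modularFunctionFieldFullC (ResidueField A) N) := by
  have hlN : ¬ l ∣ N := fun hl => hlM (hl.trans h)
  have := isFunctionField_fullC A hA N hlN
  have := isFunctionField_fullC A hA M hlM
  have := isAlgClosed_residue A
  let := inclAlgebra (modularFunctionFieldBar_le h)
  let := inclAlgebra (full_degeneracyC_le (ResidueField A) h)
  have := isScalarTower_incl (modularFunctionFieldBar_le h)
  have := isScalarTower_incl (full_degeneracyC_le (ResidueField A) h)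
  set Gb := x0Basis A hA N hlN
  set Gm := x0Basis A hA M hlM
  have hxe : algebraMap (modularFunctionFieldBar N) (modularFunctionFieldBar M) (x0J A hA N hlN) =
      x0J A hA M hlM := Subtype.ext (by
    rw [coe_algebraMap_incl, coe_x0J, coe_x0J])
  have hxbe : algebraMap (modularFunctionFieldFullC (ResidueField A) N)
      (modularFunctionFieldFullC (ResidueField A) M) (x0Jb A hA N hlN) =
      x0Jb A hA M hlM := Subtype.ext (by
    rw [coe_algebraMap_incl, coe_x0Jb, coe_x0Jb])
  have : FiniteDimensional (modularFunctionFieldBar N) (modularFunctionFieldBar M) :=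
    finiteAlong_of_isFunctionField (IntermediateField.inclusion (modularFunctionFieldBar_le h))
  have : FiniteDimensional (modularFunctionFieldFullC (ResidueField A) N)
      (modularFunctionFieldFullC (ResidueField A) M) :=
    finiteAlong_of_isFunctionField
      (IntermediateField.inclusion (full_degeneracyC_le (ResidueField A) h))
  obtain ⟨hN1, hN2, -⟩ := Gb.finrank_eq (isResidueMap_residue A)
  obtain ⟨hM1, hM2, -⟩ := Gm.finrank_eq (isResidueMap_residue A)
  have e1 := finrank_adjoin_map (K := Qbar) (F := modularFunctionFieldBar N)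
    (F' := modularFunctionFieldBar M) (x := x0J A hA N hlN)
  have e2 := finrank_adjoin_map (K := ResidueField A)
    (F := modularFunctionFieldFullC (ResidueField A) N)
    (F' := modularFunctionFieldFullC (ResidueField A) M) (x := x0Jb A hA N hlN)
  rw [hxe] at e1
  rw [hxbe] at e2
  rw [hN1, hM1] at e1
  rw [hN2, hM2] at e2
  have hn : 0 < Igusa.psiProd N := by
    have := Gb.finite_xF (isResidueMap_residue A)
    rw [← hN1]
    exact Module.finrank_pos
  have hd : NoDefect (modularFunctionFieldBar N) (modularFunctionFieldFullC (ResidueField A) N)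
      (modularFunctionFieldBar M) (modularFunctionFieldFullC (ResidueField A) M) :=
    Nat.eq_of_mul_eq_mul_left hn (e2.symm.trans e1)
  obtain ⟨⟨g, c, hL, hk⟩, ⟨R'⟩⟩ := exists_placeRed_x0_of_genus_eq A hA M hlM hM
  exact genusFF_eq_of_cover (compatRed_level A hA h hlN hlM) hd R' hL hk (red_x0J A hA N hlN)
    (transcendental_x0Jb A hA N hlN) (noDefect_x0J A hA N hlN) (isSeparable_x0Jb A hA N hlN)

end FLTAgent.GoodRed
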