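import Fermat.Agent.GoodRed.Tube

/-!
# Surjectivity of the reduction of places and moving of divisors
-/

set_option autoImplicit false
set_option linter.unusedSectionVars false

noncomputable section

open AlgebraicCurve

namespace FLTAgent.GoodRed

open FLTAgent.FunctionField RedDatum

theorem infinite_place (K F : Type*) [Field K] [Field F] [Algebra K F] [IsFunctionField K F] :
    Infinite (Place K F) := by
  refine not_finite_iff_infinite.1 fun h => ?_
  have := Fintype.ofFinite (Place K F)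
  obtain ⟨f, hf, hord⟩ := exists_forall_ord_eq (Finset.univ : Finset (Place K F)) (fun _ => 1)
  have h0 := degree_divisorOf (K := K) f
  rw [degree_eq_sum] at h0
  obtain ⟨v⟩ := exists_place (K := K) (F := F)
  have hpos : 0 < ∑ w ∈ (divisorOf (K := K) f).support, divisorOf f w * (w.deg : ℤ) := by
    refine Finset.sum_pos (fun w _ => ?_) ⟨v, ?_⟩
    · rw [divisorOf_apply, hord w (Finset.mem_univ _), one_mul]
      exact_mod_cast deg_pos w
    · rw [Finsupp.mem_support_iff, divisorOf_apply, hord v (Finset.mem_univ _)]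
      exact one_ne_zero
  omega

theorem exists_preimage_of_apply_ne_zero {α β : Type*} (r : α → β) {E : α →₀ ℤ} {b : β}
    (h : Finsupp.mapDomain r E b ≠ 0) : ∃ a, r a = b ∧ E a ≠ 0 := by
  classical
  have := Finsupp.mapDomain_support (f := r) (s := E) (Finsupp.mem_support_iff.2 h)
  obtain ⟨a, ha, hab⟩ := Finset.mem_image.1 this
  exact ⟨a, hab, Finsupp.mem_support_iff.1 ha⟩

variable {L k : Type*} [Field L] [Field k] {A : ValuationSubring L} {π : A →+* k}
  {F Fb : Type*} [Field F] [Algebra L F] [Field Fb] [Algebra k Fb]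
  [IsFunctionField L F] [IsFunctionField k Fb] [IsAlgClosed L] [IsAlgClosed k]
  {D : RedDatum A π F Fb} (R : PlaceRed D) {g c : ℤ}

/-- On a tube where the reduction has multiplicity one, an effective divisor is one point. -/
theorem eq_single_on_tube {E : Divisor L F} (hE : 0 ≤ E) {Q : Place k Fb}
    (h : Finsupp.mapDomain R.r E Q = 1) :
    ∃ P, R.r P = Q ∧ E P = 1 ∧ ∀ P', R.r P' = Q → P' ≠ P → E P' = 0 := by
  classical
  obtain ⟨P, hP, hEP⟩ := exists_preimage_of_apply_ne_zero R.r (by rw [h]; exact one_ne_zero)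
  have h0 : (0 : ℤ) ≤ E P := hE P
  have hle := mapDomain_le_apply R.r (E := E) (b := Q) (fun a _ => hE a) P hP
  have h1 : E P = 1 := by omega
  refine ⟨P, hP, h1, fun P' hP' hne => ?_⟩
  have hnn : ∀ a, R.r a = Q → 0 ≤ (E - Finsupp.single P 1 : Divisor L F) a := by
    intro a _
    rcases eq_or_ne a P with rfl | ha
    · rw [Finsupp.sub_apply, Finsupp.single_eq_same, h1]; norm_num
    · rw [Finsupp.sub_apply, Finsupp.single_eq_of_ne ha, sub_zero]; exact hE a
  have h2 := mapDomain_le_apply R.r hnn P' hP'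
  rw [Finsupp.mapDomain_sub, Finsupp.sub_apply, Finsupp.sub_apply, Finsupp.mapDomain_single, hP,
    Finsupp.single_eq_same, h, Finsupp.single_eq_of_ne hne, sub_zero, sub_self] at h2
  exact le_antisymm h2 (hE P')

variable (hL : RRLarge L F g c) (hk : RRLarge k Fb g c)
include hL hk

theorem exists_lift_at (Q : Place k Fb) (P' : Place L F) (hne : R.r P' ≠ Q) (n : ℕ)
    (hn : c + 2 ≤ n) :
    ∃ (y : F) (z : Fb), y ∈ riemannRochSpace (Finsupp.single P' (n : ℤ)) ∧ D.Red y z ∧ z ≠ 0 ∧
      Q.ord z = 1 := by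
  obtain ⟨z, hz, hz0, hzQ⟩ := hk.exists_ord_eq_neg
    (D := Finsupp.single (R.r P') (n : ℤ) - Finsupp.single Q 1)
    (by rw [map_sub, degree_single_one, Divisor.degree_single, deg_eq_one]; push_cast; omega) Q
  rw [Finsupp.sub_apply, Finsupp.single_eq_of_ne (Ne.symm hne), Finsupp.single_eq_same] at hzQ
  have hmem : z ∈ D.redSpace (riemannRochSpace (Finsupp.single P' (n : ℤ))) := by
    rw [R.redSpace_eq hL hk (by rw [Divisor.degree_single, deg_eq_one]; push_cast; omega),
      Finsupp.mapDomain_single]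
    exact riemannRochSpace_mono (sub_le_self _ (Finsupp.single_nonneg.2 zero_le_one)) hz
  obtain ⟨y, hy, hr⟩ := hmem
  exact ⟨y, z, hy, hr, hz0, by omega⟩

theorem exists_r_eq (Q : Place k Fb) : ∃ P, R.r P = Q := by
  classical
  obtain ⟨P'⟩ := exists_place (K := L) (F := F)
  by_contra hnone
  push Not at hnone
  obtain ⟨y, z, hy, hr, hz, hQ⟩ := exists_lift_at R hL hk Q P' (hnone P') (c + 2).toNat (by omega)
  have h := R.map_divisorOf y z hr hz
  obtain ⟨P, hP, -⟩ := exists_preimage_of_apply_ne_zero R.r (E := divisorOf y) (b := Q)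
    (by rw [h, divisorOf_apply, hQ]; exact one_ne_zero)
  exact hnone P hP

theorem exists_tubeParam (Q : Place k Fb) (P₁ : Place L F) (hP : R.r P₁ = Q) :
    Nonempty (TubeParam R Q P₁) := by
  classical
  have := infinite_place k Fb
  obtain ⟨Q', hQ'⟩ := exists_ne Q
  obtain ⟨P', hP'⟩ := exists_r_eq R hL hk Q'
  obtain ⟨y, z, hy, hr, hz, hQ⟩ :=
    exists_lift_at R hL hk Q P' (hP'.trans_ne hQ') (c + 2).toNat (by omega)
  have hreg : TReg R Q y := ⟨hr.mem, fun P hPQ => by
    have hne : P ≠ P' := fun h => hQ' (by rw [← hP', ← h, hPQ])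
    simpa [Finsupp.single_eq_of_ne hne] using mem_rr_iff.1 hy P⟩
  obtain ⟨a, ha⟩ := exists_value (hreg.2 P₁ hP)
  obtain ⟨hmem, hval⟩ := hreg.value hr hP ha
  have h0 : OrdGe Q 1 (z - algebraMap k Fb 0) := by
    rw [map_zero, sub_zero]; exact ordGe_of_le_ord (by omega)
  have ha0 := value_unique hval h0
  refine ⟨⟨y - algebraMap L F a, z, hP, hreg.sub (treg_algebraMap ⟨a, hmem⟩), ?_, hQ, ha⟩⟩
  have := hr.sub (red_algebraMap (D := D) ⟨a, hmem⟩)
  rwa [ha0, map_zero, sub_zero] at this

/-- A divisor class reducing to a principal one contains a difference of effective divisors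
with the same reduction. -/
theorem exists_effective_move {X D₀ : Divisor L F} (hX : Divisor.degree X = 0) (hD₀ : 0 ≤ D₀)
    (hd : c ≤ Divisor.degree D₀) {zb : Fb} (hzb : zb ≠ 0)
    (hr : Finsupp.mapDomain R.r X = divisorOf zb) :
    ∃ (y : F) (E : Divisor L F), y ≠ 0 ∧ 0 ≤ E ∧ E - D₀ = X + divisorOf y ∧
      Finsupp.mapDomain R.r E = Finsupp.mapDomain R.r D₀ := by
  have hmem : zb⁻¹ ∈ D.redSpace (riemannRochSpace (X + D₀)) := by
    rw [R.redSpace_eq hL hk (by rw [map_add, hX]; omega),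
      mem_rr_iff_divisorOf (inv_ne_zero hzb), Finsupp.mapDomain_add, hr, divisorOf_inv,
      neg_add_cancel_left]
    exact mapDomain_nonneg _ hD₀
  obtain ⟨y, hy, hyr⟩ := hmem
  have hy0 := hyr.ne_zero (inv_ne_zero hzb)
  refine ⟨y, X + D₀ + divisorOf y, hy0, ?_, by abel, ?_⟩
  · rw [add_comm]; exact (mem_rr_iff_divisorOf hy0).1 hy
  · rw [Finsupp.mapDomain_add, Finsupp.mapDomain_add, R.map_divisorOf _ _ hyr (inv_ne_zero hzb), hr,
      divisorOf_inv]
    abel

end FLTAgent.GoodRed
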