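import Fermat.Agent.FunctionField.PlaceBasic
import Mathlib.RingTheory.PowerSeries.Trunc

/-!
# Expansions at a place in a uniformiser
-/

set_option autoImplicit false

noncomputable section

open AlgebraicCurve Polynomial

namespace FLTAgent.GoodRed

open FLTAgent.FunctionField

variable {K F : Type*} [Field K] [Field F] [Algebra K F]

/-- `φ` is the expansion of `y` at `v` in powers of `T`. -/
def IsExp (v : Place K F) (T y : F) (φ : PowerSeries K) : Prop :=
  ∀ n : ℕ, OrdGe v n (y - aeval T (PowerSeries.trunc n φ))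

variable {v : Place K F} {T : F}

theorem ordGe_aeval_of_X_pow_dvd (hT : OrdGe v 1 T) {p : K[X]} {n : ℕ}
    (h : ∀ i < n, p.coeff i = 0) : OrdGe v n (aeval T p) := by
  rw [aeval_eq_sum_range]
  refine OrdGe.sum fun i _ => ?_
  rcases lt_or_ge i n with hi | hi
  · simp [h i hi]
  rw [Algebra.smul_def]
  have hpow : ∀ i : ℕ, OrdGe v i (T ^ i) := fun i => by
    induction i with
    | zero =>
      simp only [pow_zero, Nat.cast_zero]
      exact ordGe_of_le_ord (by rw [v.ord_one])
    | succ i ih => rw [pow_succ, Nat.cast_succ]; exact ih.mul hT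
  simpa using ((ordGe_algebraMap (p.coeff i)).mul (hpow i)).mono (by omega : (n : ℤ) ≤ 0 + i)

theorem ordGe_aeval_zero (hT : OrdGe v 1 T) (p : K[X]) : OrdGe v 0 (aeval T p) := by
  exact_mod_cast ordGe_aeval_of_X_pow_dvd hT (p := p) (n := 0) (by simp)

theorem IsExp.ordGe_zero {y : F} {φ : PowerSeries K} (h : IsExp v T y φ) : OrdGe v 0 y := by
  simpa using h 0

theorem IsExp.add {y y' : F} {φ ψ : PowerSeries K} (h : IsExp v T y φ) (h' : IsExp v T y' ψ) :
    IsExp v T (y + y') (φ + ψ) := fun n => by
  convert (h n).add (h' n) using 1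
  rw [map_add, map_add]
  ring

theorem IsExp.sub {y y' : F} {φ ψ : PowerSeries K} (h : IsExp v T y φ) (h' : IsExp v T y' ψ) :
    IsExp v T (y - y') (φ - ψ) := fun n => by
  convert (h n).sub (h' n) using 1
  rw [map_sub, map_sub]
  ring

theorem IsExp.mul (hT : OrdGe v 1 T) {y y' : F} {φ ψ : PowerSeries K} (h : IsExp v T y φ)
    (h' : IsExp v T y' ψ) : IsExp v T (y * y') (φ * ψ) := fun n => by
  set P := PowerSeries.trunc n φ
  set Q := PowerSeries.trunc n ψ
  have e : y * y' - aeval T (PowerSeries.trunc n (φ * ψ)) =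
      (y - aeval T P) * y' + aeval T P * (y' - aeval T Q) +
        aeval T (P * Q - PowerSeries.trunc n (φ * ψ)) := by
    simp only [P, Q, map_sub, map_mul]; ring
  rw [e]
  refine ((by simpa using (h n).mul h'.ordGe_zero : OrdGe v n _).add
    (by simpa using (ordGe_aeval_zero hT P).mul (h' n) : OrdGe v n _)).add
    (ordGe_aeval_of_X_pow_dvd hT fun i hi => ?_)
  rw [coeff_sub, PowerSeries.coeff_trunc, if_pos hi, sub_eq_zero,
    PowerSeries.coeff_mul, Polynomial.coeff_mul]
  refine Finset.sum_congr rfl fun ij hij => ?_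
  rw [Finset.mem_antidiagonal] at hij
  rw [PowerSeries.coeff_trunc, PowerSeries.coeff_trunc, if_pos (by omega), if_pos (by omega)]

theorem isExp_C (hT : OrdGe v 1 T) (a : K) : IsExp v T (algebraMap K F a) (PowerSeries.C a) := by
  intro n
  rcases n with _ | n
  · simpa using ordGe_algebraMap a
  · simp [PowerSeries.trunc_C]

theorem isExp_zero : IsExp v T 0 0 := fun n => by simp

theorem isExp_X (hT : OrdGe v 1 T) : IsExp v T T PowerSeries.X := fun n => by
  rcases n with _ | _ | n
  · simpa using hT.mono (by norm_num : (0 : ℤ) ≤ 1)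
  · simpa [PowerSeries.trunc_one_left] using hT
  · simp [PowerSeries.trunc_X]

theorem IsExp.pow (hT : OrdGe v 1 T) {y : F} {φ : PowerSeries K} (h : IsExp v T y φ) (n : ℕ) :
    IsExp v T (y ^ n) (φ ^ n) := by
  induction n with
  | zero => simpa using isExp_C hT (1 : K)
  | succ n ih => rw [pow_succ, pow_succ]; exact ih.mul hT h

theorem IsExp.coeff_eq_zero (hT : v.ord T = 1) {y : F} {φ : PowerSeries K} (h : IsExp v T y φ)
    {n : ℕ} (hy : OrdGe v n y) : ∀ i < n, PowerSeries.coeff i φ = 0 := by
  intro i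
  induction i using Nat.strong_induction_on with
  | _ i ih =>
  intro hi
  have hT0 : T ≠ 0 := fun h0 => by rw [h0, v.ord_zero] at hT; exact zero_ne_one hT
  by_contra hne
  have h1 := (hy.mono (by omega : ((i + 1 : ℕ) : ℤ) ≤ n)).sub (h (i + 1))
  rw [sub_sub_cancel] at h1
  have h2 : aeval T (PowerSeries.trunc (i + 1) φ) =
      algebraMap K F (PowerSeries.coeff i φ) * T ^ i := by
    have : PowerSeries.trunc (i + 1) φ = monomial i (PowerSeries.coeff i φ) := by
      ext j
      rw [PowerSeries.coeff_trunc, coeff_monomial]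
      rcases lt_trichotomy j i with hj | hj | hj
      · rw [if_pos (by omega), if_neg (by omega), ih j hj (by omega)]
      · subst hj; simp
      · rw [if_neg (by omega), if_neg (by omega)]
    rw [this, aeval_monomial]
  rw [h2, ordGe_iff_of_ne_zero (mul_ne_zero (by simpa using hne) (pow_ne_zero _ hT0)),
    v.ord_mul (by simpa using hne) (pow_ne_zero _ hT0), ord_algebraMap, ord_pow, hT] at h1
  push_cast at h1
  omega

theorem IsExp.unique (hT : v.ord T = 1) {y : F} {φ ψ : PowerSeries K} (h : IsExp v T y φ)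
    (h' : IsExp v T y ψ) : φ = ψ := by
  ext i
  have := (h.sub h').coeff_eq_zero hT (n := i + 1) (by simp) i (Nat.lt_succ_self i)
  rwa [map_sub, sub_eq_zero] at this

theorem IsExp.ordGe (hT : OrdGe v 1 T) {y : F} {φ : PowerSeries K} (h : IsExp v T y φ) {n : ℕ}
    (hφ : ∀ i < n, PowerSeries.coeff i φ = 0) : OrdGe v n y := by
  have h1 : PowerSeries.trunc n φ = 0 := by
    ext i
    rw [PowerSeries.coeff_trunc, coeff_zero]
    split
    · exact hφ i ‹_›
    · rfl
  simpa [h1] using h n

end FLTAgent.GoodRed
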