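import Fermat.Agent.GoodRed.Deuring
import Fermat.Agent.GoodRed.Expansion
import Mathlib.RingTheory.PowerSeries.Basic

/-!
# Functions regular on a tube

The tube of a place `Q` of the residue field consists of the places reducing to `Q`.  Integral
functions regular on the tube take integral values there, compatibly with reduction, and have
integral expansions in a lift of a uniformiser.
-/

set_option autoImplicit false
set_option linter.unusedSectionVars false

noncomputable section

open AlgebraicCurve Polynomial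

namespace FLTAgent.GoodRed

open FLTAgent.FunctionField RedDatum

section value

variable {K F : Type*} [Field K] [Field F] [Algebra K F]

theorem exists_value [IsFunctionField K F] [IsAlgClosed K] {v : Place K F} {f : F}
    (hf : OrdGe v 0 f) : ∃ a : K, OrdGe v 1 (f - algebraMap K F a) := by
  have := finite_residueField v
  have hsurj : Function.Surjective (algebraMap K v.ResidueField) :=
    (IsAlgClosed.algebraMap_bijective_of_isIntegral (k := K) (K := v.ResidueField)).2
  obtain ⟨a, ha⟩ := hsurj (IsLocalRing.residue _ ⟨f, mem_iff_ordGe_zero.2 hf⟩)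
  refine ⟨a, ?_⟩
  have h := (residue_eq_zero_iff (v := v)
    (a := ⟨f, mem_iff_ordGe_zero.2 hf⟩ - algebraMap K v.toValuationSubring a)).1 (by
      rw [map_sub, residue_algebraMap, ha, sub_self])
  exact h

theorem value_unique {v : Place K F} {f : F} {a b : K} (ha : OrdGe v 1 (f - algebraMap K F a))
    (hb : OrdGe v 1 (f - algebraMap K F b)) : a = b := by
  by_contra hne
  have h := ha.sub hb
  rw [sub_sub_sub_cancel_left, ← map_sub] at h
  have h0 : algebraMap K F (b - a) ≠ 0 := by simpa [sub_eq_zero] using Ne.symm hne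
  have := h.le_ord h0
  rw [ord_algebraMap] at this
  omega

end value

variable {L k : Type*} [Field L] [Field k] {A : ValuationSubring L} {π : A →+* k}
  {F Fb : Type*} [Field F] [Algebra L F] [Field Fb] [Algebra k Fb]
  [IsFunctionField L F] [IsFunctionField k Fb] [IsAlgClosed L] [IsAlgClosed k]
  {D : RedDatum A π F Fb} (R : PlaceRed D)

theorem mapDomain_le_apply {α β : Type*} (r : α → β) {E : α →₀ ℤ} {b : β}
    (h : ∀ a, r a = b → 0 ≤ E a) (a : α) (ha : r a = b) :
    E a ≤ Finsupp.mapDomain r E b := by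
  classical
  rw [Finsupp.mapDomain, Finsupp.sum_apply, Finsupp.sum]
  by_cases hsupp : a ∈ E.support
  · refine le_trans (le_of_eq ?_) (Finset.single_le_sum (fun i _ => ?_) hsupp)
    · rw [ha, Finsupp.single_eq_same]
    · rw [Finsupp.single_apply]
      split
      · exact h i ‹_›
      · exact le_rfl
  · rw [Finsupp.notMem_support_iff.1 hsupp]
    refine Finset.sum_nonneg fun i _ => ?_
    rw [Finsupp.single_apply]
    split
    · exact h i ‹_›
    · exact le_rfl

theorem mapDomain_apply_nonneg {α β : Type*} (r : α → β) {E : α →₀ ℤ} {b : β}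
    (h : ∀ a, r a = b → 0 ≤ E a) : 0 ≤ Finsupp.mapDomain r E b := by
  classical
  rw [Finsupp.mapDomain, Finsupp.sum_apply, Finsupp.sum]
  refine Finset.sum_nonneg fun i _ => ?_
  rw [Finsupp.single_apply]
  split
  · exact h i ‹_›
  · exact le_rfl

/-- Integral functions without poles reducing to `Q`. -/
def TReg (Q : Place k Fb) (y : F) : Prop :=
  y ∈ D.V ∧ ∀ P, R.r P = Q → OrdGe P 0 y

variable {R} {Q : Place k Fb}

theorem ord_ge_of_red {y : F} {z : Fb} (hr : D.Red y z) (hz : z ≠ 0)
    (hy : ∀ P, R.r P = Q → OrdGe P 0 y) {P : Place L F} (hP : R.r P = Q) :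
    P.ord y ≤ Q.ord z := by
  have h := mapDomain_le_apply R.r (E := divisorOf (K := L) y) (b := Q)
    (fun a ha => (hy a ha).le_ord (hr.ne_zero hz)) P hP
  rwa [R.map_divisorOf y z hr hz, divisorOf_apply, divisorOf_apply] at h

theorem TReg.ordGe {y : F} {z : Fb} (hy : TReg R Q y) (hr : D.Red y z) : OrdGe Q 0 z := by
  rcases eq_or_ne z 0 with rfl | hz
  · exact ordGe_zero _
  refine ordGe_of_le_ord ?_
  have h := mapDomain_apply_nonneg R.r (E := divisorOf (K := L) y) (b := Q)
    (fun a ha => (hy.2 a ha).le_ord (hr.ne_zero hz))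
  rwa [R.map_divisorOf y z hr hz, divisorOf_apply] at h

theorem TReg.add {y y' : F} (hy : TReg R Q y) (hy' : TReg R Q y') : TReg R Q (y + y') :=
  ⟨add_mem hy.1 hy'.1, fun P hP => (hy.2 P hP).add (hy'.2 P hP)⟩

theorem TReg.sub {y y' : F} (hy : TReg R Q y) (hy' : TReg R Q y') : TReg R Q (y - y') :=
  ⟨sub_mem hy.1 hy'.1, fun P hP => (hy.2 P hP).sub (hy'.2 P hP)⟩

theorem TReg.mul {y y' : F} (hy : TReg R Q y) (hy' : TReg R Q y') : TReg R Q (y * y') :=
  ⟨mul_mem hy.1 hy'.1, fun P hP => by simpa using (hy.2 P hP).mul (hy'.2 P hP)⟩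

theorem TReg.pow {y : F} (hy : TReg R Q y) (n : ℕ) : TReg R Q (y ^ n) := by
  induction n with
  | zero => exact ⟨by simp, fun P _ => ordGe_of_le_ord (by simp)⟩
  | succ n ih => rw [pow_succ]; exact ih.mul hy

theorem treg_algebraMap (a : A) : TReg R Q (algebraMap L F (a : L)) :=
  ⟨(D.mem_iff a).2 a.2, fun _ _ => ordGe_algebraMap _⟩

/-- The value at a point of the tube is integral and reduces to the value at `Q`. -/
theorem TReg.value {y : F} {z : Fb} (hy : TReg R Q y) (hr : D.Red y z) {P : Place L F}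
    (hP : R.r P = Q) {a : L} (ha : OrdGe P 1 (y - algebraMap L F a)) :
    ∃ h : a ∈ A, OrdGe Q 1 (z - algebraMap k Fb (π ⟨a, h⟩)) := by
  have hmem : a ∈ A := by
    by_contra hna
    have hn : a⁻¹ ∈ A.nonunits := by
      rw [ValuationSubring.inv_mem_nonunits_iff]; exact Or.inr hna
    have ha0 : a ≠ 0 := fun h => hna (h ▸ zero_mem _)
    have hy' : TReg R Q (algebraMap L F a⁻¹ * y - algebraMap L F ((1 : A) : L)) :=
      ((treg_algebraMap ⟨a⁻¹, A.nonunits_subset hn⟩).mul hy).sub (treg_algebraMap 1)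
    have hr' : D.Red (algebraMap L F a⁻¹ * y - algebraMap L F ((1 : A) : L)) (-1) := by
      have := ((red_algebraMap (D := D) ⟨a⁻¹, A.nonunits_subset hn⟩).mul hr).sub
        (red_algebraMap (D := D) 1)
      rw [(D.isResidue.eq_zero_iff _).2 hn] at this
      simpa using this
    have hle := ord_ge_of_red hr' (by simp) hy'.2 hP
    rw [FunctionField.ord_neg, Q.ord_one] at hle
    have h1 : OrdGe P 1 (algebraMap L F a⁻¹ * y - algebraMap L F ((1 : A) : L)) := by
      have := (ordGe_algebraMap (v := P) a⁻¹).mul ha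
      rw [zero_add, mul_sub, ← map_mul, inv_mul_cancel₀ ha0] at this
      exact this
    have := h1.le_ord (hr'.ne_zero (by simp))
    omega
  refine ⟨hmem, ?_⟩
  set b : A := ⟨a, hmem⟩
  rcases eq_or_ne (z - algebraMap k Fb (π b)) 0 with h0 | h0
  · rw [h0]; exact ordGe_zero _
  have hr' := hr.sub (red_algebraMap (D := D) b)
  have hle := ord_ge_of_red hr' h0 (hy.sub (treg_algebraMap b)).2 hP
  have h1 : 1 ≤ P.ord (y - algebraMap L F (b : L)) := ha.le_ord (hr'.ne_zero h0)
  exact ordGe_of_le_ord (by omega)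

/-- A lift of a uniformiser at `Q` vanishing at `P₁`. -/
structure TubeParam (R : PlaceRed D) (Q : Place k Fb) (P₁ : Place L F) where
  /-- the lift -/
  T : F
  /-- the uniformiser -/
  t : Fb
  hP : R.r P₁ = Q
  treg : TReg R Q T
  red : D.Red T t
  ord_t : Q.ord t = 1
  vanish : OrdGe P₁ 1 T

namespace TubeParam

variable {P₁ : Place L F} (τ : TubeParam R Q P₁)

theorem t_ne_zero : τ.t ≠ 0 := fun h => by simpa [h] using τ.ord_t

theorem T_ne_zero : τ.T ≠ 0 := τ.red.ne_zero τ.t_ne_zero

theorem ord_T : P₁.ord τ.T = 1 := by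
  have h1 := ord_ge_of_red τ.red τ.t_ne_zero τ.treg.2 τ.hP
  have h2 := τ.vanish.le_ord τ.T_ne_zero
  have := τ.ord_t
  omega

theorem ord_T_other {P : Place L F} (hP : R.r P = Q) (hne : P ≠ P₁) : P.ord τ.T = 0 := by
  classical
  have hnn : ∀ a, R.r a = Q → 0 ≤ (divisorOf (K := L) τ.T - Finsupp.single P₁ 1 : Divisor L F) a := by
    intro a ha
    rw [Finsupp.sub_apply, divisorOf_apply]
    rcases eq_or_ne a P₁ with rfl | hap
    · rw [τ.ord_T, Finsupp.single_eq_same]; norm_num
    · rw [Finsupp.single_eq_of_ne hap, sub_zero]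
      exact (τ.treg.2 a ha).le_ord τ.T_ne_zero
  have h := mapDomain_le_apply R.r hnn P hP
  rw [Finsupp.mapDomain_sub, Finsupp.sub_apply, Finsupp.sub_apply, Finsupp.mapDomain_single,
    τ.hP, Finsupp.single_eq_same, Finsupp.single_eq_of_ne hne,
    R.map_divisorOf _ _ τ.red τ.t_ne_zero, divisorOf_apply, divisorOf_apply, τ.ord_t] at h
  have := (τ.treg.2 P hP).le_ord τ.T_ne_zero
  omega

theorem treg_div {y : F} (hy : TReg R Q y) {a : L} (ha : OrdGe P₁ 1 (y - algebraMap L F a)) :
    ∃ _ : a ∈ A, TReg R Q ((y - algebraMap L F a) / τ.T) := by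
  obtain ⟨z, hz⟩ := exists_red hy.1
  obtain ⟨h, -⟩ := hy.value hz τ.hP ha
  refine ⟨h, ?_⟩
  have hsub := hy.sub (treg_algebraMap (R := R) (Q := Q) ⟨a, h⟩)
  obtain ⟨w, hw⟩ := exists_red hsub.1
  refine ⟨(hw.div τ.red τ.t_ne_zero).mem, fun P hP => ?_⟩
  rw [div_eq_mul_inv]
  rcases eq_or_ne P P₁ with rfl | hne
  · exact (ha.mul (ordGe_ord τ.T⁻¹)).mono (by rw [P.ord_inv, τ.ord_T]; norm_num)
  · exact ((hsub.2 P hP).mul (ordGe_ord τ.T⁻¹)).mono
      (by rw [P.ord_inv, τ.ord_T_other hP hne]; norm_num)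

/-- Existence of integral expansions, compatible with reduction. -/
theorem exists_expansion {y : F} {z : Fb} (hy : TReg R Q y) (hr : D.Red y z) :
    ∃ φ : PowerSeries A, IsExp P₁ τ.T y (φ.map A.subtype) ∧ IsExp Q τ.t z (φ.map π) := by
  classical
  choose a ha using fun y : {y : F // TReg R Q y} => exists_value (y.2.2 P₁ τ.hP)
  choose hA hnext using fun y : {y : F // TReg R Q y} => τ.treg_div y.2 (ha y)
  let seq : ℕ → {y : F // TReg R Q y} := fun n =>
    Nat.rec ⟨y, hy⟩ (fun _ y => ⟨_, hnext y⟩) n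
  let c : ℕ → A := fun n => ⟨a (seq n), hA (seq n)⟩
  refine ⟨PowerSeries.mk c, ?_⟩
  have hseq : ∀ n, y = aeval τ.T (PowerSeries.trunc n ((PowerSeries.mk c).map A.subtype)) +
      τ.T ^ n * (seq n).1 := by
    intro n
    induction n with
    | zero => simp [seq]
    | succ n ih =>
      rw [PowerSeries.trunc_succ, map_add, aeval_monomial, PowerSeries.coeff_map,
        PowerSeries.coeff_mk, pow_succ]
      conv_lhs => rw [ih]
      have : τ.T * ((seq (n + 1)).1) = (seq n).1 - algebraMap L F (a (seq n)) :=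
        mul_div_cancel₀ _ τ.T_ne_zero
      rw [mul_assoc, this]
      simp only [c, ValuationSubring.coe_subtype]
      ring
  refine ⟨fun n => ?_, fun n => ?_⟩
  · rw [sub_eq_iff_eq_add'.2 (hseq n)]
    have hp : OrdGe P₁ n (τ.T ^ n) := ordGe_of_le_ord (by rw [FunctionField.ord_pow, τ.ord_T]; simp)
    simpa using hp.mul ((seq n).2.2 P₁ τ.hP)
  · obtain ⟨w, hw⟩ := exists_red (seq n).2.1
    have h2 : D.Red y (aeval τ.t (PowerSeries.trunc n ((PowerSeries.mk c).map π)) +
        τ.t ^ n * w) := by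
      rw [hseq n, PowerSeries.trunc_map, PowerSeries.trunc_map]
      exact (red_aeval τ.red _).add ((τ.red.pow n).mul hw)
    rw [hr.unique h2, add_sub_cancel_left]
    have hp : OrdGe Q n (τ.t ^ n) := ordGe_of_le_ord (by rw [FunctionField.ord_pow, τ.ord_t]; simp)
    simpa using hp.mul ((seq n).2.ordGe hw)

end TubeParam

end FLTAgent.GoodRed
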