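import Fermat.Agent.GoodRed.Lattice
import Mathlib.RingTheory.PowerSeries.Basic
import Mathlib.RingTheory.PowerSeries.Order
import Mathlib.Algebra.Polynomial.Identities
import Mathlib.FieldTheory.IsAlgClosed.Basic

/-!
# Power series over a valuation ring: division by residually nonzero series and roots
-/

set_option autoImplicit false

noncomputable section

namespace FLTAgent.GoodRed

variable {L k : Type*} [Field L] [Field k] {A : ValuationSubring L} {π : A →+* k}

/-- First order binomial expansion. -/
theorem exists_pow_add_eq {R : Type*} [CommRing R] (x y : R) (m : ℕ) :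
    ∃ z, (x + y) ^ m = x ^ m + m * x ^ (m - 1) * y + z * y ^ 2 := by
  obtain ⟨z, hz⟩ := Polynomial.binomExpansion (Polynomial.X ^ m : Polynomial R) x y
  exact ⟨z, by simpa [Polynomial.derivative_X_pow, mul_assoc] using hz⟩

/-- Nonunit powers get arbitrarily small: `A` has rank one. -/
def IsRankOne (A : ValuationSubring L) : Prop :=
  ∀ a c : L, a ≠ 0 → c ∈ A.nonunits → ∃ n : ℕ, A.valuation c ^ n ≤ A.valuation a

open PowerSeries

theorem coeff_mem_of_mul_mem (hπ : IsResidueMap A π) (hA : IsRankOne A) {S a : PowerSeries A}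
    (hS : S.map π ≠ 0) {c : A} (hc : (c : L) ≠ 0) (h : C c ∣ S * a) : C c ∣ a := by
  classical
  set v := A.valuation
  obtain ⟨s, hs, hlow⟩ : ∃ s, π (coeff s S) ≠ 0 ∧ ∀ i < s, π (coeff i S) = 0 := by
    have hex : ∃ i, π (coeff i S) ≠ 0 := by
      by_contra hall
      push Not at hall
      exact hS (PowerSeries.ext fun i => by simp [hall i])
    exact ⟨Nat.find hex, Nat.find_spec hex, fun i hi => not_not.1 (Nat.find_min hex hi)⟩
  have hSs : v (coeff s S : A) = 1 := (hπ.ne_zero_iff _).1 hs
  obtain ⟨ε, hε, hεlow⟩ : ∃ ε : L, ε ∈ A.nonunits ∧ ∀ i < s, v (coeff i S : A) ≤ v ε := by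
    rcases Nat.eq_zero_or_pos s with rfl | hpos
    · exact ⟨0, by simp, fun i hi => absurd hi (Nat.not_lt_zero _)⟩
    obtain ⟨j, hj, hmax⟩ := Finset.exists_max_image (Finset.range s)
      (fun i => v (coeff i S : A)) ⟨0, Finset.mem_range.2 hpos⟩
    exact ⟨_, (hπ.eq_zero_iff _).1 (hlow j (Finset.mem_range.1 hj)),
      fun i hi => hmax i (Finset.mem_range.2 hi)⟩
  have hε1 : v ε ≤ 1 := le_of_lt (A.mem_nonunits_iff.1 hε)
  obtain ⟨b, hb⟩ := h
  have key : ∀ (M n : ℕ), v (coeff n a : A) ≤ max (v c) (v ε ^ M) := by
    intro M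
    induction M with
    | zero =>
      intro n
      rw [pow_zero]
      exact le_max_of_le_right (A.valuation_le_one _)
    | succ M ihM =>
      intro n
      induction n using Nat.strong_induction_on with
      | _ n ihn =>
      have e : (coeff (n + s) (S * a) : A) = c * coeff (n + s) b := by
        rw [hb, coeff_C_mul]
      rw [coeff_mul, ← Finset.add_sum_erase _ _
        (show (s, n) ∈ Finset.HasAntidiagonal.antidiagonal (n + s) by
          rw [Finset.mem_antidiagonal]; omega)] at e
      have e' : ((coeff s S : A) : L) * (coeff n a : A) =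
          ((c * coeff (n + s) b : A) : L) -
          ∑ ij ∈ (Finset.HasAntidiagonal.antidiagonal (n + s)).erase (s, n),
            ((coeff ij.1 S * coeff ij.2 a : A) : L) := by
        rw [← e]
        push_cast
        ring
      have hval : v (coeff n a : A) = v (((coeff s S : A) : L) * (coeff n a : A)) := by
        rw [map_mul, hSs, one_mul]
      rw [hval, e']
      refine (Valuation.map_sub v _ _).trans (max_le ?_ (Valuation.map_sum_le _ fun ij hij => ?_))
      · push_cast
        rw [map_mul]
        exact le_max_of_le_left (mul_le_of_le_one_right' (A.valuation_le_one _))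
      · obtain ⟨hne, hsum⟩ := Finset.mem_erase.1 hij
        rw [Finset.mem_antidiagonal] at hsum
        push_cast
        rw [map_mul]
        rcases lt_or_ge ij.1 s with hlt | hge
        · refine (mul_le_mul' (hεlow _ hlt) (ihM ij.2)).trans ?_
          rcases le_total (v c) (v ε ^ M) with hle | hle
          · rw [max_eq_right hle, ← pow_succ']
            exact le_max_right _ _
          · rw [max_eq_left hle]
            exact le_max_of_le_left (mul_le_of_le_one_left' hε1)
        · have hlt' : ij.2 < n := by
            rcases eq_or_lt_of_le hge with heq | hgt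
            · exact absurd (Prod.ext heq.symm (by omega : ij.2 = n)) hne
            · omega
          exact (mul_le_of_le_one_left' (A.valuation_le_one _)).trans (ihn _ hlt')
  obtain ⟨M, hM⟩ := hA c ε hc hε
  have hle : ∀ n, v (coeff n a : A) ≤ v c := fun n => (key M n).trans (max_le le_rfl hM)
  choose q hq using fun n => (A.valuation_le_iff _ _).1 (hle n)
  refine ⟨PowerSeries.mk q, PowerSeries.ext fun n => ?_⟩
  rw [coeff_C_mul, coeff_mk, mul_comm]
  exact Subtype.ext (hq n).symm

theorem exists_root_series [IsAlgClosed L] (hπ : IsResidueMap A π) {m : ℕ} (hm : (m : k) ≠ 0)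
    (v : PowerSeries A) (hv : v.map π = 1) :
    ∃ G : PowerSeries A, G ^ m = v ∧ π (constantCoeff G) = 1 := by
  classical
  have hm0 : m ≠ 0 := fun h => hm (by rw [h, Nat.cast_zero])
  -- the constant term
  set a : A := constantCoeff v
  have ha : π a = 1 := by
    have := congrArg (coeff 0) hv
    simpa [a, coeff_map] using this
  obtain ⟨r, hr, hr1⟩ : ∃ r : A, r ^ m = a ∧ π r = 1 := by
    set P : Polynomial L := Polynomial.X ^ m - Polynomial.C (a : L)
    have hP : P.Monic := Polynomial.monic_X_pow_sub_C _ hm0
    have hroot : ∀ x ∈ P.roots, x ∈ A := by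
      intro x hx
      have hx' : x ^ m = a := by
        have := Polynomial.isRoot_of_mem_roots hx
        simpa [P, sub_eq_zero] using this
      rw [← A.valuation_le_one_iff]
      by_contra h
      rw [not_le] at h
      have h2 := one_lt_pow₀ h hm0
      rw [← map_pow, hx'] at h2
      exact absurd h2 (not_lt.2 (A.valuation_le_one _))
    have hsplit := (IsAlgClosed.splits P).eq_prod_roots_of_monic hP
    set roots' : Multiset A := P.roots.attach.map fun x => (⟨x.1, hroot _ x.2⟩ : A)
    have h1 : ((Polynomial.X ^ m - Polynomial.C a : Polynomial A)) =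
        (roots'.map fun x => Polynomial.X - Polynomial.C x).prod := by
      apply Polynomial.map_injective A.subtype Subtype.val_injective
      rw [Polynomial.map_multiset_prod, Multiset.map_map]
      simp only [Polynomial.map_sub, Polynomial.map_pow, Polynomial.map_X, Polynomial.map_C,
        Function.comp_apply, roots', Multiset.map_map]
      refine hsplit.trans (congrArg Multiset.prod ?_)
      conv_lhs => rw [← Multiset.attach_map_val P.roots, Multiset.map_map]
      refine Multiset.map_congr rfl fun x _ => ?_
      simp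
    have h2 := congrArg (fun Q : Polynomial A => (Q.map π).eval 1) h1
    simp only [Polynomial.map_sub, Polynomial.map_pow, Polynomial.map_X, Polynomial.map_C,
      Polynomial.eval_sub, Polynomial.eval_pow, Polynomial.eval_X, Polynomial.eval_C, one_pow, ha,
      sub_self, Polynomial.map_multiset_prod, Multiset.map_map, Polynomial.eval_multiset_prod,
      Function.comp_apply] at h2
    obtain ⟨x, hx, hx1⟩ := Multiset.mem_map.1 (Multiset.prod_eq_zero_iff.1 h2.symm)
    refine ⟨x, ?_, (sub_eq_zero.1 hx1).symm⟩
    obtain ⟨y, -, rfl⟩ := Multiset.mem_map.1 hx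
    refine Subtype.ext ?_
    have := Polynomial.isRoot_of_mem_roots y.2
    simpa [P, sub_eq_zero] using this
  have hu : IsUnit ((m : A) * r ^ (m - 1)) := by
    rw [A.valuation_eq_one_iff, ← hπ.ne_zero_iff]
    simp [hr1, hm]
  -- successive approximations
  let Good : ℕ → PowerSeries A → Prop := fun n p =>
    constantCoeff p = r ∧ X ^ (n + 1) ∣ p ^ m - v
  have h0 : Good 0 (C r) := by
    refine ⟨constantCoeff_C _, ?_⟩
    rw [pow_one, X_dvd_iff]
    simp [hr, a]
  have hstep : ∀ n p, Good n p → ∃ q, Good (n + 1) q ∧ X ^ (n + 1) ∣ q - p := by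
    rintro n p ⟨hp, w, hw⟩
    obtain ⟨b, hb⟩ := hu.dvd (a := -constantCoeff w)
    obtain ⟨z, hz⟩ := exists_pow_add_eq p (C b * X ^ (n + 1)) m
    refine ⟨p + C b * X ^ (n + 1), ⟨by simp [hp], ?_⟩, by simp⟩
    have : (p + C b * X ^ (n + 1)) ^ m - v =
        X ^ (n + 1) * (w + (m : PowerSeries A) * p ^ (m - 1) * C b + z * C b ^ 2 * X ^ (n + 1)) := by
      rw [hz]
      linear_combination hw
    rw [this, pow_succ X (n + 1)]
    refine mul_dvd_mul_left _ (X_dvd_iff.2 ?_)
    simp [hp, ← hb]
  choose! q hq hqd using hstep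
  let p : ℕ → PowerSeries A := fun n => Nat.rec (C r) (fun n p => q n p) n
  have hp : ∀ n, Good n (p n) := fun n => by
    induction n with
    | zero => exact h0
    | succ n ih => exact hq n _ ih
  have hcons : ∀ i n, i ≤ n → coeff i (p n) = coeff i (p i) := by
    intro i n hin
    induction n, hin using Nat.le_induction with
    | base => rfl
    | succ n hin ih =>
      rw [← ih, ← sub_eq_zero, ← map_sub]
      exact PowerSeries.X_pow_dvd_iff.1 (hqd n _ (hp n)) i (by omega)
  refine ⟨PowerSeries.mk fun n => coeff n (p n), PowerSeries.ext fun n => ?_, ?_⟩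
  · have h1 : X ^ (n + 1) ∣ (PowerSeries.mk fun n => coeff n (p n)) - p n := by
      refine PowerSeries.X_pow_dvd_iff.2 fun i hi => ?_
      rw [map_sub, coeff_mk, hcons i n (by omega), sub_self]
    have h2 := (h1.trans (sub_dvd_pow_sub_pow _ _ m)).add (hp n).2
    rw [sub_add_sub_cancel] at h2
    have := PowerSeries.X_pow_dvd_iff.1 h2 n (Nat.lt_succ_self n)
    rwa [map_sub, sub_eq_zero] at this
  · rw [← coeff_zero_eq_constantCoeff, coeff_mk, coeff_zero_eq_constantCoeff, (hp 0).1, hr1]

end FLTAgent.GoodRed
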