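import Fermat.Agent.GoodRed.X0Compat
import Fermat.Agent.GoodRed.SmallPrime.Main

/-!
# Good reduction of the function field of every level at every prime not dividing it
-/

set_option autoImplicit false
set_option linter.unusedSectionVars false
set_option synthInstance.maxHeartbeats 100000

noncomputable section

open ModularCurve IsLocalRing AlgebraicCurve

namespace FLTAgent.GoodRed

open FLTAgent.FunctionField

local notation "Qbar" => AlgebraicClosure ℚ

variable (A : ValuationSubring (AlgebraicClosure ℚ)) {l : ℕ} [Fact l.Prime]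
  (hA : A.LiesOverPrime l) (N : ℕ) [NeZero N] (hlN : ¬ l ∣ N)

include hA hlN in
/-- The genus is preserved at every prime not dividing the level. -/
theorem genusFF_eq_x0 : genusFF Qbar (modularFunctionFieldBar N) =
    genusFF (ResidueField A) (modularFunctionFieldFullC (ResidueField A) N) := by
  have hl : l.Prime := Fact.out
  rcases le_or_gt 5 l with h5 | h5
  · exact genusFF_eq_x0_of_five_le A hA N hlN h5
  have h23 : l = 2 ∨ l = 3 := by
    have := hl.two_le
    interval_cases l
    · exact Or.inl rfl
    · exact Or.inr rfl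
    · exact absurd hl (by decide)
  have h2 : ∀ q : ℕ, q.Prime → q ≠ l → ¬ l ∣ N * q := fun q hq hne h =>
    (hl.dvd_mul.1 h).elim hlN fun h' => hne ((Nat.prime_dvd_prime_iff_eq hl hq).1 h').symm
  rcases h23 with rfl | rfl
  · haveI : NeZero (N * 3) := ⟨mul_ne_zero (NeZero.ne N) (by norm_num)⟩
    have hM := h2 3 Nat.prime_three (by norm_num)
    exact genusFF_eq_x0_of_dvd A hA (dvd_mul_right N 3) hM
      (SmallPrime.genusFF_eq_x0_two A hA (N * 3) rfl hM (dvd_mul_left 3 N))
  · haveI : NeZero (N * 2) := ⟨mul_ne_zero (NeZero.ne N) (by norm_num)⟩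
    have hM := h2 2 Nat.prime_two (by norm_num)
    exact genusFF_eq_x0_of_dvd A hA (dvd_mul_right N 2) hM
      (SmallPrime.genusFF_eq_x0_three A hA (N * 2) rfl hM (dvd_mul_left 2 N))

include hA hlN in
/-- Riemann-Roch in large degree on both fibres, with one genus. -/
theorem exists_rrLarge_x0 : ∃ g c, RRLarge Qbar (modularFunctionFieldBar N) g c ∧
    RRLarge (ResidueField A) (modularFunctionFieldFullC (ResidueField A) N) g c := by
  haveI := isFunctionField_fullC A hA N hlN
  exact (exists_placeRed_x0_of_genus_eq A hA N hlN (genusFF_eq_x0 A hA N hlN)).1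

include hA hlN in
/-- The reduction of places. -/
theorem exists_placeRed_x0
    [IsFunctionField (ResidueField A) (modularFunctionFieldFullC (ResidueField A) N)] :
    Nonempty (PlaceRed (x0Datum A hA N hlN)) :=
  (exists_placeRed_x0_of_genus_eq A hA N hlN (genusFF_eq_x0 A hA N hlN)).2

end FLTAgent.GoodRed
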