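import Fermat.Agent.GoodRed.Congruence
import Fermat.Agent.CommAlg.FrobeniusExists
import Fermat.Prelude.Def_ModularCurve_HeckeModule

/-!
# The congruence of Eichler and Shimura on `JZero N` and the specialisation

Reduction modulo a place over `l ∤ N` turns Galois elements of the decomposition group into
automorphisms of the residue field acting on coefficients and the `l`-th Hecke operator into
`F + l F⁻¹`.  The quotient of `JZero N` by these relations is a specialisation.
-/

set_option autoImplicit false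
set_option linter.unusedSectionVars false
set_option linter.style.haveILetI false
set_option synthInstance.maxHeartbeats 200000

noncomputable section

open ModularCurve IsLocalRing AlgebraicCurve

namespace FLTAgent.GoodRed

open FLTAgent.FunctionField RedDatum

local notation "Qbar" => AlgebraicClosure ℚ

variable {A : ValuationSubring (AlgebraicClosure ℚ)} {l : ℕ} [Fact l.Prime]
  (hA : A.LiesOverPrime l) {N : ℕ} [NeZero N] (hlN : ¬ l ∣ N)

include hA hlN in
set_option maxHeartbeats 1600000 in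
/-- Reduction is equivariant for the decomposition group. -/
theorem reductionModL_galois_smul (g : A.decompositionSubgroup ℚ) (x : JZero N) :
    reductionModL A N ((g : Qbar ≃ₐ[ℚ] Qbar) • x) =
      fullAut (residueAut g) N • reductionModL A N x := by
  haveI := isFunctionField_fullC A hA N hlN
  haveI := isAlgClosed_residue A
  have h := reductionInputsModL_x0 hA hlN
  obtain ⟨R, hR⟩ := exists_placeRed_of_isPlaceReductionModL hA hlN
    (isPlaceReductionModL_placeReductionModL h)
  obtain ⟨_, _, hL, hk⟩ := exists_rrLarge_x0 A hA N hlN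
  obtain ⟨X, rfl⟩ := Pic0.mk_surjective x
  rw [galois_smul_pic0_def, SemilinearAut.pic0_smul_mk, reductionModL_mk h, reductionModL_mk h,
    SemilinearAut.pic0_smul_mk]
  refine congrArg Pic0.mk (Subtype.ext ?_)
  have := R.mapDomain_smul hL hk _ _ (fun y z hyz => red_galois_smul hA hlN g hyz)
    (X : Divisor Qbar (modularFunctionFieldBar N))
  rw [hR] at this
  exact this

include hA hlN in
theorem reductionModL_inertia_smul {σ : Qbar ≃ₐ[ℚ] Qbar} (hσ : σ ∈ A.inertiaSubgroupIn ℚ)
    (x : JZero N) : reductionModL A N (σ • x) = reductionModL A N x := by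
  obtain ⟨g, hg, rfl⟩ := Subgroup.mem_map.1 hσ
  have hr : residueAut g = RingEquiv.refl (ResidueField A) :=
    RingEquiv.ext fun r => RingEquiv.congr_fun (MonoidHom.mem_ker.1 hg) r
  exact (reductionModL_galois_smul hA hlN g x).trans (by rw [hr, fullAut_refl, one_smul])

include hlN in
theorem reductionModL_frobenius_smul {σ : Qbar ≃ₐ[ℚ] Qbar} (hσ : A.IsFrobeniusAt σ l)
    (x : JZero N) : reductionModL A N (σ • x) = frobAut hA N • reductionModL A N x := by
  have hr : residueAut ⟨σ, hσ.mem_decompositionSubgroup⟩ = frobRes hA :=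
    RingEquiv.ext fun r => (hσ.smul_residue_eq r).trans (frobRes_apply hA r).symm
  exact (reductionModL_galois_smul hA hlN ⟨σ, hσ.mem_decompositionSubgroup⟩ x).trans
    (by rw [hr, frobAut])

include hlN in
set_option maxHeartbeats 1600000 in
/-- The congruence of Eichler and Shimura. -/
theorem reductionModL_heckeOperatorBar (x : JZero N) :
    reductionModL A N (heckeOperatorBar N ⟨l, Fact.out⟩ x) =
      frobAut hA N • reductionModL A N x + l • ((frobAut hA N)⁻¹ • reductionModL A N x) := by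
  haveI := isFunctionField_fullC A hA N hlN
  haveI := isAlgClosed_residue A
  have h := reductionInputsModL_x0 hA hlN
  obtain ⟨R, hR⟩ := exists_placeRed_of_isPlaceReductionModL hA hlN
    (isPlaceReductionModL_placeReductionModL h)
  obtain ⟨X, rfl⟩ := Pic0.mk_surjective x
  have H := Hecke.levelFacts Qbar
  haveI := H.principal (N * l)
  have hα := Hecke.alphaBarIntegral_of_facts H N l
  have hβ := Hecke.betaBarIntegral_of_facts H N l
  rw [heckeOperatorBar_apply, Hecke.heckeOperatorAlong_mk H N l X hα hβ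
    (Hecke.heckeDivBar_mem_degZero H N l hα hβ X), reductionModL_mk h, reductionModL_mk h,
    SemilinearAut.pic0_smul_mk, SemilinearAut.pic0_smul_mk]
  refine Eq.trans (congrArg Pic0.mk (Subtype.ext ?_))
    ((QuotientAddGroup.mk_add _ _ _).trans (congrArg _ (QuotientAddGroup.mk_nsmul _ _ l)))
  have := mapDomain_heckeDivBar_char hA hlN hα hβ R (X : Divisor Qbar (modularFunctionFieldBar N))
  rw [hR] at this
  exact this

section Inertia

variable {K L : Type*} [Field K] [Field L] [Algebra K L] {B : ValuationSubring L}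

theorem conj_mem_inertia {σ₀ σ : L ≃ₐ[K] L} (h₀ : σ₀ ∈ B.decompositionSubgroup K)
    (hσ : σ ∈ B.inertiaSubgroupIn K) : σ₀ * σ * σ₀⁻¹ ∈ B.inertiaSubgroupIn K := by
  obtain ⟨g, hg, rfl⟩ := Subgroup.mem_map.1 hσ
  refine Subgroup.mem_map.2 ⟨⟨σ₀, h₀⟩ * g * ⟨σ₀, h₀⟩⁻¹, ?_, rfl⟩
  exact (MonoidHom.normal_ker (MulSemiringAction.toRingAut (B.decompositionSubgroup K)
    (ResidueField B))).conj_mem g hg ⟨σ₀, h₀⟩

theorem inv_mul_mem_inertia {σ₀ σ : L ≃ₐ[K] L} {q : ℕ} (h₀ : B.IsFrobeniusAt σ₀ q)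
    (hσ : B.IsFrobeniusAt σ q) : σ₀⁻¹ * σ ∈ B.inertiaSubgroupIn K := by
  refine Subgroup.mem_map.2 ⟨⟨σ₀, h₀.mem_decompositionSubgroup⟩⁻¹ *
    ⟨σ, hσ.mem_decompositionSubgroup⟩, MonoidHom.mem_ker.2 (RingEquiv.ext fun r => ?_), rfl⟩
  show (⟨σ₀, h₀.mem_decompositionSubgroup⟩⁻¹ *
    ⟨σ, hσ.mem_decompositionSubgroup⟩ : B.decompositionSubgroup K) • r = r
  rw [mul_smul, hσ.smul_residue_eq, ← h₀.smul_residue_eq, inv_smul_smul]

end Inertia

section Spec

variable {K L : Type*} [Field K] [Field L] [Algebra K L] {J : Type} [AddCommGroup J]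
  [Module HeckeAlg J] [DistribMulAction (L ≃ₐ[K] L) J] [SMulCommClass (L ≃ₐ[K] L) HeckeAlg J]
  (B : ValuationSubring L)

/-- The relations of the special fibre. -/
def specRel (σ₀ : L ≃ₐ[K] L) (t : HeckeAlg) (m : ℕ) : Set J :=
  {y | (∃ σ ∈ B.inertiaSubgroupIn K, ∃ x : J, σ • x - x = y) ∨
    ∃ x : J, σ₀ • σ₀ • x - t • (σ₀ • x) + m • x = y}

theorem hecke_smul_mem_specRel {σ₀ : L ≃ₐ[K] L} {t : HeckeAlg} {m : ℕ} (T : HeckeAlg)
    {y : J} (hy : y ∈ specRel B σ₀ t m) : T • y ∈ specRel B σ₀ t m := by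
  rcases hy with ⟨σ, hσ, x, rfl⟩ | ⟨x, rfl⟩
  · exact Or.inl ⟨σ, hσ, T • x, by rw [smul_sub, smul_comm σ T x]⟩
  · refine Or.inr ⟨T • x, ?_⟩
    rw [smul_add, smul_sub, smul_comm T t (σ₀ • x), ← smul_comm σ₀ T (σ₀ • x),
      ← smul_comm σ₀ T x, smul_comm T m x]

/-- A homomorphism killing the relations and injective on `p`-power torsion gives a
specialisation on the quotient by the relations. -/
theorem exists_specialization_of_kills {C : Type*} [AddCommGroup C] (red : J →+ C) (p l : ℕ)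
    (hl : l.Prime) {σ₀ : L ≃ₐ[K] L} (h₀ : B.IsFrobeniusAt σ₀ l)
    (hkill : ∀ y ∈ specRel (J := J) B σ₀ (heckeGen ⟨l, hl⟩) l, red y = 0)
    (hinj : ∀ x : J, (∃ n : ℕ, p ^ n • x = 0) → red x = 0 → x = 0) :
    ∃ (J' : Type) (_ : AddCommGroup J') (_ : Module HeckeAlg J') (sp : J →+ J')
      (F : J' →+ J'),
      IsSpecialization (K := K) p J J' B l sp F ∧ SpecialFibreRelation J' l hl F := by
  set S := specRel (J := J) B σ₀ (heckeGen ⟨l, hl⟩) l
  set M := Submodule.span HeckeAlg S
  have hred : ∀ y ∈ M, red y = 0 := by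
    have : ∀ y ∈ M, ∀ T : HeckeAlg, red (T • y) = 0 := by
      intro y hy
      induction hy using Submodule.span_induction with
      | mem s hs => exact fun T => hkill _ (hecke_smul_mem_specRel B T hs)
      | zero => intro T; rw [smul_zero, map_zero]
      | add a b _ _ iha ihb => intro T; rw [smul_add, map_add, iha T, ihb T, add_zero]
      | smul a s _ ih => intro T; rw [smul_smul]; exact ih _
    intro y hy
    simpa using this y hy 1
  let φ : J →ₗ[HeckeAlg] J := DistribSMul.toLinearMap HeckeAlg J σ₀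
  have hφ : M ≤ M.comap φ := by
    refine Submodule.span_le.2 ?_
    rintro y (⟨σ, hσ, x, rfl⟩ | ⟨x, rfl⟩)
    · refine Submodule.subset_span (Or.inl ⟨σ₀ * σ * σ₀⁻¹,
        conj_mem_inertia h₀.mem_decompositionSubgroup hσ, σ₀ • x, ?_⟩)
      show _ = σ₀ • (σ • x - x)
      rw [smul_sub, mul_smul, mul_smul, inv_smul_smul]
    · refine Submodule.subset_span (Or.inr ⟨σ₀ • x, ?_⟩)
      show _ = σ₀ • (σ₀ • σ₀ • x - _ + _)
      rw [smul_add, smul_sub, smul_comm σ₀ (heckeGen _) (σ₀ • x), smul_comm σ₀ l x]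
  have hI : ∀ σ ∈ B.inertiaSubgroupIn K, ∀ x : J, M.mkQ (σ • x) = M.mkQ x := fun σ hσ x =>
    (Submodule.Quotient.eq M).2 (Submodule.subset_span (Or.inl ⟨σ, hσ, x, rfl⟩))
  refine ⟨J ⧸ M, inferInstance, inferInstance, M.mkQ.toAddMonoidHom,
    (M.mapQ M φ hφ).toAddMonoidHom, ⟨fun T x => map_smul M.mkQ T x, hI, fun σ hσ x => ?_,
      fun x hx h0 => hinj x hx (hred x ((Submodule.Quotient.mk_eq_zero M).1 h0))⟩, fun y => ?_⟩
  · have h := congrArg (M.mapQ M φ hφ) (hI _ (inv_mul_mem_inertia h₀ hσ) x)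
    rw [Submodule.mkQ_apply, Submodule.mkQ_apply, Submodule.mapQ_apply, Submodule.mapQ_apply] at h
    simpa [φ, mul_smul] using h
  · obtain ⟨x, rfl⟩ := Submodule.Quotient.mk_surjective M y
    exact (Submodule.Quotient.mk_eq_zero M).2 (Submodule.subset_span (Or.inr ⟨x, rfl⟩))

end Spec

section JZeroSpec

variable [Module HeckeAlg (JZero N)]
  [SMulCommClass (AlgebraicClosure ℚ ≃ₐ[ℚ] AlgebraicClosure ℚ) HeckeAlg (JZero N)]

include hA hlN in
/-- Specialisations exist. -/
theorem exists_specialization (p : ℕ) (hlp : ¬ l ∣ p)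
    (hT : ∀ x : JZero N, heckeGen ⟨l, Fact.out⟩ • x = heckeOperatorBar N ⟨l, Fact.out⟩ x) :
    ∃ (J' : Type) (_ : AddCommGroup J') (_ : Module HeckeAlg J') (sp : JZero N →+ J')
      (F : J' →+ J'),
      IsSpecialization (K := ℚ) p (JZero N) J' A l sp F ∧
        SpecialFibreRelation J' l Fact.out F := by
  obtain ⟨σ₀, hσ₀⟩ := CommAlg.exists_isFrobeniusAt (Fact.out : l.Prime) hA
  refine exists_specialization_of_kills A (reductionModL A N) p l Fact.out hσ₀ ?_ ?_
  · rintro y (⟨σ, hσ, x, rfl⟩ | ⟨x, rfl⟩)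
    · rw [map_sub, reductionModL_inertia_smul hA hlN hσ, sub_self]
    · rw [map_add, map_sub, map_nsmul, hT, reductionModL_heckeOperatorBar hA hlN,
        reductionModL_frobenius_smul hA hlN hσ₀, reductionModL_frobenius_smul hA hlN hσ₀,
        inv_smul_smul]
      abel
  · rintro x ⟨n, hn⟩ h0
    exact eq_zero_of_reductionModL_eq_zero hA hlN (reductionInputsModL_x0 hA hlN) (p ^ n)
      (fun hd => hlp ((Fact.out : l.Prime).dvd_of_dvd_pow hd)) x hn h0

end JZeroSpec

end FLTAgent.GoodRed
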