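import Fermat.Agent.Hecke.Final
import Fermat.Agent.Hecke.Inputs
import Fermat.Agent.Hecke.PsiMul
import Fermat.Agent.ModPoly.Roots
import Fermat.Agent.ModPoly.Generation
import Mathlib.RingTheory.Norm.Transitivity
import Mathlib.FieldTheory.IsAlgClosed.AlgebraicClosure

/-!
# The norm of `f (l τ)` from level `N l` to level `N` as a product of expansions

The conjugates of `f (q ^ l)` over the functions of level `N`, in the variable `t = q ^ (1 / l)`,
are `f (t ^ (l ^ 2))` and `f (ζ ^ b t)`.
-/

set_option autoImplicit false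
set_option linter.style.haveILetI false
set_option linter.unusedSectionVars false

noncomputable section

open Polynomial ModularCurve AlgebraicCurve

namespace FLTAgent.GoodRed

open ModPoly (HIdx twist jqConj evalL phiRoots phiK topIdx)
open Hecke (MF)

section Series

variable {R : Type*} [CommRing R]

theorem twist_qExpand (d : Rˣ) (n : ℕ) [NeZero n] (z : LaurentSeries R) :
    twist d (qExpand R n z) = qExpand R n (twist (d ^ n) z) := by
  ext k
  rw [ModPoly.twist_coeff]
  by_cases hk : (n : ℤ) ∣ k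
  · obtain ⟨m, rfl⟩ := hk
    rw [qExpand_coeff_mul, qExpand_coeff_mul, ModPoly.twist_coeff, ← zpow_natCast d n, ← zpow_mul]
  · rw [qExpand_coeff_of_not_dvd _ _ hk, qExpand_coeff_of_not_dvd _ _ hk, mul_zero]

theorem comp_evalL (f : LaurentSeries R →+* LaurentSeries R)
    (hC : ∀ r, f (HahnSeries.C r) = HahnSeries.C r) (x : LaurentSeries R) :
    f.comp (evalL R x) = evalL R (f x) := by
  refine Polynomial.ringHom_ext (fun c => ?_) ?_
  · simpa [evalL, ModPoly.algebraMap_eq_C] using hC c
  · simp [evalL]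

/-- The lowest exponent is `-e`. -/
def Pole (e : ℕ) (s : LaurentSeries R) : Prop :=
  s.coeff (-(e : ℤ)) ≠ 0 ∧ ∀ k < -(e : ℤ), s.coeff k = 0

theorem Pole.eq {e e' : ℕ} {s : LaurentSeries R} (h : Pole e s) (h' : Pole e' s) : e = e' := by
  rcases lt_trichotomy e e' with hlt | heq | hlt
  · exact absurd (h.2 _ (by omega)) h'.1
  · exact heq
  · exact absurd (h'.2 _ (by omega)) h.1

theorem Pole.qExpand {e : ℕ} {s : LaurentSeries R} (h : Pole e s) (n : ℕ) [NeZero n] :
    Pole (n * e) (ModularCurve.qExpand R n s) := by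
  have hn : (0 : ℤ) < n := by exact_mod_cast Nat.pos_of_ne_zero (NeZero.ne n)
  constructor
  · rw [Nat.cast_mul, ← mul_neg, qExpand_coeff_mul]
    exact h.1
  · intro k hk
    by_cases hd : (n : ℤ) ∣ k
    · obtain ⟨m, rfl⟩ := hd
      rw [qExpand_coeff_mul]
      exact h.2 m (by push_cast at hk; nlinarith)
    · exact qExpand_coeff_of_not_dvd _ _ hd

theorem Pole.twist {e : ℕ} {s : LaurentSeries R} (h : Pole e s) (d : Rˣ) :
    Pole e (ModPoly.twist d s) := by
  refine ⟨fun h0 => h.1 ?_, fun k hk => by rw [ModPoly.twist_coeff, h.2 k hk, mul_zero]⟩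
  rwa [ModPoly.twist_coeff, Units.mul_right_eq_zero] at h0

theorem pole_jqConj [Nontrivial R] (ζ : Rˣ) {p : ℕ × ℕ} (hp : p.1 ≠ 0) :
    Pole (p.1 * p.1) (jqConj R ζ p) := by
  obtain ⟨h1, h2⟩ := ModPoly.coeff_jqConj ζ (p := p) hp
  exact ⟨by rw [h1]; exact Units.ne_zero _, h2⟩

theorem eq_topIdx {M : ℕ} [NeZero M] {p : HIdx M} (h : (p : ℕ × ℕ).1 = M) : p = topIdx M := by
  obtain ⟨-, hb, -⟩ := ModPoly.mem_hermiteSet.mp p.2
  refine Subtype.ext (Prod.ext h ?_)
  rw [h, Nat.div_self (Nat.pos_of_ne_zero (NeZero.ne M))] at hb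
  simpa [topIdx] using hb

variable [IsDomain R]

theorem exists_eq_of_prod_eval {ι : Type*} [Fintype ι] {S : Type*} [CommRing S] [IsDomain S]
    (f : ι → S) {y : S} (h : (∏ i, (X - C (f i))).eval y = 0) : ∃ i, y = f i := by
  rw [eval_prod, Finset.prod_eq_zero_iff] at h
  obtain ⟨i, -, hi⟩ := h
  exact ⟨i, by simpa [sub_eq_zero] using hi⟩

end Series

variable (L : Type) [Field L] [CharZero L] [IsAlgClosed L] (l : ℕ) [Fact l.Prime]

instance instNeZeroOfPrime : NeZero l := ⟨(Fact.out : l.Prime).ne_zero⟩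

theorem exists_primRoot (n : ℕ) [NeZero n] : ∃ ζ : L, IsPrimitiveRoot ζ n := by
  haveI : NeZero ((n : L)) := ⟨by simpa using NeZero.ne n⟩
  obtain ⟨ζ, hζ⟩ := IsAlgClosed.exists_root (cyclotomic n L)
    (Polynomial.degree_cyclotomic_pos n L (Nat.pos_of_ne_zero (NeZero.ne n))).ne'
  exact ⟨ζ, Polynomial.isRoot_cyclotomic_iff.mp hζ⟩

/-- A primitive `l`-th root of unity. -/
def zetaL : Lˣ :=
  Units.mk0 (Classical.choose (exists_primRoot L l))
    ((Classical.choose_spec (exists_primRoot L l)).ne_zero (NeZero.ne l))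

theorem isPrimitiveRoot_zetaL : IsPrimitiveRoot ((zetaL L l : Lˣ) : L) l :=
  Classical.choose_spec (exists_primRoot L l)

theorem zetaL_pow : zetaL L l ^ l = 1 :=
  Units.ext (by simpa using (isPrimitiveRoot_zetaL L l).pow_eq_one)

/-- The substitutions in `t = q ^ (1 / l)` indexed by the conjugates of level `l`. -/
def conjSub (p : HIdx l) : LaurentSeries L →+* LaurentSeries L :=
  if (p : ℕ × ℕ).1 = 1 then twist (zetaL L l ^ (p : ℕ × ℕ).2) else qExpand L (l * l)

theorem conjSub_C (p : HIdx l) (r : L) : conjSub L l p (HahnSeries.C r) = HahnSeries.C r := by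
  rw [conjSub]
  split
  · exact ModPoly.twist_C _ _
  · exact qExpand_C _ _

theorem fst_eq_one_or (p : HIdx l) : (p : ℕ × ℕ).1 = 1 ∨ (p : ℕ × ℕ).1 = l :=
  (Fact.out : l.Prime).eq_one_or_self_of_dvd _ (ModPoly.mem_hermiteSet.mp p.2).1

theorem conjSub_jqModC (p : HIdx l) : jqConj L (zetaL L l) p = conjSub L l p (jqModC L) := by
  haveI : NeZero ((p : ℕ × ℕ).1 * (p : ℕ × ℕ).1) :=
    ⟨mul_ne_zero (ModPoly.fst_pos_of_mem p.2).ne' (ModPoly.fst_pos_of_mem p.2).ne'⟩
  rw [ModPoly.jqConj_eq]
  rcases fst_eq_one_or l p with h | h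
  · rw [conjSub, if_pos h, qExpand_congr (by rw [h] : _ = 1), qExpand_one_apply]
    congr 2
    rw [h, one_mul]
  · have hl1 : (p : ℕ × ℕ).1 ≠ 1 := by rw [h]; exact (Fact.out : l.Prime).one_lt.ne'
    rw [conjSub, if_neg hl1, qExpand_congr (by rw [h] : _ = l * l)]
    congr 1
    rw [h, pow_mul, zetaL_pow, one_pow, ModPoly.twist_one_unit]

theorem phiRoots_eq (M : ℕ) [NeZero M] {ζ : Lˣ} (hζ : IsPrimitiveRoot (ζ : L) M) :
    phiRoots M L = ModPoly.conjProd M L ζ :=
  ModPoly.phiRoots_eq_conjProd M ζ (hζ.isRoot_cyclotomic (Nat.pos_of_ne_zero (NeZero.ne M)))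

variable (N : ℕ) [NeZero N] (hlN : ¬ l ∣ N)

include hlN in
/-- A common root of `Φ_l (j(t^(lN)), Y)` and `Φ_N (j', Y)` is the conjugate of `j(Nτ)`. -/
theorem common_root (p : HIdx l) {y : LaurentSeries L}
    (h1 : ((phiK l L).map (evalL L (qExpand L N (qExpand L l (jqModC L))))).eval y = 0)
    (h2 : ((phiK N L).map (evalL L (conjSub L l p (jqModC L)))).eval y = 0) :
    y = conjSub L l p (jqNModC L N) := by
  classical
  have hl : l.Prime := Fact.out
  have hN : 0 < N := Nat.pos_of_ne_zero (NeZero.ne N)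
  -- first equation
  rw [← comp_evalL (qExpand L N) (qExpand_C N) (qExpand L l (jqModC L)), ← Polynomial.map_map,
    show (phiK l L).map (evalL L (qExpand L l (jqModC L))) = phiRoots l L from rfl,
    phiRoots_eq L l (isPrimitiveRoot_zetaL L l), ModPoly.conjProd] at h1
  simp only [Polynomial.map_prod, Polynomial.map_sub, map_X, map_C] at h1
  obtain ⟨p', rfl⟩ := exists_eq_of_prod_eval _ h1
  have hy : Pole (N * (N * ((p' : ℕ × ℕ).1 * (p' : ℕ × ℕ).1)))
      (qExpand L N (qExpand L N (jqConj L (zetaL L l) p'))) :=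
    ((pole_jqConj _ (ModPoly.fst_pos_of_mem p'.2).ne').qExpand N).qExpand N
  -- second equation, in `u` with `t = u ^ N`
  set y := qExpand L N (jqConj L (zetaL L l) p')
  have h3 : (((phiK N L).map (evalL L (conjSub L l p (jqModC L)))).map (qExpand L N)).eval
      (qExpand L N y) = 0 := by
    rw [Polynomial.eval_map_apply, h2, map_zero]
  rw [Polynomial.map_map, comp_evalL (qExpand L N) (qExpand_C N)] at h3
  obtain ⟨ζ, hζ⟩ := exists_primRoot L N
  set ζN : Lˣ := Units.mk0 ζ (hζ.ne_zero (NeZero.ne N))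
  have hroots := phiRoots_eq L N (ζ := ζN) hζ
  apply qExpand_injective N (R := L)
  by_cases hp : (p : ℕ × ℕ).1 = 1
  · rw [conjSub, if_pos hp] at h3 ⊢
    set c := zetaL L l ^ (p : ℕ × ℕ).2
    have hc : c ^ l = 1 := by rw [← pow_mul, mul_comm, pow_mul, zetaL_pow, one_pow]
    have hco : Nat.Coprime (orderOf c) N :=
      Nat.Coprime.coprime_dvd_left (orderOf_dvd_of_pow_eq_one hc)
        ((Nat.Prime.coprime_iff_not_dvd hl).2 hlN)
    obtain ⟨m, hm⟩ := exists_pow_eq_self_of_coprime hco.symm
    set d := c ^ m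
    have hd : d ^ N = c := by rw [← pow_mul, mul_comm, pow_mul, hm]
    rw [← hd, ← twist_qExpand, ← comp_evalL (twist d) (ModPoly.twist_C d), ← Polynomial.map_map,
      show (phiK N L).map (evalL L (qExpand L N (jqModC L))) = phiRoots N L from rfl, hroots,
      ModPoly.conjProd] at h3
    simp only [Polynomial.map_prod, Polynomial.map_sub, map_X, map_C] at h3
    obtain ⟨p'', hp''⟩ := exists_eq_of_prod_eval _ h3
    have hpole := hy.eq (hp'' ▸ (pole_jqConj _ (ModPoly.fst_pos_of_mem p''.2).ne').twist d)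
    have ha : (p'' : ℕ × ℕ).1 = N * (p' : ℕ × ℕ).1 :=
      Nat.mul_self_inj.mp (by rw [← hpole]; ring)
    have hle : (p'' : ℕ × ℕ).1 ≤ N := Nat.le_of_dvd hN (ModPoly.mem_hermiteSet.mp p''.2).1
    have htop : (p'' : ℕ × ℕ).1 = N := by
      have := ModPoly.fst_pos_of_mem p'.2
      nlinarith
    rw [hp'', eq_topIdx htop, ModPoly.jqConj_topIdx, ← hd, ← twist_qExpand]
  · rw [conjSub, if_neg hp] at h3 ⊢
    have hcomm : ∀ z : LaurentSeries L,
        qExpand L N (qExpand L (l * l) z) = qExpand L (l * l) (qExpand L N z) := fun z => by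
      rw [qExpand_qExpand, qExpand_qExpand]
      exact qExpand_congr (mul_comm _ _) z
    rw [hcomm, ← comp_evalL (qExpand L (l * l)) (qExpand_C (l * l)), ← Polynomial.map_map,
      show (phiK N L).map (evalL L (qExpand L N (jqModC L))) = phiRoots N L from rfl, hroots,
      ModPoly.conjProd] at h3
    simp only [Polynomial.map_prod, Polynomial.map_sub, map_X, map_C] at h3
    obtain ⟨p'', hp''⟩ := exists_eq_of_prod_eval _ h3
    have hpole := hy.eq
      (hp'' ▸ (pole_jqConj _ (ModPoly.fst_pos_of_mem p''.2).ne').qExpand (l * l))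
    have ha : l * (p'' : ℕ × ℕ).1 = N * (p' : ℕ × ℕ).1 :=
      Nat.mul_self_inj.mp (by
        rw [show l * (p'' : ℕ × ℕ).1 * (l * (p'' : ℕ × ℕ).1) =
          l * l * ((p'' : ℕ × ℕ).1 * (p'' : ℕ × ℕ).1) by ring, ← hpole]
        ring)
    rcases fst_eq_one_or l p' with h | h
    · rw [h, mul_one] at ha
      exact absurd ⟨_, ha.symm⟩ hlN
    · rw [h, mul_comm N l] at ha
      have htop := Nat.eq_of_mul_eq_mul_left hl.pos ha
      rw [hp'', eq_topIdx htop, ModPoly.jqConj_topIdx, hcomm]

variable [Algebra ℚ L]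

include hlN in
theorem finrank_alpha : finrankAlong L (heckeAlphaBar L N l) = l + 1 := by
  have h := Hecke.finrankAlong_degMap (L := L) (Hecke.degreeFacts L)
    (M := N) (M' := N * l) (by rw [mul_one]; exact dvd_mul_right N l)
  rw [Hecke.dedekindPsi_mul_prime_of_not_dvd (NeZero.ne N) (Fact.out : l.Prime) hlN,
    mul_comm (l + 1)] at h
  rw [Hecke.heckeAlphaBar_eq_degMap]
  exact Nat.eq_of_mul_eq_mul_left (Hecke.dedekindPsi_pos (NeZero.ne N)) h

theorem dedekindPsi_prime : dedekindPsi l = l + 1 := by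
  have h := Hecke.dedekindPsi_mul_prime_of_not_dvd one_ne_zero (Fact.out : l.Prime)
    (Nat.Prime.not_dvd_one Fact.out)
  rwa [one_mul, dedekindPsi_one, mul_one] at h

set_option maxHeartbeats 1000000 in
include hlN in
/-- The norm of `f (q ^ l)` in `t = q ^ (1 / l)`. -/
theorem qExpand_normAlong (f : MF L N) :
    qExpand L l ((Hecke.normAlong (heckeAlphaBar L N l) (heckeBetaBar L N l f) : MF L N) :
      LaurentSeries L) = ∏ p : HIdx l, conjSub L l p (f : LaurentSeries L) := by
  classical
  set α := heckeAlphaBar L N l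
  set β := heckeBetaBar L N l
  letI := algebraAlong α
  haveI : Module.Finite (MF L N) (MF L (N * l)) := by
    have h := (Hecke.levelFacts L).finite N (N * l) 1 (by rw [mul_one]; exact dvd_mul_right N l)
    rw [← Hecke.heckeAlphaBar_eq_degMap] at h
    exact h
  let Ω := AlgebraicClosure (LaurentSeries L)
  set e : LaurentSeries L →+* Ω := algebraMap (LaurentSeries L) Ω
  letI algΩ : Algebra (MF L N) Ω := ((e.comp (qExpand L l)).comp (MF L N).val.toRingHom).toAlgebra
  have hΩ : ∀ g : MF L N, algebraMap (MF L N) Ω g = e (qExpand L l (g : LaurentSeries L)) :=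
    fun _ => rfl
  haveI : CharZero (MF L N) := charZero_of_injective_ringHom (algebraMap L (MF L N)).injective
  haveI : Algebra.IsSeparable (MF L N) (MF L (N * l)) := inferInstance
  have hα : ∀ g : MF L N, (algebraMap (MF L N) (MF L (N * l)) g : MF L (N * l)) = α g :=
    fun _ => rfl
  have hconstF : ∀ (ψ : MF L (N * l) →ₐ[MF L N] Ω) (r : L),
      ψ (algebraMap L (MF L (N * l)) r) = e (HahnSeries.C r) := by
    intro ψ r
    rw [show algebraMap L (MF L (N * l)) r = algebraMap (MF L N) (MF L (N * l))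
      (algebraMap L (MF L N) r) from (α.commutes r).symm, ψ.commutes, hΩ]
    rw [show ((algebraMap L (MF L N) r : MF L N) : LaurentSeries L) = algebraMap L _ r from rfl,
      ModPoly.algebraMap_eq_C, qExpand_C]
  -- equations in `F'` pushed into `Ω`
  have hpush : ∀ (ψ : MF L (N * l) →ₐ[MF L N] Ω) (M : ℕ) [NeZero M] (a b : MF L (N * l)),
      ((phiK M L).map (evalL L (a : LaurentSeries L))).eval (b : LaurentSeries L) = 0 →
      ((phiK M L).map ((Polynomial.eval₂RingHom (e.comp HahnSeries.C) (ψ a)))).eval (ψ b) = 0 := by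
    intro ψ M _ a b h
    have h0 : ((phiK M L).map (Polynomial.aeval a : L[X] →ₐ[L] MF L (N * l)).toRingHom).eval b
        = 0 := by
      refine Subtype.ext ?_
      rw [show ((0 : MF L (N * l)) : LaurentSeries L) = 0 from rfl, ← h]
      show (MF L (N * l)).val.toRingHom _ = _
      rw [← Polynomial.eval_map_apply, Polynomial.map_map]
      congr 2
      exact Polynomial.ringHom_ext (fun c => by simp [evalL]) (by simp [evalL])
    have h1 := congrArg ψ.toRingHom h0
    rw [← Polynomial.eval_map_apply, Polynomial.map_map, map_zero] at h1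
    refine Eq.trans (congrArg₂ (fun q z => Polynomial.eval z q) (congrArg (fun φ => (phiK M L).map φ)
      (Polynomial.ringHom_ext (fun c => ?_) ?_)) rfl) h1
    · simp [hconstF]
    · simp
  have heval : ∀ x : LaurentSeries L,
      Polynomial.eval₂RingHom (e.comp HahnSeries.C) (e x) = e.comp (evalL L x) := fun x =>
    Polynomial.ringHom_ext (fun c => by simp [evalL, ModPoly.algebraMap_eq_C]) (by simp [evalL])
  -- the images of the generators
  set jN : MF L N := ⟨jqModC L, by rw [← Hecke.jd_one]; exact Hecke.jd_mem L (one_dvd N)⟩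
  set jNN : MF L N := ⟨jqNModC L N, Hecke.jd_mem L dvd_rfl⟩
  have key : ∀ ψ : MF L (N * l) →ₐ[MF L N] Ω, ∃ p : HIdx l,
      ∀ g : MF L N, ψ (β g) = e (conjSub L l p (g : LaurentSeries L)) := by
    intro ψ
    have hαj : ∀ g : MF L N, ψ (α g) = e (qExpand L l (g : LaurentSeries L)) := fun g => by
      rw [← hα, ψ.commutes, hΩ]
    have e1 : ((phiK l L).map (evalL L ((α jN : MF L (N * l)) : LaurentSeries L))).eval
        ((β jN : MF L (N * l)) : LaurentSeries L) = 0 := by
      rw [coe_heckeAlphaBar, coe_heckeBetaBar]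
      exact ModPoly.eval_phiRoots_jqN l L
    have e2 : ((phiK l L).map (evalL L ((α jNN : MF L (N * l)) : LaurentSeries L))).eval
        ((β jNN : MF L (N * l)) : LaurentSeries L) = 0 := by
      rw [coe_heckeAlphaBar, coe_heckeBetaBar]
      have h := congrArg (qExpand L N) (ModPoly.eval_phiRoots_jqN l L)
      rw [map_zero, ← Polynomial.eval_map_apply, Polynomial.map_map,
        comp_evalL (qExpand L N) (qExpand_C N)] at h
      refine Eq.trans (congrArg₂ (fun q z => Polynomial.eval z q) rfl ?_) h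
      show qExpand L l (qExpand L N (jqModC L)) = qExpand L N (qExpand L l (jqModC L))
      rw [qExpand_qExpand, qExpand_qExpand]
      exact qExpand_congr (mul_comm _ _) _
    have e3 : ((phiK N L).map (evalL L ((β jN : MF L (N * l)) : LaurentSeries L))).eval
        ((β jNN : MF L (N * l)) : LaurentSeries L) = 0 := by
      rw [coe_heckeBetaBar, coe_heckeBetaBar]
      have h := congrArg (qExpand L l) (ModPoly.eval_phiRoots_jqN N L)
      rw [map_zero, ← Polynomial.eval_map_apply, Polynomial.map_map,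
        comp_evalL (qExpand L l) (qExpand_C l)] at h
      exact h
    have h1 := hpush ψ l _ _ e1
    rw [hαj, heval, ← Polynomial.map_map,
      show (phiK l L).map (evalL L (qExpand L l (jN : LaurentSeries L))) = phiRoots l L from rfl,
      phiRoots_eq L l (isPrimitiveRoot_zetaL L l), ModPoly.conjProd] at h1
    simp only [Polynomial.map_prod, Polynomial.map_sub, map_X, map_C] at h1
    obtain ⟨p, hp⟩ := exists_eq_of_prod_eval _ h1
    rw [conjSub_jqModC] at hp
    have h2 := hpush ψ l _ _ e2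
    rw [hαj, heval, ← Polynomial.map_map] at h2
    have h3 := hpush ψ N _ _ e3
    rw [hp, heval, ← Polynomial.map_map] at h3
    obtain ⟨y, hy⟩ : ∃ y, e y = ψ (β jNN) := by
      have hroots : ((phiK l L).map (evalL L (qExpand L l (jNN : LaurentSeries L)))) =
          (phiRoots l L).map (qExpand L N) := by
        rw [phiRoots, Polynomial.map_map, comp_evalL (qExpand L N) (qExpand_C N)]
        congr 2
        show qExpand L l (qExpand L N (jqModC L)) = qExpand L N (qExpand L l (jqModC L))
        rw [qExpand_qExpand, qExpand_qExpand]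
        exact qExpand_congr (mul_comm _ _) _
      rw [hroots, phiRoots_eq L l (isPrimitiveRoot_zetaL L l), ModPoly.conjProd] at h2
      simp only [Polynomial.map_prod, Polynomial.map_sub, map_X, map_C] at h2
      obtain ⟨q, hq⟩ := exists_eq_of_prod_eval _ h2
      exact ⟨_, hq.symm⟩
    rw [← hy, Polynomial.eval_map_apply, map_eq_zero] at h2 h3
    have hyv : y = conjSub L l p (jqNModC L N) := common_root L l N hlN p (by
      refine Eq.trans (congrArg (fun x => Polynomial.eval y ((phiK l L).map (evalL L x))) ?_) h2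
      show qExpand L N (qExpand L l (jqModC L)) = qExpand L l (qExpand L N (jqModC L))
      rw [qExpand_qExpand, qExpand_qExpand]
      exact qExpand_congr (mul_comm _ _) _) h3
    refine ⟨p, fun g => ?_⟩
    obtain ⟨g, hg⟩ := g
    have hg' : g ∈ modularFunctionFieldC L N :=
      (Hecke.degreeFacts L).gen N ▸ hg
    induction hg' using IntermediateField.adjoin_induction with
    | mem z hz =>
      rcases hz with rfl | rfl
      · exact hp
      · exact hy ▸ congrArg e hyv
    | algebraMap r =>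
      show ψ (β (algebraMap L (MF L N) r)) = e (conjSub L l p (algebraMap L _ r))
      rw [β.commutes, hconstF, ModPoly.algebraMap_eq_C, conjSub_C]
    | add a b ha hb iha ihb =>
      have ha' : a ∈ MF L N := ((Hecke.degreeFacts L).gen N).symm ▸ ha
      have hb' : b ∈ MF L N := ((Hecke.degreeFacts L).gen N).symm ▸ hb
      show ψ (β (⟨a, ha'⟩ + ⟨b, hb'⟩)) = _
      rw [map_add, map_add, iha ha', ihb hb', map_add, map_add]
    | inv a ha iha =>
      have ha' : a ∈ MF L N := ((Hecke.degreeFacts L).gen N).symm ▸ ha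
      show ψ (β (⟨a, ha'⟩⁻¹)) = _
      rw [map_inv₀, map_inv₀, iha ha', map_inv₀, map_inv₀]
    | mul a b ha hb iha ihb =>
      have ha' : a ∈ MF L N := ((Hecke.degreeFacts L).gen N).symm ▸ ha
      have hb' : b ∈ MF L N := ((Hecke.degreeFacts L).gen N).symm ▸ hb
      show ψ (β (⟨a, ha'⟩ * ⟨b, hb'⟩)) = _
      rw [map_mul, map_mul, iha ha', ihb hb', map_mul, map_mul]
  choose idx hidx using key
  have hgen : Algebra.adjoin (MF L N) (Set.range β) = ⊤ := by
    have h := Hecke.adjoin_range_degMap (Hecke.levelFacts L) (Hecke.degreeFacts L) (A := N)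
      (B := N) (Z := N * l) l (by rw [mul_one]; exact dvd_mul_right N l) dvd_rfl (mul_comm N l)
    rw [← Hecke.heckeBetaBar_eq_degMap] at h
    have hswap : ∀ φ : MF L N →ₐ[L] MF L (N * l), φ = α →
        (letI := algebraAlong φ
         Algebra.adjoin (MF L N) (Set.range β) = ⊤) →
        Algebra.adjoin (MF L N) (Set.range β) = ⊤ := by
      rintro φ rfl h'; exact h'
    exact hswap _ (Hecke.heckeAlphaBar_eq_degMap L N l).symm h
  have hinj : Function.Injective idx := by
    intro ψ ψ' h
    refine AlgHom.ext_of_adjoin_eq_top hgen ?_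
    rintro _ ⟨g, rfl⟩
    rw [hidx ψ g, hidx ψ' g, h]
  have hbij : Function.Bijective idx := by
    rw [Fintype.bijective_iff_injective_and_card]
    refine ⟨hinj, ?_⟩
    rw [AlgHom.card, ModPoly.card_hIdx, dedekindPsi_prime]
    exact finrank_alpha L l N hlN
  refine e.injective ?_
  rw [map_prod, ← hΩ, show Hecke.normAlong α (β f) = Algebra.norm (MF L N) (β f) from rfl,
    Algebra.norm_eq_prod_embeddings (MF L N) Ω]
  exact Fintype.prod_bijective idx hbij _ _ fun ψ => hidx ψ f

end FLTAgent.GoodRed
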