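import Fermat.Agent.GoodRed.GaloisRed
import Fermat.Agent.GoodRed.HeckeNorm
import Fermat.Agent.Hecke.Points
import Fermat.Agent.Semistable.LevelW

/-!
# The congruence relation for the correspondence of degree `l + 1` in characteristic `l`

The norm from level `N l` of the function `y (l τ)` reduces to `F z * (F⁻¹ z) ^ l` when `y`
reduces to `z`, where `F` is Frobenius on coefficients.  A homomorphism of divisor groups with
this effect on functions and nonnegative on effective divisors is `F + l F⁻¹` on reductions.
-/

set_option autoImplicit false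
set_option linter.unusedSectionVars false
set_option linter.style.haveILetI false
set_option synthInstance.maxHeartbeats 100000

noncomputable section

open ModularCurve IsLocalRing AlgebraicCurve

namespace FLTAgent.GoodRed

open FLTAgent.FunctionField RedDatum

local instance (priority := high) instAlgebraFullCCongruence {K : Type*} [Field K] (N : ℕ)
    [NeZero N] : Algebra K (modularFunctionFieldFullC K N) :=
  SubalgebraClass.toAlgebra (modularFunctionFieldFullC K N)

local instance (priority := high) instAlgebraBarCongruence (N : ℕ) [NeZero N] :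
    Algebra (AlgebraicClosure ℚ) (modularFunctionFieldBar N) :=
  SubalgebraClass.toAlgebra (modularFunctionFieldBar N)

section Determined

variable {L k : Type*} [Field L] [Field k] {A : ValuationSubring L} {π : A →+* k}
  {F Fb : Type*} [Field F] [Algebra L F] [Field Fb] [Algebra k Fb]
  [IsFunctionField L F] [IsFunctionField k Fb] [IsAlgClosed L] [IsAlgClosed k]
  {D : RedDatum A π F Fb} {c g : ℤ}

/-- A positive homomorphism of divisors of degree `1 + m` is determined by its effect on the
divisors of functions with nonzero reduction. -/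
theorem hom_eq_of_red (R : PlaceRed D) (hL : RRLarge L F g c) (hk : RRLarge k Fb g c)
    (g₁ g₂ : SemilinearAut k Fb) (m : ℕ) (Θ : Divisor L F →+ Divisor k Fb)
    (hdiv : ∀ y z, D.Red y z → z ≠ 0 →
      Θ (divisorOf y) = g₁ • divisorOf z + m • (g₂ • divisorOf z))
    (hpos : ∀ E, 0 ≤ E → 0 ≤ Θ E)
    (hdeg : ∀ E, Divisor.degree (Θ E) = (1 + m) * Divisor.degree E) (E : Divisor L F) :
    Θ E = g₁ • Finsupp.mapDomain R.r E + m • (g₂ • Finsupp.mapDomain R.r E) := by
  have large : ∀ E : Divisor L F, c + 1 ≤ Divisor.degree E →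
      Θ E = g₁ • Finsupp.mapDomain R.r E + m • (g₂ • Finsupp.mapDomain R.r E) := by
    intro E hE
    classical
    refine (eq_of_le_of_degree_eq ?_ ?_).symm
    · intro Q
      obtain ⟨z, hzE, hz, hord⟩ := hk.exists_ord_eq_neg_finset
        (D := Finsupp.mapDomain R.r E) (by rw [degree_mapDomain]; exact hE)
        ({g₁⁻¹ • Q, g₂⁻¹ • Q} : Finset (Place k Fb))
      rw [← R.redSpace_eq hL hk (by omega)] at hzE
      obtain ⟨y, hy, hred⟩ := hzE
      have h0 := hpos _ ((mem_rr_iff_divisorOf (hred.ne_zero hz)).1 hy) Q
      rw [map_add, hdiv y z hred hz] at h0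
      simp only [Finsupp.coe_zero, Pi.zero_apply, Finsupp.add_apply, Finsupp.smul_apply,
        SemilinearAut.divisor_smul_apply, divisorOf_apply, nsmul_eq_mul] at h0 ⊢
      rw [hord _ (by simp), hord _ (by simp), mul_neg] at h0
      omega
    · rw [hdeg, map_add, map_nsmul, SemilinearAut.degree_smul, SemilinearAut.degree_smul,
        degree_mapDomain, nsmul_eq_mul]
      ring
  obtain ⟨P⟩ := exists_place (K := L) (F := F)
  set E₀ : Divisor L F := Finsupp.single P (max (c + 1) (c + 1 - Divisor.degree E))
  have h0 : Divisor.degree E₀ = max (c + 1) (c + 1 - Divisor.degree E) := by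
    rw [Divisor.degree_single, deg_eq_one, Nat.cast_one, mul_one]
  have e1 := large (E + E₀) (by rw [map_add, h0]; omega)
  have e2 := large E₀ (by rw [h0]; omega)
  rw [map_add, Finsupp.mapDomain_add, smul_add, smul_add, nsmul_add, e2] at e1
  rw [← add_left_inj (g₁ • Finsupp.mapDomain R.r E₀ + m • (g₂ • Finsupp.mapDomain R.r E₀)), e1]
  abel

end Determined

section Series

variable {R S : Type*} [CommRing R] [CommRing S]

theorem coeffMap_twist (f : R →+* S) (c : Rˣ) (x : LaurentSeries R) :
    coeffMap f (ModPoly.twist c x) = ModPoly.twist (Units.map f.toMonoidHom c) (coeffMap f x) := by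
  ext j
  rw [coeffMap_coeff, ModPoly.twist_coeff, ModPoly.twist_coeff, map_mul, coeffMap_coeff,
    ← map_zpow]
  rfl

/-- A series of integers over `A` inside a series with integral coefficients. -/
def seriesLift {L : Type*} [Field L] (A : ValuationSubring L) (x : LaurentSeries L)
    (h : ∀ n, x.coeff n ∈ A) : LaurentSeries A where
  coeff n := ⟨x.coeff n, h n⟩
  isPWO_support' := x.isPWO_support.mono fun n hn e => hn (Subtype.ext e)

theorem iotaL_seriesLift {L : Type*} [Field L] (A : ValuationSubring L) (x : LaurentSeries L)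
    (h : ∀ n, x.coeff n ∈ A) : iotaL A (seriesLift A x h) = x :=
  HahnSeries.ext (funext fun _ => rfl)

end Series

local notation "Qbar" => AlgebraicClosure ℚ

variable {A : ValuationSubring (AlgebraicClosure ℚ)} {l : ℕ} [Fact l.Prime]

theorem mem_of_pow_eq_one {L : Type*} [Field L] (A : ValuationSubring L) {x : L} {n : ℕ}
    (hn : 0 < n) (h : x ^ n = 1) : x ∈ A := by
  rcases A.mem_or_inv_mem x with hx | hx
  · exact hx
  · have hx0 : x ≠ 0 := fun e => by simp [e, zero_pow hn.ne'] at h
    have : x = x⁻¹ ^ (n - 1) := by
      rw [inv_pow]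
      refine eq_inv_of_mul_eq_one_left ?_
      rw [← pow_succ', Nat.sub_add_cancel hn, h]
    rw [this]
    exact pow_mem hx _

/-- The primitive root of unity as a unit of the valuation ring. -/
def zetaA (A : ValuationSubring (AlgebraicClosure ℚ)) (l : ℕ) [Fact l.Prime] : Aˣ :=
  Units.ofPowEqOne ⟨(zetaL Qbar l : Qbar), mem_of_pow_eq_one A (NeZero.pos l)
      (isPrimitiveRoot_zetaL Qbar l).pow_eq_one⟩ l
    (Subtype.ext (isPrimitiveRoot_zetaL Qbar l).pow_eq_one) (NeZero.ne l)

theorem map_zetaA : Units.map A.subtype.toMonoidHom (zetaA A l) = zetaL Qbar l := Units.ext rfl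

variable (hA : A.LiesOverPrime l) {N : ℕ} [NeZero N] (hlN : ¬ l ∣ N)

include hA in
theorem map_residue_zetaA : Units.map (residue A).toMonoidHom (zetaA A l) = 1 := by
  have : CharP (ResidueField A) l := WeilPairing.charP_residueField Fact.out hA
  haveI : ExpChar (ResidueField A) l := ExpChar.prime Fact.out
  refine Units.ext (frobenius_inj (ResidueField A) l ?_)
  rw [frobenius_def, frobenius_def, Units.val_one, one_pow]
  show residue A _ ^ l = 1
  rw [← map_pow, ← map_one (residue A)]
  exact congrArg _ (Subtype.ext (isPrimitiveRoot_zetaL Qbar l).pow_eq_one)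

/-- Frobenius of the residue field as an automorphism. -/
def frobRes : ResidueField A ≃+* ResidueField A :=
  haveI : CharP (ResidueField A) l := WeilPairing.charP_residueField Fact.out hA
  haveI : ExpChar (ResidueField A) l := ExpChar.prime Fact.out
  haveI := isAlgClosed_residue A
  frobeniusEquiv (ResidueField A) l

theorem frobRes_apply (x : ResidueField A) : frobRes hA x = x ^ l := rfl

variable (N) in
/-- Frobenius on coefficients. -/
def frobAut : SemilinearAut (ResidueField A) (modularFunctionFieldFullC (ResidueField A) N) :=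
  fullAut (frobRes hA) N

/-- The substitutions on series with coefficients in `A`. -/
def conjA (p : ModPoly.HIdx l) : LaurentSeries A →+* LaurentSeries A :=
  if (p : ℕ × ℕ).1 = 1 then ModPoly.twist (zetaA A l ^ (p : ℕ × ℕ).2) else qExpand A (l * l)

theorem iotaL_conjA (p : ModPoly.HIdx l) (a : LaurentSeries A) :
    iotaL A (conjA p a) = conjSub Qbar l p (iotaL A a) := by
  unfold conjA conjSub
  split
  · rw [iotaL, coeffMap_twist, map_pow, map_zetaA]
  · rw [iotaL, coeffMap_qExpand_series]

include hA in
theorem residue_prod_conjA (a : LaurentSeries A) :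
    coeffMap (residue A) (∏ p : ModPoly.HIdx l, conjA p a) =
      qExpand (ResidueField A) (l * l) (coeffMap (residue A) a) *
        coeffMap (residue A) a ^ l := by
  classical
  have h1 : (ModPoly.topIdx l : ℕ × ℕ).1 ≠ 1 := (Fact.out : l.Prime).one_lt.ne'
  rw [map_prod, Fintype.prod_eq_mul_prod_compl (ModPoly.topIdx l)]
  congr 1
  · rw [conjA, if_neg h1, coeffMap_qExpand_series]
  · have hp : ∀ p ∈ ({ModPoly.topIdx l}ᶜ : Finset (ModPoly.HIdx l)),
        coeffMap (residue A) (conjA p a) = coeffMap (residue A) a := by
      intro p hp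
      rw [Finset.mem_compl, Finset.mem_singleton] at hp
      rcases fst_eq_one_or l p with h | h
      · rw [conjA, if_pos h, coeffMap_twist, map_pow, map_residue_zetaA hA, one_pow,
          ModPoly.twist_one_unit]
      · exact absurd (eq_topIdx h) hp
    rw [Finset.prod_congr rfl hp, Finset.prod_const, Finset.card_compl, Finset.card_singleton,
      ModPoly.card_hIdx, dedekindPsi_prime, Nat.add_sub_cancel]

local notation "k" => ResidueField A

/-- The expected reduction of the norm. -/
def normRed (z : modularFunctionFieldFullC k N) : modularFunctionFieldFullC k N :=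
  (frobAut hA N • z) * ((frobAut hA N)⁻¹ • z) ^ l

theorem normRed_mul (z w : modularFunctionFieldFullC k N) :
    normRed hA (z * w) = normRed hA z * normRed hA w := by
  refine (congrArg₂ (fun a b => a * b ^ l) (smul_mul' (frobAut hA N) z w)
    (smul_mul' (frobAut hA N)⁻¹ z w)).trans ?_
  show _ * _ = _
  rw [mul_pow]
  exact mul_mul_mul_comm _ _ _ _

theorem normRed_ne_zero {z : modularFunctionFieldFullC k N} (hz : z ≠ 0) : normRed hA z ≠ 0 :=
  mul_ne_zero (by simpa using hz) (pow_ne_zero _ (by simpa using hz))

theorem qExpand_normRed (z : modularFunctionFieldFullC k N) :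
    qExpand k l (normRed hA z : LaurentSeries k) =
      qExpand k (l * l) (z : LaurentSeries k) * (z : LaurentSeries k) ^ l := by
  have : CharP k l := WeilPairing.charP_residueField Fact.out hA
  haveI : ExpChar k l := ExpChar.prime Fact.out
  show qExpand k l (coeffMap (frobRes hA : k →+* k) (z : LaurentSeries k) *
    coeffMap ((frobRes hA).symm : k →+* k) (z : LaurentSeries k) ^ l) = _
  have hF : coeffMap (frobenius k l) (coeffMap ((frobRes hA).symm : k →+* k) (z : LaurentSeries k))
      = (z : LaurentSeries k) := by
    rw [coeffMap_coeffMap, coeffMap_congr (g := RingHom.id k) (RingHom.ext fun x =>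
      (frobRes hA).apply_symm_apply x), coeffMap_id]
  rw [map_mul, pow_char_eq_qExpand l (coeffMap _ _), hF, qExpand_qExpand, mul_comm,
    pow_char_eq_qExpand l (z : LaurentSeries k)]
  rfl

/-- The norm of a function, substituted by `q ↦ q ^ l`. -/
def normBeta (y : modularFunctionFieldBar N) : modularFunctionFieldBar N :=
  Hecke.normAlong (heckeAlphaBar Qbar N l) (heckeBetaBar Qbar N l y)

theorem normBeta_mul (y w : modularFunctionFieldBar N) :
    normBeta (l := l) (y * w) = normBeta (l := l) y * normBeta (l := l) w :=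
  (congrArg _ (map_mul _ y w)).trans (map_mul _ _ _)

include hlN in
theorem red_normBeta_series {a : LaurentSeries A} {y : modularFunctionFieldBar N}
    {z : modularFunctionFieldFullC k N} (hy : (y : LaurentSeries Qbar) = iotaL A a)
    (hz : (z : LaurentSeries k) = coeffMap (residue A) a) :
    (x0Datum A hA N hlN).Red (normBeta (l := l) y) (normRed hA z) := by
  have h := qExpand_normAlong Qbar l N hlN y
  simp only [hy, ← iotaL_conjA, ← map_prod] at h
  set x : LaurentSeries Qbar := ((normBeta (l := l) y : modularFunctionFieldBar N) :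
    LaurentSeries Qbar)
  change qExpand Qbar l x = iotaL A _ at h
  have hA' : ∀ n, x.coeff n ∈ A := fun n => by
    rw [← qExpand_coeff_mul l x n, h]
    exact SetLike.coe_mem _
  refine (x0Basis A hA N hlN).red_of_series (isResidueMap_residue A)
    (a := seriesLift A x hA') (iotaL_seriesLift A x hA').symm ?_
  apply qExpand_injective l (R := k)
  rw [qExpand_normRed, hz, ← residue_prod_conjA hA, ← coeffMap_qExpand_series]
  refine congrArg _ (iotaL_injective ?_)
  rw [← h, iotaL, coeffMap_qExpand_series]
  exact (congrArg _ (iotaL_seriesLift A x hA')).symm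

include hlN in
/-- The norm reduces to `F z * (F⁻¹ z) ^ l`. -/
theorem red_normBeta {y : modularFunctionFieldBar N} {z : modularFunctionFieldFullC k N}
    (h : (x0Datum A hA N hlN).Red y z) (hz : z ≠ 0) :
    (x0Datum A hA N hlN).Red (normBeta (l := l) y) (normRed hA z) := by
  obtain ⟨u, a, b, haF, hbF, hak, hbk, hu, ha0, hb0, hy, hzab⟩ :=
    (x0Basis A hA N hlN).exists_unit_normal (isResidueMap_residue A) h hz
  set bF : modularFunctionFieldBar N := ⟨iotaL A b, hbF⟩
  set bk : modularFunctionFieldFullC k N := ⟨coeffMap (residue A) b, hbk⟩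
  have hb := red_normBeta_series hA hlN (a := b) (y := bF) (z := bk) rfl rfl
  have hab := red_normBeta_series hA hlN (a := algebraMap A (LaurentSeries A) u * a)
    (y := y * bF) (z := z * bk)
    (by rw [hy, map_mul]; exact congrArg (· * _) (coeffMap_algebraMap_laurent A.subtype u).symm)
    (by rw [hzab, map_mul, coeffMap_algebraMap_laurent]; rfl)
  have hb0' : normRed hA bk ≠ 0 := normRed_ne_zero hA fun e => hb0 (congrArg Subtype.val e)
  have := hab.div hb hb0'
  rwa [normBeta_mul, normRed_mul, mul_div_cancel_right₀ _ hb0',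
    mul_div_cancel_right₀ _ (hb.ne_zero hb0')] at this

theorem divisorOf_pow' {K E : Type*} [Field K] [Field E] [Algebra K E] [IsFunctionField K E]
    {f : E} (hf : f ≠ 0) (n : ℕ) : divisorOf (K := K) (f ^ n) = n • divisorOf f := by
  induction n with
  | zero => ext v; simp
  | succ n ih => rw [pow_succ, divisorOf_mul (pow_ne_zero _ hf) hf, ih, succ_nsmul]

theorem finrank_of_bijective_algebraMap {E G : Type*} [Field E] [Field G] [Algebra E G]
    (h : Function.Bijective (algebraMap E G)) : Module.finrank E G = 1 :=
  (LinearEquiv.ofBijective (Algebra.linearMap E G) h).finrank_eq.symm.trans (Module.finrank_self E)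

theorem finrankAlong_of_bijective {K E G : Type*} [Field K] [Field E] [Field G] [Algebra K E]
    [Algebra K G] (w : E →ₐ[K] G) (h : Function.Bijective w) : finrankAlong K w = 1 := by
  letI := algebraAlong w
  exact finrank_of_bijective_algebraMap (E := E) (G := G) h

include hlN in
theorem finrank_beta : finrankAlong Qbar (heckeBetaBar Qbar N l) = l + 1 := by
  obtain ⟨w, hw, -, -⟩ := Semistable.exists_swap Qbar N l Fact.out hlN
  have hb : w.toAlgHom.comp (Semistable.alphaMap Qbar N l) = heckeBetaBar Qbar N l := by
    rw [Hecke.heckeBetaBar_eq_degMap]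
    exact AlgHom.ext hw
  have h1 : finrankAlong Qbar w.toAlgHom = 1 := finrankAlong_of_bijective _ w.bijective
  rw [← hb, Hecke.finrankAlong_comp, h1, mul_one,
    Semistable.finrankAlong_alphaMap Qbar N l Fact.out hlN]

variable [IsFunctionField (ResidueField A) (modularFunctionFieldFullC (ResidueField A) N)]

theorem divisorOf_normRed {z : modularFunctionFieldFullC k N} (hz : z ≠ 0) :
    divisorOf (K := k) (normRed hA z) =
      frobAut hA N • divisorOf (K := k) z + l • ((frobAut hA N)⁻¹ • divisorOf (K := k) z) := by
  have h₁ : frobAut hA N • z ≠ 0 := by simpa using hz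
  have h₂ : (frobAut hA N)⁻¹ • z ≠ 0 := by simpa using hz
  exact (divisorOf_mul h₁ (pow_ne_zero _ h₂)).trans (congrArg₂ (· + ·) (divisorOf_smul _ _).symm
    ((divisorOf_pow' h₂ l).trans (congrArg (l • ·) (divisorOf_smul _ _).symm)))

include hA hlN in
set_option maxHeartbeats 800000 in
/-- The correspondence reduces to `F + l F⁻¹`. -/
theorem mapDomain_heckeDivBar_char [IsAlgClosed (ResidueField A)]
    [HasPrincipalDivisors Qbar (Hecke.MF Qbar (N * l))]
    (hα : HeckeAlphaBarIntegral Qbar N l) (hβ : HeckeBetaBarIntegral Qbar N l)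
    (R : PlaceRed (x0Datum A hA N hlN)) (E : Divisor Qbar (modularFunctionFieldBar N)) :
    Finsupp.mapDomain R.r (heckeDivBar hα hβ E) =
      frobAut hA N • Finsupp.mapDomain R.r E +
        l • ((frobAut hA N)⁻¹ • Finsupp.mapDomain R.r E) := by
  obtain ⟨g, c, hL, hk⟩ := exists_rrLarge_x0 A hA N hlN
  obtain ⟨_, _, _, hfin, hFI, hN⟩ := Hecke.heckeInputsAlong Qbar N l
  haveI : IsFunctionField Qbar (Hecke.MF Qbar (N * l)) := Hecke.isFunctionField_level Qbar _
  refine hom_eq_of_red R hL hk (frobAut hA N) (frobAut hA N)⁻¹ l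
    ((Finsupp.mapDomain.addMonoidHom R.r).comp (heckeDivBar hα hβ)) (fun y z h hz => ?_)
    (fun E hE => ?_) (fun E => ?_) E
  · have hy := h.ne_zero hz
    have hd : heckeDivBar hα hβ (divisorOf y) = divisorOf (normBeta (l := l) y) :=
      Finsupp.ext fun v => (Hecke.heckeDivBar_apply_of_apply_eq_ord N l hα hβ hfin hN hy
        (fun w => divisorOf_apply y w) v).trans (divisorOf_apply _ v).symm
    exact ((congrArg (Finsupp.mapDomain R.r) hd).trans (R.map_divisorOf (normBeta (l := l) y)
      (normRed hA z) (red_normBeta hA hlN h hz) (normRed_ne_zero hA hz))).trans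
      (divisorOf_normRed hA hz)
  · show 0 ≤ Finsupp.mapDomain R.r (heckeDivBar hα hβ E)
    refine mapDomain_nonneg _ ?_
    rw [← Finsupp.sum_single E, Finsupp.sum, map_sum]
    refine Finset.sum_nonneg fun v _ => ?_
    rw [Hecke.heckeDivBar_single N l hα hβ (fun W => deg_eq_one W)]
    exact Finset.sum_nonneg fun W _ => Finsupp.single_nonneg.2 (mul_nonneg (hE v) (Nat.cast_nonneg _))
  · show Divisor.degree (Finsupp.mapDomain R.r (heckeDivBar hα hβ E)) = _
    rw [degree_mapDomain, heckeDivBar, Divisor.degree_correspondence _ _ hβ hα hFI,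
      finrank_beta hlN]
    push_cast
    ring

end FLTAgent.GoodRed
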