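import Fermat.Agent.FunctionField.Basic
import Mathlib.RingTheory.Trace.Basic
import Mathlib.FieldTheory.IsAlgClosed.AlgebraicClosure
import Mathlib.RingTheory.Polynomial.Vieta
import Mathlib.RingTheory.Valuation.LocalSubring

/-!
# Traces of functions regular over a point of the line

For `F` finite over `K⟮x⟯`, conjugates of a function regular (resp. vanishing) at all places where
`t` vanishes lie in every valuation ring (resp. maximal ideal) of the algebraic closure in which
`t` is a nonunit.
-/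

set_option autoImplicit false

noncomputable section

open AlgebraicCurve Polynomial
open scoped IntermediateField

namespace FLTAgent.GoodRed

open FLTAgent.FunctionField

variable {K F : Type*} [Field K] [Field F] [Algebra K F] [IsFunctionField K F] {x : F}
  [FiniteDimensional K⟮x⟯ F]

/-- An algebraic closure of `K⟮x⟯`. -/
abbrev Closure (x : F) : Type _ := AlgebraicClosure K⟮x⟯

variable (x) in
/-- A valuation ring of the closure of `K⟮x⟯` containing the constants in which `t` is a
nonunit. -/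
structure Centre (t : K⟮x⟯) where
  /-- the valuation ring -/
  B : ValuationSubring (Closure (K := K) x)
  const : ∀ a : K, algebraMap K (Closure (K := K) x) a ∈ B
  nonunit : algebraMap K⟮x⟯ (Closure (K := K) x) t ∈ B.nonunits

variable {t : K⟮x⟯}

theorem Centre.exists (ht : Transcendental K (t : F)) : Nonempty (Centre x t) := by
  set Ω := Closure (K := K) x
  set T : Ω := algebraMap K⟮x⟯ Ω t
  have htT : Transcendental K T := by
    intro h
    refine ht ?_
    have h1 : IsAlgebraic K t :=
      (isAlgebraic_algebraMap_iff (algebraMap K⟮x⟯ Ω).injective).1 h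
    exact h1.algebraMap
  set R : Subring Ω := (Algebra.adjoin K {T}).toSubring
  set tr : R := ⟨T, Algebra.self_mem_adjoin_singleton K T⟩
  have hne : Ideal.span {tr} ≠ ⊤ := by
    rw [Ne, Ideal.span_singleton_eq_top]
    intro hu
    obtain ⟨⟨y, hy⟩, hxy⟩ := isUnit_iff_exists_inv.1 hu
    have hy' : y ∈ Algebra.adjoin K {T} := hy
    rw [Algebra.adjoin_singleton_eq_range_aeval, AlgHom.mem_range] at hy'
    obtain ⟨p, hp⟩ := hy'
    have hxy' : T * y = 1 := congrArg Subtype.val hxy
    refine htT ⟨X * p - 1, fun h => ?_, by simp [hp, hxy']⟩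
    have := congrArg (fun q : K[X] => q.coeff 0) h
    simp at this
  obtain ⟨B, hle, hsub⟩ := Ideal.image_subset_nonunits_valuationSubring _ hne
  exact ⟨⟨B, fun a => hle (Subalgebra.algebraMap_mem _ a),
    hsub ⟨tr, Ideal.mem_span_singleton_self _, rfl⟩⟩⟩

/-- The place of `F` cut out by an embedding and a centre. -/
theorem Centre.exists_place (C : Centre x t) (ht0 : t ≠ 0)
    (σ : F →ₐ[K⟮x⟯] Closure (K := K) x) :
    ∃ v : Place K F, v.toValuationSubring = C.B.comap σ.toRingHom ∧ 0 < v.ord (t : F) := by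
  set Bv := C.B.comap σ.toRingHom
  have hK : ∀ a : K, algebraMap K F a ∈ Bv := fun a => by
    show σ (algebraMap K F a) ∈ C.B
    rw [IsScalarTower.algebraMap_apply K K⟮x⟯ F, σ.commutes,
      ← IsScalarTower.algebraMap_apply]
    exact C.const a
  have htσ : σ (t : F) = algebraMap K⟮x⟯ _ t := σ.commutes t
  have htn : (t : F) ∈ Bv.nonunits := by
    rw [ValuationSubring.mem_nonunits_iff_or]
    have h := C.nonunit
    rw [ValuationSubring.mem_nonunits_iff_or] at h
    rcases h with h | h
    · exact absurd ((map_eq_zero _).1 h) ht0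
    · refine Or.inr fun h' => h ?_
      rw [← htσ, ← map_inv₀]
      exact h'
  have ht0' : (t : F) ≠ 0 := by simpa using ht0
  have hne : Bv ≠ ⊤ := fun h => by
    rw [← inv_inv (t : F), ValuationSubring.inv_mem_nonunits_iff, h] at htn
    exact htn.elim (inv_ne_zero ht0') fun h' => h' (ValuationSubring.mem_top _)
  exact ⟨placeOfValuationSubring Bv hK hne, rfl,
    (ordGe_one_iff_mem_nonunits (v := placeOfValuationSubring Bv hK hne)).2 htn |>.le_ord ht0'⟩

variable {y : F} {r : Closure (K := K) x}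

theorem exists_embedding (hr : r ∈ (minpoly K⟮x⟯ y).aroots (Closure (K := K) x)) :
    ∃ σ : F →ₐ[K⟮x⟯] Closure (K := K) x, σ y = r := by
  have hr' : aeval r (minpoly K⟮x⟯ y) = 0 :=
    (Polynomial.mem_aroots.1 hr).2
  exact IntermediateField.exists_algHom_of_splits_of_aeval
    (K := Closure (K := K) x) (fun s => ⟨(Algebra.IsIntegral.isIntegral s), IsAlgClosed.splits _⟩) hr'

theorem Centre.root_mem (C : Centre x t) (ht0 : t ≠ 0)
    (hy : ∀ v : Place K F, 0 < v.ord (t : F) → OrdGe v 0 y)
    (hr : r ∈ (minpoly K⟮x⟯ y).aroots (Closure (K := K) x)) : r ∈ C.B := by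
  obtain ⟨σ, rfl⟩ := exists_embedding hr
  obtain ⟨v, hv, hpos⟩ := C.exists_place ht0 σ
  have := mem_iff_ordGe_zero.2 (hy v hpos)
  rwa [hv] at this

theorem Centre.root_mem_nonunits (C : Centre x t) (ht0 : t ≠ 0)
    (hy : ∀ v : Place K F, 0 < v.ord (t : F) → OrdGe v 1 y)
    (hr : r ∈ (minpoly K⟮x⟯ y).aroots (Closure (K := K) x)) : r ∈ C.B.nonunits := by
  obtain ⟨σ, rfl⟩ := exists_embedding hr
  obtain ⟨v, hv, hpos⟩ := C.exists_place ht0 σ
  have h := ordGe_one_iff_mem_nonunits.1 (hy v hpos)
  rw [hv, ValuationSubring.mem_nonunits_iff_or] at h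
  rw [ValuationSubring.mem_nonunits_iff_or]
  rcases h with h | h
  · exact Or.inl (by rw [h, map_zero])
  · refine Or.inr fun h' => h ?_
    show σ y⁻¹ ∈ C.B
    rwa [map_inv₀]

theorem trace_eq_nsmul_sum_aroots (y : F) :
    algebraMap K⟮x⟯ (Closure (K := K) x) (Algebra.trace K⟮x⟯ F y) =
      Module.finrank K⟮x⟯⟮y⟯ F • ((minpoly K⟮x⟯ y).aroots (Closure (K := K) x)).sum := by
  rw [trace_eq_trace_adjoin K⟮x⟯ y, map_nsmul,
    IntermediateField.AdjoinSimple.trace_gen_eq_sum_roots y (IsAlgClosed.splits _)]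

theorem Centre.trace_mem (C : Centre x t) (ht0 : t ≠ 0)
    (hy : ∀ v : Place K F, 0 < v.ord (t : F) → OrdGe v 0 y) :
    algebraMap K⟮x⟯ _ (Algebra.trace K⟮x⟯ F y) ∈ C.B := by
  rw [trace_eq_nsmul_sum_aroots]
  exact nsmul_mem (multiset_sum_mem _ fun r hr => C.root_mem ht0 hy hr) _

theorem Centre.trace_mem_nonunits (C : Centre x t) (ht0 : t ≠ 0)
    (hy : ∀ v : Place K F, 0 < v.ord (t : F) → OrdGe v 1 y) :
    algebraMap K⟮x⟯ _ (Algebra.trace K⟮x⟯ F y) ∈ C.B.nonunits := by
  rw [trace_eq_nsmul_sum_aroots]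
  exact nsmul_mem (multiset_sum_mem _ fun r hr => C.root_mem_nonunits ht0 hy hr) _

theorem Centre.minpoly_coeff_mem (C : Centre x t) (ht0 : t ≠ 0)
    (hy : ∀ v : Place K F, 0 < v.ord (t : F) → OrdGe v 0 y) (i : ℕ) :
    algebraMap K⟮x⟯ _ ((minpoly K⟮x⟯ y).coeff i) ∈ C.B := by
  have hsplit := (IsAlgClosed.splits
    ((minpoly K⟮x⟯ y).map (algebraMap K⟮x⟯ (Closure (K := K) x)))).eq_prod_roots_of_monic
    ((minpoly.monic (Algebra.IsIntegral.isIntegral y)).map _)
  rw [← Polynomial.coeff_map, hsplit]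
  set s := ((minpoly K⟮x⟯ y).map (algebraMap K⟮x⟯ (Closure (K := K) x))).roots
  have hlift : (s.map fun r => X - Polynomial.C r).prod ∈ Polynomial.lifts C.B.subtype := by
    refine multiset_prod_mem _ fun p hp => ?_
    obtain ⟨r, hr, rfl⟩ := Multiset.mem_map.1 hp
    exact ⟨X - Polynomial.C (⟨r, C.root_mem ht0 hy hr⟩ : C.B), by simp⟩
  obtain ⟨p, hp⟩ := (Polynomial.lifts_iff_coeff_lifts _).1 hlift i
  rw [← hp]
  exact p.2

/-- Idempotents modulo the places over a point have nonvanishing trace in characteristic zero. -/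
theorem Centre.trace_not_mem_nonunits [CharZero K] (C : Centre x t) (ht0 : t ≠ 0)
    (hy : ∀ v : Place K F, 0 < v.ord (t : F) → OrdGe v 1 y ∨ OrdGe v 1 (y - 1))
    (σ₀ : F →ₐ[K⟮x⟯] Closure (K := K) x) (hσ₀ : σ₀ y - 1 ∈ C.B.nonunits) :
    algebraMap K⟮x⟯ _ (Algebra.trace K⟮x⟯ F y) ∉ C.B.nonunits := by
  classical
  set res := IsLocalRing.residue C.B
  have hreg : ∀ v : Place K F, 0 < v.ord (t : F) → OrdGe v 0 y := fun v hv => by
    rcases hy v hv with h | h
    · exact h.mono zero_le_one
    · simpa using (h.mono zero_le_one).add (ordGe_of_le_ord (v := v) (f := (1 : F)) (n := 0) (by simp))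
  set s := (minpoly K⟮x⟯ y).aroots (Closure (K := K) x)
  have hmem : ∀ r ∈ s, r ∈ C.B := fun r hr => C.root_mem ht0 hreg hr
  set s' : Multiset C.B := s.attach.map fun r => ⟨r.1, hmem _ r.2⟩
  have hdich : ∀ r ∈ s', res r = 0 ∨ res r = 1 := by
    intro r hr
    obtain ⟨⟨r₀, hr₀⟩, -, rfl⟩ := Multiset.mem_map.1 hr
    obtain ⟨σ, hσ⟩ := exists_embedding hr₀
    obtain ⟨v, hv, hpos⟩ := C.exists_place ht0 σ
    have key : ∀ f : F, OrdGe v 1 f → ∀ h : σ f ∈ C.B, res ⟨σ f, h⟩ = 0 := by
      intro f hf h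
      have h1 := ordGe_one_iff_mem_nonunits.1 hf
      rw [IsLocalRing.residue_eq_zero_iff, ← ValuationSubring.coe_mem_nonunits_iff,
        ValuationSubring.mem_nonunits_iff_or]
      rw [hv, ValuationSubring.mem_nonunits_iff_or] at h1
      rcases h1 with h1 | h1
      · exact Or.inl (show σ f = 0 by rw [h1, map_zero])
      · exact Or.inr fun h' => h1 (show σ f⁻¹ ∈ C.B by rwa [map_inv₀])
    rcases hy v hpos with h | h
    · left
      have h2 := key y h (hσ ▸ hmem _ hr₀)
      convert h2 using 3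
      exact hσ.symm
    · right
      have hm : σ (y - 1) ∈ C.B := by
        rw [map_sub, hσ, map_one]; exact sub_mem (hmem _ hr₀) (one_mem _)
      have h2 := key (y - 1) h hm
      have e : (⟨σ (y - 1), hm⟩ : C.B) = ⟨r₀, hmem _ hr₀⟩ - 1 :=
        Subtype.ext (by show σ (y - 1) = r₀ - 1; rw [map_sub, hσ, map_one])
      rw [e, map_sub, map_one, sub_eq_zero] at h2
      exact h2
  have hcount : (s'.map res).sum = ((s'.filter fun r => res r = 1).card : IsLocalRing.ResidueField C.B) := by
    clear_value s'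
    induction s' using Multiset.induction with
    | empty => simp
    | cons a m ih =>
      rw [Multiset.map_cons, Multiset.sum_cons,
        ih fun r hr => hdich r (Multiset.mem_cons_of_mem hr)]
      rcases hdich a (Multiset.mem_cons_self a m) with h | h
      · rw [Multiset.filter_cons_of_neg (p := fun r => res r = 1) m (by rw [h]; exact zero_ne_one),
          h, zero_add]
      · rw [Multiset.filter_cons_of_pos (p := fun r => res r = 1) m h, h, Multiset.card_cons]
        push_cast
        ring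
  have hroot : σ₀ y ∈ s := by
    rw [Polynomial.mem_aroots]
    exact ⟨minpoly.ne_zero (Algebra.IsIntegral.isIntegral y), by
      rw [Polynomial.aeval_algHom_apply, minpoly.aeval, map_zero]⟩
  have hpos : 0 < (s'.filter fun r => res r = 1).card := by
    rw [Multiset.card_pos_iff_exists_mem]
    refine ⟨⟨σ₀ y, hmem _ hroot⟩, Multiset.mem_filter.2 ⟨?_, ?_⟩⟩
    · exact Multiset.mem_map.2 ⟨⟨σ₀ y, hroot⟩, Multiset.mem_attach _ _, rfl⟩
    · rw [← sub_eq_zero, ← map_one res, ← map_sub, IsLocalRing.residue_eq_zero_iff,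
        ← ValuationSubring.coe_mem_nonunits_iff]
      exact hσ₀
  have hchar : CharZero (IsLocalRing.ResidueField C.B) :=
    charZero_of_injective_ringHom (R := K)
      (f := res.comp ((algebraMap K (Closure (K := K) x)).codRestrict C.B.toSubring C.const))
      (RingHom.injective _)
  intro hnon
  have hsum : s.sum = ((s'.sum : C.B) : Closure (K := K) x) := by
    show s.sum = C.B.subtype s'.sum
    rw [map_multiset_sum, Multiset.map_map]
    exact congrArg Multiset.sum (Multiset.attach_map_val s).symm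
  rw [trace_eq_nsmul_sum_aroots, hsum, ← AddSubmonoidClass.coe_nsmul,
    ValuationSubring.coe_mem_nonunits_iff, ← IsLocalRing.residue_eq_zero_iff, map_nsmul,
    map_multiset_sum, hcount, nsmul_eq_mul, ← Nat.cast_mul, Nat.cast_eq_zero, mul_eq_zero] at hnon
  exact hnon.elim Module.finrank_pos.ne' hpos.ne'

end FLTAgent.GoodRed
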