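import Fermat.Agent.GoodRed.NumCompare
import Fermat.Agent.GoodRed.Deuring
import Fermat.Agent.FunctionField.NormFormula

/-!
# Norms of functions from a covering with reduction of places

If a finite extension without defect has a reduction of places, reductions of functions regular
off the poles of a coordinate separate the finite places of the residue field.
-/

set_option autoImplicit false
set_option linter.unusedSectionVars false

noncomputable section

open AlgebraicCurve Polynomial
open scoped IntermediateField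

namespace FLTAgent.GoodRed

open FLTAgent.FunctionField RedDatum

theorem inertiaDeg_eq_one {K F F' : Type*} [Field K] [IsAlgClosed K] [Field F] [Field F']
    [Algebra K F] [Algebra K F'] [Algebra F F'] [IsScalarTower K F F'] [IsFunctionField K F]
    [IsFunctionField K F'] [FiniteDimensional F F'] (w : Place K F') : w.inertiaDeg F = 1 := by
  have h := w.deg_restrict_mul_inertiaDeg (F := F)
  rwa [deg_eq_one, deg_eq_one, one_mul] at h

theorem RRLarge.exists_ord_eq_neg_finset {K F : Type*} [Field K] [Field F] [Algebra K F]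
    [IsFunctionField K F] [IsAlgClosed K] {g c : ℤ} (h : RRLarge K F g c) {D : Divisor K F}
    (hD : c + 1 ≤ Divisor.degree D) (S : Finset (Place K F)) :
    ∃ f ∈ riemannRochSpace D, f ≠ 0 ∧ ∀ v ∈ S, v.ord f = -D v := by
  classical
  obtain ⟨v₀⟩ := exists_place (K := K) (F := F)
  set S' := insert v₀ S
  let U : S' → Submodule K (riemannRochSpace D) := fun v =>
    (riemannRochSpace (D - Finsupp.single v.1 1)).comap (riemannRochSpace D).subtype
  have hU : ∀ v, U v ≠ ⊤ := by
    intro v htop
    have hle : riemannRochSpace D ≤ riemannRochSpace (D - Finsupp.single v.1 1) := fun f hf => by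
      have hm : (⟨f, hf⟩ : riemannRochSpace D) ∈ U v := by rw [htop]; trivial
      exact hm
    obtain ⟨f, hf, hf0, hord⟩ := h.exists_ord_eq_neg hD v.1
    have := (mem_rr_iff.1 (hle hf) v.1).le_ord hf0
    rw [Finsupp.sub_apply, Finsupp.single_eq_same] at this
    omega
  obtain ⟨⟨f, hfD⟩, hf⟩ := Submodule.exists_forall_notMem_of_forall_ne_top U hU
  have hf0 : f ≠ 0 := fun h0 => hf ⟨v₀, Finset.mem_insert_self _ _⟩ (by
    show f ∈ riemannRochSpace _
    rw [h0]; exact zero_mem _)
  refine ⟨f, hfD, hf0, fun v hv => ?_⟩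
  by_contra hne
  refine hf ⟨v, Finset.mem_insert_of_mem hv⟩ ?_
  show f ∈ riemannRochSpace _
  refine mem_rr_iff.2 fun w => ?_
  rcases eq_or_ne w v with rfl | hw
  · refine ordGe_of_le_ord ?_
    have := (mem_rr_iff.1 hfD w).le_ord hf0
    simp only [Finsupp.sub_apply, Finsupp.single_eq_same]
    omega
  · simpa [Finsupp.sub_apply, Finsupp.single_eq_of_ne hw] using mem_rr_iff.1 hfD w

variable {L k : Type*} [Field L] [Field k] {A : ValuationSubring L} {π : A →+* k}
  {F Fb F' Fb' : Type*} [Field F] [Algebra L F] [Field Fb] [Algebra k Fb]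
  [Field F'] [Algebra L F'] [Field Fb'] [Algebra k Fb']
  [Algebra F F'] [Algebra Fb Fb'] [IsScalarTower L F F'] [IsScalarTower k Fb Fb']
  [IsFunctionField L F] [IsFunctionField k Fb] [IsFunctionField L F'] [IsFunctionField k Fb']
  [FiniteDimensional F F'] [IsAlgClosed L] [IsAlgClosed k]
  {D : RedDatum A π F Fb} {D' : RedDatum A π F' Fb'} {x : F} {xb : Fb}

/-- The polar divisor of a coordinate of the cover reduces onto that of its reduction. -/
theorem mapDomain_polar (h : CompatRed D D') (hd : NoDefect F Fb F' Fb') (R' : PlaceRed D')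
    (hx : D.Red x xb) (hxb : Transcendental k xb) (hdx : NoDefect L⟮x⟯ k⟮xb⟯ F Fb) :
    Finsupp.mapDomain R'.r (zeroDivisor (K := L) (algebraMap F F' x)⁻¹) =
      zeroDivisor (K := k) (algebraMap Fb Fb' xb)⁻¹ := by
  have := (h.finite_residue).1
  have hxt := transcendental_of_red hx hxb
  set X := algebraMap F F' x
  set Xb := algebraMap Fb Fb' xb
  have hX : Transcendental L X := fun ha =>
    hxt ((isAlgebraic_algebraMap_iff (algebraMap F F').injective).1 ha)
  have hXb : Transcendental k Xb := fun ha =>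
    hxb ((isAlgebraic_algebraMap_iff (algebraMap Fb Fb').injective).1 ha)
  have hred : D'.Red X Xb := h _ _ hx
  have hne : Xb ≠ 0 := fun h0 => hXb (h0 ▸ isAlgebraic_zero)
  have hdiv := R'.map_divisorOf X Xb hred hne
  have hle : zeroDivisor (K := k) Xb⁻¹ ≤
      Finsupp.mapDomain R'.r (zeroDivisor (K := L) X⁻¹) := by
    intro v
    have h0 : (0 : ℤ) ≤ Finsupp.mapDomain R'.r (zeroDivisor (K := L) X) v :=
      mapDomain_nonneg _ (zeroDivisor_nonneg _) v
    have h1 : (0 : ℤ) ≤ Finsupp.mapDomain R'.r (zeroDivisor (K := L) X⁻¹) v :=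
      mapDomain_nonneg _ (zeroDivisor_nonneg _) v
    have he := congrArg (fun d => d v) hdiv
    rw [← zeroDivisor_sub_zeroDivisor_inv, Finsupp.mapDomain_sub] at he
    simp only [Finsupp.sub_apply, divisorOf_apply] at he
    rw [zeroDivisor_apply, v.ord_inv]
    omega
  refine (eq_of_le_of_degree_eq hle ?_).symm
  rw [degree_mapDomain]
  have e1 := degree_divisorOf (K := L) X
  have e2 := degree_divisorOf (K := k) Xb
  rw [← zeroDivisor_sub_zeroDivisor_inv, map_sub, degree_zeroDivisor hX, sub_eq_zero] at e1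
  rw [← zeroDivisor_sub_zeroDivisor_inv, map_sub, degree_zeroDivisor hXb, sub_eq_zero] at e2
  rw [← e1, ← e2, finrank_adjoin_map, finrank_adjoin_map, hdx, hd]

/-- Reductions of functions regular off the poles of `x` separate two finite places. -/
theorem exists_red_finReg_ord [FiniteDimensional L⟮x⟯ F] [FiniteDimensional k⟮xb⟯ Fb]
    (h : CompatRed D D') (hd : NoDefect F Fb F' Fb') (R' : PlaceRed D') {g c : ℤ}
    (hL : RRLarge L F' g c) (hk : RRLarge k Fb' g c)
    (hx : D.Red x xb) (hxb : Transcendental k xb) (hdx : NoDefect L⟮x⟯ k⟮xb⟯ F Fb)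
    {Q Q' : Place k Fb} (hQ : 0 ≤ Q.ord xb) (hQ' : 0 ≤ Q'.ord xb) (hne : Q' ≠ Q) :
    ∃ y z, D.Red y z ∧ z ≠ 0 ∧ y ∈ finReg L x ∧ Q.ord z = 1 ∧ Q'.ord z = 0 := by
  classical
  have := (h.finite_residue).1
  obtain ⟨w₀, hw₀⟩ := fiber_nonempty (F' := Fb') Q
  have hw₀r : w₀.restrict Fb = Q := Place.mem_fiber.1 hw₀
  set X := algebraMap F F' x
  set Xb := algebraMap Fb Fb' xb
  have hxt := transcendental_of_red hx hxb
  have hX : Transcendental L X := fun ha =>
    hxt ((isAlgebraic_algebraMap_iff (algebraMap F F').injective).1 ha)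
  set T := zeroDivisor (K := L) X⁻¹
  set Tb := zeroDivisor (K := k) Xb⁻¹
  have hTT : Finsupp.mapDomain R'.r T = Tb := mapDomain_polar h hd R' hx hxb hdx
  have hdegT : 1 ≤ Divisor.degree T := by
    have e1 := degree_divisorOf (K := L) X
    rw [← zeroDivisor_sub_zeroDivisor_inv, map_sub, degree_zeroDivisor hX, sub_eq_zero] at e1
    rw [← e1]
    have := finiteDimensional_adjoin_of_transcendental hX
    exact_mod_cast Module.finrank_pos (R := L⟮X⟯) (M := F')
  set s : ℕ := (c + 2).toNat
  have hdegE : c + 2 ≤ Divisor.degree (s • T) := by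
    rw [map_nsmul, nsmul_eq_mul]
    have h1 : c + 2 ≤ (s : ℤ) := Int.self_le_toNat _
    nlinarith
  set Db : Divisor k Fb' := s • Tb - Finsupp.single w₀ 1
  have hdegDb : c + 1 ≤ Divisor.degree Db := by
    have e : Divisor.degree (s • Tb) = Divisor.degree (s • T) := by
      rw [map_nsmul, map_nsmul, ← hTT, degree_mapDomain]
    rw [map_sub, degree_single_one, e]
    omega
  set S : Finset (Place k Fb') := Q.fiber Fb' ∪ Q'.fiber Fb'
  obtain ⟨zb, hzb, hzb0, hord⟩ := hk.exists_ord_eq_neg_finset hdegDb S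
  have hzb' : zb ∈ riemannRochSpace (Finsupp.mapDomain R'.r (s • T)) := by
    rw [show Finsupp.mapDomain R'.r (s • T) = s • Tb by
      rw [Finsupp.mapDomain_smul, hTT]]
    exact riemannRochSpace_mono (sub_le_self _ (Finsupp.single_nonneg.2 zero_le_one)) hzb
  rw [← R'.redSpace_eq hL hk (by omega)] at hzb'
  obtain ⟨η, hη, hηr⟩ := hzb'
  have hy := h.red_norm hd hηr
  refine ⟨_, _, hy, Algebra.norm_ne_zero_iff.2 hzb0, fun v hv => ?_, ?_, ?_⟩
  · rcases eq_or_ne η 0 with rfl | hη0
    · exact absurd (hηr.unique red_zero) hzb0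
    refine ordGe_of_le_ord ?_
    rw [ord_norm v hη0]
    refine Finset.sum_nonneg fun w hw => mul_nonneg ?_ (Int.natCast_nonneg _)
    have h1 := (mem_rr_iff.1 hη w).le_ord hη0
    have h2 : 0 ≤ w.ord X := by
      rw [ord_map (Place.mem_fiber.1 hw)]; positivity
    rw [Finsupp.smul_apply, zeroDivisor_apply, w.ord_inv, max_eq_right (by omega)] at h1
    simpa using h1
  · have hTb : ∀ w ∈ Q.fiber Fb', Tb w = 0 := fun w hw => by
      have h2 : 0 ≤ w.ord Xb := by rw [ord_map (Place.mem_fiber.1 hw)]; positivity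
      rw [zeroDivisor_apply, w.ord_inv, max_eq_right (by omega)]
    rw [ord_norm Q hzb0, Finset.sum_eq_single w₀]
    · rw [hord w₀ (Finset.mem_union_left _ hw₀), inertiaDeg_eq_one, Finsupp.sub_apply,
        Finsupp.smul_apply, hTb w₀ hw₀, Finsupp.single_eq_same]
      simp
    · intro w hw hww
      rw [hord w (Finset.mem_union_left _ hw), Finsupp.sub_apply, Finsupp.smul_apply, hTb w hw,
        Finsupp.single_eq_of_ne hww]
      simp
    · exact fun hn => absurd hw₀ hn
  · rw [ord_norm Q' hzb0]
    refine Finset.sum_eq_zero fun w hw => ?_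
    have h2 : 0 ≤ w.ord Xb := by rw [ord_map (Place.mem_fiber.1 hw)]; positivity
    have hTb : Tb w = 0 := by rw [zeroDivisor_apply, w.ord_inv, max_eq_right (by omega)]
    have hww : w ≠ w₀ := fun e => hne (by rw [← Place.mem_fiber.1 hw, e, hw₀r])
    rw [hord w (Finset.mem_union_right _ hw), Finsupp.sub_apply, Finsupp.smul_apply, hTb,
      Finsupp.single_eq_of_ne hww]
    simp

end FLTAgent.GoodRed
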