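import Fermat.Agent.GoodRed.Lattice
import Mathlib.Algebra.Algebra.Basic
import Mathlib.LinearAlgebra.Span.Basic
import Mathlib.LinearAlgebra.Finsupp.LinearCombination

/-!
# Reduction data for a field over a valued field

A `RedDatum` is a valuation ring `V` of `F` over the valuation ring `A` of `L`, with residue map
onto `Fb`, such that every finite subset of `F` lies in the span of finitely many elements of `V`
with independent residues.  `D.Red y z` says that `y ∈ V` reduces to `z`.
-/

set_option autoImplicit false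

noncomputable section

namespace FLTAgent.GoodRed

variable {L k : Type*} [Field L] [Field k]

/-- Reduction datum of the field extension `F / L` with residue extension `Fb / k`. -/
structure RedDatum (A : ValuationSubring L) (π : A →+* k) (F Fb : Type*) [Field F] [Algebra L F]
    [Field Fb] [Algebra k Fb] where
  /-- `π` is the residue map of `A` -/
  isResidue : IsResidueMap A π
  /-- the valuation ring of `F` -/
  V : ValuationSubring F
  mem_iff : ∀ a : L, algebraMap L F a ∈ V ↔ a ∈ A
  /-- the residue map -/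
  res : V →+* Fb
  res_algebraMap : ∀ a : A, res ⟨algebraMap L F a, (mem_iff a).2 a.2⟩ = algebraMap k Fb (π a)
  res_eq_zero : ∀ y : V, res y = 0 ↔ (y : F) ∈ V.nonunits
  res_surj : Function.Surjective res
  orth : ∀ s : Finset F, ∃ (n : ℕ) (e : Fin n → V),
    LinearIndependent k (fun i => res (e i)) ∧
      (s : Set F) ⊆ Submodule.span L (Set.range fun i => (e i : F))

namespace RedDatum

variable {A : ValuationSubring L} {π : A →+* k} {F Fb : Type*} [Field F] [Algebra L F]
  [Field Fb] [Algebra k Fb] (D : RedDatum A π F Fb)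

/-- `y` lies in the valuation ring and reduces to `z`. -/
def Red (y : F) (z : Fb) : Prop := ∃ h : y ∈ D.V, D.res ⟨y, h⟩ = z

variable {D} {y y' : F} {z z' : Fb}

theorem Red.mem (h : D.Red y z) : y ∈ D.V := h.1

theorem red_iff {y : D.V} : D.Red (y : F) z ↔ D.res y = z :=
  ⟨fun ⟨_, h⟩ => h, fun h => ⟨y.2, h⟩⟩

theorem exists_red (h : y ∈ D.V) : ∃ z, D.Red y z := ⟨_, h, rfl⟩

theorem exists_lift (D : RedDatum A π F Fb) (z : Fb) : ∃ y, D.Red y z := by
  obtain ⟨y, hy⟩ := D.res_surj z
  exact ⟨y, y.2, hy⟩

theorem Red.unique (h : D.Red y z) (h' : D.Red y z') : z = z' := h.2.symm.trans h'.2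

theorem red_zero : D.Red 0 0 := ⟨zero_mem _, map_zero D.res⟩

theorem red_one : D.Red 1 1 := ⟨one_mem _, map_one D.res⟩

theorem Red.add (h : D.Red y z) (h' : D.Red y' z') : D.Red (y + y') (z + z') :=
  ⟨add_mem h.1 h'.1, by rw [← h.2, ← h'.2, ← map_add]; rfl⟩

theorem Red.mul (h : D.Red y z) (h' : D.Red y' z') : D.Red (y * y') (z * z') :=
  ⟨mul_mem h.1 h'.1, by rw [← h.2, ← h'.2, ← map_mul]; rfl⟩

theorem Red.neg (h : D.Red y z) : D.Red (-y) (-z) :=
  ⟨neg_mem h.1, by rw [← h.2, ← map_neg]; rfl⟩

theorem Red.sub (h : D.Red y z) (h' : D.Red y' z') : D.Red (y - y') (z - z') := by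
  simpa [sub_eq_add_neg] using h.add h'.neg

theorem Red.pow (h : D.Red y z) (n : ℕ) : D.Red (y ^ n) (z ^ n) :=
  ⟨pow_mem h.1 n, by rw [← h.2, ← map_pow]; rfl⟩

theorem Red.sum {ι : Type*} (s : Finset ι) {f : ι → F} {g : ι → Fb}
    (h : ∀ i ∈ s, D.Red (f i) (g i)) : D.Red (∑ i ∈ s, f i) (∑ i ∈ s, g i) := by
  classical
  induction s using Finset.induction with
  | empty => simpa using red_zero
  | insert a s ha ih =>
    rw [Finset.sum_insert ha, Finset.sum_insert ha]
    exact (h a (Finset.mem_insert_self a s)).add (ih fun i hi => h i (Finset.mem_insert_of_mem hi))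

theorem Red.prod {ι : Type*} (s : Finset ι) {f : ι → F} {g : ι → Fb}
    (h : ∀ i ∈ s, D.Red (f i) (g i)) : D.Red (∏ i ∈ s, f i) (∏ i ∈ s, g i) := by
  classical
  induction s using Finset.induction with
  | empty => simpa using red_one
  | insert a s ha ih =>
    rw [Finset.prod_insert ha, Finset.prod_insert ha]
    exact (h a (Finset.mem_insert_self a s)).mul (ih fun i hi => h i (Finset.mem_insert_of_mem hi))

theorem red_algebraMap (a : A) : D.Red (algebraMap L F a) (algebraMap k Fb (π a)) :=
  ⟨(D.mem_iff a).2 a.2, D.res_algebraMap a⟩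

theorem Red.ne_zero (h : D.Red y z) (hz : z ≠ 0) : y ≠ 0 := by
  rintro rfl
  exact hz (h.unique red_zero)

theorem Red.eq_zero_iff (h : D.Red y z) : z = 0 ↔ y ∈ D.V.nonunits := by
  obtain ⟨hy, rfl⟩ := h
  exact D.res_eq_zero ⟨y, hy⟩

theorem Red.inv (h : D.Red y z) (hz : z ≠ 0) : D.Red y⁻¹ z⁻¹ := by
  have hy0 := h.ne_zero hz
  have hyV : y⁻¹ ∈ D.V := by
    have := mt h.eq_zero_iff.2 hz
    rw [D.V.mem_nonunits_iff_or, not_or, not_not] at this
    exact this.2
  obtain ⟨w, hw⟩ := exists_red hyV
  have h1 := h.mul hw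
  rw [mul_inv_cancel₀ hy0] at h1
  rw [← eq_inv_of_mul_eq_one_right (red_one.unique h1).symm]
  exact hw

theorem Red.div (h : D.Red y z) (h' : D.Red y' z') (hz : z' ≠ 0) :
    D.Red (y / y') (z / z') := by
  simpa [div_eq_mul_inv] using h.mul (h'.inv hz)

theorem red_smul (a : A) (h : D.Red y z) : D.Red ((a : L) • y) (π a • z) := by
  rw [Algebra.smul_def, Algebra.smul_def]
  exact (red_algebraMap a).mul h

variable {ι : Type*} [Fintype ι] {e : ι → F} {eb : ι → Fb}

theorem red_sum_smul (he : ∀ i, D.Red (e i) (eb i)) (c : ι → A) :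
    D.Red (∑ i, (c i : L) • e i) (∑ i, π (c i) • eb i) :=
  Red.sum _ fun i _ => red_smul (c i) (he i)

/-- Residually independent elements are orthonormal. -/
theorem coeff_mem_of_mem (he : ∀ i, D.Red (e i) (eb i)) (hind : LinearIndependent k eb)
    {c : ι → L} (h : ∑ i, c i • e i ∈ D.V) : ∀ i, c i ∈ A := by
  classical
  rcases eq_or_ne c 0 with rfl | hc
  · exact fun i => zero_mem _
  obtain ⟨j, hj, hjA⟩ := exists_max_valuation A c hc
  by_contra hnot
  push Not at hnot
  obtain ⟨i₀, hi₀⟩ := hnot
  have hjn : c j ∉ A := fun h' => hi₀ (by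
    have := mul_mem (hjA i₀) h'
    rwa [div_mul_cancel₀ _ hj] at this)
  have hinvn : (c j)⁻¹ ∈ A.nonunits := by
    rw [ValuationSubring.inv_mem_nonunits_iff]; exact Or.inr hjn
  set a : ι → A := fun i => ⟨c i / c j, hjA i⟩ with ha
  have hinv : (c j)⁻¹ ∈ A := A.nonunits_subset hinvn
  obtain ⟨w, hw⟩ := exists_red h
  have h1 := red_smul ⟨(c j)⁻¹, hinv⟩ hw
  rw [(D.isResidue.eq_zero_iff _).2 hinvn, zero_smul] at h1
  have h2 := red_sum_smul he a
  have h3 : (c j)⁻¹ • ∑ i, c i • e i = ∑ i, (a i : L) • e i := by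
    rw [Finset.smul_sum]
    refine Finset.sum_congr rfl fun i _ => ?_
    rw [smul_smul, ← div_eq_inv_mul]
  change D.Red ((c j)⁻¹ • ∑ i, c i • e i) 0 at h1
  rw [h3] at h1
  have h4 := Fintype.linearIndependent_iff.1 hind (fun i => π (a i)) (h2.unique h1) j
  have h5 : a j = 1 := Subtype.ext (div_self hj)
  rw [h5, map_one] at h4
  exact one_ne_zero h4

theorem linearIndependent_of_red (he : ∀ i, D.Red (e i) (eb i))
    (hind : LinearIndependent k eb) : LinearIndependent L e := by
  classical
  rw [Fintype.linearIndependent_iff]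
  intro c hc i
  by_contra hi
  obtain ⟨j, hj, hjA⟩ := exists_max_valuation A c fun h => hi (congrFun h i)
  have h2 := red_sum_smul he (fun i => (⟨c i / c j, hjA i⟩ : A))
  have h3 : ∑ i, (c i / c j) • e i = 0 := by
    rw [show (∑ i, (c i / c j) • e i) = (c j)⁻¹ • ∑ i, c i • e i by
      rw [Finset.smul_sum]
      exact Finset.sum_congr rfl fun i _ => by rw [smul_smul, div_eq_inv_mul], hc, smul_zero]
  rw [h3] at h2
  have h4 := Fintype.linearIndependent_iff.1 hind _ (red_zero.unique h2).symm j
  rw [show (⟨c j / c j, hjA j⟩ : A) = 1 from Subtype.ext (div_self hj), map_one] at h4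
  exact one_ne_zero h4

/-- Every nonzero element is a scalar times an element with nonzero reduction. -/
theorem exists_scale (D : RedDatum A π F Fb) {f : F} (hf : f ≠ 0) :
    ∃ (c : L) (z : Fb), c ≠ 0 ∧ z ≠ 0 ∧ D.Red (c • f) z := by
  classical
  obtain ⟨n, e, hind, hspan⟩ := D.orth {f}
  obtain ⟨c, hc⟩ := (Submodule.mem_span_range_iff_exists_fun L).1 (hspan (by simp : f ∈ _))
  have hc0 : c ≠ 0 := fun h => hf (by rw [← hc, h]; simp)
  obtain ⟨j, hj, hjA⟩ := exists_max_valuation A c hc0
  set a : Fin n → A := fun i => ⟨c i / c j, hjA i⟩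
  have h := red_sum_smul (D := D) (fun i => red_iff.2 (rfl : D.res (e i) = _)) a
  refine ⟨(c j)⁻¹, ∑ i, π (a i) • D.res (e i), inv_ne_zero hj, fun h0 => ?_, ?_⟩
  · have h4 := Fintype.linearIndependent_iff.1 hind _ h0 j
    rw [show a j = 1 from Subtype.ext (div_self hj), map_one] at h4
    exact one_ne_zero h4
  · convert h using 1
    rw [← hc, Finset.smul_sum]
    exact Finset.sum_congr rfl fun i _ => by rw [smul_smul, ← div_eq_inv_mul]

variable (D) in
/-- The reduction of an `L`-subspace. -/
def redSpace (W : Submodule L F) : Submodule k Fb where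
  carrier := {z | ∃ y ∈ W, D.Red y z}
  zero_mem' := ⟨0, W.zero_mem, red_zero⟩
  add_mem' := fun ⟨y, hy, h⟩ ⟨y', hy', h'⟩ => ⟨y + y', W.add_mem hy hy', h.add h'⟩
  smul_mem' := fun t _ ⟨y, hy, h⟩ => by
    obtain ⟨c, rfl⟩ := D.isResidue.surj t
    exact ⟨(c : L) • y, W.smul_mem _ hy, red_smul c h⟩

theorem mem_redSpace {W : Submodule L F} : z ∈ D.redSpace W ↔ ∃ y ∈ W, D.Red y z := Iff.rfl

theorem redSpace_mono {W W' : Submodule L F} (h : W ≤ W') : D.redSpace W ≤ D.redSpace W' :=
  fun _ ⟨y, hy, hr⟩ => ⟨y, h hy, hr⟩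

theorem finite_redSpace_and_finrank (D : RedDatum A π F Fb) (W : Submodule L F)
    [Module.Finite L W] :
    Module.Finite k (D.redSpace W) ∧ Module.finrank k (D.redSpace W) = Module.finrank L W := by
  classical
  obtain ⟨s, hs⟩ := (Module.Finite.iff_fg (N := W)).1 inferInstance
  obtain ⟨n, e, hind, hspan⟩ := D.orth s
  have hW : W ≤ Submodule.span L (Set.range fun i => (e i : F)) :=
    hs ▸ Submodule.span_le.2 hspan
  have he : ∀ i, D.Red (e i : F) (D.res (e i)) := fun i => red_iff.2 rfl
  have hle : D.redSpace W ≤ Submodule.span k (Set.range fun i => D.res (e i)) := by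
    rintro z ⟨y, hy, hr⟩
    obtain ⟨c, rfl⟩ := (Submodule.mem_span_range_iff_exists_fun L).1 (hW hy)
    have hc := coeff_mem_of_mem he hind hr.mem
    rw [hr.unique (red_sum_smul he fun i => ⟨c i, hc i⟩)]
    exact Submodule.sum_mem _ fun i _ => Submodule.smul_mem _ _ (Submodule.subset_span ⟨i, rfl⟩)
  have : Module.Finite k (Submodule.span k (Set.range fun i => D.res (e i))) :=
    Module.Finite.span_of_finite k (Set.finite_range _)
  have hfin : Module.Finite k (D.redSpace W) := Submodule.finiteDimensional_of_le hle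
  refine ⟨hfin, le_antisymm ?_ ?_⟩
  · -- residually independent elements of `W` are independent
    let b := Module.finBasis k (D.redSpace W)
    choose y hy hr using fun i => (b i).2
    have hli : LinearIndependent L fun i => (⟨y i, hy i⟩ : W) :=
      LinearIndependent.of_comp W.subtype (linearIndependent_of_red (D := D) (e := y) hr
        (b.linearIndependent.map' (D.redSpace W).subtype (Submodule.ker_subtype _)))
    simpa using hli.fintype_card_le_finrank
  · let f : (Fin n → L) →ₗ[L] F := Fintype.linearCombination L fun i => (e i : F)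
    let g : (Fin n → k) →ₗ[k] Fb := Fintype.linearCombination k fun i => D.res (e i)
    have hg : Function.Injective g := fun a b h => by
      funext i
      refine sub_eq_zero.1 (Fintype.linearIndependent_iff.1 hind (a - b) ?_ i)
      simpa [g, Fintype.linearCombination_apply, sub_smul, sub_eq_zero] using h
    have hf : Function.Injective f := fun a b h => by
      funext i
      refine sub_eq_zero.1 (Fintype.linearIndependent_iff.1 (linearIndependent_of_red he hind)
        (a - b) ?_ i)
      simpa [f, Fintype.linearCombination_apply, sub_smul, sub_eq_zero] using h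
    have hWr : W ≤ LinearMap.range f := by
      intro w hw
      obtain ⟨c, hc⟩ := (Submodule.mem_span_range_iff_exists_fun L).1 (hW hw)
      exact ⟨c, by simp [f, Fintype.linearCombination_apply, hc]⟩
    have h1 : Module.finrank L (W.comap f) = Module.finrank L W := by
      rw [(Submodule.equivMapOfInjective f hf (W.comap f)).finrank_eq,
        Submodule.map_comap_eq_of_le hWr]
    rw [← h1]
    refine (finrank_le_finrank_redCoord D.isResidue _).trans ?_
    rw [(Submodule.equivMapOfInjective g hg _).finrank_eq]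
    refine Submodule.finrank_mono ?_
    rintro _ ⟨v, hv, rfl⟩
    obtain ⟨a, ha, rfl⟩ := mem_redCoord.1 hv
    refine ⟨f fun i => (a i : L), ha, ?_⟩
    simpa [f, g, Fintype.linearCombination_apply] using red_sum_smul he a

instance finite_redSpace (D : RedDatum A π F Fb) (W : Submodule L F) [Module.Finite L W] :
    Module.Finite k (D.redSpace W) := (D.finite_redSpace_and_finrank W).1

theorem finrank_redSpace (D : RedDatum A π F Fb) (W : Submodule L F) [Module.Finite L W] :
    Module.finrank k (D.redSpace W) = Module.finrank L W := (D.finite_redSpace_and_finrank W).2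

/-- An orthonormal basis of a finite dimensional subspace lifting a given basis of its
reduction. -/
theorem exists_lift_basis (D : RedDatum A π F Fb) (W : Submodule L F) [Module.Finite L W]
    {J : Type*} [Fintype J] (b : J → Fb) (hb : ∀ j, b j ∈ D.redSpace W)
    (hind : LinearIndependent k b) (hcard : Fintype.card J = Module.finrank L W) :
    ∃ y : J → F, (∀ j, y j ∈ W) ∧ (∀ j, D.Red (y j) (b j)) ∧
      Submodule.span L (Set.range y) = W := by
  choose y hy hr using hb
  refine ⟨y, hy, hr, Submodule.eq_of_le_of_finrank_eq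
    (Submodule.span_le.2 (Set.range_subset_iff.2 hy)) ?_⟩
  rw [finrank_span_eq_card (linearIndependent_of_red hr hind), hcard]

end RedDatum

end FLTAgent.GoodRed
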