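import Fermat.Agent.GoodRed.X0Inputs
import Fermat.Prelude.Def_EllipticCurve_FrobeniusTrace

/-!
# Reduction of places commutes with the decomposition group

A Galois element fixing the place above `l` acts on reductions through its action on the residue
field; Frobenius raises a series in `q` to the `l`-th power up to `q ↦ q ^ l`.
-/

set_option autoImplicit false
set_option linter.unusedSectionVars false
set_option linter.style.haveILetI false
set_option synthInstance.maxHeartbeats 100000

noncomputable section

open ModularCurve IsLocalRing AlgebraicCurve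

namespace FLTAgent.GoodRed

open FLTAgent.FunctionField RedDatum

theorem coeffMap_qExpand_series {R S : Type*} [CommRing R] [CommRing S] (f : R →+* S) (d : ℕ)
    [NeZero d] (x : LaurentSeries R) :
    coeffMap f (qExpand R d x) = qExpand S d (coeffMap f x) := by
  ext k
  by_cases hk : (d : ℤ) ∣ k
  · obtain ⟨m, rfl⟩ := hk
    rw [coeffMap_coeff, qExpand_coeff_mul, qExpand_coeff_mul, coeffMap_coeff]
  · rw [coeffMap_coeff, qExpand_coeff_of_not_dvd _ _ hk, map_zero,
      qExpand_coeff_of_not_dvd _ _ hk]

/-- In characteristic `l`, the `l`-th power of a series is Frobenius on coefficients and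
`q ↦ q ^ l`. -/
theorem pow_char_eq_qExpand {k : Type*} [Field k] (l : ℕ) [Fact l.Prime] [CharP k l] [NeZero l]
    (x : LaurentSeries k) : x ^ l = qExpand k l (coeffMap (frobenius k l) x) := by
  haveI : ExpChar k l := ExpChar.prime (Fact.out : l.Prime)
  have hps : ∀ u : PowerSeries k,
      PowerSeries.map (frobenius k l) (PowerSeries.expand l (NeZero.ne l) u) = u ^ l := fun u =>
    MvPowerSeries.map_frobenius_expand l (NeZero.ne l) (f := (u : MvPowerSeries Unit k))
  have hps' : ∀ u : PowerSeries k, qExpand k l (coeffMap (frobenius k l)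
      (HahnSeries.ofPowerSeries ℤ k u)) = HahnSeries.ofPowerSeries ℤ k u ^ l := fun u => by
    rw [coeffMap_ofPowerSeries, ModPoly.qExpand_ofPowerSeries, ← map_pow, ← hps u]
    congr 1
    ext n
    simp only [PowerSeries.coeff_map, PowerSeries.coeff_expand]
    split_ifs <;> simp
  conv_lhs => rw [← LaurentSeries.single_order_mul_powerSeriesPart x]
  conv_rhs => rw [← LaurentSeries.single_order_mul_powerSeriesPart x]
  rw [mul_pow, map_mul, map_mul, hps', coeffMap_single, qExpand_single, HahnSeries.single_pow,
    nsmul_eq_mul]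
  rfl

section Full

variable {k : Type*} [Field k]

theorem coeffMap_mem_fullC (f : k →+* k) (M : ℕ) {x : LaurentSeries k}
    (hx : x ∈ modularFunctionFieldFullC k M) : coeffMap f x ∈ modularFunctionFieldFullC k M := by
  induction hx using IntermediateField.adjoin_induction with
  | mem y hy =>
    obtain ⟨d, hd0, hd, rfl⟩ := hy
    rw [coeffMap_qExpand_series, coeffMap_jqModC]
    exact jqModCd_mem_full k M hd
  | algebraMap r =>
    rw [coeffMap_algebraMap]
    exact IntermediateField.algebraMap_mem _ _
  | add a b _ _ ha hb => rw [map_add]; exact add_mem ha hb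
  | inv a _ ha => rw [map_inv₀]; exact inv_mem ha
  | mul a b _ _ ha hb => rw [map_mul]; exact mul_mem ha hb

/-- A field automorphism of the constants acting on series with coefficients in them. -/
def fullAut (s : k ≃+* k) (M : ℕ) : SemilinearAut k (modularFunctionFieldFullC k M) :=
  ⟨(({ toFun := fun x => ⟨coeffMap (s : k →+* k) x, coeffMap_mem_fullC _ M x.2⟩
       invFun := fun x => ⟨coeffMap (s.symm : k →+* k) x, coeffMap_mem_fullC _ M x.2⟩
       left_inv := fun x => Subtype.ext (by
        show coeffMap _ (coeffMap _ (x : LaurentSeries k)) = _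
        rw [coeffMap_coeffMap, coeffMap_congr (RingEquiv.symm_comp s), coeffMap_id])
       right_inv := fun x => Subtype.ext (by
        show coeffMap _ (coeffMap _ (x : LaurentSeries k)) = _
        rw [coeffMap_coeffMap, coeffMap_congr (RingEquiv.comp_symm s), coeffMap_id])
       map_mul' := fun x y => Subtype.ext (map_mul (coeffMap (s : k →+* k)) _ _)
       map_add' := fun x y => Subtype.ext (map_add (coeffMap (s : k →+* k)) _ _) } :
      modularFunctionFieldFullC k M ≃+* modularFunctionFieldFullC k M), s),
    fun a => Subtype.ext (coeffMap_algebraMap (s : k →+* k) a)⟩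

theorem coe_fullAut_smul (s : k ≃+* k) (M : ℕ) (z : modularFunctionFieldFullC k M) :
    ((fullAut s M • z : modularFunctionFieldFullC k M) : LaurentSeries k) =
      coeffMap (s : k →+* k) z := rfl

theorem coe_fullAut_inv_smul (s : k ≃+* k) (M : ℕ) (z : modularFunctionFieldFullC k M) :
    (((fullAut s M)⁻¹ • z : modularFunctionFieldFullC k M) : LaurentSeries k) =
      coeffMap (s.symm : k →+* k) z := rfl

theorem fullAut_refl (M : ℕ) : fullAut (RingEquiv.refl k) M = 1 :=
  Subtype.ext (Prod.ext (RingEquiv.ext fun x => Subtype.ext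
    ((coeffMap_congr (g := RingHom.id k) rfl _).trans (coeffMap_id _))) rfl)

end Full

section Places

variable {L k : Type*} [Field L] [Field k] {A : ValuationSubring L} {π : A →+* k}
  {F Fb : Type*} [Field F] [Algebra L F] [Field Fb] [Algebra k Fb]
  [IsFunctionField L F] [IsFunctionField k Fb] [IsAlgClosed L] [IsAlgClosed k]
  {D : RedDatum A π F Fb} {c g : ℤ}

theorem divisorOf_smul {K E : Type*} [Field K] [Field E] [Algebra K E] [IsFunctionField K E]
    (σ : SemilinearAut K E) (f : E) : σ • divisorOf (K := K) f = divisorOf (K := K) (σ • f) := by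
  refine Finsupp.ext fun w => ?_
  rw [SemilinearAut.divisor_smul_apply, divisorOf_apply, divisorOf_apply]
  conv_rhs => rw [← smul_inv_smul σ w]
  rw [SemilinearAut.ord_smul]

/-- A map of places compatible with reduction commutes with compatible automorphisms. -/
theorem PlaceRed.r_smul (R : PlaceRed D) (hL : RRLarge L F g c) (hk : RRLarge k Fb g c)
    (σ : SemilinearAut L F) (τ : SemilinearAut k Fb)
    (h : ∀ y z, D.Red y z → D.Red (σ • y) (τ • z)) (P : Place L F) :
    R.r (σ • P) = τ • R.r P := by
  let R' : PlaceRed D := ⟨fun P => τ⁻¹ • R.r (σ • P), fun y z hyz hz => by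
    rw [show (fun P => τ⁻¹ • R.r (σ • P)) = (τ⁻¹ • ·) ∘ R.r ∘ (σ • ·) from rfl,
      Finsupp.mapDomain_comp, Finsupp.mapDomain_comp, ← SemilinearAut.divisor_smul_def,
      ← SemilinearAut.divisor_smul_def, divisorOf_smul,
      R.map_divisorOf _ _ (h y z hyz) (by simpa using hz), divisorOf_smul, inv_smul_smul]⟩
  have := congrFun (R.unique hL hk R') P
  rw [this, smul_inv_smul]

theorem PlaceRed.mapDomain_smul (R : PlaceRed D) (hL : RRLarge L F g c) (hk : RRLarge k Fb g c)
    (σ : SemilinearAut L F) (τ : SemilinearAut k Fb)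
    (h : ∀ y z, D.Red y z → D.Red (σ • y) (τ • z)) (E : Divisor L F) :
    Finsupp.mapDomain R.r (σ • E) = τ • Finsupp.mapDomain R.r E := by
  rw [SemilinearAut.divisor_smul_def, SemilinearAut.divisor_smul_def, ← Finsupp.mapDomain_comp,
    ← Finsupp.mapDomain_comp]
  exact congrArg (Finsupp.mapDomain · E) (funext fun P => R.r_smul hL hk σ τ h P)

end Places

/-- Gauss data are stable under coefficientwise automorphisms. -/
theorem GaussBasis.red_map {L k : Type*} [Field L] [Field k] {A : ValuationSubring L} {π : A →+* k}
    {F : IntermediateField L (LaurentSeries L)} {Fb : IntermediateField k (LaurentSeries k)}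
    {n : ℕ} (G : GaussBasis π F Fb n) (hπ : IsResidueMap A π) (σ : L →+* L) (σA : A →+* A)
    (s : k →+* k) (hσ : ∀ a : A, ((σA a : A) : L) = σ a) (hs : ∀ a, π (σA a) = s (π a))
    {y y' : F} {z z' : Fb} (hy : (y' : LaurentSeries L) = coeffMap σ (y : LaurentSeries L))
    (hz' : (z' : LaurentSeries k) = coeffMap s (z : LaurentSeries k))
    (h : (G.datum hπ).Red y z) : (G.datum hπ).Red y' z' := by
  obtain ⟨a, b, hr, hz⟩ := (G.red_iff hπ).1 h
  have hres : ∀ x : LaurentSeries A,
      coeffMap π (coeffMap σA x) = coeffMap s (coeffMap π x) :=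
    fun x => HahnSeries.ext (funext fun i => hs (x.coeff i))
  have hio : ∀ x : LaurentSeries A, iotaL A (coeffMap σA x) = coeffMap σ (iotaL A x) :=
    fun x => HahnSeries.ext (funext fun i => hσ (x.coeff i))
  refine (G.red_iff hπ).2 ⟨coeffMap σA a, coeffMap σA b, ⟨?_, ?_⟩, ?_⟩
  · rw [hres]
    exact fun e => hr.1 ((map_eq_zero _).1 e)
  · rw [hio, hio, hy, ← map_mul, hr.2]
  · rw [hz', hres, hres, ← map_mul, hz]

local notation "Qbar" => AlgebraicClosure ℚ

variable {A : ValuationSubring (AlgebraicClosure ℚ)}

/-- The action of an element of the decomposition group on the residue field. -/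
def residueAut (g : A.decompositionSubgroup ℚ) : ResidueField A ≃+* ResidueField A :=
  MulSemiringAction.toRingEquiv (A.decompositionSubgroup ℚ) (ResidueField A) g

theorem residueAut_residue (g : A.decompositionSubgroup ℚ) (a : A) :
    residueAut g (residue A a) = residue A (g • a) := rfl

/-- Reductions transform through the residue action. -/
theorem red_galois_smul {l : ℕ} [Fact l.Prime] (hA : A.LiesOverPrime l) {N : ℕ} [NeZero N]
    (hlN : ¬ l ∣ N) (g : A.decompositionSubgroup ℚ) {y : modularFunctionFieldBar N}
    {z : modularFunctionFieldFullC (ResidueField A) N} (h : (x0Datum A hA N hlN).Red y z) :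
    (x0Datum A hA N hlN).Red
      (arithmeticGalois (modularFunctionFieldFull N) (g : Qbar ≃ₐ[ℚ] Qbar) • y)
      (fullAut (residueAut g) N • z) := by
  exact (x0Basis A hA N hlN).red_map (isResidueMap_residue A)
    ((g : Qbar ≃ₐ[ℚ] Qbar) : Qbar →+* Qbar)
    (MulSemiringAction.toRingHom (A.decompositionSubgroup ℚ) A g)
    (residueAut g : ResidueField A →+* ResidueField A) (fun _ => rfl)
    (fun a => (residueAut_residue g a).symm) (coe_arithmeticGalois_smul _ _ y)
    (coe_fullAut_smul _ N z) h

end FLTAgent.GoodRed
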