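import Fermat.Agent.GoodRed.X0All
import Fermat.Agent.GoodRed.Torsion

/-!
# The reduction of `JZero N` modulo a prime not dividing the level

The inputs of the reduction map hold, its underlying map of places is the reduction of places of
the Gauss datum, and it is injective on torsion prime to the residue characteristic.
-/

set_option autoImplicit false
set_option linter.unusedSectionVars false
set_option linter.style.haveILetI false
set_option synthInstance.maxHeartbeats 100000

noncomputable section

open Polynomial ModularCurve IsLocalRing AlgebraicCurve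

namespace FLTAgent.GoodRed

open FLTAgent.FunctionField RedDatum

section Normal

variable {L k : Type*} [Field L] [Field k] {A : ValuationSubring L} {π : A →+* k}
  {F : IntermediateField L (LaurentSeries L)} {Fb : IntermediateField k (LaurentSeries k)} {n : ℕ}
  (G : GaussBasis π F Fb n)

include G in
/-- A function is a constant times a quotient of integral series of the field with nonzero
reductions in the residue field. -/
theorem GaussBasis.exists_normal_mem {y : LaurentSeries L} (hy : y ∈ F) (hy0 : y ≠ 0) :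
    ∃ (c : L) (a b : LaurentSeries A), c ≠ 0 ∧ iotaL A a ∈ F ∧ iotaL A b ∈ F ∧
      coeffMap π a ∈ Fb ∧ coeffMap π b ∈ Fb ∧ coeffMap π a ≠ 0 ∧ coeffMap π b ≠ 0 ∧
      y * iotaL A b = algebraMap L (LaurentSeries L) c * iotaL A a := by
  obtain ⟨p, q, hq, hpq⟩ := G.span y hy
  obtain ⟨c₂, qA, hc₂, hqA, hqb⟩ := RedDatum.exists_scale_poly A π hq
  have hden : iotaL A (aeval G.x qA) = algebraMap L _ c₂ * aeval (iotaL A G.x) q := by
    rw [iotaL, coeffMap_aeval, hqA, map_mul, aeval_C]
  have hdb := G.coeffMap_den_ne_zero hqb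
  have hd0 : iotaL A (aeval G.x qA) ≠ 0 := fun h => hdb (by
    rw [iotaL_injective (h.trans (map_zero _).symm), map_zero])
  have hp : ∃ i, p i ≠ 0 := by
    by_contra h
    push Not at h
    simp only [h, map_zero, zero_mul, Finset.sum_const_zero, mul_eq_zero] at hpq
    rcases hpq with hpq | hpq
    · exact hy0 hpq
    · exact hd0 (by rw [hden, hpq, mul_zero])
  obtain ⟨c₁, pA, hc₁, hpA, hpb⟩ := exists_scale_polys A π p hp
  have haF : ∀ r : A[X], iotaL A (aeval G.x r) ∈ F := fun r => by
    rw [iotaL, coeffMap_aeval, aeval_eq_sum_range]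
    exact sum_mem fun l _ => F.smul_mem (pow_mem G.x_mem l)
  refine ⟨c₂ / c₁, G.num pA, aeval G.x qA, div_ne_zero hc₂ hc₁, ?_, haF qA,
    G.coeffMap_num_mem pA, G.coeffMap_den_mem qA, G.coeffMap_num_ne_zero hpb, hdb, ?_⟩
  · rw [GaussBasis.num, map_sum]
    exact sum_mem fun i _ => by rw [map_mul]; exact mul_mem (haF _) (G.e_mem i)
  have hnum : iotaL A (G.num pA) =
      algebraMap L _ c₁ * ∑ i, aeval (iotaL A G.x) (p i) * iotaL A (G.e i) := by
    rw [GaussBasis.iotaL_num, Finset.mul_sum]
    exact Finset.sum_congr rfl fun i _ => by rw [hpA, map_mul, aeval_C, mul_assoc]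
  rw [hden, hnum, ← hpq, map_div₀]
  have : algebraMap L (LaurentSeries L) c₁ ≠ 0 := by simpa using hc₁
  field_simp

variable (hπ : IsResidueMap A π)

/-- In the datum a function with nonzero reduction is a unit times a quotient of integral series. -/
theorem GaussBasis.exists_unit_normal {y : F} {z : Fb} (h : (G.datum hπ).Red y z) (hz : z ≠ 0) :
    ∃ (u : A) (a b : LaurentSeries A) (haF : iotaL A a ∈ F) (hbF : iotaL A b ∈ F)
      (hak : coeffMap π a ∈ Fb) (hbk : coeffMap π b ∈ Fb),
      π u ≠ 0 ∧ coeffMap π a ≠ 0 ∧ coeffMap π b ≠ 0 ∧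
      y * ⟨iotaL A b, hbF⟩ = algebraMap L F u * ⟨iotaL A a, haF⟩ ∧
      z * ⟨coeffMap π b, hbk⟩ = algebraMap k Fb (π u) * ⟨coeffMap π a, hak⟩ := by
  obtain ⟨c, a, b, hc, haF, hbF, hak, hbk, ha0, hb0, hy⟩ :=
    G.exists_normal_mem y.2 (by simpa using h.ne_zero hz)
  set aF : F := ⟨iotaL A a, haF⟩
  set bF : F := ⟨iotaL A b, hbF⟩
  have hra : (G.datum hπ).Red aF (⟨coeffMap π a, hak⟩ : Fb) := G.red_of_series hπ rfl rfl
  have hrb : (G.datum hπ).Red bF (⟨coeffMap π b, hbk⟩ : Fb) := G.red_of_series hπ rfl rfl
  have hy' : y * bF = algebraMap L F c * aF := Subtype.ext hy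
  have hak0 : (⟨coeffMap π a, hak⟩ : Fb) ≠ 0 := fun e => ha0 (congrArg Subtype.val e)
  have hc' : algebraMap L F c = y * bF / aF :=
    eq_div_of_mul_eq (hra.ne_zero hak0) hy'.symm
  have hrc := (h.mul hrb).div hra hak0
  rw [← hc'] at hrc
  obtain ⟨u, rfl⟩ : ∃ u : A, (u : L) = c :=
    ⟨⟨c, ((G.datum hπ).mem_iff c).1 hrc.mem⟩, rfl⟩
  have he := hrc.unique (red_algebraMap u)
  refine ⟨u, a, b, haF, hbF, hak, hbk, fun hu => ?_, ha0, hb0, hy', ?_⟩
  · rw [hu, map_zero, div_eq_zero_iff] at he
    exact he.elim (fun e => (mul_ne_zero hz fun e' => hb0 (congrArg Subtype.val e')) e) hak0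
  · rw [← he, div_mul_cancel₀ _ hak0]

end Normal

local notation "Qbar" => AlgebraicClosure ℚ

variable {A : ValuationSubring (AlgebraicClosure ℚ)} {l : ℕ} [Fact l.Prime]
  (hA : A.LiesOverPrime l) {N : ℕ} [NeZero N] (hlN : ¬ l ∣ N)
  [IsFunctionField (ResidueField A) (modularFunctionFieldFullC (ResidueField A) N)]

/-- A reduction of places of the datum is one in the sense of the reduction map. -/
theorem isPlaceReductionModL_of_placeRed (R : PlaceRed (x0Datum A hA N hlN)) :
    IsPlaceReductionModL A N R.r := by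
  haveI := isAlgClosed_residue A
  refine ⟨fun P => by rw [deg_eq_one, deg_eq_one], fun y hy hyk hne D hD Q => ?_⟩
  have hred : (x0Datum A hA N hlN).Red ⟨coeffMap A.subtype y, hy⟩ ⟨coeffMap (residue A) y, hyk⟩ :=
    (x0Basis A hA N hlN).red_of_series (isResidueMap_residue A) rfl rfl
  rw [show D = divisorOf (⟨coeffMap A.subtype y, hy⟩ : modularFunctionFieldBar N) from
    Finsupp.ext fun v => by rw [hD v, divisorOf_apply],
    R.map_divisorOf _ _ hred fun e => hne (congrArg Subtype.val e), divisorOf_apply]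

include hA hlN in
theorem principalGeneratedByIntegral_x0 :
    PrincipalGeneratedByIntegral A (residue A) N := by
  haveI := isAlgClosed_residue A
  rintro D ⟨f, hf, hD⟩
  obtain ⟨c, a, b, hc, haF, hbF, hak, hbk, ha0, hb0, hy⟩ :=
    (x0Basis A hA N hlN).exists_normal_mem f.2 (by simpa using hf)
  set aF : modularFunctionFieldBar N := ⟨iotaL A a, haF⟩
  set bF : modularFunctionFieldBar N := ⟨iotaL A b, hbF⟩
  have hy' : f * bF = algebraMap Qbar (modularFunctionFieldBar N) c * aF := Subtype.ext hy
  have ha : aF ≠ 0 := fun e => ha0 (by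
    rw [iotaL_injective ((congrArg Subtype.val e).trans (map_zero _).symm), map_zero])
  have hb : bF ≠ 0 := fun e => hb0 (by
    rw [iotaL_injective ((congrArg Subtype.val e).trans (map_zero _).symm), map_zero])
  have hdiv : D = divisorOf aF - divisorOf bF := by
    refine Finsupp.ext fun v => ?_
    have h := congrArg v.ord hy'
    rw [v.ord_mul hf hb, v.ord_mul ((_root_.map_ne_zero _).2 hc) ha, ord_algebraMap, zero_add] at h
    rw [Finsupp.sub_apply, divisorOf_apply, divisorOf_apply, hD v]
    omega
  rw [hdiv]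
  refine sub_mem (AddSubgroup.subset_closure ⟨a, haF, hak, ha0, fun P => divisorOf_apply _ _⟩)
    (AddSubgroup.subset_closure ⟨b, hbF, hbk, hb0, fun P => divisorOf_apply _ _⟩)

set_option maxHeartbeats 800000 in
/-- A reduction of places in the sense of the reduction map is one of the datum. -/
theorem exists_placeRed_of_isPlaceReductionModL {r : Place Qbar (modularFunctionFieldBar N) →
      Place (ResidueField A) (modularFunctionFieldFullC (ResidueField A) N)}
    (hr : IsPlaceReductionModL A N r) :
    ∃ R : PlaceRed (x0Datum A hA N hlN), R.r = r := by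
  haveI := isAlgClosed_residue A
  refine ⟨⟨r, fun y z h hz => ?_⟩, rfl⟩
  obtain ⟨u, a, b, haF, hbF, hak, hbk, hu, ha0, hb0, hy, hzab⟩ :=
    (x0Basis A hA N hlN).exists_unit_normal (isResidueMap_residue A) h hz
  set aF : modularFunctionFieldBar N := ⟨iotaL A a, haF⟩
  set bF : modularFunctionFieldBar N := ⟨iotaL A b, hbF⟩
  set ak : modularFunctionFieldFullC (ResidueField A) N := ⟨coeffMap (residue A) a, hak⟩
  set bk : modularFunctionFieldFullC (ResidueField A) N := ⟨coeffMap (residue A) b, hbk⟩
  have hint : ∀ (s : LaurentSeries A) (hs : iotaL A s ∈ modularFunctionFieldBar N)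
      (hsk : coeffMap (residue A) s ∈ modularFunctionFieldFullC (ResidueField A) N),
      coeffMap (residue A) s ≠ 0 →
      Finsupp.mapDomain r (divisorOf (⟨iotaL A s, hs⟩ : modularFunctionFieldBar N)) =
        divisorOf (⟨coeffMap (residue A) s, hsk⟩ :
          modularFunctionFieldFullC (ResidueField A) N) := fun s hs hsk hne =>
    Finsupp.ext fun Q => by
      rw [hr.2 s hs hsk hne _ (fun P => divisorOf_apply _ _) Q, divisorOf_apply]
  have hy0 := h.ne_zero hz
  have ha : aF ≠ 0 := fun e => ha0 (by
    rw [iotaL_injective ((congrArg Subtype.val e).trans (map_zero _).symm), map_zero])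
  have hb : bF ≠ 0 := fun e => hb0 (by
    rw [iotaL_injective ((congrArg Subtype.val e).trans (map_zero _).symm), map_zero])
  have hu0 : (u : Qbar) ≠ 0 := fun e => hu (by rw [show u = 0 from Subtype.ext e, map_zero])
  have e1 : divisorOf (K := Qbar) y = divisorOf aF - divisorOf bF := by
    refine Finsupp.ext fun v => ?_
    have h1 := congrArg v.ord hy
    rw [v.ord_mul hy0 hb, v.ord_mul ((_root_.map_ne_zero _).2 hu0) ha, ord_algebraMap, zero_add] at h1
    rw [Finsupp.sub_apply, divisorOf_apply, divisorOf_apply, divisorOf_apply]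
    omega
  have e2 : divisorOf (K := ResidueField A) z = divisorOf ak - divisorOf bk := by
    refine Finsupp.ext fun v => ?_
    have h1 := congrArg v.ord hzab
    rw [v.ord_mul hz (fun e => hb0 (congrArg Subtype.val e)),
      v.ord_mul ((_root_.map_ne_zero _).2 hu) (fun e => ha0 (congrArg Subtype.val e)), ord_algebraMap,
      zero_add] at h1
    rw [Finsupp.sub_apply, divisorOf_apply, divisorOf_apply, divisorOf_apply]
    omega
  rw [e1, e2, Finsupp.mapDomain_sub, hint a haF hak ha0, hint b hbF hbk hb0]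

omit [IsFunctionField (ResidueField A) (modularFunctionFieldFullC (ResidueField A) N)] in
include hA hlN in
/-- The inputs of the reduction map. -/
theorem reductionInputsModL_x0 : ReductionInputsModL A N := by
  haveI := isFunctionField_fullC A hA N hlN
  obtain ⟨R⟩ := exists_placeRed_x0 A hA N hlN
  exact ⟨R.r, isPlaceReductionModL_of_placeRed hA hlN R, principalGeneratedByIntegral_x0 hA hlN⟩

omit [IsFunctionField (ResidueField A) (modularFunctionFieldFullC (ResidueField A) N)] in
include hA hlN in
/-- Reduction is injective on torsion prime to the residue characteristic. -/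
theorem eq_zero_of_reductionModL_eq_zero (h : ReductionInputsModL A N) (m : ℕ) (hm : ¬ l ∣ m)
    (x : JZero N) (hmx : m • x = 0) (hx : reductionModL A N x = 0) : x = 0 := by
  haveI := isFunctionField_fullC A hA N hlN
  haveI := isAlgClosed_residue A
  obtain ⟨R, hR⟩ := exists_placeRed_of_isPlaceReductionModL hA hlN
    (isPlaceReductionModL_placeReductionModL h)
  obtain ⟨g, c, hL, hk⟩ := exists_rrLarge_x0 A hA N hlN
  obtain ⟨X, rfl⟩ := Pic0.mk_surjective x
  rw [reductionModL_mk h] at hx
  have hm' : ((m • X : Divisor.degZero (K := Qbar) (F := modularFunctionFieldBar N)) :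
      Divisor Qbar (modularFunctionFieldBar N)) ∈ Divisor.principal :=
    (QuotientAddGroup.eq_zero_iff (m • X)).1 ((QuotientAddGroup.mk_nsmul _ X m).trans hmx)
  obtain ⟨f₀, hf₀, hdiv⟩ := hm'
  obtain ⟨zb, hzb, hdivb⟩ := (QuotientAddGroup.eq_zero_iff _).1 hx
  obtain ⟨f, hf, hXf⟩ := torsion_principal R hL hk (isRankOne_of_liesOverPrime hA Fact.out)
    (natCast_residue_ne_zero hA hm) (Divisor.mem_degZero.1 X.2) hf₀
    (Finsupp.ext fun v => by rw [divisorOf_apply, ← hdiv v, AddSubgroupClass.coe_nsmul]) hzb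
    (Finsupp.ext fun v => by
      rw [divisorOf_apply, ← hdivb v, hR]; rfl)
  exact (QuotientAddGroup.eq_zero_iff X).2 ⟨f, hf, fun v => (congrArg (fun E : Divisor Qbar (modularFunctionFieldBar N) => E v) hXf).trans (divisorOf_apply f v)⟩

end FLTAgent.GoodRed
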