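import Fermat.Agent.GoodRed.X0Degeneracy
import Fermat.Agent.GoodRed.X0Inputs
import Fermat.Agent.Hecke.Inputs
import Fermat.Agent.Hecke.Operators

/-!
# Hecke operators prime to the residue characteristic and reduction

Reduction of places commutes with the correspondence `T_q`, `q ≠ l`, so `T_q` preserves the kernel
of the reduction of `JZero N`.
-/

set_option autoImplicit false
set_option linter.unusedSectionVars false
set_option synthInstance.maxHeartbeats 100000

noncomputable section

open Polynomial ModularCurve IsLocalRing AlgebraicCurve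
open scoped IntermediateField

namespace FLTAgent.GoodRed

open FLTAgent.FunctionField

local notation "Qbar" => AlgebraicClosure ℚ

variable (A : ValuationSubring (AlgebraicClosure ℚ)) {l : ℕ} [Fact l.Prime]
  (hA : A.LiesOverPrime l)

theorem isIntegral_of_isFunctionField {K F F₁ : Type*} [Field K] [Field F] [Field F₁] [Algebra K F]
    [Algebra K F₁] [IsFunctionField K F] [IsFunctionField K F₁] (φ : F →ₐ[K] F₁) :
    φ.toRingHom.IsIntegral := by
  let := algebraAlong φ
  have : Module.Finite F F₁ := finiteAlong_of_isFunctionField φ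
  intro x
  exact (Algebra.IsIntegral.isIntegral (R := F) x : IsIntegral F x)

set_option maxHeartbeats 1200000 in
include hA in
/-- Reduction of places commutes with pullback and pushforward along a degeneracy map. -/
theorem mapDomain_degeneracy {N M : ℕ} [NeZero N] [NeZero M] (hlN : ¬ l ∣ N) (hlM : ¬ l ∣ M)
    (d : ℕ) [NeZero d] (hd : d = 1 ∨ d.Prime)
    [IsFunctionField (ResidueField A) (modularFunctionFieldFullC (ResidueField A) N)]
    [IsFunctionField (ResidueField A) (modularFunctionFieldFullC (ResidueField A) M)]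
    (φ : modularFunctionFieldBar N →ₐ[Qbar] modularFunctionFieldBar M)
    (φb : modularFunctionFieldFullC (ResidueField A) N →ₐ[ResidueField A]
      modularFunctionFieldFullC (ResidueField A) M)
    (hφ : ∀ y, (φ y : LaurentSeries Qbar) = qExpand Qbar d (y : LaurentSeries Qbar))
    (hφb : ∀ z, (φb z : LaurentSeries (ResidueField A)) = qExpand _ d (z : LaurentSeries _))
    (hi : φ.toRingHom.IsIntegral) (hib : φb.toRingHom.IsIntegral)
    (R : PlaceRed (x0Datum A hA N hlN)) (R' : PlaceRed (x0Datum A hA M hlM)) :
    (∀ E, Finsupp.mapDomain R'.r (Divisor.pullbackAlong φ hi E) =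
      Divisor.pullbackAlong φb hib (Finsupp.mapDomain R.r E)) ∧
    (∀ E, Finsupp.mapDomain R.r (Divisor.pushforwardAlong φ hi E) =
      Divisor.pushforwardAlong φb hib (Finsupp.mapDomain R'.r E)) := by
  have := isAlgClosed_residue A
  have hnd := noDefect_degeneracy A hA hlN hlM d hd φ φb hφ hφb
  let := algebraAlong φ
  let := algebraAlong φb
  have := isScalarTower_along φ
  have := isScalarTower_along φb
  have : FiniteDimensional (modularFunctionFieldBar N) (modularFunctionFieldBar M) :=
    finiteAlong_of_isFunctionField φ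
  have : FiniteDimensional (modularFunctionFieldFullC (ResidueField A) N)
      (modularFunctionFieldFullC (ResidueField A) M) :=
    finiteAlong_of_isFunctionField φb
  obtain ⟨g, c, hL, hk⟩ := exists_rrLarge_x0 A hA N hlN
  have hc := (x0Basis A hA N hlN).compatRed_qExpand (x0Basis A hA M hlM) (isResidueMap_residue A) d
    φ φb hφ hφb
  exact ⟨fun E => mapDomain_pullback hc hnd R R' hL hk E,
    fun E => mapDomain_pushforward hc hnd R R' hL hk E⟩

set_option maxHeartbeats 800000 in
include hA in
/-- The reduction of the Hecke correspondence. -/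
theorem mapDomain_heckeDivBar {N q : ℕ} [NeZero N] [NeZero q] (hq : q.Prime) (hlN : ¬ l ∣ N)
    (hlM : ¬ l ∣ N * q)
    [IsFunctionField (ResidueField A) (modularFunctionFieldFullC (ResidueField A) N)]
    [IsFunctionField (ResidueField A) (modularFunctionFieldFullC (ResidueField A) (N * q))]
    [HasPrincipalDivisors Qbar (modularFunctionFieldBar (N * q))]
    (hα : HeckeAlphaBarIntegral Qbar N q) (hβ : HeckeBetaBarIntegral Qbar N q)
    (R : PlaceRed (x0Datum A hA N hlN)) (E : Divisor Qbar (modularFunctionFieldBar N)) :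
    Finsupp.mapDomain R.r (heckeDivBar hα hβ E) =
      Divisor.pushforwardAlong (degBarK (ResidueField A) 1 (mul_dvd_mul_left N (one_dvd q))) (isIntegral_of_isFunctionField _)
        (Divisor.pullbackAlong (degBarK (ResidueField A) q (dvd_refl (N * q)))
          (isIntegral_of_isFunctionField _) (Finsupp.mapDomain R.r E)) := by
  obtain ⟨R'⟩ := exists_placeRed_x0 A hA (N * q) hlM
  obtain ⟨hb, -⟩ := mapDomain_degeneracy A hA hlN hlM q (Or.inr hq) (heckeBetaBar Qbar N q)
    (degBarK _ q (dvd_refl (N * q))) (coe_heckeBetaBar N q) (coe_degBarK _ q (dvd_refl (N * q)))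
    hβ (isIntegral_of_isFunctionField _) R R'
  obtain ⟨-, ha⟩ := mapDomain_degeneracy A hA hlN hlM 1 (Or.inl rfl) (heckeAlphaBar Qbar N q)
    (degBarK _ 1 (mul_dvd_mul_left N (one_dvd q)))
    (fun y => (coe_heckeAlphaBar N q y).trans (qExpand_one_apply _).symm)
    (coe_degBarK _ 1 (mul_dvd_mul_left N (one_dvd q)))
    hα (isIntegral_of_isFunctionField _) R R'
  refine (ha _).trans (congrArg _ ?_)
  exact hb E

set_option maxHeartbeats 800000 in
include hA in
/-- `T_q` preserves the kernel of reduction for `q ≠ l`. -/
theorem reductionModL_heckeOperatorBar_of_ne {N : ℕ} [NeZero N] (hlN : ¬ l ∣ N) (q : Nat.Primes)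
    (hq : (q : ℕ) ≠ l) {z : JZero N} (hz : reductionModL A N z = 0) :
    reductionModL A N (heckeOperatorBar N q z) = 0 := by
  have : NeZero (q : ℕ) := ⟨q.2.ne_zero⟩
  have hlM : ¬ l ∣ N * q := fun h => ((Fact.out : l.Prime).dvd_mul.1 h).elim hlN fun h' =>
    hq ((Nat.prime_dvd_prime_iff_eq Fact.out q.2).1 h').symm
  have := isFunctionField_fullC A hA N hlN
  have := isFunctionField_fullC A hA (N * q) hlM
  have := isAlgClosed_residue A
  have h := reductionInputsModL_x0 hA hlN
  obtain ⟨R, hR⟩ := exists_placeRed_of_isPlaceReductionModL hA hlN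
    (isPlaceReductionModL_placeReductionModL h)
  obtain ⟨X, rfl⟩ := Pic0.mk_surjective z
  rw [reductionModL_mk h] at hz
  have hP : Divisor.IsPrincipal (Finsupp.mapDomain R.r (X : Divisor Qbar (modularFunctionFieldBar N))) := by
    rw [hR]
    exact (QuotientAddGroup.eq_zero_iff _).1 hz
  have hα : HeckeAlphaBarIntegral Qbar N q := isIntegral_of_isFunctionField _
  have hβ : HeckeBetaBarIntegral Qbar N q := isIntegral_of_isFunctionField _
  have hmem : heckeDivBar hα hβ (X : Divisor Qbar (modularFunctionFieldBar N)) ∈
      Divisor.degZero (K := Qbar) (F := modularFunctionFieldBar N) :=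
    Hecke.heckeDivBar_mem_degZero (Hecke.levelFacts Qbar) N q hα hβ X
  rw [heckeOperatorBar_apply,
    Hecke.heckeOperatorAlong_mk (Hecke.levelFacts Qbar) N q X hα hβ hmem, reductionModL_mk h]
  refine (QuotientAddGroup.eq_zero_iff _).2 ?_
  show Divisor.IsPrincipal (Finsupp.mapDomain (placeReductionModL h) (heckeDivBar hα hβ
    (X : Divisor Qbar (modularFunctionFieldBar N))))
  rw [← hR, mapDomain_heckeDivBar A hA q.2 hlN hlM hα hβ R]
  exact Divisor.isPrincipal_pushforwardAlong _ (isIntegral_of_isFunctionField _)
    (finiteAlong_of_isFunctionField _) (normFormulaAlong _ (finiteAlong_of_isFunctionField _))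
    (Divisor.isPrincipal_pullbackAlong _ (isIntegral_of_isFunctionField _) hP)

end FLTAgent.GoodRed
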