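import Fermat.Agent.GoodRed.HeckeKernel
import Fermat.Agent.GoodRed.Specialization

/-!
# The kernel of reduction is stable under every Hecke operator

For `q ≠ l` reduction commutes with the correspondence; `q = l` is the congruence relation.
-/

set_option autoImplicit false

noncomputable section

open ModularCurve

namespace FLTAgent.GoodRed

theorem reductionModL_heckeOperatorBar_eq_zero {A : ValuationSubring (AlgebraicClosure ℚ)} {l : ℕ}
    [Fact l.Prime] (hA : A.LiesOverPrime l) {N : ℕ} [NeZero N] (hlN : ¬ l ∣ N) (q : Nat.Primes)
    {z : JZero N} (hz : reductionModL A N z = 0) :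
    reductionModL A N (heckeOperatorBar N q z) = 0 := by
  by_cases hq : (q : ℕ) = l
  · obtain rfl : q = ⟨l, Fact.out⟩ := Subtype.ext hq
    rw [reductionModL_heckeOperatorBar hA hlN, hz]
    erw [smul_zero]
    rw [add_zero]
    exact smul_zero (A := JZeroC (IsLocalRing.ResidueField A) N) (frobAut hA N)
  · exact reductionModL_heckeOperatorBar_of_ne A hA hlN q hq hz

end FLTAgent.GoodRed
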