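import Mathlib.RingTheory.Valuation.ValuationSubring
import Mathlib.LinearAlgebra.FiniteDimensional.Lemmas
import Mathlib.LinearAlgebra.Dimension.Finrank
import Mathlib.Algebra.BigOperators.Fin

/-!
# Subspaces of `Lⁿ` and their reductions modulo a valuation ring

`A` is a valuation subring of the field `L` and `π : A →+* k` a surjection with kernel the
maximal ideal.  The reduction of an `L`-subspace of `Lⁿ` has at least the same dimension.
-/

set_option autoImplicit false

noncomputable section

namespace FLTAgent.GoodRed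

variable {L k : Type*} [Field L] [Field k]

/-- A surjective reduction map: `π` is onto and kills exactly the nonunits. -/
structure IsResidueMap (A : ValuationSubring L) (π : A →+* k) : Prop where
  surj : Function.Surjective π
  eq_zero_iff : ∀ a : A, π a = 0 ↔ (a : L) ∈ A.nonunits

variable {A : ValuationSubring L} {π : A →+* k}

theorem IsResidueMap.ne_zero_iff (hπ : IsResidueMap A π) (a : A) :
    π a ≠ 0 ↔ A.valuation (a : L) = 1 := by
  rw [Ne, hπ.eq_zero_iff, A.mem_nonunits_iff, not_lt]
  exact ⟨fun h => le_antisymm (A.valuation_le_one a) h, fun h => h.ge⟩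

theorem IsResidueMap.inv_mem (hπ : IsResidueMap A π) {a : A} (ha : π a ≠ 0) :
    (a : L)⁻¹ ∈ A := by
  rw [← A.valuation_le_one_iff, map_inv₀, (hπ.ne_zero_iff a).1 ha, inv_one]

/-- An index at which a nonzero finite family has the largest valuation. -/
theorem exists_max_valuation {ι : Type*} [Finite ι] (A : ValuationSubring L) (c : ι → L)
    (hc : c ≠ 0) : ∃ j, c j ≠ 0 ∧ ∀ i, c i / c j ∈ A := by
  have : Nonempty ι := by
    by_contra h
    rw [not_nonempty_iff] at h
    exact hc (funext fun i => isEmptyElim i)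
  obtain ⟨j, hj⟩ := Finite.exists_max fun i => A.valuation (c i)
  have hcj : c j ≠ 0 := by
    intro h0
    refine hc (funext fun i => ?_)
    have := hj i
    rw [h0, map_zero, le_zero_iff, Valuation.zero_iff] at this
    exact this
  refine ⟨j, hcj, fun i => ?_⟩
  rw [← A.valuation_le_one_iff, map_div₀]
  exact div_le_one_of_le₀ (hj i) zero_le

variable (π) in
/-- The reduction of a subspace of `Lⁿ`. -/
def redCoord (hπ : IsResidueMap A π) {n : ℕ} (W : Submodule L (Fin n → L)) :
    Submodule k (Fin n → k) where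
  carrier := {z | ∃ a : Fin n → A, (fun i => (a i : L)) ∈ W ∧ (fun i => π (a i)) = z}
  zero_mem' := ⟨0, W.zero_mem, funext fun _ => map_zero π⟩
  add_mem' := by
    rintro _ _ ⟨a, ha, rfl⟩ ⟨b, hb, rfl⟩
    exact ⟨a + b, W.add_mem ha hb, funext fun i => map_add π _ _⟩
  smul_mem' := by
    rintro t _ ⟨a, ha, rfl⟩
    obtain ⟨c, rfl⟩ := hπ.surj t
    exact ⟨fun i => c * a i, W.smul_mem (c : L) ha, funext fun i => map_mul π _ _⟩

theorem mem_redCoord {hπ : IsResidueMap A π} {n : ℕ} {W : Submodule L (Fin n → L)}
    {z : Fin n → k} :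
    z ∈ redCoord π hπ W ↔
      ∃ a : Fin n → A, (fun i => (a i : L)) ∈ W ∧ (fun i => π (a i)) = z :=
  Iff.rfl

theorem finrank_le_finrank_redCoord (hπ : IsResidueMap A π) {n : ℕ}
    (W : Submodule L (Fin n → L)) :
    Module.finrank L W ≤ Module.finrank k (redCoord π hπ W) := by
  classical
  obtain ⟨d, hd⟩ : ∃ d, Module.finrank L W = d := ⟨_, rfl⟩
  induction d using Nat.strong_induction_on generalizing W with
  | _ d ih =>
  rcases eq_or_ne W ⊥ with rfl | hW
  · simp
  obtain ⟨f, hfW, hf⟩ := Submodule.exists_mem_ne_zero_of_ne_bot hW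
  obtain ⟨j, hj, hjA⟩ := exists_max_valuation A f hf
  -- `f` scaled so that the coordinate `j` is `1`
  set a : Fin n → A := fun i => ⟨f i / f j, hjA i⟩ with ha
  have haW : (fun i => (a i : L)) ∈ W := by
    have h : (fun i => (a i : L)) = (f j)⁻¹ • f := by
      funext i
      simp only [ha, Pi.smul_apply, smul_eq_mul]
      rw [div_eq_inv_mul]
    rw [h]
    exact W.smul_mem _ hfW
  have haj : a j = 1 := Subtype.ext (div_self hj)
  set W' : Submodule L (Fin n → L) := W ⊓ LinearMap.ker (LinearMap.proj (R := L) (φ := fun _ : Fin n => L) j) with hW'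
  have hle : W' ≤ W := inf_le_left
  have hnot : (fun i => (a i : L)) ∉ W' := fun h => by
    simpa [haj] using h.2
  have hlt : Module.finrank L W' < d :=
    hd ▸ Submodule.finrank_lt_finrank_of_lt (lt_of_le_of_ne hle fun h => hnot (h ▸ haW))
  have hsplit : W ≤ W' ⊔ Submodule.span L {fun i => (a i : L)} := by
    intro g hg
    refine Submodule.mem_sup.2 ⟨g - g j • (fun i => (a i : L)), ⟨W.sub_mem hg (W.smul_mem _ haW),
      ?_⟩, g j • (fun i => (a i : L)), Submodule.smul_mem _ _ (Submodule.mem_span_singleton_self _),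
      sub_add_cancel _ _⟩
    simp [haj]
  have hd' : d ≤ Module.finrank L W' + 1 := by
    rw [← hd]
    refine (Submodule.finrank_mono hsplit).trans ((Submodule.finrank_add_le_finrank_add_finrank
      _ _).trans ?_)
    exact Nat.add_le_add_left (finrank_span_singleton (K := L) (v := fun i => (a i : L))
      fun h => hnot (by rw [h]; exact W'.zero_mem)).le _
  have hih := ih _ hlt W' rfl
  have hmono : redCoord π hπ W' < redCoord π hπ W := by
    refine lt_of_le_of_ne (fun z ⟨b, hb, hz⟩ => ⟨b, hle hb, hz⟩) fun h => ?_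
    have hz : (fun i => π (a i)) ∈ redCoord π hπ W' := h ▸ ⟨a, haW, rfl⟩
    obtain ⟨b, hb, hbz⟩ := hz
    have h1 : (b j : L) = 0 := hb.2
    have h2 : π (b j) = 1 := by
      rw [congrFun hbz j, haj, map_one]
    rw [show b j = 0 from Subtype.ext h1, map_zero] at h2
    exact zero_ne_one h2
  have := Submodule.finrank_lt_finrank_of_lt hmono
  omega

end FLTAgent.GoodRed
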