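import Fermat.Agent.GoodRed.NewtonStep
import Mathlib.RingTheory.Nullstellensatz
import Mathlib.LinearAlgebra.Basis.VectorSpace

/-!
# An integral function with reduction `1` and divisor `m • (E - D₀)` is an `m`-th power

Newton's method gives arbitrarily good roots inside `L(D₀)`; the Nullstellensatz turns these
into an exact one.
-/

set_option autoImplicit false
set_option linter.unusedSectionVars false

noncomputable section

open AlgebraicCurve

namespace FLTAgent.GoodRed

open FLTAgent.FunctionField RedDatum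

variable {L k : Type*} [Field L] [Field k] {A : ValuationSubring L} {π : A →+* k}
  {F Fb : Type*} [Field F] [Algebra L F] [Field Fb] [Algebra k Fb]
  [IsFunctionField L F] [IsFunctionField k Fb] [IsAlgClosed L] [IsAlgClosed k]
  {D : RedDatum A π F Fb}

namespace TorsionData

variable {R : PlaceRed D} (τd : TorsionData R) {g c₀ : ℤ}

/-- An approximate root with error `c • w`. -/
def Approx (c : A) (h : F) : Prop :=
  h ∈ riemannRochSpace τd.D₀ ∧ D.Red h 1 ∧
    ∃ w ∈ D.V, w ∈ riemannRochSpace (τd.m • τd.D₀) ∧ τd.f - h ^ τd.m = (c : L) • w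

theorem pow_mem {h : F} (hh : h ∈ riemannRochSpace τd.D₀) (n : ℕ) :
    h ^ n ∈ riemannRochSpace (n • τd.D₀) := by
  induction n with
  | zero => simpa using one_mem_rr (K := L) (F := F) (D := 0) le_rfl
  | succ n ih => rw [pow_succ, succ_nsmul]; exact mul_mem_rr ih hh

theorem exists_initial :
    τd.f = 1 ∨ ∃ c : A, (c : L) ≠ 0 ∧ (c : L) ∈ A.nonunits ∧ τd.Approx c 1 := by
  rcases eq_or_ne τd.f 1 with h | h
  · exact Or.inl h
  right
  obtain ⟨c', z, hc', hz, hr⟩ := D.exists_scale (sub_ne_zero.2 h)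
  have hc'A : c' ∉ A := fun hA => by
    have h2 := red_smul ⟨c', hA⟩ (τd.red_f.sub red_one)
    rw [sub_self, smul_zero] at h2
    exact hz (hr.unique h2)
  have hn : c'⁻¹ ∈ A.nonunits := by
    rw [ValuationSubring.inv_mem_nonunits_iff]; exact Or.inr hc'A
  refine ⟨⟨c'⁻¹, A.nonunits_subset hn⟩, inv_ne_zero hc', hn, one_mem_rr τd.D₀_nonneg, red_one,
    c' • (τd.f - 1), hr.mem, Submodule.smul_mem _ _ (Submodule.sub_mem _ τd.f_mem (one_mem_rr ?_)),
    ?_⟩
  · exact nsmul_nonneg τd.D₀_nonneg _
  · rw [one_pow, smul_smul, inv_mul_cancel₀ hc', one_smul]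

variable (hL : RRLarge L F g c₀) (hk : RRLarge k Fb g c₀)
  (hdeg : c₀ ≤ Divisor.degree τd.D₀) (hA : IsRankOne A)
include hL hk hdeg hA

theorem exists_next {c : A} {h : F} (hc0 : (c : L) ≠ 0) (hcn : (c : L) ∈ A.nonunits)
    (ha : τd.Approx c h) : ∃ h', τd.Approx (c ^ 2) h' := by
  obtain ⟨hh, hhr, w, hwV, hw, hf⟩ := ha
  obtain ⟨δ, hδ, hδV, w₂, hw₂, hweq⟩ := τd.exists_step hL hk hdeg hA hc0 hh hhr hw hwV hf
  obtain ⟨u, hu⟩ := D.isResidue.surj ((τd.m : k))⁻¹
  have hmA : π (τd.m : A) ≠ 0 := by rw [map_natCast]; exact τd.m_ne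
  set mi : A := ⟨((τd.m : A) : L)⁻¹, D.isResidue.inv_mem hmA⟩ with hmi
  have hm0 : ((τd.m : A) : L) ≠ 0 := fun h0 => hmA (by
    rw [show (τd.m : A) = 0 from Subtype.ext h0, map_zero])
  -- the correction
  set ε := (mi : L) • δ with hε
  have hεV : ε ∈ D.V := by
    obtain ⟨z, hz⟩ := exists_red hδV
    exact (red_smul mi hz).mem
  have hmε : (τd.m : F) * ε = δ := by
    rw [hε, Algebra.smul_def, ← mul_assoc, ← map_natCast (algebraMap L F) τd.m, ← map_mul, hmi]
    rw [show ((τd.m : ℕ) : L) = ((τd.m : A) : L) from by push_cast; rfl]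
    rw [mul_inv_cancel₀ hm0, map_one, one_mul]
  obtain ⟨z, hz⟩ := exists_pow_add_eq (⟨h, hhr.mem⟩ : D.V)
    (⟨algebraMap L F c, (D.mem_iff _).2 c.2⟩ * ⟨ε, hεV⟩) τd.m
  have hzF := congrArg Subtype.val hz
  push_cast at hzF
  have hmem' : h + algebraMap L F c * ε ∈ riemannRochSpace τd.D₀ := by
    rw [← Algebra.smul_def]
    exact Submodule.add_mem _ hh (Submodule.smul_mem _ _ (Submodule.smul_mem _ _ hδ))
  refine ⟨h + algebraMap L F c * ε, hmem', ?_, w₂ - (z : F) * ε ^ 2, ?_, ?_, ?_⟩
  · obtain ⟨e, he⟩ := exists_red hεV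
    have := hhr.add ((red_algebraMap (D := D) c).mul he)
    rwa [(D.isResidue.eq_zero_iff c).2 hcn, map_zero, zero_mul, add_zero] at this
  · exact sub_mem hw₂ (mul_mem z.2 (_root_.pow_mem hεV 2))
  · have hne : ((c ^ 2 : A) : L) ≠ 0 := by push_cast; exact pow_ne_zero _ hc0
    have hmem : τd.f - (h + algebraMap L F c * ε) ^ τd.m ∈
        riemannRochSpace (τd.m • τd.D₀) :=
      Submodule.sub_mem _ τd.f_mem (τd.pow_mem hmem' _)
    have heq : τd.f - (h + algebraMap L F c * ε) ^ τd.m =
        ((c ^ 2 : A) : L) • (w₂ - (z : F) * ε ^ 2) := by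
      rw [hzF, Algebra.smul_def]
      rw [Algebra.smul_def, hweq, Algebra.smul_def] at hf
      rw [SubmonoidClass.coe_pow, map_pow]
      linear_combination hf - algebraMap L F c * h ^ (τd.m - 1) * hmε
    rw [← inv_smul_smul₀ hne (w₂ - (z : F) * ε ^ 2), ← heq]
    exact Submodule.smul_mem _ _ hmem
  · rw [hzF, Algebra.smul_def]
    rw [Algebra.smul_def, hweq, Algebra.smul_def] at hf
    rw [SubmonoidClass.coe_pow, map_pow]
    linear_combination hf - algebraMap L F c * h ^ (τd.m - 1) * hmε

theorem exists_iterate {c : A} {h : F} (hc0 : (c : L) ≠ 0) (hcn : (c : L) ∈ A.nonunits)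
    (ha : τd.Approx c h) : ∀ n : ℕ, ∃ h', τd.Approx (c ^ 2 ^ n) h' := by
  intro n
  induction n with
  | zero => exact ⟨h, by simpa using ha⟩
  | succ n ih =>
    obtain ⟨h', hh'⟩ := ih
    have h2 : ((c ^ 2 ^ n : A) : L) ∈ A.nonunits := by
      rw [A.mem_nonunits_iff] at hcn ⊢
      push_cast
      rw [map_pow]
      exact pow_lt_one₀ zero_le hcn (pow_ne_zero _ two_ne_zero)
    obtain ⟨h'', hh''⟩ := τd.exists_next hL hk hdeg hA (c := c ^ 2 ^ n)
      (by push_cast; exact pow_ne_zero _ hc0) h2 hh'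
    exact ⟨h'', by rwa [← pow_mul, ← pow_succ] at hh''⟩

/-- `f` is an `m`-th power. -/
theorem exists_root : ∃ h : F, h ^ τd.m = τd.f := by
  classical
  rcases τd.exists_initial with h | ⟨c, hc0, hcn, ha⟩
  · exact ⟨1, by rw [one_pow, h]⟩
  set Λ := riemannRochSpace τd.D₀ with hΛ
  set Λm := riemannRochSpace (τd.m • τd.D₀) with hΛm
  -- orthonormal bases
  let bL := Module.finBasis k (D.redSpace Λ)
  obtain ⟨e, heΛ, her, hespan⟩ := D.exists_lift_basis Λ (fun j => (bL j : Fb)) (fun j => (bL j).2)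
    (bL.linearIndependent.map' (D.redSpace Λ).subtype (Submodule.ker_subtype _))
    (by simp [D.finrank_redSpace Λ])
  have heind := bL.linearIndependent.map' (D.redSpace Λ).subtype (Submodule.ker_subtype _)
  let bM := Module.finBasis k (D.redSpace Λm)
  obtain ⟨E, hEΛ, hEr, hEspan⟩ := D.exists_lift_basis Λm (fun j => (bM j : Fb)) (fun j => (bM j).2)
    (bM.linearIndependent.map' (D.redSpace Λm).subtype (Submodule.ker_subtype _))
    (by simp [D.finrank_redSpace Λm])
  have hEind := bM.linearIndependent.map' (D.redSpace Λm).subtype (Submodule.ker_subtype _)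
  have hEli : LinearIndependent L E := linearIndependent_of_red hEr hEind
  let bE := Module.Basis.span hEli
  choose lam hlam using fun j => LinearMap.exists_extend (bE.coord j)
  have hcoord : ∀ (a : Fin (Module.finrank k (D.redSpace Λm)) → L) (j),
      lam j (∑ i, a i • E i) = a j := by
    intro a j
    rw [map_sum, Finset.sum_eq_single j]
    · have h2 := LinearMap.congr_fun (hlam j) ⟨E j, Submodule.subset_span ⟨j, rfl⟩⟩
      simp only [LinearMap.comp_apply, Submodule.subtype_apply] at h2
      rw [map_smul, h2, show (⟨E j, _⟩ : Submodule.span L (Set.range E)) = bE j from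
        (Module.Basis.span_apply hEli j).symm, Module.Basis.coord_apply,
        Module.Basis.repr_self, Finsupp.single_eq_same, smul_eq_mul, mul_one]
    · intro i _ hij
      have h2 := LinearMap.congr_fun (hlam j) ⟨E i, Submodule.subset_span ⟨i, rfl⟩⟩
      simp only [LinearMap.comp_apply, Submodule.subtype_apply] at h2
      rw [map_smul, h2, show (⟨E i, _⟩ : Submodule.span L (Set.range E)) = bE i from
        (Module.Basis.span_apply hEli i).symm, Module.Basis.coord_apply,
        Module.Basis.repr_self, Finsupp.single_eq_of_ne (Ne.symm hij), smul_eq_mul, mul_zero]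
    · simp
  -- the polynomial equations
  let d := Module.finrank k (D.redSpace Λ)
  let P : MvPolynomial (Fin d) F := (∑ i, MvPolynomial.C (e i) * MvPolynomial.X i) ^ τd.m
  let G : Fin (Module.finrank k (D.redSpace Λm)) → MvPolynomial (Fin d) L := fun j =>
    (∑ s ∈ P.support, MvPolynomial.monomial s (lam j (P.coeff s))) - MvPolynomial.C (lam j τd.f)
  have hG : ∀ x : Fin d → L, ∀ j,
      MvPolynomial.eval x (G j) = lam j ((∑ i, x i • e i) ^ τd.m - τd.f) := by
    intro x j
    have h1 : (∑ i, x i • e i) ^ τd.m =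
        MvPolynomial.eval (fun i => algebraMap L F (x i)) P := by
      simp only [P, map_pow, map_sum, map_mul, MvPolynomial.eval_C, MvPolynomial.eval_X,
        Algebra.smul_def]
      exact congrArg (· ^ τd.m) (Finset.sum_congr rfl fun i _ => mul_comm _ _)
    conv_rhs => rw [h1, MvPolynomial.eval_eq]
    simp only [G, map_sub, map_sum, MvPolynomial.eval_monomial, MvPolynomial.eval_C]
    congr 1
    refine Finset.sum_congr rfl fun s _ => ?_
    have : P.coeff s * ∏ i ∈ s.support, algebraMap L F (x i) ^ s i =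
        (∏ i ∈ s.support, x i ^ s i) • P.coeff s := by
      rw [Algebra.smul_def, map_prod]
      simp only [map_pow]
      ring
    rw [this, map_smul, smul_eq_mul, Finsupp.prod, mul_comm]
  by_cases hz : ∃ x : Fin d → L, ∀ j, MvPolynomial.eval x (G j) = 0
  · obtain ⟨x, hx⟩ := hz
    refine ⟨∑ i, x i • e i, sub_eq_zero.1 ?_⟩
    have hmem : (∑ i, x i • e i) ^ τd.m - τd.f ∈ Submodule.span L (Set.range E) := by
      rw [hEspan]
      exact Submodule.sub_mem _
        (τd.pow_mem (Submodule.sum_mem _ fun i _ => Submodule.smul_mem _ _ (heΛ i)) _) τd.f_mem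
    obtain ⟨a, ha'⟩ := (Submodule.mem_span_range_iff_exists_fun L).1 hmem
    rw [← ha']
    refine Finset.sum_eq_zero fun j _ => ?_
    have := hx j
    rw [hG, ← ha', hcoord] at this
    rw [this, zero_smul]
  exfalso
  push Not at hz
  have htop : (1 : MvPolynomial (Fin d) L) ∈ Ideal.span (Set.range G) := by
    have h1 : MvPolynomial.zeroLocus L (Ideal.span (Set.range G)) = ∅ := by
      rw [Set.eq_empty_iff_forall_notMem]
      intro x hx
      obtain ⟨j, hj⟩ := hz x
      exact hj (by
        have := MvPolynomial.mem_zeroLocus_iff.1 hx _ (Ideal.subset_span ⟨j, rfl⟩)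
        exact this)
    have h2 := MvPolynomial.vanishingIdeal_zeroLocus_eq_radical (k := L) (K := L)
      (Ideal.span (Set.range G))
    rw [h1] at h2
    have h3 : (Ideal.span (Set.range G)).radical = ⊤ := by
      rw [← h2, MvPolynomial.vanishingIdeal_empty]
    rw [Ideal.radical_eq_top] at h3
    rw [h3]; trivial
  obtain ⟨p, hp⟩ := Ideal.mem_span_range_iff_exists_fun.1 htop
  -- a bound for the coefficients
  obtain ⟨B, hB⟩ : ∃ B : L, ∀ j, ∀ s, A.valuation ((p j).coeff s) ≤ A.valuation B := by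
    set S : Finset L := Finset.univ.biUnion fun j => (p j).support.image fun s => (p j).coeff s
    rcases S.eq_empty_or_nonempty with hS | hS
    · refine ⟨1, fun j s => ?_⟩
      by_cases hs : s ∈ (p j).support
      · have : (p j).coeff s ∈ S := Finset.mem_biUnion.2
          ⟨j, Finset.mem_univ _, Finset.mem_image_of_mem _ hs⟩
        rw [hS] at this
        exact absurd this (Finset.notMem_empty _)
      · rw [MvPolynomial.notMem_support_iff.1 hs, map_zero]; exact zero_le
    · obtain ⟨B, -, hBmax⟩ := Finset.exists_max_image S A.valuation hS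
      refine ⟨B, fun j s => ?_⟩
      by_cases hs : s ∈ (p j).support
      · exact hBmax _ (Finset.mem_biUnion.2 ⟨j, Finset.mem_univ _, Finset.mem_image_of_mem _ hs⟩)
      · rw [MvPolynomial.notMem_support_iff.1 hs, map_zero]; exact zero_le
  obtain ⟨n, hn⟩ : ∃ n : ℕ, A.valuation (c : L) ^ n * A.valuation B < 1 := by
    rcases eq_or_ne B 0 with hB0 | hB0
    · exact ⟨0, by rw [hB0, map_zero, mul_zero]; exact zero_lt_one⟩
    obtain ⟨n, hn⟩ := hA ((c : L) / B) c (div_ne_zero hc0 hB0) hcn
    refine ⟨n, lt_of_le_of_lt (mul_le_mul_left hn _) ?_⟩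
    rw [← map_mul, div_mul_cancel₀ _ hB0]
    exact A.mem_nonunits_iff.1 hcn
  obtain ⟨h', hh', hhr', w, hwV, hw, hf⟩ := τd.exists_iterate hL hk hdeg hA hc0 hcn ha n
  obtain ⟨x, hx⟩ := (Submodule.mem_span_range_iff_exists_fun L).1 (hespan.symm ▸ hh' :
    h' ∈ Submodule.span L (Set.range e))
  have hxA := coeff_mem_of_mem her heind (c := x) (hx ▸ hhr'.mem)
  obtain ⟨a, ha'⟩ := (Submodule.mem_span_range_iff_exists_fun L).1 (hEspan.symm ▸ hw :
    w ∈ Submodule.span L (Set.range E))
  have haA := coeff_mem_of_mem hEr hEind (c := a) (ha' ▸ hwV)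
  have heval : ∀ j, MvPolynomial.eval x (G j) = -(((c ^ 2 ^ n : A) : L) * a j) := by
    intro j
    rw [hG, hx, ← neg_sub, hf, map_neg, map_smul, ← ha', hcoord, smul_eq_mul]
  have h1 := congrArg (MvPolynomial.eval x) hp
  simp only [map_sum, map_mul, heval, map_one] at h1
  have hlt : A.valuation (∑ j, MvPolynomial.eval x (p j) * -(((c ^ 2 ^ n : A) : L) * a j)) < 1 := by
    refine Valuation.map_sum_lt _ one_ne_zero fun j _ => ?_
    rw [map_mul, Valuation.map_neg, map_mul]
    have hp' : A.valuation (MvPolynomial.eval x (p j)) ≤ A.valuation B := by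
      rw [MvPolynomial.eval_eq]
      refine Valuation.map_sum_le _ fun s _ => ?_
      rw [map_mul]
      refine (mul_le_mul' (hB j s) ?_).trans (mul_one _).le
      rw [map_prod]
      refine Finset.prod_le_one' fun i _ => ?_
      rw [map_pow]
      exact pow_le_one₀ zero_le ((A.valuation_le_one_iff _).2 (hxA i))
    have hc2 : A.valuation ((c ^ 2 ^ n : A) : L) ≤ A.valuation (c : L) ^ n := by
      push_cast
      rw [map_pow]
      exact pow_le_pow_right_of_le_one' (A.valuation_le_one c) n.lt_two_pow_self.le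
    calc A.valuation (MvPolynomial.eval x (p j)) *
          (A.valuation ((c ^ 2 ^ n : A) : L) * A.valuation (a j))
        ≤ A.valuation B * (A.valuation (c : L) ^ n * 1) :=
          mul_le_mul' hp' (mul_le_mul' hc2 ((A.valuation_le_one_iff _).2 (haA j)))
      _ < 1 := by rw [mul_one, mul_comm]; exact hn
  rw [h1, map_one] at hlt
  exact lt_irrefl _ hlt

end TorsionData

end FLTAgent.GoodRed
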