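import Fermat.Agent.GoodRed.LiftTools
import Fermat.Agent.GoodRed.Series
import Mathlib.RingTheory.PowerSeries.NoZeroDivisors

/-!
# The linear step of Newton's method for `h ^ m = f`

`f` is integral with reduction `1` and divisor `m • (E - D₀)`, where `E`, `D₀` are effective with
the same multiplicity-free reduction.
-/

set_option autoImplicit false
set_option linter.unusedSectionVars false

noncomputable section

open AlgebraicCurve

namespace FLTAgent.GoodRed

open FLTAgent.FunctionField RedDatum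

variable {L k : Type*} [Field L] [Field k] {A : ValuationSubring L} {π : A →+* k}
  {F Fb : Type*} [Field F] [Algebra L F] [Field Fb] [Algebra k Fb]
  [IsFunctionField L F] [IsFunctionField k Fb] [IsAlgClosed L] [IsAlgClosed k]
  {D : RedDatum A π F Fb}

theorem map_subtype_injective (A : ValuationSubring L) :
    Function.Injective (PowerSeries.map A.subtype) := fun a b h =>
  PowerSeries.ext fun n => Subtype.ext (by
    simpa [PowerSeries.coeff_map] using congrArg (PowerSeries.coeff n) h)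

/-- Data of a torsion class with trivial reduction. -/
structure TorsionData (R : PlaceRed D) where
  /-- exponent -/
  m : ℕ
  m_ne : (m : k) ≠ 0
  /-- numerator -/
  E : Divisor L F
  /-- denominator -/
  D₀ : Divisor L F
  E_nonneg : 0 ≤ E
  D₀_nonneg : 0 ≤ D₀
  map_eq : Finsupp.mapDomain R.r E = Finsupp.mapDomain R.r D₀
  reduced : ∀ Q, Finsupp.mapDomain R.r D₀ Q ≤ 1
  /-- the function -/
  f : F
  red_f : D.Red f 1
  div_f : divisorOf f = m • (E - D₀)

namespace TorsionData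

variable {R : PlaceRed D} (τd : TorsionData R)

theorem m_pos : 0 < τd.m := Nat.pos_of_ne_zero fun h => τd.m_ne (by rw [h, Nat.cast_zero])

theorem ord_f (P : Place L F) : P.ord τd.f = (τd.m : ℤ) * (τd.E P - τd.D₀ P) := by
  have := congrArg (fun X : Divisor L F => X P) τd.div_f
  simpa [Finsupp.sub_apply] using this

theorem f_mem : τd.f ∈ riemannRochSpace (τd.m • τd.D₀) := by
  refine mem_rr_iff.2 fun P => ordGe_of_le_ord ?_
  rw [τd.ord_f]
  have h : (0 : ℤ) ≤ τd.E P := τd.E_nonneg P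
  simp only [Finsupp.smul_apply, nsmul_eq_mul]
  nlinarith

theorem local_bound (hA : IsRankOne A) (hex : ∀ (Q : Place k Fb) (P : Place L F), R.r P = Q →
      Nonempty (TubeParam R Q P))
    {h w δ u : F} {z : Fb} (hh : h ∈ riemannRochSpace τd.D₀) (hhr : D.Red h 1)
    (hw : w ∈ riemannRochSpace (τd.m • τd.D₀)) (hwV : w ∈ D.V)
    (hδ : δ ∈ riemannRochSpace τd.D₀) (hδV : δ ∈ D.V)
    (hu : u ∈ riemannRochSpace (τd.m • τd.D₀)) (hur : D.Red u z)
    {c b : A} (hc : (c : L) ≠ 0) (hb : (b : L) ≠ 0) {q : A} (hq : π q = 0) (hcb : c = b * q)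
    (hf : τd.f - h ^ τd.m = (c : L) • w) (hbu : (b : L) • u = w - h ^ (τd.m - 1) * δ)
    {Q : Place k Fb} (hQ : Finsupp.mapDomain R.r τd.D₀ Q = 1) : OrdGe Q (-1) z := by
  classical
  set m := τd.m with hm
  obtain ⟨m', hm'⟩ : ∃ m', m = m' + 1 := ⟨m - 1, by have := τd.m_pos; omega⟩
  obtain ⟨P₁, hP₁, hD1, hD0⟩ := eq_single_on_tube R τd.D₀_nonneg hQ
  obtain ⟨P₂, hP₂, hE1, hE0⟩ := eq_single_on_tube R τd.E_nonneg (Q := Q) (by rw [τd.map_eq]; exact hQ)
  obtain ⟨τ⟩ := hex Q P₁ hP₁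
  set T := τ.T with hTdef
  set t := τ.t with htdef
  have hT : OrdGe P₁ 1 T := τ.vanish
  have ht : OrdGe Q 1 t := ordGe_of_le_ord (by rw [htdef, τ.ord_t])
  have hD : ∀ P, R.r P = Q → τd.D₀ P = P.ord T := fun P hP => by
    rcases eq_or_ne P P₁ with rfl | hne
    · rw [hD1, τ.ord_T]
    · rw [hD0 P hP hne, τ.ord_T_other hP hne]
  have hreg1 : ∀ y ∈ riemannRochSpace τd.D₀, y ∈ D.V → TReg R Q (y * T) := fun y hy hyV =>
    ⟨mul_mem hyV τ.red.mem, fun P hP =>
      ((mem_rr_iff.1 hy P).mul (ordGe_ord T)).mono (by rw [hD P hP]; omega)⟩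
  have hregm : ∀ y ∈ riemannRochSpace (m • τd.D₀), y ∈ D.V → TReg R Q (y * T ^ m) :=
    fun y hy hyV => ⟨mul_mem hyV (τ.red.pow m).mem, fun P hP =>
      ((mem_rr_iff.1 hy P).mul (ordGe_ord (T ^ m))).mono (by
        rw [Finsupp.smul_apply, FunctionField.ord_pow, hD P hP]; simp)⟩
  -- the zero of the numerator in the tube
  obtain ⟨a, ha⟩ := exists_value (τ.treg.2 P₂ hP₂)
  obtain ⟨haA, hval⟩ := τ.treg.value τ.red hP₂ ha
  have ha0 : π ⟨a, haA⟩ = 0 := value_unique hval (by rwa [map_zero, sub_zero])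
  have hNr : D.Red (T - algebraMap L F a) t := by
    have := τ.red.sub (red_algebraMap (D := D) ⟨a, haA⟩)
    rwa [ha0, map_zero, sub_zero] at this
  let τ₂ : TubeParam R Q P₂ :=
    ⟨T - algebraMap L F a, t, hP₂, τ.treg.sub (treg_algebraMap ⟨a, haA⟩), hNr, τ.ord_t, ha⟩
  set N := T - algebraMap L F a with hNdef
  have hE : ∀ P, R.r P = Q → τd.E P = P.ord N := fun P hP => by
    rcases eq_or_ne P P₂ with rfl | hne
    · rw [hE1]; exact τ₂.ord_T.symm
    · rw [hE0 P hP hne]; exact (τ₂.ord_T_other hP hne).symm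
  have hN0 : N ≠ 0 := τ₂.T_ne_zero
  have hf0 : τd.f ≠ 0 := τd.red_f.ne_zero one_ne_zero
  set v := τd.f * T ^ m / N ^ m with hvdef
  have hvr : D.Red v 1 := by
    have := (τd.red_f.mul (τ.red.pow m)).div (hNr.pow m) (pow_ne_zero _ τ.t_ne_zero)
    rwa [one_mul, div_self (pow_ne_zero _ τ.t_ne_zero)] at this
  have hvreg : TReg R Q v := ⟨hvr.mem, fun P hP => ordGe_of_le_ord (by
    rw [hvdef, FunctionField.ord_div (mul_ne_zero hf0 (pow_ne_zero _ τ.T_ne_zero))
      (pow_ne_zero _ hN0), P.ord_mul hf0 (pow_ne_zero _ τ.T_ne_zero), τd.ord_f,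
      FunctionField.ord_pow, FunctionField.ord_pow, hD P hP, hE P hP, ← hm]
    exact le_of_eq (by ring))⟩
  -- expansions at `P₁`
  obtain ⟨V, hV, hVb⟩ := τ.exists_expansion hvreg hvr
  obtain ⟨Ne, hNe, hNeb⟩ := τ.exists_expansion τ₂.treg hNr
  obtain ⟨H, hH, hHb⟩ := τ.exists_expansion (hreg1 h hh hhr.mem) (hhr.mul τ.red)
  obtain ⟨w', hw'⟩ := exists_red hwV
  obtain ⟨W, hW, -⟩ := τ.exists_expansion (hregm w hw hwV) (hw'.mul (τ.red.pow m))
  obtain ⟨δ', hδ'⟩ := exists_red hδV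
  obtain ⟨Δ, hΔ, -⟩ := τ.exists_expansion (hreg1 δ hδ hδV) (hδ'.mul τ.red)
  obtain ⟨U, hU, hUb⟩ := τ.exists_expansion (hregm u hu hur.mem) (hur.mul (τ.red.pow m))
  have hVb1 : V.map π = 1 := hVb.unique τ.ord_t (by simpa using isExp_C ht (1 : k))
  have hNeb1 : Ne.map π = PowerSeries.X := hNeb.unique τ.ord_t (isExp_X ht)
  have hHb1 : H.map π = PowerSeries.X := hHb.unique τ.ord_t (by simpa using isExp_X ht)
  obtain ⟨G₀, hG₀, hG₀c⟩ := exists_root_series D.isResidue τd.m_ne V hVb1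
  have hG₀1 : G₀.map π = 1 := by
    have h1 : (G₀.map π) ^ m = 1 := by rw [← map_pow, hG₀, hVb1]
    have h2 := geom_sum_mul (G₀.map π) m
    rw [h1, sub_self, mul_eq_zero] at h2
    refine sub_eq_zero.1 (h2.resolve_left fun h0 => τd.m_ne ?_)
    have := congrArg (PowerSeries.constantCoeff (R := k)) h0
    have hcc : PowerSeries.constantCoeff (G₀.map π) = 1 := by
      rw [← PowerSeries.coeff_zero_eq_constantCoeff, PowerSeries.coeff_map,
        PowerSeries.coeff_zero_eq_constantCoeff, hG₀c]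
    simpa [hcc] using this
  set G := G₀ * Ne with hGdef
  have hGb : G.map π = PowerSeries.X := by rw [map_mul, hG₀1, hNeb1, one_mul]
  have hT1 : P₁.ord T = 1 := τ.ord_T
  have eq1 : G ^ m - H ^ m = PowerSeries.C c * W := by
    refine map_subtype_injective A ?_
    simp only [map_sub, map_mul, map_pow, hGdef, mul_pow, PowerSeries.map_C,
      ValuationSubring.coe_subtype]
    rw [show PowerSeries.map A.subtype G₀ ^ m = V.map A.subtype by rw [← map_pow, hG₀]]
    refine IsExp.unique hT1 (((hV.mul hT (hNe.pow hT m))).sub (hH.pow hT m)) ?_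
    have h1 := (isExp_C hT (c : L)).mul hT hW
    convert h1 using 1
    rw [hvdef, div_mul_cancel₀ _ (pow_ne_zero _ hN0), mul_pow, ← mul_assoc, ← Algebra.smul_def,
      ← hf]
    ring
  have eq2 : PowerSeries.C b * U = W - H ^ m' * Δ := by
    refine map_subtype_injective A ?_
    simp only [map_sub, map_mul, map_pow, PowerSeries.map_C, ValuationSubring.coe_subtype]
    refine IsExp.unique hT1 ((isExp_C hT (b : L)).mul hT hU) ?_
    have h1 := hW.sub ((hH.pow hT m').mul hT hΔ)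
    convert h1 using 1
    rw [← mul_assoc, ← Algebra.smul_def, hbu, hm']
    simp only [Nat.add_sub_cancel]
    ring
  -- the roots agree modulo `c`
  have hS : (∑ i ∈ Finset.range m, G ^ i * H ^ (m - 1 - i)).map π ≠ 0 := by
    have hmap : ∀ i ∈ Finset.range m, PowerSeries.map π G ^ i * PowerSeries.map π H ^ (m - 1 - i)
        = (PowerSeries.X : PowerSeries k) ^ m' := fun i hi => by
      rw [hGb, hHb1, ← pow_add]
      rw [Finset.mem_range] at hi
      congr 1; omega
    simp only [map_sum, map_mul, map_pow]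
    rw [Finset.sum_congr rfl hmap, Finset.sum_const, Finset.card_range, nsmul_eq_mul]
    refine mul_ne_zero ?_ (pow_ne_zero _ PowerSeries.X_ne_zero)
    rw [← map_natCast (PowerSeries.C (R := k))]
    exact fun h0 => τd.m_ne (PowerSeries.C_injective (h0.trans (map_zero _).symm))
  obtain ⟨ξ, hξ⟩ := coeff_mem_of_mul_mem D.isResidue hA hS (a := G - H) hc
    ⟨W, by rw [geom_sum₂_mul, eq1]⟩
  obtain ⟨ζ, hζ⟩ := exists_pow_add_eq H (PowerSeries.C c * ξ) m
  have hC : PowerSeries.C c ≠ 0 := fun h0 => hc (by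
    have := PowerSeries.C_injective (h0.trans (map_zero (PowerSeries.C (R := A))).symm)
    rw [this]; rfl)
  have hWeq : W = (m : PowerSeries A) * H ^ m' * ξ + PowerSeries.C c * (ζ * ξ ^ 2) := by
    refine mul_left_cancel₀ hC ?_
    rw [← eq1, show G = H + PowerSeries.C c * ξ by rw [← hξ]; ring, hζ, hm', Nat.add_sub_cancel]
    ring
  have hdiv : PowerSeries.C b ∣ H ^ m' * ((m : PowerSeries A) * ξ - Δ) := by
    refine ⟨U - PowerSeries.C q * (ζ * ξ ^ 2), ?_⟩
    rw [mul_sub (PowerSeries.C b), eq2, hWeq, hcb, map_mul]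
    ring
  obtain ⟨ξ₂, hξ₂⟩ := coeff_mem_of_mul_mem D.isResidue hA
    (by rw [map_pow, hHb1]; exact pow_ne_zero _ PowerSeries.X_ne_zero) hb hdiv
  have hU' : U = H ^ m' * ξ₂ + PowerSeries.C q * (ζ * ξ ^ 2) := by
    have hCb : PowerSeries.C b ≠ 0 := fun h0 => hb (by
      have := PowerSeries.C_injective (h0.trans (map_zero (PowerSeries.C (R := A))).symm)
      rw [this]; rfl)
    refine mul_left_cancel₀ hCb ?_
    rw [eq2, hWeq, hcb, map_mul]
    linear_combination H ^ m' * hξ₂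
  have hlow : ∀ i < m', PowerSeries.coeff i (U.map π) = 0 := by
    intro i hi
    rw [hU', map_add, map_mul, map_mul, map_pow, hHb1, PowerSeries.map_C, hq, map_zero, zero_mul,
      add_zero]
    exact PowerSeries.X_pow_dvd_iff.1 (dvd_mul_right _ _) i hi
  have hord := (hUb.ordGe ht hlow).mul (ordGe_ord (v := Q) (t ^ m)⁻¹)
  rw [mul_inv_cancel_right₀ (pow_ne_zero _ τ.t_ne_zero), Q.ord_inv, FunctionField.ord_pow,
    τ.ord_t] at hord
  exact hord.mono (by omega)

theorem exists_step {g c₀ : ℤ} (hL : RRLarge L F g c₀) (hk : RRLarge k Fb g c₀)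
    (hdeg : c₀ ≤ Divisor.degree τd.D₀) (hA : IsRankOne A) {h w : F} {c : A}
    (hc : (c : L) ≠ 0) (hh : h ∈ riemannRochSpace τd.D₀) (hhr : D.Red h 1)
    (hw : w ∈ riemannRochSpace (τd.m • τd.D₀)) (hwV : w ∈ D.V)
    (hf : τd.f - h ^ τd.m = (c : L) • w) :
    ∃ δ ∈ riemannRochSpace τd.D₀, δ ∈ D.V ∧
      ∃ w₂ ∈ D.V, w = h ^ (τd.m - 1) * δ + (c : L) • w₂ := by
  classical
  set m := τd.m with hm
  set R₀ := Finsupp.mapDomain R.r τd.D₀ with hR₀
  have hdegm : c₀ ≤ Divisor.degree (m • τd.D₀) := by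
    rw [map_nsmul, nsmul_eq_mul]
    have h1 := degree_nonneg τd.D₀_nonneg
    have h2 : (1 : ℤ) ≤ m := by exact_mod_cast τd.m_pos
    push_cast
    nlinarith
  have hle : riemannRochSpace R₀ ≤ riemannRochSpace (m • R₀) := riemannRochSpace_mono
    (Finsupp.le_def.2 fun Q => by
      have h1 : (0 : ℤ) ≤ R₀ Q := mapDomain_nonneg _ τd.D₀_nonneg Q
      have h2 : (1 : ℤ) ≤ m := by exact_mod_cast τd.m_pos
      simp only [Finsupp.smul_apply, nsmul_eq_mul]
      nlinarith)
  set W₁ := riemannRochSpace (K := k) (F := Fb) R₀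
  set W₂ := riemannRochSpace (K := k) (F := Fb) (m • R₀)
  obtain ⟨U₀, hU₀⟩ := Submodule.exists_isCompl (W₁.submoduleOf W₂)
  set U : Submodule k Fb := U₀.map W₂.subtype with hU
  have hUW : U ≤ W₂ := Submodule.map_subtype_le _ _
  have hinf : ∀ x, x ∈ W₁ → x ∈ U → x = 0 := by
    rintro x hx1 ⟨⟨y, hy⟩, hyU, rfl⟩
    exact congrArg Subtype.val ((Submodule.disjoint_def.1 hU₀.disjoint) ⟨y, hy⟩ hx1 hyU)
  have hdisj : Disjoint W₁ U := Submodule.disjoint_def.2 hinf
  have : Module.Finite k U := Submodule.finiteDimensional_of_le hUW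
  let b₁ := Module.finBasis k W₁
  let b₂ := Module.finBasis k U
  have hred₁ : D.redSpace (riemannRochSpace τd.D₀) = W₁ := R.redSpace_eq hL hk hdeg
  have hred₂ : D.redSpace (riemannRochSpace (m • τd.D₀)) = W₂ := by
    rw [R.redSpace_eq hL hk hdegm]
    exact congrArg riemannRochSpace (map_nsmul (Finsupp.mapDomain.addMonoidHom R.r) m τd.D₀)
  have h1mem : ∀ i, (b₁ i : Fb) ∈ D.redSpace (riemannRochSpace τd.D₀) := fun i =>
    hred₁.symm ▸ (b₁ i).2
  choose d hd hdr using h1mem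
  have h2mem : ∀ j, (b₂ j : Fb) ∈ D.redSpace (riemannRochSpace (m • τd.D₀)) := fun j =>
    hred₂.symm ▸ hUW (b₂ j).2
  choose e he her using h2mem
  set y : Fin (Module.finrank k W₁) ⊕ Fin (Module.finrank k U) → F :=
    Sum.elim (fun i => h ^ (m - 1) * d i) e with hy
  set yb : Fin (Module.finrank k W₁) ⊕ Fin (Module.finrank k U) → Fb :=
    Sum.elim (fun i => (b₁ i : Fb)) (fun j => (b₂ j : Fb)) with hyb
  have hpowh : h ^ (m - 1) ∈ riemannRochSpace ((m - 1) • τd.D₀) := by
    generalize m - 1 = n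
    induction n with
    | zero => simpa using one_mem_rr (K := L) (F := F) (D := 0) le_rfl
    | succ n ih => rw [pow_succ, succ_nsmul]; exact mul_mem_rr ih hh
  have hymem : ∀ i, y i ∈ riemannRochSpace (m • τd.D₀) := by
    rintro (i | j)
    · have := mul_mem_rr hpowh (hd i)
      rwa [← succ_nsmul, Nat.sub_add_cancel τd.m_pos] at this
    · exact he j
  have hyr : ∀ i, D.Red (y i) (yb i) := by
    rintro (i | j)
    · simpa [hy, hyb] using (hhr.pow (m - 1)).mul (hdr i)
    · exact her j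
  have hind : LinearIndependent k yb := by
    refine (b₁.linearIndependent.map' W₁.subtype (Submodule.ker_subtype _)).sum_type
      (b₂.linearIndependent.map' U.subtype (Submodule.ker_subtype _)) (hdisj.mono ?_ ?_) <;>
      exact Submodule.span_le.2 (Set.range_subset_iff.2 fun i => Submodule.coe_mem _)
  have hcard : Fintype.card (Fin (Module.finrank k W₁) ⊕ Fin (Module.finrank k U)) =
      Module.finrank L (riemannRochSpace (m • τd.D₀)) := by
    rw [← D.finrank_redSpace, hred₂, Fintype.card_sum, Fintype.card_fin, Fintype.card_fin,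
      ← Submodule.finrank_add_eq_of_isCompl hU₀,
      (Submodule.submoduleOfEquivOfLe hle).finrank_eq, hU, Submodule.finrank_map_subtype_eq]
  have hspan : Submodule.span L (Set.range y) = riemannRochSpace (m • τd.D₀) := by
    refine Submodule.eq_of_le_of_finrank_eq (Submodule.span_le.2 (Set.range_subset_iff.2 hymem)) ?_
    rw [finrank_span_eq_card (linearIndependent_of_red hyr hind), hcard]
  obtain ⟨co, hco⟩ := (Submodule.mem_span_range_iff_exists_fun L).1 (hspan ▸ hw :
    w ∈ Submodule.span L (Set.range y))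
  have hcoA := coeff_mem_of_mem hyr hind (c := co) (hco ▸ hwV)
  set δ := ∑ i, co (Sum.inl i) • d i with hδ
  have hδr : D.Red δ (∑ i, π ⟨_, hcoA (Sum.inl i)⟩ • (b₁ i : Fb)) :=
    Red.sum _ fun i _ => red_smul ⟨_, hcoA (Sum.inl i)⟩ (hdr i)
  have hδmem : δ ∈ riemannRochSpace τd.D₀ :=
    Submodule.sum_mem _ fun i _ => Submodule.smul_mem _ _ (hd i)
  refine ⟨δ, hδmem, hδr.mem, ?_⟩
  have hsplit : w = h ^ (m - 1) * δ + ∑ j, co (Sum.inr j) • e j := by
    rw [← hco, Fintype.sum_sum_type]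
    simp only [hy, Sum.elim_inl, Sum.elim_inr, hδ, Finset.mul_sum, mul_smul_comm]
  by_cases hall : ∀ j, co (Sum.inr j) / (c : L) ∈ A
  · refine ⟨∑ j, (co (Sum.inr j) / (c : L)) • e j,
      (Red.sum Finset.univ fun j _ => red_smul ⟨_, hall j⟩ (her j)).mem, ?_⟩
    rw [hsplit, Finset.smul_sum]
    refine congrArg _ (Finset.sum_congr rfl fun j _ => ?_)
    rw [smul_smul, mul_div_cancel₀ _ hc]
  exfalso
  push Not at hall
  obtain ⟨j₁, hj₁⟩ := hall
  obtain ⟨j₀, hj₀, hjA⟩ := exists_max_valuation A (fun j => co (Sum.inr j))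
    fun h0 => hj₁ (by rw [show co (Sum.inr j₁) = 0 from congrFun h0 j₁, zero_div]; exact zero_mem _)
  set b : A := ⟨co (Sum.inr j₀), hcoA _⟩ with hbdef
  have hbc : (b : L) / (c : L) ∉ A := fun hmem => hj₁ (by
    have := mul_mem (hjA j₁) hmem
    rwa [hbdef, div_mul_div_cancel₀ hj₀] at this)
  have hqn : (c : L) / (b : L) ∈ A.nonunits := by
    rw [← inv_div, ValuationSubring.inv_mem_nonunits_iff]; exact Or.inr hbc
  set q : A := ⟨_, A.nonunits_subset hqn⟩
  set u := ∑ j, (co (Sum.inr j) / (b : L)) • e j with hu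
  set z := ∑ j, π ⟨_, hjA j⟩ • (b₂ j : Fb) with hz
  have hur : D.Red u z := Red.sum _ fun j _ => red_smul ⟨_, hjA j⟩ (her j)
  have humem : u ∈ riemannRochSpace (m • τd.D₀) :=
    Submodule.sum_mem _ fun j _ => Submodule.smul_mem _ _ (he j)
  have hbu : (b : L) • u = w - h ^ (m - 1) * δ := by
    rw [hsplit, add_sub_cancel_left, hu, Finset.smul_sum]
    exact Finset.sum_congr rfl fun j _ => by rw [smul_smul, mul_div_cancel₀ _ hj₀]
  have hzU : z ∈ U := Submodule.sum_mem _ fun j _ => Submodule.smul_mem _ _ (b₂ j).2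
  have hz₁ : z ∈ W₁ := mem_rr_iff.2 fun Q => by
    have h0 : (0 : ℤ) ≤ R₀ Q := mapDomain_nonneg _ τd.D₀_nonneg Q
    rcases (show R₀ Q = 0 ∨ R₀ Q = 1 by have := τd.reduced Q; rw [← hR₀] at this; omega) with h' | h'
    · rw [h']
      simpa [Finsupp.smul_apply, h'] using mem_rr_iff.1 (hUW hzU) Q
    · rw [h']
      exact τd.local_bound hA (exists_tubeParam R hL hk) hh hhr hw hwV hδmem hδr.mem humem hur hc
        hj₀ (q := q) ((D.isResidue.eq_zero_iff _).2 hqn)
        (Subtype.ext (mul_div_cancel₀ _ hj₀).symm) hf hbu h'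
  have h4 := Fintype.linearIndependent_iff.1
    (b₂.linearIndependent.map' U.subtype (Submodule.ker_subtype _))
    (fun j => π ⟨_, hjA j⟩) (hinf z hz₁ hzU) j₀
  rw [show (⟨_, hjA j₀⟩ : A) = 1 from Subtype.ext (div_self hj₀), map_one] at h4
  exact one_ne_zero h4

end TorsionData

end FLTAgent.GoodRed
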