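import Fermat.Agent.GoodRed.TraceLattice
import Fermat.Agent.GoodRed.DualSpace
import Mathlib.RingTheory.Polynomial.GaussLemma

/-!
# Comparison of numerator spaces under reduction

For charts reducing into each other, the numerators and the trace-dual numerators both reduce
into those of the residue field, so both spaces have the same dimensions upstairs and downstairs.
-/

set_option autoImplicit false
set_option linter.unusedSectionVars false

noncomputable section

open AlgebraicCurve Polynomial
open scoped IntermediateField Matrix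

namespace FLTAgent.GoodRed

open FLTAgent.FunctionField RedDatum

/-- Polynomials from a flat vector of coefficients. -/
def unflat {R : Type*} [Semiring R] (n d : ℕ) (a : Fin (n * d) → R) (i : Fin n) : R[X] :=
  ∑ j : Fin d, monomial (j : ℕ) (a (finProdFinEquiv (i, j)))

theorem map_unflat {R S : Type*} [Semiring R] [Semiring S] (f : R →+* S) (n d : ℕ)
    (a : Fin (n * d) → R) (i : Fin n) :
    (unflat n d a i).map f = unflat n d (fun l => f (a l)) i := by
  simp [unflat, Polynomial.map_sum, map_monomial]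

/-- Flat coordinates on vectors of polynomials of bounded degree. -/
def flatEquiv (K : Type*) [Field K] (n d : ℕ) :
    (Fin (n * d) → K) ≃ₗ[K] (Fin n → degreeLT K d) :=
  (LinearEquiv.funCongrLeft K K finProdFinEquiv).trans
    ((LinearEquiv.curry K K (Fin n) (Fin d)).trans
      (LinearEquiv.piCongrRight fun _ => (degreeLTEquiv K d).symm))

theorem coe_flatEquiv (K : Type*) [Field K] (n d : ℕ) (a : Fin (n * d) → K) (i : Fin n) :
    ((flatEquiv K n d a i : degreeLT K d) : K[X]) = unflat n d a i := rfl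

variable {L k : Type*} [Field L] [Field k] {A : ValuationSubring L} {π : A →+* k}
  {F Fb : Type*} [Field F] [Algebra L F] [Field Fb] [Algebra k Fb]
  [IsFunctionField L F] [IsFunctionField k Fb] [IsAlgClosed L] [IsAlgClosed k]
  {D : RedDatum A π F Fb} {x : F} {xb : Fb}
  [FiniteDimensional L⟮x⟯ F] [FiniteDimensional k⟮xb⟯ Fb]

theorem exists_lift_poly (hx : D.Red x xb) (hxb : Transcendental k xb) {p : L[X]} {pb : k[X]}
    (h : D.Red (aeval x p) (aeval xb pb)) :
    ∃ q : A[X], q.map A.subtype = p ∧ q.map π = pb := by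
  obtain ⟨q, rfl⟩ : ∃ q : A[X], q.map A.subtype = p := by
    rw [← Polynomial.mem_lifts, lifts_iff_coeff_lifts]
    exact fun i => ⟨⟨_, coeff_mem_of_aeval_mem hx hxb h.mem i⟩, rfl⟩
  exact ⟨q, rfl, sub_eq_zero.1 (transcendental_iff.1 hxb _ (by
    rw [map_sub, (red_aeval hx q).unique h, sub_self]))⟩

/-- Integral functions regular at finite places reduce to such functions. -/
theorem red_mem_finReg (hx : D.Red x xb) (hxb : Transcendental k xb)
    (hd : NoDefect L⟮x⟯ k⟮xb⟯ F Fb) {y : F} {z : Fb} (hy : D.Red y z) (hreg : y ∈ finReg L x) :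
    z ∈ finReg k xb := by
  classical
  set DE := D.lineDatum hx hxb
  have hc : CompatRed DE D := compat_lineDatum hx hxb
  obtain ⟨P, hPm, -, hPy, -⟩ := hc.exists_charpoly hd hy
  have hint : IsIntegral L⟮x⟯ y := Algebra.IsIntegral.isIntegral y
  obtain ⟨g, hg⟩ := IsIntegrallyClosed.eq_map_mul_C_of_dvd L⟮x⟯ hPm
    (g := minpoly L⟮x⟯ y) (minpoly.dvd _ _ hPy)
  rw [(minpoly.monic hint).leadingCoeff, C_1, mul_one] at hg
  choose p hp using
    exists_minpoly_coeff_eq_ev (transcendental_of_red hx hxb) hreg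
  have hmem : ∀ i, aeval x (p i) ∈ D.V := fun i => by
    rw [← algebraMap_ev]
    refine hc.mem_iff.2 ?_
    rw [← hp i, ← hg, coeff_map]
    exact (g.coeff i).2
  choose q hq using fun i =>
    (show ∃ q : A[X], q.map A.subtype = p i by
      rw [← Polynomial.mem_lifts, lifts_iff_coeff_lifts]
      exact fun j => ⟨⟨_, coeff_mem_of_aeval_mem hx hxb (hmem i) j⟩, rfl⟩)
  set N := (minpoly L⟮x⟯ y).natDegree
  refine mem_finReg_of_relation (n := N) (c := fun i => aeval xb ((q i).map π))
    (fun i _ => aeval_mem_finReg xb _) ?_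
  have h1 : y ^ N + ∑ i ∈ Finset.range N, aeval x ((q i).map A.subtype) * y ^ i = 0 := by
    have h := minpoly.aeval L⟮x⟯ y
    rw [aeval_eq_sum_range, Finset.sum_range_succ, (minpoly.monic hint).coeff_natDegree,
      one_smul, add_comm] at h
    simp only [Algebra.smul_def, hp, algebraMap_ev] at h
    simpa only [hq] using h
  have h2 : D.Red (y ^ N + ∑ i ∈ Finset.range N, aeval x ((q i).map A.subtype) * y ^ i)
      (z ^ N + ∑ i ∈ Finset.range N, aeval xb ((q i).map π) * z ^ i) :=
    (hy.pow N).add (Red.sum _ fun i _ => (red_aeval hx (q i)).mul (hy.pow i))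
  rw [h1] at h2
  exact h2.unique red_zero

namespace Chart

theorem comb_apply {K E : Type*} [Field K] [Field E] [Algebra K E] [IsFunctionField K E]
    [IsAlgClosed K] {t : E} [FiniteDimensional K⟮t⟯ E] {n m : ℕ} (H : Chart K t n m)
    (p : Fin n → K[X]) : H.comb p = ∑ i, aeval t (p i) / aeval t H.D * H.e i := by
  simp only [comb, LinearMap.coe_mk, AddHom.coe_mk]
  exact Finset.sum_congr rfl fun i _ => by
    rw [Algebra.smul_def (A := E), map_div₀, algebraMap_ev, algebraMap_ev]

variable {n m : ℕ} (H : Chart L x n m) (Hb : Chart k xb n m)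

/-- The Gram matrix over `A`. -/
theorem exists_gram_lift (hx : D.Red x xb) (hd : NoDefect L⟮x⟯ k⟮xb⟯ F Fb)
    (hu : D.Red H.u Hb.u) :
    ∃ GA : Matrix (Fin n) (Fin n) A[X],
      GA.map (Polynomial.map A.subtype) = H.G ∧ GA.map (Polynomial.map π) = Hb.G := by
  choose GA hGA using fun i j : Fin n => exists_lift_poly (p := H.G i j) (pb := Hb.G i j) hx
    Hb.transcendental (by
      have h := (compat_lineDatum hx Hb.transcendental).red_trace hd
        ((hu.pow (i : ℕ)).mul (hu.pow (j : ℕ)))
      rw [H.trace_eq, Hb.trace_eq, lineDatum_red_iff, coe_ev, coe_ev] at h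
      exact h)
  exact ⟨GA, Matrix.ext fun i j => (hGA i j).1, Matrix.ext fun i j => (hGA i j).2⟩

variable (hx : D.Red x xb) (hd : NoDefect L⟮x⟯ k⟮xb⟯ F Fb) (hu : D.Red H.u Hb.u)

include hx hd hu in
/-- Solutions and the normalised determinant reduce. -/
theorem exists_solve_lift :
    ∃ (DA : A[X]) (sol : (Fin n → A[X]) → Fin n → A[X]),
      DA.map A.subtype = H.D ∧ DA.map π = Hb.D ∧
      ∀ q : Fin n → A[X],
        (∀ i, (sol q i).map A.subtype = H.solve (fun i => (q i).map A.subtype) i) ∧
        ∀ i, (sol q i).map π = Hb.solve (fun i => (q i).map π) i := by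
  obtain ⟨GA, hG, hGb⟩ := exists_gram_lift H Hb hx hd hu
  have hdet : GA.det.map A.subtype = H.G.det := by
    rw [← hG, ← coe_mapRingHom, RingHom.map_det, RingHom.mapMatrix_apply]
  have hdetb : GA.det.map π = Hb.G.det := by
    rw [← hGb, ← coe_mapRingHom, RingHom.map_det, RingHom.mapMatrix_apply]
  have hadj : GA.adjugate.map (Polynomial.map A.subtype) = H.G.adjugate := by
    rw [← hG, ← coe_mapRingHom, ← RingHom.mapMatrix_apply, ← RingHom.mapMatrix_apply,
      RingHom.map_adjugate]
  have hadjb : GA.adjugate.map (Polynomial.map π) = Hb.G.adjugate := by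
    rw [← hGb, ← coe_mapRingHom, ← RingHom.mapMatrix_apply, ← RingHom.mapMatrix_apply,
      RingHom.map_adjugate]
  have hlb : π (GA.det.coeff (gramDeg n m)) = Hb.G.det.coeff (gramDeg n m) := by
    rw [← hdetb, coeff_map]
  have hl : (GA.det.coeff (gramDeg n m) : L) = H.G.det.coeff (gramDeg n m) := by
    rw [← hdet, coeff_map]; rfl
  let cA : A := ⟨_, D.isResidue.inv_mem (a := GA.det.coeff (gramDeg n m))
    (by rw [hlb]; exact Hb.det_coeff)⟩
  have hcA : (cA : L) = H.c₀ := by
    show (GA.det.coeff (gramDeg n m) : L)⁻¹ = _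
    rw [hl]
  have hcAb : π cA = Hb.c₀ := by
    refine eq_inv_of_mul_eq_one_left ?_
    rw [← hlb, ← map_mul, show cA * GA.det.coeff (gramDeg n m) = 1 from Subtype.ext
      (inv_mul_cancel₀ (by rw [hl]; exact H.det_coeff)), map_one]
  refine ⟨C cA * GA.det, fun q i => C cA * (q ᵥ* GA.adjugate) i, ?_, ?_, fun q => ⟨?_, ?_⟩⟩
  · rw [Polynomial.map_mul, map_C, hdet, Chart.D, ← hcA]; rfl
  · rw [Polynomial.map_mul, map_C, hdetb, Chart.D, hcAb]
  · intro i
    rw [Polynomial.map_mul, map_C, Chart.solve, ← hcA, ← hadj, ← coe_mapRingHom,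
      RingHom.map_vecMul]
    rfl
  · intro i
    rw [Polynomial.map_mul, map_C, Chart.solve, hcAb, ← hadjb, ← coe_mapRingHom,
      RingHom.map_vecMul]
    rfl

include hx hd hu in
/-- Combinations reduce. -/
theorem red_comb (p : Fin n → A[X]) :
    D.Red (H.comb fun i => (p i).map A.subtype) (Hb.comb fun i => (p i).map π) := by
  obtain ⟨DA, -, hDA, hDAb, -⟩ := exists_solve_lift H Hb hx hd hu
  rw [comb_apply, comb_apply]
  refine Red.sum _ fun i _ => ?_
  refine ((red_aeval hx (p i)).div (hDA ▸ hDAb ▸ red_aeval hx DA) fun h => ?_).mul (hu.pow _)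
  exact Hb.monic_D.ne_zero (transcendental_iff.1 Hb.transcendental _ h)

include hx hd hu in
theorem finrank_num_le : Module.finrank L H.num ≤ Module.finrank k Hb.num := by
  classical
  set eL := flatEquiv L n (gramDeg n m)
  set ek := flatEquiv k n (gramDeg n m)
  rw [← (eL.ofSubmodule' H.num).finrank_eq, ← (ek.ofSubmodule' Hb.num).finrank_eq]
  refine (finrank_le_finrank_redCoord D.isResidue _).trans (Submodule.finrank_mono ?_)
  intro z hz
  obtain ⟨a, ha, rfl⟩ := mem_redCoord.1 hz
  rw [Submodule.mem_comap, mem_num] at ha ⊢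
  refine red_mem_finReg hx Hb.transcendental hd ?_ ha
  have h := red_comb H Hb hx hd hu fun i => unflat n _ a i
  convert h using 2
  · funext i; rw [map_unflat]; rfl
  · funext i; rw [map_unflat]; rfl

include hx hd hu in
theorem finrank_dualNum_le [CharZero L] (S : Finset A) (hS : Set.InjOn π S)
    (hunr : ∀ a : L, (∀ s ∈ S, (s : L) ≠ a) → ∀ v : Place L F,
      0 < v.ord (x - algebraMap L F a) → v.ord (x - algebraMap L F a) = 1) :
    Module.finrank L H.dualNum ≤ Module.finrank k Hb.dualNum := by
  classical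
  set eL := flatEquiv L n (gramDeg n m)
  set ek := flatEquiv k n (gramDeg n m)
  rw [← (eL.ofSubmodule' H.dualNum).finrank_eq, ← (ek.ofSubmodule' Hb.dualNum).finrank_eq]
  refine (finrank_le_finrank_redCoord D.isResidue _).trans (Submodule.finrank_mono ?_)
  intro z hz
  obtain ⟨a, ha, rfl⟩ := mem_redCoord.1 hz
  rw [Submodule.mem_comap, mem_dualNum_iff] at ha ⊢
  simp only [LinearEquiv.coe_coe] at ha ⊢
  set qA : Fin n → A[X] := fun i => unflat n (gramDeg n m) a i
  obtain ⟨DA, sol, -, -, hsol⟩ := exists_solve_lift H Hb hx hd hu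
  have heta : D.Red (H.eta (H.val (eL fun i => (a i : L))))
      (Hb.eta (Hb.val (ek fun i => π (a i)))) := by
    have h := red_comb H Hb hx hd hu (sol qA)
    convert h using 1
    · rw [Chart.eta]
      congr 1
      funext i
      rw [(hsol qA).1 i]
      congr 1
      funext j; rw [map_unflat]; rfl
    · rw [Chart.eta]
      congr 1
      funext i
      rw [(hsol qA).2 i]
      congr 1
      funext j; rw [map_unflat]; rfl
  set η := H.eta (H.val (eL fun i => (a i : L)))
  set ηb := Hb.eta (Hb.val (ek fun i => π (a i)))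
  -- upstairs
  set QA : A[X] := ∏ s ∈ S, (X - C s)
  set SL : Finset L := S.image fun s : A => (s : L)
  have hQL : QA.map A.subtype = ∏ s ∈ SL, (X - C s) := by
    rw [Polynomial.map_prod, Finset.prod_image (fun s _ t _ h => Subtype.ext h)]
    exact Finset.prod_congr rfl fun s _ => by rw [Polynomial.map_sub, map_X, map_C]; rfl
  obtain ⟨hw, hwS⟩ := mul_prod_mem_finReg H.transcendental SL
    (fun b hb => hunr b fun s hs h => hb (Finset.mem_image.2 ⟨s, hs, h⟩)) ha
  rw [← hQL] at hw hwS
  set w := aeval x (QA.map A.subtype) * η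
  obtain ⟨N, hN⟩ : ∃ N : ℕ, ∀ s ∈ SL, ∀ v : Place L F,
      v.ord (x - algebraMap L F s) ≤ N := by
    refine ⟨∑ s ∈ SL, (Divisor.degree (zeroDivisor (K := L) (x - algebraMap L F s))).toNat,
      fun s hs v => ?_⟩
    have h1 := apply_le_degree (zeroDivisor_nonneg (x - algebraMap L F s)) v
    rw [zeroDivisor_apply] at h1
    have h2 := Finset.single_le_sum (f := fun s =>
      (Divisor.degree (zeroDivisor (K := L) (x - algebraMap L F s))).toNat)
      (fun _ _ => Nat.zero_le _) hs
    omega
  have hdiv : w ^ N / aeval x (QA.map A.subtype) ∈ finReg L x := by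
    intro v hv
    obtain ⟨b, hb⟩ := exists_value_finite hv
    have hne : ∀ s ∈ SL, x - algebraMap L F s ≠ 0 :=
      fun s _ => sub_algebraMap_ne_zero H.transcendental s
    have hordQ : v.ord (aeval x (QA.map A.subtype)) =
        ∑ s ∈ SL, v.ord (x - algebraMap L F s) := by
      rw [hQL, map_prod]
      simp only [map_sub, aeval_X, aeval_C]
      exact ord_prod SL _ hne
    rw [div_eq_mul_inv]
    by_cases hbS : b ∈ SL
    · have hQ : v.ord (aeval x (QA.map A.subtype)) ≤ N := by
        rw [hordQ, Finset.sum_eq_single b (fun s _ hsb => ord_sub_eq_zero hb hsb)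
          (fun h => absurd hbS h)]
        exact hN b hbS v
      have h1 := hwS b hbS v (ord_pos_of_value H.transcendental hb)
      rcases eq_or_ne w 0 with hw0 | hw0
      · rcases Nat.eq_zero_or_pos N with hN0 | hN0
        · rw [hN0, pow_zero, one_mul]
          exact ordGe_of_le_ord (by rw [v.ord_inv]; omega)
        · rw [hw0, zero_pow (by omega), zero_mul]; exact ordGe_zero _
      have h2 := h1.le_ord hw0
      refine ((ordGe_ord (v := v) (w ^ N)).mul (ordGe_ord _)).mono ?_
      rw [ord_pow, v.ord_inv]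
      have h4 := mul_le_mul_of_nonneg_left h2 (Nat.cast_nonneg N : (0 : ℤ) ≤ N)
      omega
    · have hQ : v.ord (aeval x (QA.map A.subtype)) = 0 := by
        rw [hordQ]
        exact Finset.sum_eq_zero fun s hs => ord_sub_eq_zero hb fun h => hbS (h ▸ hs)
      have h1 := pow_mem_finReg hw N v hv
      simpa [v.ord_inv, hQ] using h1.mul (ordGe_ord (v := v) (aeval x (QA.map A.subtype))⁻¹)
  -- downstairs
  have hQb : QA.map π = ∏ s ∈ S.image π, (X - C s) := by
    rw [Polynomial.map_prod, Finset.prod_image hS]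
    exact Finset.prod_congr rfl fun s _ => by rw [Polynomial.map_sub, map_X, map_C]
  have hQb0 : aeval xb (QA.map π) ≠ 0 := fun h => by
    have := transcendental_iff.1 Hb.transcendental _ h
    rw [hQb] at this
    exact (monic_prod_of_monic _ _ fun s _ => monic_X_sub_C s).ne_zero this
  have hwred : D.Red w (aeval xb (QA.map π) * ηb) := (red_aeval hx QA).mul heta
  set wb := aeval xb (QA.map π) * ηb
  have hwb : wb ∈ finReg k xb := red_mem_finReg hx Hb.transcendental hd hwred hw
  have hdivb : wb ^ N / aeval xb (QA.map π) ∈ finReg k xb :=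
    red_mem_finReg hx Hb.transcendental hd ((hwred.pow N).div (red_aeval hx QA) hQb0) hdiv
  have hvanish : ∀ s ∈ S.image π, ∀ v : Place k Fb, 0 < v.ord (xb - algebraMap k Fb s) →
      OrdGe v 1 wb := by
    intro s hs v hv
    have hvx : 0 ≤ v.ord xb :=
      ord_nonneg_of_coordSub_pos (x := xb) (a := s) (by rwa [coe_coordSub])
    rcases eq_or_ne wb 0 with h0 | h0
    · rw [h0]; exact ordGe_zero _
    have h1 := (hdivb v hvx).le_ord (div_ne_zero (pow_ne_zero _ h0) hQb0)
    rw [ord_div (pow_ne_zero _ h0) hQb0, ord_pow] at h1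
    have hQpos : 0 < v.ord (aeval xb (QA.map π)) := by
      rw [hQb, map_prod]
      simp only [map_sub, aeval_X, aeval_C]
      rw [ord_prod _ _ fun t _ => sub_algebraMap_ne_zero Hb.transcendental t]
      obtain ⟨b, hb⟩ := exists_value_finite hvx
      have hbs : s = b := by
        by_contra hne
        rw [ord_sub_eq_zero hb hne] at hv
        omega
      rw [Finset.sum_eq_single s (fun t _ hts => ord_sub_eq_zero hb (hbs ▸ hts))
        (fun h => absurd hs h)]
      exact hv
    have h3 := (hwb v hvx).le_ord h0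
    refine ordGe_of_le_ord ?_
    by_contra hlt
    have : v.ord wb = 0 := by omega
    rw [this, mul_zero] at h1
    omega
  intro ζ hζ
  obtain ⟨P, hP⟩ := exists_trace_eq_ev Hb.transcendental (mul_mem_finReg hwb hζ)
  have hdvd : QA.map π ∣ P := by
    rw [hQb]
    refine Finset.prod_dvd_of_coprime
      (fun s _ t _ hst => pairwise_coprime_X_sub_C Function.injective_id hst) fun s hs => ?_
    rw [dvd_iff_isRoot]
    refine trace_isRoot Hb.transcendental hP fun v hv => ?_
    have hvx : 0 ≤ v.ord xb :=
      ord_nonneg_of_coordSub_pos (x := xb) (a := s) (by rwa [coe_coordSub])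
    simpa using (hvanish s hs v hv).mul (hζ v hvx)
  obtain ⟨c, rfl⟩ := hdvd
  refine ⟨c, ?_⟩
  have hQ0 : ev xb (QA.map π) ≠ 0 := fun h => hQb0 (by rw [← coe_ev, h]; rfl)
  apply mul_left_cancel₀ hQ0
  rw [← map_mul, ← hP, ← smul_eq_mul, ← map_smul, Algebra.smul_def (A := Fb), algebraMap_ev,
    ← mul_assoc]

include hx hd hu in
/-- The numerator spaces have equal dimension. -/
theorem finrank_num_eq [CharZero L] (S : Finset A) (hS : Set.InjOn π S)
    (hunr : ∀ a : L, (∀ s ∈ S, (s : L) ≠ a) → ∀ v : Place L F,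
      0 < v.ord (x - algebraMap L F a) → v.ord (x - algebraMap L F a) = 1) :
    Module.finrank L H.num = Module.finrank k Hb.num := by
  have h1 := finrank_num_le H Hb hx hd hu
  have h2 := finrank_dualNum_le H Hb hx hd hu S hS hunr
  have h3 := H.finrank_dualNum
  have h4 := Hb.finrank_dualNum
  omega

end Chart

end FLTAgent.GoodRed
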