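import Fermat.Agent.GoodRed.Cover
import Fermat.Agent.FunctionField.NormFormula

/-!
# Reductions of places of a covering without defect are compatible

If `F'/F` and `Fb'/Fb` are finite of the same degree with compatible reduction data, reductions of
places commute with pullback and pushforward of divisors.
-/

set_option autoImplicit false
set_option linter.unusedSectionVars false

noncomputable section

open AlgebraicCurve Polynomial
open scoped IntermediateField

namespace FLTAgent.GoodRed

open FLTAgent.FunctionField RedDatum

theorem pullback_nonneg {K F F' : Type*} [Field K] [Field F] [Field F'] [Algebra K F] [Algebra K F']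
    [Algebra F F'] [IsScalarTower K F F'] [IsFunctionField K F] [IsFunctionField K F']
    [FiniteDimensional F F'] {E : Divisor K F} (hE : 0 ≤ E) : 0 ≤ Divisor.pullback F' E := by
  intro w
  rw [Divisor.pullback_apply]
  exact mul_nonneg (Int.natCast_nonneg _) (hE _)

theorem pullback_divisorOf {K F F' : Type*} [Field K] [Field F] [Field F'] [Algebra K F]
    [Algebra K F'] [Algebra F F'] [IsScalarTower K F F'] [IsFunctionField K F]
    [IsFunctionField K F'] [FiniteDimensional F F'] (f : F) :
    Divisor.pullback F' (divisorOf (K := K) f) = divisorOf (algebraMap F F' f) :=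
  Finsupp.ext fun w => by
    rw [Divisor.pullback_apply_eq_ord (fun v => divisorOf_apply f v) w, divisorOf_apply]

variable {L k : Type*} [Field L] [Field k] {A : ValuationSubring L} {π : A →+* k}
  {F Fb F' Fb' : Type*} [Field F] [Algebra L F] [Field Fb] [Algebra k Fb]
  [Field F'] [Algebra L F'] [Field Fb'] [Algebra k Fb']
  [Algebra F F'] [Algebra Fb Fb'] [IsScalarTower L F F'] [IsScalarTower k Fb Fb']
  [IsFunctionField L F] [IsFunctionField k Fb] [IsFunctionField L F'] [IsFunctionField k Fb']
  [FiniteDimensional F F'] [FiniteDimensional Fb Fb'] [IsAlgClosed L] [IsAlgClosed k]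
  {D : RedDatum A π F Fb} {D' : RedDatum A π F' Fb'} {g c : ℤ}

/-- Reduction of places commutes with the pullback of a place. -/
theorem mapDomain_pullback_single (h : CompatRed D D') (hd : NoDefect F Fb F' Fb')
    (R : PlaceRed D) (R' : PlaceRed D') (hL : RRLarge L F g c) (hk : RRLarge k Fb g c)
    (P : Place L F) :
    Finsupp.mapDomain R'.r (Divisor.pullback F' (Finsupp.single P 1)) =
      Divisor.pullback Fb' (Finsupp.single (R.r P) 1) := by
  classical
  set n : ℕ := (c + 1).toNat + 1
  set E : Divisor L F := Finsupp.single P (n : ℤ)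
  have hEdeg : c + 1 ≤ Divisor.degree E := by
    rw [Divisor.degree_single, deg_eq_one]
    have := Int.self_le_toNat (c + 1)
    push_cast
    omega
  have hRE : Finsupp.mapDomain R.r E = Finsupp.single (R.r P) (n : ℤ) := Finsupp.mapDomain_single
  obtain ⟨f, hf, hf0, hfv⟩ := hk.exists_ord_eq_neg (D := Finsupp.mapDomain R.r E)
    (by rw [degree_mapDomain]; exact hEdeg) (R.r P)
  rw [← R.redSpace_eq hL hk (by omega)] at hf
  obtain ⟨y, hy, hr⟩ := hf
  rw [hRE, Finsupp.single_eq_same] at hfv
  have hX := (mem_rr_iff_divisorOf (hr.ne_zero hf0)).1 hy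
  have hne : algebraMap Fb Fb' f ≠ 0 := by simpa using hf0
  have hdiv := R'.map_divisorOf _ _ (h y f hr) hne
  rw [← pullback_divisorOf, ← pullback_divisorOf] at hdiv
  have hsum : Finsupp.mapDomain R'.r (Divisor.pullback F' (divisorOf y + E)) =
      Divisor.pullback Fb' (divisorOf f) +
        (n : ℤ) • Finsupp.mapDomain R'.r (Divisor.pullback F' (Finsupp.single P 1)) := by
    rw [map_add, Finsupp.mapDomain_add, hdiv]
    congr 1
    rw [← Finsupp.mapDomain_smul, ← map_zsmul]
    congr 2
    simp [E]
  have hle : Divisor.pullback Fb' (Finsupp.single (R.r P) 1) ≤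
      Finsupp.mapDomain R'.r (Divisor.pullback F' (Finsupp.single P 1)) := by
    intro w
    by_cases hw : w.restrict Fb = R.r P
    · have h0 := mapDomain_nonneg R'.r (pullback_nonneg (F' := F') hX) w
      rw [hsum, Finsupp.add_apply, Finsupp.smul_apply, smul_eq_mul, Divisor.pullback_apply,
        hw, divisorOf_apply, hfv, Finsupp.zero_apply] at h0
      rw [Divisor.pullback_single_apply_of_restrict_eq hw, one_mul]
      have hn : (0 : ℤ) < n := by positivity
      nlinarith
    · rw [Divisor.pullback_single_apply_of_restrict_ne hw]
      exact mapDomain_nonneg R'.r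
        (pullback_nonneg (F' := F') (Finsupp.single_nonneg.2 zero_le_one)) w
  refine (eq_of_le_of_degree_eq hle ?_).symm
  rw [degree_mapDomain, Divisor.degree_pullback, Divisor.degree_pullback, degree_single_one,
    degree_single_one, hd]

/-- Reduction of places commutes with pullback. -/
theorem mapDomain_pullback (h : CompatRed D D') (hd : NoDefect F Fb F' Fb')
    (R : PlaceRed D) (R' : PlaceRed D') (hL : RRLarge L F g c) (hk : RRLarge k Fb g c)
    (E : Divisor L F) :
    Finsupp.mapDomain R'.r (Divisor.pullback F' E) =
      Divisor.pullback Fb' (Finsupp.mapDomain R.r E) := by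
  induction E using Finsupp.induction with
  | zero => simp
  | single_add P n E _ _ ih =>
    have hs : Finsupp.single P n = n • Finsupp.single P (1 : ℤ) := by simp
    rw [map_add, Finsupp.mapDomain_add, Finsupp.mapDomain_add, map_add, ih]
    congr 1
    rw [hs, map_zsmul, Finsupp.mapDomain_smul, mapDomain_pullback_single h hd R R' hL hk,
      Finsupp.mapDomain_smul, map_zsmul, Finsupp.mapDomain_single]

/-- Reduction of places commutes with restriction. -/
theorem r_restrict (h : CompatRed D D') (hd : NoDefect F Fb F' Fb')
    (R : PlaceRed D) (R' : PlaceRed D') (hL : RRLarge L F g c) (hk : RRLarge k Fb g c)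
    (w : Place L F') : (R'.r w).restrict Fb = R.r (w.restrict F) := by
  classical
  by_contra hne
  have h1 := congrArg (fun d : Divisor k Fb' => d (R'.r w))
    (mapDomain_pullback_single h hd R R' hL hk (w.restrict F))
  simp only [Divisor.pullback_single_apply_of_restrict_ne hne] at h1
  set E := Divisor.pullback F' (Finsupp.single (w.restrict F) (1 : ℤ))
  have hw : 0 < E w := by
    rw [Divisor.pullback_single_apply_of_restrict_eq rfl, one_mul]
    exact_mod_cast w.ramificationIndex_pos (F := F)
  have hE : 0 ≤ E := pullback_nonneg (Finsupp.single_nonneg.2 zero_le_one)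
  have hle : Finsupp.single w (E w) ≤ E := by
    intro v
    rcases eq_or_ne v w with rfl | hv
    · rw [Finsupp.single_eq_same]
    · rw [Finsupp.single_eq_of_ne hv]; exact hE v
  have h2 := mapDomain_nonneg R'.r (sub_nonneg.2 hle) (R'.r w)
  rw [Finsupp.mapDomain_sub, Finsupp.sub_apply, h1, Finsupp.mapDomain_single,
    Finsupp.single_eq_same, Finsupp.zero_apply] at h2
  omega

/-- Reduction of places commutes with pushforward. -/
theorem mapDomain_pushforward (h : CompatRed D D') (hd : NoDefect F Fb F' Fb')
    (R : PlaceRed D) (R' : PlaceRed D') (hL : RRLarge L F g c) (hk : RRLarge k Fb g c)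
    (E : Divisor L F') :
    Finsupp.mapDomain R.r (Divisor.pushforward F E) =
      Divisor.pushforward Fb (Finsupp.mapDomain R'.r E) := by
  induction E using Finsupp.induction with
  | zero => simp
  | single_add w n E _ _ ih =>
    rw [map_add, Finsupp.mapDomain_add, Finsupp.mapDomain_add, map_add, ih]
    congr 1
    rw [Divisor.pushforward_single, Finsupp.mapDomain_single, Finsupp.mapDomain_single,
      Divisor.pushforward_single, r_restrict h hd R R' hL hk, inertiaDeg_eq_one, inertiaDeg_eq_one]

end FLTAgent.GoodRed
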