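import Mathlib.Algebra.Polynomial.Div
import Mathlib.RingTheory.Polynomial.Basic
import Mathlib.LinearAlgebra.Matrix.Adjugate
import Mathlib.Tactic.LinearCombination

/-!
# Degree bounds for polynomials and determinants
-/

set_option autoImplicit false

noncomputable section

open Polynomial

namespace FLTAgent.GoodRed

variable {R : Type*} [CommRing R]

/-- All coefficients above `t` vanish (so `p = 0` for `t < 0`). -/
def PDeg (p : R[X]) (t : ℤ) : Prop := ∀ i : ℕ, t < i → p.coeff i = 0

theorem pdeg_zero (t : ℤ) : PDeg (0 : R[X]) t := fun i _ => coeff_zero i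

theorem PDeg.mono {p : R[X]} {s t : ℤ} (h : PDeg p s) (hst : s ≤ t) : PDeg p t :=
  fun i hi => h i (lt_of_le_of_lt hst hi)

theorem PDeg.add {p q : R[X]} {t : ℤ} (hp : PDeg p t) (hq : PDeg q t) : PDeg (p + q) t :=
  fun i hi => by rw [coeff_add, hp i hi, hq i hi, add_zero]

theorem PDeg.neg {p : R[X]} {t : ℤ} (hp : PDeg p t) : PDeg (-p) t :=
  fun i hi => by rw [coeff_neg, hp i hi, neg_zero]

theorem PDeg.sub {p q : R[X]} {t : ℤ} (hp : PDeg p t) (hq : PDeg q t) : PDeg (p - q) t := by
  rw [sub_eq_add_neg]; exact hp.add hq.neg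

theorem PDeg.sum {ι : Type*} {s : Finset ι} {f : ι → R[X]} {t : ℤ}
    (h : ∀ i ∈ s, PDeg (f i) t) : PDeg (∑ i ∈ s, f i) t :=
  fun i hi => by
    rw [finsetSum_coeff]
    exact Finset.sum_eq_zero fun j hj => h j hj i hi

theorem PDeg.mul {p q : R[X]} {s t : ℤ} (hp : PDeg p s) (hq : PDeg q t) :
    PDeg (p * q) (s + t) := fun i hi => by
  rw [coeff_mul]
  refine Finset.sum_eq_zero fun ij hij => ?_
  rw [Finset.mem_antidiagonal] at hij
  have hsum : (ij.1 : ℤ) + ij.2 = i := by exact_mod_cast hij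
  rcases lt_or_ge s (ij.1 : ℤ) with h | h
  · rw [hp _ h, zero_mul]
  · rw [hq _ (by omega), mul_zero]

theorem pdeg_C (a : R) : PDeg (C a) 0 := fun i hi => by
  rw [coeff_C, if_neg (by omega)]

theorem pdeg_one : PDeg (1 : R[X]) 0 := by simpa using pdeg_C (1 : R)

theorem PDeg.prod {ι : Type*} {s : Finset ι} {f : ι → R[X]} {t : ι → ℤ}
    (h : ∀ i ∈ s, PDeg (f i) (t i)) : PDeg (∏ i ∈ s, f i) (∑ i ∈ s, t i) := by
  classical
  induction s using Finset.induction with
  | empty => simpa using pdeg_one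
  | insert a s ha ih =>
    rw [Finset.prod_insert ha, Finset.sum_insert ha]
    exact (h a (Finset.mem_insert_self a s)).mul (ih fun i hi => h i (Finset.mem_insert_of_mem hi))

theorem pdeg_natDegree (p : R[X]) : PDeg p p.natDegree :=
  fun _ hi => coeff_eq_zero_of_natDegree_lt (by exact_mod_cast hi)

theorem PDeg.degree_lt {p : R[X]} {n : ℕ} (h : PDeg p ((n : ℤ) - 1)) :
    p ∈ degreeLT R n := by
  rw [Polynomial.mem_degreeLT, degree_lt_iff_coeff_zero]
  intro i hi
  have h2 : (n : ℤ) ≤ i := by exact_mod_cast hi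
  exact h i (by omega)

theorem pdeg_of_mem_degreeLT {p : R[X]} {n : ℕ} (h : p ∈ degreeLT R n) :
    PDeg p ((n : ℤ) - 1) := fun i hi => by
  rw [Polynomial.mem_degreeLT, degree_lt_iff_coeff_zero] at h
  exact h i (by omega)

theorem pdeg_det {n : Type*} [Fintype n] [DecidableEq n] {M : Matrix n n R[X]} {α β : n → ℤ}
    (h : ∀ r c, PDeg (M r c) (α r + β c)) : PDeg M.det (∑ i, α i + ∑ i, β i) := by
  rw [Matrix.det_apply']
  refine PDeg.sum fun σ _ => ?_
  have h1 : PDeg (∏ i, M (σ i) i) (∑ i, (α (σ i) + β i)) := PDeg.prod fun i _ => h (σ i) i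
  rw [Finset.sum_add_distrib, Equiv.sum_comp σ α] at h1
  have h2 : PDeg ((Equiv.Perm.sign σ : ℤ) : R[X]) 0 := by
    rw [← map_intCast (C : R →+* R[X])]; exact pdeg_C _
  simpa using h2.mul h1

theorem pdeg_adjugate {n : Type*} [Fintype n] [DecidableEq n] {M : Matrix n n R[X]} {α : n → ℤ}
    (h : ∀ r c, PDeg (M r c) (α r + α c)) (i j : n) :
    PDeg (M.adjugate i j) (2 * ∑ l, α l - α i - α j) := by
  rw [Matrix.adjugate_apply]
  have h' : ∀ r c, PDeg (M.updateRow j (Pi.single i 1) r c)
      (Function.update α j (-α i) r + α c) := by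
    intro r c
    rcases eq_or_ne r j with rfl | hr
    · rw [Matrix.updateRow_self, Function.update_self]
      rcases eq_or_ne c i with rfl | hc
      · rw [Pi.single_eq_same]; simpa using pdeg_one
      · rw [Pi.single_eq_of_ne hc]; exact pdeg_zero _
    · rw [Matrix.updateRow_ne hr, Function.update_of_ne hr]; exact h r c
  refine (pdeg_det h').mono (le_of_eq ?_)
  rw [Finset.sum_update_of_mem (Finset.mem_univ j),
    ← Finset.add_sum_erase (s := Finset.univ) α (Finset.mem_univ j)]
  rw [Finset.sdiff_singleton_eq_erase]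
  ring

theorem mul_modByMonic_eq {D : R[X]} (hD : D.Monic) (p q : R[X]) :
    (p * q) %ₘ D = (p * (q %ₘ D)) %ₘ D := by
  refine modByMonic_eq_of_dvd_sub hD ?_
  rw [← mul_sub]
  have : D ∣ q - q %ₘ D := ⟨q /ₘ D, by linear_combination (modByMonic_add_div q D).symm⟩
  exact Dvd.dvd.mul_left this p

/-- The residue pairing modulo a monic polynomial is nondegenerate. -/
theorem dvd_of_forall_coeff_modByMonic [Nontrivial R] {D : R[X]} (hD : D.Monic) {p : R[X]}
    (h : ∀ j < D.natDegree, ((X ^ j * p) %ₘ D).coeff (D.natDegree - 1) = 0) : D ∣ p := by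
  rw [← Polynomial.modByMonic_eq_zero_iff_dvd hD]
  set r := p %ₘ D with hr
  by_contra hne
  have hD1 : D ≠ 1 := fun h1 => hne (by rw [hr, h1, modByMonic_one])
  have hdeg : r.natDegree < D.natDegree := natDegree_modByMonic_lt p hD hD1
  have h2 := h (D.natDegree - 1 - r.natDegree) (by omega)
  rw [mul_modByMonic_eq hD, ← hr] at h2
  have hlt : (X ^ (D.natDegree - 1 - r.natDegree) * r).degree < D.degree := by
    refine lt_of_le_of_lt (degree_mul_le _ _) ?_
    rw [degree_eq_natDegree hne, degree_eq_natDegree hD.ne_zero]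
    refine lt_of_le_of_lt (add_le_add (degree_X_pow_le _) le_rfl) ?_
    rw [← Nat.cast_add]
    exact_mod_cast (by omega : D.natDegree - 1 - r.natDegree + r.natDegree < D.natDegree)
  rw [(modByMonic_eq_self_iff hD).2 hlt, coeff_X_pow_mul', if_pos (by omega),
    show D.natDegree - 1 - (D.natDegree - 1 - r.natDegree) = r.natDegree by omega] at h2
  exact leadingCoeff_ne_zero.2 hne h2

end FLTAgent.GoodRed
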