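import Fermat.Agent.GoodRed.Conjugates
import Fermat.Agent.GoodRed.PolyBound
import Fermat.Agent.GoodRed.Tube

/-!
# Functions regular off the poles of a coordinate and their traces

For a coordinate `x`, traces to `K⟮x⟯` of functions regular at the finite places are polynomials,
with degree bounded by the pole orders.
-/

set_option autoImplicit false
set_option linter.unusedSectionVars false

noncomputable section

open AlgebraicCurve Polynomial
open scoped IntermediateField

namespace FLTAgent.GoodRed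

open FLTAgent.FunctionField

variable {K F : Type*} [Field K] [Field F] [Algebra K F]

variable (K) in
/-- The functions regular at the places where `x` is regular. -/
def finReg (x : F) : Submodule K F where
  carrier := {y | ∀ v : Place K F, 0 ≤ v.ord x → OrdGe v 0 y}
  zero_mem' := fun v _ => ordGe_zero _
  add_mem' := fun hf hg v hv => (hf v hv).add (hg v hv)
  smul_mem' := fun a f hf v hv => by
    rw [Algebra.smul_def]
    simpa using (ordGe_algebraMap a).mul (hf v hv)

variable {x y z : F}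

theorem mem_finReg : y ∈ finReg K x ↔ ∀ v : Place K F, 0 ≤ v.ord x → OrdGe v 0 y := Iff.rfl

theorem mul_mem_finReg (hy : y ∈ finReg K x) (hz : z ∈ finReg K x) : y * z ∈ finReg K x :=
  fun v hv => by simpa using (hy v hv).mul (hz v hv)

theorem one_mem_finReg : (1 : F) ∈ finReg K x :=
  fun v _ => ordGe_of_le_ord (by simp)

theorem pow_mem_finReg (hy : y ∈ finReg K x) : ∀ n : ℕ, y ^ n ∈ finReg K x
  | 0 => by simpa using one_mem_finReg
  | n + 1 => by simpa [pow_succ] using mul_mem_finReg (pow_mem_finReg hy n) hy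

theorem aeval_mem_finReg (x : F) (p : K[X]) : aeval x p ∈ finReg K x :=
  fun _ hv => ordGe_aeval (ordGe_of_le_ord hv) p

/-- A root of a monic relation with regular coefficients is regular. -/
theorem mem_finReg_of_relation {n : ℕ} {c : ℕ → F} (hc : ∀ i < n, c i ∈ finReg K x)
    (h : y ^ n + ∑ i ∈ Finset.range n, c i * y ^ i = 0) : y ∈ finReg K x := by
  intro v hv
  by_contra hy
  have hy0 : y ≠ 0 := fun h0 => hy (h0 ▸ ordGe_zero _)
  rw [ordGe_iff_of_ne_zero hy0, not_le] at hy
  have hsum : OrdGe v ((n : ℤ) * v.ord y + 1) (∑ i ∈ Finset.range n, c i * y ^ i) := by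
    refine OrdGe.sum fun i hi => ?_
    rw [Finset.mem_range] at hi
    have h1 := (hc i hi v hv).mul (ordGe_of_le_ord (v := v) (f := y ^ i) (le_of_eq (ord_pow (v := v) y i).symm))
    refine h1.mono ?_
    have h2 : (i : ℤ) + 1 ≤ n := by exact_mod_cast hi
    nlinarith
  rw [← neg_eq_iff_add_eq_zero.2 h] at hsum
  have := hsum.neg.le_ord (by simp [hy0])
  rw [neg_neg, ord_pow] at this
  omega

variable (K) in
/-- Pole orders at most `s` times those of `x`. -/
def PoleLe (x : F) (s : ℤ) (y : F) : Prop :=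
  ∀ v : Place K F, v.ord x < 0 → OrdGe v (s * v.ord x) y

theorem PoleLe.mul {s t : ℤ} (hy : PoleLe K x s y) (hz : PoleLe K x t z) :
    PoleLe K x (s + t) (y * z) := fun v hv => by
  rw [add_mul]; exact (hy v hv).mul (hz v hv)

theorem PoleLe.mono {s t : ℤ} (hy : PoleLe K x s y) (h : s ≤ t) : PoleLe K x t y :=
  fun v hv => (hy v hv).mono (by nlinarith)

theorem poleLe_one : PoleLe K x 0 1 := fun v _ => ordGe_of_le_ord (by simp)

theorem PoleLe.pow {s : ℤ} (hy : PoleLe K x s y) : ∀ n : ℕ, PoleLe K x (n * s) (y ^ n)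
  | 0 => by simpa using poleLe_one
  | n + 1 => by
    rw [pow_succ, Nat.cast_add, Nat.cast_one, add_mul, one_mul]
    exact (PoleLe.pow hy n).mul hy

theorem PoleLe.sum {ι : Type*} {S : Finset ι} {f : ι → F} {s : ℤ}
    (h : ∀ i ∈ S, PoleLe K x s (f i)) : PoleLe K x s (∑ i ∈ S, f i) :=
  fun v hv => OrdGe.sum fun i hi => h i hi v hv

theorem poleLe_aeval {p : K[X]} {t : ℤ} (hp : PDeg p t) : PoleLe K x t (aeval x p) := by
  intro v hv
  rcases eq_or_ne p 0 with rfl | hp0
  · rw [map_zero]; exact ordGe_zero _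
  have h1 : (p.natDegree : ℤ) ≤ t := by
    by_contra hlt
    exact leadingCoeff_ne_zero.2 hp0 (hp _ (not_le.1 hlt))
  refine ordGe_of_le_ord ?_
  rw [(ord_aeval_of_ord_neg hv p hp0).2]
  nlinarith

/-- The embedding of `K[X]` in `K⟮x⟯`. -/
abbrev ev (x : F) : K[X] →ₐ[K] K⟮x⟯ := aeval (IntermediateField.AdjoinSimple.gen K x)

theorem coe_ev (x : F) (p : K[X]) : ((ev x p : K⟮x⟯) : F) = aeval x p := by
  rw [ev, ← IntermediateField.aeval_coe, IntermediateField.AdjoinSimple.coe_gen]

theorem algebraMap_ev (x : F) (p : K[X]) : algebraMap K⟮x⟯ F (ev x p) = aeval x p := coe_ev x p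

theorem ev_injective (hx : Transcendental K x) : Function.Injective (ev (K := K) x) := by
  intro p q h
  have h1 := congrArg (fun e : K⟮x⟯ => (e : F)) h
  simp only [coe_ev] at h1
  exact sub_eq_zero.1 (transcendental_iff.1 hx _ (by rw [map_sub, h1, sub_self]))

variable [IsFunctionField K F] [FiniteDimensional K⟮x⟯ F]

/-- The polynomial `X - a` in `K⟮x⟯`. -/
abbrev coordSub (x : F) (a : K) : K⟮x⟯ := ev x (X - C a)

theorem coe_coordSub (a : K) : ((coordSub x a : K⟮x⟯) : F) = x - algebraMap K F a := by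
  rw [coe_ev, map_sub, aeval_X, aeval_C]

theorem transcendental_coordSub (hx : Transcendental K x) (a : K) :
    Transcendental K ((coordSub x a : K⟮x⟯) : F) := by
  rw [coe_coordSub]
  intro h
  exact hx (by simpa using h.add (isAlgebraic_algebraMap a))

theorem coordSub_ne_zero (hx : Transcendental K x) (a : K) : coordSub x a ≠ 0 := fun h =>
  X_sub_C_ne_zero a (ev_injective hx (by rw [map_zero]; exact h))

theorem ord_nonneg_of_coordSub_pos {v : Place K F} {a : K}
    (h : 0 < v.ord ((coordSub x a : K⟮x⟯) : F)) : 0 ≤ v.ord x := by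
  by_contra hv
  rw [not_le] at hv
  rw [coe_ev, (ord_aeval_of_ord_neg hv _ (X_sub_C_ne_zero a)).2, natDegree_X_sub_C] at h
  push_cast at h
  omega

/-- The value of `p` at `a` is the constant coefficient of `p` in `x - a`. -/
theorem ev_eq_aeval_coordSub (a : K) (p : K[X]) :
    ev x p = aeval (coordSub x a) (p.comp (X + C a)) := by
  rw [aeval_comp, map_add, aeval_X, aeval_C]
  congr 1
  simp [coordSub]

theorem Centre.val_lt_one {t : K⟮x⟯} (C' : Centre x t) :
    C'.B.valuation (algebraMap K⟮x⟯ _ t) < 1 :=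
  C'.B.mem_nonunits_iff.1 C'.nonunit

theorem Centre.aeval_mem {t : K⟮x⟯} (C' : Centre x t) (q : K[X]) :
    algebraMap K⟮x⟯ (Closure (K := K) x) (aeval t q) ∈ C'.B := by
  rw [← aeval_algebraMap_apply, aeval_eq_sum_range]
  refine sum_mem fun i _ => ?_
  rw [Algebra.smul_def]
  exact mul_mem (C'.const _) (pow_mem (C'.B.nonunits_subset C'.nonunit) i)

/-- Modulo the centre a polynomial in `t` is its constant coefficient. -/
theorem Centre.coeff_zero_eq_zero {t : K⟮x⟯} (C' : Centre x t) {q : K[X]}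
    (h : algebraMap K⟮x⟯ (Closure (K := K) x) (aeval t q) ∈ C'.B.nonunits) : q.coeff 0 = 0 := by
  by_contra h0
  set Ω := Closure (K := K) x
  set ν := C'.B.valuation
  have hc : ν (algebraMap K Ω (q.coeff 0)) = 1 := by
    refine le_antisymm ((C'.B.valuation_le_one_iff _).2 (C'.const _)) ?_
    have h2 := (C'.B.valuation_le_one_iff _).2 (C'.const (q.coeff 0)⁻¹)
    rw [map_inv₀, map_inv₀] at h2
    exact (inv_le_one₀ (zero_lt_iff.2 ((Valuation.ne_zero_iff _).2 (by simpa using h0)))).1 h2
  rw [ValuationSubring.mem_nonunits_iff, ← divX_mul_X_add q, map_add, map_mul, aeval_X, aeval_C,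
    map_add, map_mul, ← IsScalarTower.algebraMap_apply, add_comm,
    Valuation.map_add_eq_of_lt_left] at h
  · exact h.ne hc
  · rw [hc, map_mul]
    exact lt_of_le_of_lt
      (mul_le_of_le_one_left' ((C'.B.valuation_le_one_iff _).2 (C'.aeval_mem _))) C'.val_lt_one

theorem Centre.ev_mem {a : K} (C' : Centre x (coordSub x a)) (p : K[X]) :
    algebraMap K⟮x⟯ (Closure (K := K) x) (ev x p) ∈ C'.B := by
  rw [ev_eq_aeval_coordSub a]; exact C'.aeval_mem _

theorem Centre.isRoot_of_mem_nonunits {a : K} (C' : Centre x (coordSub x a)) {p : K[X]}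
    (h : algebraMap K⟮x⟯ (Closure (K := K) x) (ev x p) ∈ C'.B.nonunits) : p.IsRoot a := by
  rw [ev_eq_aeval_coordSub a] at h
  have := C'.coeff_zero_eq_zero h
  rwa [coeff_zero_eq_eval_zero, eval_comp, eval_add, eval_X, eval_C, zero_add] at this

/-- An element lying in every centre over the finite part of the line is a polynomial. -/
theorem exists_poly_of_mem_centres [IsAlgClosed K] (hx : Transcendental K x) {c : K⟮x⟯}
    (h : ∀ (a : K) (C : Centre x (coordSub x a)), algebraMap K⟮x⟯ _ c ∈ C.B) :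
    ∃ p : K[X], c = ev x p := by
  classical
  obtain ⟨r, s, hrs⟩ := (IntermediateField.mem_adjoin_simple_iff K (c : F)).1 c.2
  have hc : c = ev x r / ev x s := by
    apply Subtype.ext
    rw [IntermediateField.coe_div, coe_ev, coe_ev, hrs]
  rcases eq_or_ne s 0 with rfl | hs
  · exact ⟨0, by rw [hc, map_zero, div_zero]⟩
  clear hrs
  induction hN : s.natDegree using Nat.strong_induction_on generalizing r s with
  | _ N IH =>
  by_cases hdeg : s.natDegree = 0
  · refine ⟨r * C (s.coeff 0)⁻¹, ?_⟩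
    conv_lhs => rw [hc, eq_C_of_natDegree_eq_zero hdeg]
    rw [map_mul, aeval_C, aeval_C, map_inv₀, div_eq_mul_inv]
  obtain ⟨a, ha⟩ := IsAlgClosed.exists_root s
    (fun h0 => hdeg (natDegree_eq_zero_iff_degree_le_zero.2 h0.le))
  obtain ⟨C'⟩ := Centre.exists (x := x) (t := coordSub x a) (transcendental_coordSub hx a)
  have hra : r.IsRoot a := by
    refine C'.isRoot_of_mem_nonunits ?_
    obtain ⟨q, hq⟩ := dvd_iff_isRoot.2 ha
    have hsc : ev x s * c = ev x r := by
      rw [hc, mul_div_cancel₀ _ fun h0 => hs (ev_injective hx (by rw [h0, map_zero]))]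
    rw [← hsc, hq, map_mul (ev x), mul_assoc, map_mul, ValuationSubring.mem_nonunits_iff, map_mul]
    refine mul_lt_one_of_lt_of_le C'.val_lt_one ((C'.B.valuation_le_one_iff _).2 ?_)
    rw [map_mul]
    exact mul_mem (C'.ev_mem _) (h a C')
  obtain ⟨r', rfl⟩ := dvd_iff_isRoot.2 hra
  obtain ⟨s', rfl⟩ := dvd_iff_isRoot.2 ha
  have hs' : s' ≠ 0 := fun h0 => hs (by rw [h0, mul_zero])
  refine IH s'.natDegree ?_ r' s' ?_ hs' rfl
  · rw [← hN, natDegree_mul (X_sub_C_ne_zero a) hs', natDegree_X_sub_C]; omega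
  · rw [hc, map_mul, map_mul, mul_div_mul_left _ _ (coordSub_ne_zero hx a)]

variable [IsAlgClosed K]

theorem exists_trace_eq_ev (hx : Transcendental K x) (hy : y ∈ finReg K x) :
    ∃ p : K[X], Algebra.trace K⟮x⟯ F y = ev x p :=
  exists_poly_of_mem_centres hx fun a C =>
    C.trace_mem (coordSub_ne_zero hx a) fun v hv => hy v (ord_nonneg_of_coordSub_pos hv)

theorem exists_minpoly_coeff_eq_ev (hx : Transcendental K x) (hy : y ∈ finReg K x) (i : ℕ) :
    ∃ p : K[X], (minpoly K⟮x⟯ y).coeff i = ev x p :=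
  exists_poly_of_mem_centres hx fun a C =>
    C.minpoly_coeff_mem (coordSub_ne_zero hx a) (fun v hv => hy v (ord_nonneg_of_coordSub_pos hv)) i

/-- The trace of a function vanishing over `a` vanishes at `a`. -/
theorem trace_isRoot (hx : Transcendental K x) {a : K} {p : K[X]}
    (hp : Algebra.trace K⟮x⟯ F y = ev x p)
    (hy : ∀ v : Place K F, 0 < v.ord (x - algebraMap K F a) → OrdGe v 1 y) : p.IsRoot a := by
  obtain ⟨C'⟩ := Centre.exists (x := x) (t := coordSub x a) (transcendental_coordSub hx a)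
  refine C'.isRoot_of_mem_nonunits ?_
  rw [← hp]
  exact C'.trace_mem_nonunits (coordSub_ne_zero hx a)
    (fun v hv => hy v (by rwa [coe_coordSub] at hv))

theorem pdeg_trace (hx : Transcendental K x) {t : ℤ} (ht : 0 ≤ t) {p : K[X]}
    (hp : Algebra.trace K⟮x⟯ F y = ev x p) (hy : PoleLe K x t y) : PDeg p t := by
  suffices (p.natDegree : ℤ) ≤ t from (pdeg_natDegree p).mono this
  by_contra hlt
  rw [not_le] at hlt
  have hp0 : p ≠ 0 := fun h => by rw [h, natDegree_zero] at hlt; omega
  set g := IntermediateField.AdjoinSimple.gen K x with hg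
  have hgF : (g : F) = x := IntermediateField.AdjoinSimple.coe_gen K x
  have hg0 : g ≠ 0 := fun h => ne_zero_of_transcendental hx (by rw [← hgF, h]; rfl)
  have htr : Transcendental K ((g⁻¹ : K⟮x⟯) : F) := by
    rw [IntermediateField.coe_inv, hgF]
    intro h
    exact hx (by simpa using h.inv)
  obtain ⟨C'⟩ := Centre.exists (x := x) (t := g⁻¹) htr
  have h := C'.trace_mem_nonunits (inv_ne_zero hg0) (y := (g ^ p.natDegree)⁻¹ • y) fun v hv => by
    rw [IntermediateField.coe_inv, hgF, v.ord_inv] at hv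
    rw [Algebra.smul_def, IntermediateField.algebraMap_apply, IntermediateField.coe_inv,
      IntermediateField.coe_pow, hgF]
    have h1 := (ordGe_ord (v := v) (x ^ p.natDegree)⁻¹).mul (hy v (by omega))
    refine h1.mono ?_
    rw [v.ord_inv, ord_pow]
    nlinarith
  rw [map_smul, hp, smul_eq_mul] at h
  let : Invertible g := invertibleOfNonzero hg0
  have hrev : aeval g⁻¹ p.reverse = (g ^ p.natDegree)⁻¹ * ev x p := by
    have h1 := eval₂_reverse_mul_pow (algebraMap K K⟮x⟯) g p
    rw [invOf_eq_inv] at h1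
    rw [ev, ← hg, aeval_def, aeval_def, ← h1, mul_comm (eval₂ _ _ _), inv_mul_cancel_left₀]
    exact pow_ne_zero _ hg0
  rw [← hrev] at h
  have := C'.coeff_zero_eq_zero h
  rw [coeff_zero_reverse] at this
  exact leadingCoeff_ne_zero.2 hp0 this

end FLTAgent.GoodRed
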