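import Fermat.Agent.GoodRed.Deuring
import Fermat.Agent.GoodRed.Mobius
import Fermat.Agent.GoodRed.DualSpace
import Fermat.Agent.GoodRed.TraceRegular
import Mathlib.RingTheory.IntegralClosure.IntegrallyClosed
import Mathlib.RingTheory.Valuation.ValuationSubring

/-!
# A second coordinate of the same degree under reduction

If `j` keeps its degree and `X` and `j` are integral over each other by integral monic relations,
then `X` keeps its degree.
-/

set_option autoImplicit false
set_option linter.unusedSectionVars false

noncomputable section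

open AlgebraicCurve Polynomial
open scoped IntermediateField

namespace FLTAgent.GoodRed

open FLTAgent.FunctionField RedDatum

/-- `Y ↦ x`, `X ↦ y`. -/
def evZ2 {R : Type*} [CommRing R] (x y : R) : Polynomial (Polynomial ℤ) →+* R :=
  eval₂RingHom (eval₂RingHom (Int.castRingHom R) x) y

theorem map_evZ2 {R S : Type*} [CommRing R] [CommRing S] (f : R →+* S) (x y : R)
    (P : Polynomial (Polynomial ℤ)) : f (evZ2 x y P) = evZ2 (f x) (f y) P := by
  have h : f.comp (evZ2 x y) = evZ2 (f x) (f y) := by
    refine Polynomial.ringHom_ext' (Polynomial.ringHom_ext' (RingHom.ext_int _ _) ?_) ?_ <;>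
      simp [evZ2]
  exact RingHom.congr_fun h P

/-- A root of a monic relation with coefficients in `ℤ[x]` is regular where `x` is. -/
theorem mem_finReg_of_evZ2 {K F : Type*} [Field K] [Field F] [Algebra K F] {x y : F}
    {P : Polynomial (Polynomial ℤ)} (hP : P.Monic) (h : evZ2 x y P = 0) : y ∈ finReg K x := by
  refine mem_finReg_of_relation (n := P.natDegree)
    (c := fun i => eval₂ (Int.castRingHom F) x (P.coeff i)) (fun i _ => ?_) ?_
  · have e : eval₂ (Int.castRingHom F) x (P.coeff i) =
        aeval x ((P.coeff i).map (Int.castRingHom K)) := by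
      rw [aeval_def, eval₂_map]
      congr 1
      exact RingHom.ext_int _ _
    rw [e]
    exact aeval_mem_finReg x _
  · rw [← h, evZ2, coe_eval₂RingHom, eval₂_eq_sum_range (p := P), Finset.sum_range_succ,
      hP.coeff_natDegree, map_one, one_mul, add_comm]
    rfl

variable {L k : Type*} [Field L] [Field k] {A : ValuationSubring L} {π : A →+* k}
  {F Fb : Type*} [Field F] [Algebra L F] [Field Fb] [Algebra k Fb]
  [IsFunctionField L F] [IsFunctionField k Fb] [IsAlgClosed L] [IsAlgClosed k]
  {D : RedDatum A π F Fb}

/-- The polar divisor of a coordinate without defect reduces onto that of its reduction. -/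
theorem PlaceRed.mapDomain_zeroDivisor_inv (R : PlaceRed D) {x : F} {xb : Fb} (hx : D.Red x xb)
    (hxb : Transcendental k xb) (hd : NoDefect L⟮x⟯ k⟮xb⟯ F Fb) :
    Finsupp.mapDomain R.r (zeroDivisor (K := L) x⁻¹) = zeroDivisor (K := k) xb⁻¹ := by
  have hxt := transcendental_of_red hx hxb
  have hne : xb ≠ 0 := fun h0 => hxb (h0 ▸ isAlgebraic_zero)
  have hdiv := R.map_divisorOf x xb hx hne
  have hle : zeroDivisor (K := k) xb⁻¹ ≤ Finsupp.mapDomain R.r (zeroDivisor (K := L) x⁻¹) := by
    intro v
    have h0 := mapDomain_nonneg R.r (zeroDivisor_nonneg (K := L) x) v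
    have h1 := mapDomain_nonneg R.r (zeroDivisor_nonneg (K := L) x⁻¹) v
    have he := congrArg (fun d => d v) hdiv
    rw [← zeroDivisor_sub_zeroDivisor_inv, Finsupp.mapDomain_sub] at he
    simp only [Finsupp.sub_apply, divisorOf_apply, Finsupp.zero_apply] at he h0 h1
    rw [zeroDivisor_apply, v.ord_inv]
    omega
  refine (eq_of_le_of_degree_eq hle ?_).symm
  rw [degree_mapDomain]
  have e1 := degree_divisorOf (K := L) x
  have e2 := degree_divisorOf (K := k) xb
  rw [← zeroDivisor_sub_zeroDivisor_inv, map_sub, degree_zeroDivisor hxt, sub_eq_zero] at e1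
  rw [← zeroDivisor_sub_zeroDivisor_inv, map_sub, degree_zeroDivisor hxb, sub_eq_zero] at e2
  rw [← e1, ← e2, hd]

theorem le_mapDomain_apply {α β : Type*} (r : α → β) {E : α →₀ ℤ} (hE : 0 ≤ E) (a : α) :
    E a ≤ Finsupp.mapDomain r E (r a) := by
  classical
  have hle : Finsupp.single a (E a) ≤ E := by
    intro v
    rcases eq_or_ne v a with rfl | hv
    · rw [Finsupp.single_eq_same]
    · rw [Finsupp.single_eq_of_ne hv]; exact hE v
  have h2 := mapDomain_nonneg r (sub_nonneg.2 hle) (r a)
  rw [Finsupp.mapDomain_sub, Finsupp.sub_apply, Finsupp.mapDomain_single,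
    Finsupp.single_eq_same, Finsupp.zero_apply] at h2
  omega

/-- `X` keeps its degree. -/
theorem noDefect_of_integral_relations (R : PlaceRed D) {j X : F} {jb Xb : Fb} (hj : D.Red j jb)
    (hX : D.Red X Xb) (hjb : Transcendental k jb) (hXb : Transcendental k Xb)
    (hd : NoDefect L⟮j⟯ k⟮jb⟯ F Fb) {P Q : Polynomial (Polynomial ℤ)} (hP : P.Monic)
    (hQ : Q.Monic) (hPX : evZ2 j X P = 0) (hPXb : evZ2 jb Xb P = 0)
    (hQj : evZ2 X j Q = 0) (hQjb : evZ2 Xb jb Q = 0) :
    NoDefect L⟮X⟯ k⟮Xb⟯ F Fb := by
  classical
  have hjt := transcendental_of_red hj hjb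
  have hXt := transcendental_of_red hX hXb
  have := finiteDimensional_adjoin_of_transcendental hjt
  -- poles
  have hpole : ∀ v : Place L F, v.ord X < 0 → v.ord j < 0 := fun v hv => by
    by_contra h
    have h1 := (mem_finReg_of_evZ2 (K := L) hP hPX v (not_lt.1 h)).le_ord
      (fun h0 => by simp [h0] at hv)
    omega
  have hregb : ∀ w : Place k Fb, 0 ≤ w.ord jb → 0 ≤ w.ord Xb := fun w hw => by
    rcases eq_or_ne Xb 0 with h0 | h0
    · simp [h0]
    · exact (mem_finReg_of_evZ2 (K := k) hP hPXb w hw).le_ord h0
  have hpolb : ∀ w : Place k Fb, w.ord jb < 0 → w.ord Xb < 0 := fun w hw => by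
    by_contra h
    have h1 := (mem_finReg_of_evZ2 (K := k) hQ hQjb w (not_lt.1 h)).le_ord
      (fun h0 => by simp [h0] at hw)
    omega
  -- zeros of `X` reduce to finite places
  have hzero : ∀ v : Place L F, 0 < v.ord X → 0 ≤ (R.r v).ord Xb := by
    intro v hv
    have hX0 : OrdGe v 1 X := ordGe_of_le_ord (by omega)
    have hj0 : 0 ≤ v.ord j := by
      have h1 := (mem_finReg_of_evZ2 (K := L) hQ hQj v hv.le).le_ord
        (fun h0 => hjt (h0 ▸ isAlgebraic_zero))
      exact h1
    obtain ⟨b, hb⟩ := exists_value_finite hj0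
    set f : ℤ →+* F := Int.castRingHom F
    have hQ0 : eval₂ (eval₂RingHom f (0 : F)) (algebraMap L F b) Q = 0 := by
      by_contra hne
      have hreg : ∀ p : Polynomial ℤ, OrdGe v 1 (eval₂ f X p - eval₂ f 0 p) := fun p => by
        obtain ⟨s, hs⟩ := sub_dvd_eval_sub X 0 (p.map f)
        rw [eval_map, eval_map, sub_zero] at hs
        rw [hs]
        have hs0 : OrdGe v 0 s := by
          have hX' : X ≠ 0 := fun h0 => by simp [h0] at hv
          have h2 : s = eval₂ f X p.divX := by
            refine mul_left_cancel₀ hX' ?_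
            have he : eval₂ f X p = X * eval₂ f X p.divX + f (p.coeff 0) := by
              conv_lhs => rw [← X_mul_divX_add p, eval₂_add, eval₂_mul, eval₂_X, eval₂_C]
            rw [← hs, eval₂_at_zero, he, add_sub_cancel_right]
          rw [h2, show eval₂ f X p.divX = aeval X (p.divX.map (Int.castRingHom L)) by
            rw [aeval_def, eval₂_map]; congr 1; exact RingHom.ext_int _ _]
          exact aeval_mem_finReg X _ v hv.le
        simpa using hX0.mul hs0
      have h1 : OrdGe v 1 (evZ2 X j Q - eval₂ (eval₂RingHom f (0 : F)) (algebraMap L F b) Q) := by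
        rw [evZ2, coe_eval₂RingHom, eval₂_eq_sum_range (p := Q), eval₂_eq_sum_range (p := Q),
          ← Finset.sum_sub_distrib]
        refine OrdGe.sum fun i _ => ?_
        rw [coe_eval₂RingHom, coe_eval₂RingHom,
          show ∀ a a' y y' : F, a * y - a' * y' = (a - a') * y + a' * (y - y') from
            fun _ _ _ _ => by ring]
        refine OrdGe.add ?_ ?_
        · simpa using (hreg (Q.coeff i)).mul
            (ordGe_of_le_ord (v := v) (f := j ^ i) (n := 0) (by rw [ord_pow]; positivity))
        · obtain ⟨s, hs⟩ := sub_dvd_pow_sub_pow j (algebraMap L F b) i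
          have hs0 : OrdGe v 0 (j ^ i - (algebraMap L F b) ^ i) ∧
              OrdGe v 1 (j ^ i - (algebraMap L F b) ^ i) := by
            have hjv : OrdGe v 0 j := ordGe_of_le_ord hj0
            have hbv : OrdGe v 0 (algebraMap L F b) := ordGe_algebraMap b
            have key : ∀ m : ℕ, OrdGe v 1 (j ^ m - (algebraMap L F b) ^ m) := fun m => by
              induction m with
              | zero => simpa using ordGe_zero (v := v) (F := F) 1
              | succ m ih =>
                rw [show j ^ (m + 1) - (algebraMap L F b) ^ (m + 1) =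
                  (j ^ m - (algebraMap L F b) ^ m) * j + (algebraMap L F b) ^ m *
                    (j - algebraMap L F b) by ring]
                refine OrdGe.add (by simpa using ih.mul hjv) ?_
                rw [← map_pow]
                simpa using (ordGe_algebraMap (v := v) (b ^ m)).mul hb
            exact ⟨(key i).mono (by omega), key i⟩
          rw [eval₂_at_zero, eq_intCast f, ← map_intCast (algebraMap L F)]
          simpa using (ordGe_algebraMap (v := v) ((Q.coeff i).coeff 0 : L)).mul hs0.2
      rw [hQj, zero_sub] at h1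
      have h2 := h1.neg
      rw [neg_neg] at h2
      rw [show eval₂ (eval₂RingHom f (0 : F)) (algebraMap L F b) Q =
        algebraMap L F (eval₂ (eval₂RingHom (Int.castRingHom L) 0) b Q) from by
          rw [hom_eval₂]
          congr 1
          exact Polynomial.ringHom_ext' (RingHom.ext_int _ _) (by simp)] at h2 hne
      have := h2.le_ord hne
      rw [ord_algebraMap] at this
      omega
    have hbint : IsIntegral ℤ b := by
      refine ⟨Q.map (evalRingHom 0), hQ.map _, ?_⟩
      rw [eval₂_map]
      refine (algebraMap L F).injective ?_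
      rw [map_zero, hom_eval₂, ← hQ0]
      congr 1
      exact Polynomial.ringHom_ext' (RingHom.ext_int _ _) (by simp)
    obtain ⟨bA, rfl⟩ : ∃ y : A, (y : L) = b :=
      IsIntegrallyClosed.isIntegral_iff.mp (hbint.tower_top (A := A))
    have htr : D.Red (j - algebraMap L F bA) (jb - algebraMap k Fb (π bA)) :=
      hj.sub (red_algebraMap bA)
    have htne : jb - algebraMap k Fb (π bA) ≠ 0 := fun h =>
      hjb (by rw [sub_eq_zero.1 h]; exact isAlgebraic_algebraMap _)
    have hinv := htr.inv htne
    have hd' : NoDefect L⟮(j - algebraMap L F bA)⁻¹⟯ k⟮(jb - algebraMap k Fb (π bA))⁻¹⟯ F Fb := by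
      unfold NoDefect at hd ⊢
      rw [finrank_inv_sub, finrank_inv_sub, hd]
    have hz := R.mapDomain_zeroDivisor_inv hinv (transcendental_inv_sub hjb _) hd'
    rw [inv_inv, inv_inv] at hz
    have h3 := le_mapDomain_apply R.r (zeroDivisor_nonneg (K := L) (j - algebraMap L F bA)) v
    rw [hz, zeroDivisor_apply, zeroDivisor_apply] at h3
    have h4 := ord_pos_of_value hjt hb
    refine hregb _ ?_
    have h5 : OrdGe (R.r v) 0 (jb - algebraMap k Fb (π bA)) := ordGe_of_le_ord (by omega)
    have h6 := h5.add (ordGe_algebraMap (v := R.r v) (π bA))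
    rw [sub_add_cancel] at h6
    exact h6.le_ord fun h0 => hjb (h0 ▸ isAlgebraic_zero)
  -- the polar divisors
  have hpolar : Finsupp.mapDomain R.r (zeroDivisor (K := L) X⁻¹) = zeroDivisor (K := k) Xb⁻¹ := by
    have hdiv := R.map_divisorOf X Xb hX fun h0 => hXb (h0 ▸ isAlgebraic_zero)
    rw [← zeroDivisor_sub_zeroDivisor_inv, Finsupp.mapDomain_sub] at hdiv
    refine Finsupp.ext fun w => ?_
    have he := congrArg (fun d => d w) hdiv
    simp only [Finsupp.sub_apply, divisorOf_apply] at he
    rw [zeroDivisor_apply, w.ord_inv]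
    by_cases hw : w.ord Xb < 0
    · have h0 : Finsupp.mapDomain R.r (zeroDivisor (K := L) X) w = 0 := by
        rw [Finsupp.mapDomain, Finsupp.sum_apply]
        refine Finset.sum_eq_zero fun v hv => ?_
        refine Finsupp.single_eq_of_ne fun hvw => ?_
        rw [Finsupp.mem_support_iff, zeroDivisor_apply] at hv
        have := hzero v (by omega)
        rw [← hvw] at this
        omega
      omega
    · have h0 : Finsupp.mapDomain R.r (zeroDivisor (K := L) X⁻¹) w = 0 := by
        rw [Finsupp.mapDomain, Finsupp.sum_apply]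
        refine Finset.sum_eq_zero fun v hv => ?_
        refine Finsupp.single_eq_of_ne fun hvw => hw ?_
        rw [Finsupp.mem_support_iff, zeroDivisor_apply, v.ord_inv] at hv
        have h1 := le_mapDomain_apply R.r (zeroDivisor_nonneg (K := L) j⁻¹) v
        rw [R.mapDomain_zeroDivisor_inv hj hjb hd, zeroDivisor_apply, zeroDivisor_apply,
          v.ord_inv, (R.r v).ord_inv, ← hvw] at h1
        have := hpole v (by omega)
        exact hpolb w (by omega)
      omega
  show Module.finrank k⟮Xb⟯ Fb = Module.finrank L⟮X⟯ F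
  have e1 := degree_divisorOf (K := L) X
  have e2 := degree_divisorOf (K := k) Xb
  rw [← zeroDivisor_sub_zeroDivisor_inv, map_sub, degree_zeroDivisor hXt, sub_eq_zero,
    ← degree_mapDomain R.r, hpolar] at e1
  rw [← zeroDivisor_sub_zeroDivisor_inv, map_sub, degree_zeroDivisor hXb, sub_eq_zero] at e2
  exact_mod_cast e2.trans e1.symm

end FLTAgent.GoodRed
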