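import Fermat.Agent.GoodRed.Datum
import Mathlib.FieldTheory.IntermediateField.Adjoin.Basic
import Mathlib.RingTheory.Algebraic.Basic

/-!
# The reduction datum of `L⟮x⟯` inside a reduction datum
-/

set_option autoImplicit false

noncomputable section

open Polynomial

namespace FLTAgent.GoodRed

variable {L k : Type*} [Field L] [Field k] {A : ValuationSubring L} {π : A →+* k}
  {F Fb : Type*} [Field F] [Algebra L F] [Field Fb] [Algebra k Fb]

namespace RedDatum

variable (D : RedDatum A π F Fb)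

/-- Reduction datum of an intermediate field whose integral elements reduce onto `Eb`. -/
def restrict (E : IntermediateField L F) (Eb : IntermediateField k Fb)
    (h₁ : ∀ y ∈ E, ∀ z, D.Red y z → z ∈ Eb) (h₂ : ∀ z ∈ Eb, ∃ y ∈ E, D.Red y z) :
    RedDatum A π E Eb where
  isResidue := D.isResidue
  V := D.V.comap E.val.toRingHom
  mem_iff a := D.mem_iff a
  res :=
    { toFun := fun y => ⟨D.res ⟨(y.1 : F), y.2⟩, h₁ _ y.1.2 _ ⟨y.2, rfl⟩⟩
      map_one' := Subtype.ext (map_one D.res)
      map_mul' := fun a b => Subtype.ext (map_mul D.res ⟨(a.1 : F), a.2⟩ ⟨(b.1 : F), b.2⟩)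
      map_zero' := Subtype.ext (map_zero D.res)
      map_add' := fun a b => Subtype.ext (map_add D.res ⟨(a.1 : F), a.2⟩ ⟨(b.1 : F), b.2⟩) }
  res_algebraMap a := Subtype.ext (D.res_algebraMap a)
  res_eq_zero y := by
    rw [ValuationSubring.mem_nonunits_iff_or]
    refine Iff.trans ?_ (show _ ↔ ((y : E) = 0 ∨ ((y : E)⁻¹ : F) ∉ D.V) from Iff.rfl)
    rw [Subtype.ext_iff]
    refine (D.res_eq_zero ⟨(y.1 : F), y.2⟩).trans ?_
    rw [ValuationSubring.mem_nonunits_iff_or]
    simp
  res_surj z := by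
    obtain ⟨y, hy, hV, hr⟩ := h₂ z z.2
    exact ⟨⟨⟨y, hy⟩, hV⟩, Subtype.ext hr⟩
  orth s := by
    classical
    set W : Submodule L F := Submodule.span L ((fun y : E => (y : F)) '' (s : Set E)) with hW
    have : Module.Finite L W := Module.Finite.span_of_finite L (s.finite_toSet.image _)
    let b := Module.finBasis k (D.redSpace W)
    have hbind : LinearIndependent k fun j => (b j : Fb) :=
      b.linearIndependent.map' (D.redSpace W).subtype (Submodule.ker_subtype _)
    obtain ⟨y, hy, hr, hspan⟩ := D.exists_lift_basis W (fun j => (b j : Fb)) (fun j => (b j).2)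
      hbind (by simp [D.finrank_redSpace W])
    have hWE : W ≤ E.toSubalgebra.toSubmodule := Submodule.span_le.2 (by
      rintro _ ⟨w, -, rfl⟩; exact w.2)
    refine ⟨_, fun j => ⟨⟨y j, hWE (hy j)⟩, (hr j).mem⟩, ?_, ?_⟩
    · refine LinearIndependent.of_comp Eb.toSubalgebra.toSubmodule.subtype ?_
      convert hbind using 1
      funext j
      have h : D.Red (y j) (D.res ⟨y j, (hr j).mem⟩) := ⟨(hr j).mem, rfl⟩
      exact h.unique (hr j)
    · intro w hw
      have hwW : (w : F) ∈ Submodule.span L (Set.range y) :=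
        hspan.symm ▸ (Submodule.subset_span (Set.mem_image_of_mem _ hw) : (w : F) ∈ W)
      obtain ⟨c, hc⟩ := (Submodule.mem_span_range_iff_exists_fun L).1 hwW
      refine (Submodule.mem_span_range_iff_exists_fun L).2 ⟨c, Subtype.ext ?_⟩
      simpa using hc

theorem restrict_red_iff {E : IntermediateField L F} {Eb : IntermediateField k Fb}
    (h₁ : ∀ y ∈ E, ∀ z, D.Red y z → z ∈ Eb) (h₂ : ∀ z ∈ Eb, ∃ y ∈ E, D.Red y z)
    {y : E} {z : Eb} : (D.restrict E Eb h₁ h₂).Red y z ↔ D.Red (y : F) (z : Fb) :=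
  ⟨fun ⟨h, he⟩ => ⟨h, congrArg Subtype.val he⟩, fun ⟨h, he⟩ => ⟨h, Subtype.ext he⟩⟩

variable {D} {x : F} {xb : Fb}

theorem red_aeval (hx : D.Red x xb) (p : A[X]) :
    D.Red (aeval x (p.map A.subtype)) (aeval xb (p.map π)) := by
  induction p using Polynomial.induction_on' with
  | add p q hp hq => simpa using hp.add hq
  | monomial n a =>
    simp only [Polynomial.map_monomial, aeval_monomial]
    exact (red_algebraMap a).mul (hx.pow n)

theorem coeff_mem_of_aeval_mem (hx : D.Red x xb) (hxb : Transcendental k xb) {p : L[X]}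
    (h : aeval x p ∈ D.V) : ∀ i, p.coeff i ∈ A := by
  intro i
  rcases lt_or_ge p.natDegree i with hi | hi
  · rw [coeff_eq_zero_of_natDegree_lt hi]; exact zero_mem _
  refine coeff_mem_of_mem (D := D) (e := fun j : Fin (p.natDegree + 1) => x ^ (j : ℕ))
    (eb := fun j => xb ^ (j : ℕ)) (fun j => hx.pow _) ?_ (c := fun j => p.coeff j) ?_
    ⟨i, Nat.lt_succ_of_le hi⟩
  · rw [Fintype.linearIndependent_iff]
    intro c hc j
    have h0 : aeval xb (∑ j : Fin (p.natDegree + 1), monomial (j : ℕ) (c j)) = 0 := by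
      simpa [map_sum, aeval_monomial, Algebra.smul_def] using hc
    have := congrArg (fun q : k[X] => q.coeff j) (transcendental_iff.1 hxb _ h0)
    simpa [finsetSum_coeff, coeff_monomial, Fin.val_inj] using this
  · rwa [aeval_eq_sum_range, ← Fin.sum_univ_eq_sum_range] at h

theorem exists_scale_poly (A : ValuationSubring L) (π : A →+* k) {p : L[X]} (hp : p ≠ 0) :
    ∃ (c : L) (q : A[X]), c ≠ 0 ∧ q.map A.subtype = C c * p ∧ q.map π ≠ 0 := by
  classical
  obtain ⟨j, hj, hjA⟩ := exists_max_valuation A (fun i : Fin (p.natDegree + 1) => p.coeff i)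
    fun h => hp (leadingCoeff_eq_zero.1 (congrFun h ⟨p.natDegree, Nat.lt_succ_self _⟩))
  have hmem : ∀ i, (C (p.coeff (j : ℕ))⁻¹ * p).coeff i ∈ A := fun i => by
    rw [coeff_C_mul]
    rcases lt_or_ge p.natDegree i with hi | hi
    · rw [coeff_eq_zero_of_natDegree_lt hi, mul_zero]; exact zero_mem _
    · rw [← div_eq_inv_mul]; exact hjA ⟨i, Nat.lt_succ_of_le hi⟩
  obtain ⟨q, hq⟩ : ∃ q : A[X], q.map A.subtype = C (p.coeff (j : ℕ))⁻¹ * p := by
    rw [← Polynomial.mem_lifts, lifts_iff_coeff_lifts]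
    exact fun i => ⟨⟨_, hmem i⟩, rfl⟩
  refine ⟨_, q, inv_ne_zero hj, hq, fun h0 => ?_⟩
  have hqj : q.coeff (j : ℕ) = 1 := by
    refine Subtype.ext ?_
    have h1 := congrArg (fun r : L[X] => r.coeff (j : ℕ)) hq
    simp only [coeff_map, coeff_C_mul] at h1
    rwa [inv_mul_cancel₀ hj] at h1
  simpa [hqj] using congrArg (fun r : k[X] => r.coeff (j : ℕ)) h0

theorem transcendental_of_red (hx : D.Red x xb) (hxb : Transcendental k xb) :
    Transcendental L x := by
  rw [transcendental_iff]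
  intro p hp
  by_contra hp0
  obtain ⟨c, q, hc, hq, hq0⟩ := exists_scale_poly A π hp0
  have h := red_aeval hx q
  rw [hq, map_mul, hp, mul_zero] at h
  exact hq0 (transcendental_iff.1 hxb _ (h.unique red_zero))

open scoped IntermediateField

theorem red_mem_adjoin (hx : D.Red x xb) (hxb : Transcendental k xb) {y : F} (hy : y ∈ L⟮x⟯)
    {z : Fb} (hz : D.Red y z) : z ∈ k⟮xb⟯ := by
  rw [IntermediateField.mem_adjoin_simple_iff] at hy
  obtain ⟨r, s, rfl⟩ := hy
  rcases eq_or_ne s 0 with rfl | hs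
  · rw [map_zero, div_zero] at hz
    exact hz.unique red_zero ▸ zero_mem _
  obtain ⟨c, q, hc, hq, hq0⟩ := exists_scale_poly A π hs
  have hsx : aeval x s ≠ 0 := fun h0 =>
    hs (transcendental_iff.1 (transcendental_of_red hx hxb) _ h0)
  have h1 := hz.mul (red_aeval hx q)
  have h2 : aeval x r / aeval x s * aeval x (q.map A.subtype) = aeval x (C c * r) := by
    rw [hq, map_mul, map_mul, aeval_C]
    field_simp
  rw [h2] at h1
  obtain ⟨p, hp⟩ : ∃ p : A[X], p.map A.subtype = C c * r := by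
    rw [← Polynomial.mem_lifts, lifts_iff_coeff_lifts]
    exact fun i => ⟨⟨_, coeff_mem_of_aeval_mem hx hxb h1.mem i⟩, rfl⟩
  rw [← hp] at h1
  have hne : aeval xb (q.map π) ≠ 0 := fun h0 => hq0 (transcendental_iff.1 hxb _ h0)
  rw [eq_div_of_mul_eq hne (h1.unique (red_aeval hx p))]
  exact (IntermediateField.mem_adjoin_simple_iff (F := k) _).2 ⟨_, _, rfl⟩

theorem exists_red_adjoin (hx : D.Red x xb) (hxb : Transcendental k xb) {z : Fb}
    (hz : z ∈ k⟮xb⟯) : ∃ y ∈ L⟮x⟯, D.Red y z := by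
  rw [IntermediateField.mem_adjoin_simple_iff] at hz
  obtain ⟨r, s, rfl⟩ := hz
  obtain ⟨r', hr'⟩ := Polynomial.map_surjective π D.isResidue.surj r
  obtain ⟨s', hs'⟩ := Polynomial.map_surjective π D.isResidue.surj s
  rcases eq_or_ne s 0 with rfl | hs
  · exact ⟨0, zero_mem _, by simpa using red_zero⟩
  refine ⟨_, (IntermediateField.mem_adjoin_simple_iff (F := L) _).2
    ⟨r'.map A.subtype, s'.map A.subtype, rfl⟩, ?_⟩
  rw [← hr', ← hs']
  exact (red_aeval hx r').div (red_aeval hx s') fun h0 =>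
    hs (by rw [← hs']; exact transcendental_iff.1 hxb _ h0)

variable (D) in
/-- The datum of `L⟮x⟯`. -/
def lineDatum (hx : D.Red x xb) (hxb : Transcendental k xb) : RedDatum A π L⟮x⟯ k⟮xb⟯ :=
  D.restrict _ _ (fun _ hy _ hz => red_mem_adjoin hx hxb hy hz)
    (fun _ hz => exists_red_adjoin hx hxb hz)

theorem lineDatum_red_iff (hx : D.Red x xb) (hxb : Transcendental k xb) {y : L⟮x⟯}
    {z : k⟮xb⟯} : (D.lineDatum hx hxb).Red y z ↔ D.Red (y : F) (z : Fb) :=
  restrict_red_iff D _ _

end RedDatum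

end FLTAgent.GoodRed
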