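import Fermat.Agent.GoodRed.TraceRegular
import Mathlib.LinearAlgebra.Dual.Lemmas
import Mathlib.RingTheory.Polynomial.Basic
import Mathlib.Algebra.BigOperators.Field
import Mathlib.LinearAlgebra.FiniteDimensional.Lemmas
import Mathlib.LinearAlgebra.Basis.VectorSpace

/-!
# Riemann-Roch spaces at infinity through a trace lattice

A chart is a generator `u`, regular off the poles of `x`, whose powers have Gram determinant of
exact degree `n (n-1) m`.  The spaces `L(s T)`, `T` the polar divisor of `x`, are then computed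
by the finite dimensional space of numerators, whose orthogonal consists of the trace-dual
numerators.
-/

set_option autoImplicit false
set_option linter.unusedSectionVars false

noncomputable section

open AlgebraicCurve Polynomial
open scoped IntermediateField Matrix

namespace FLTAgent.GoodRed

open FLTAgent.FunctionField

variable {K F : Type*} [Field K] [Field F] [Algebra K F]

/-- The degree of the Gram determinant. -/
abbrev gramDeg (n m : ℕ) : ℕ := n * (n - 1) * m

theorem sum_weights (n m : ℕ) :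
    2 * ∑ i : Fin n, ((i : ℕ) * m : ℤ) = (gramDeg n m : ℤ) := by
  rw [← Finset.sum_mul, ← Nat.cast_sum, Fin.sum_univ_eq_sum_range (fun i => i), ← mul_assoc]
  have h := Finset.sum_range_id_mul_two n
  rw [gramDeg, Nat.cast_mul, ← h]
  push_cast
  ring

variable (K) in
/-- A generator with Gram determinant of exact degree. -/
structure Chart (x : F) (n m : ℕ) where
  transcendental : Transcendental K x
  finrank_eq : Module.finrank K⟮x⟯ F = n
  /-- the generator -/
  u : F
  u_reg : u ∈ finReg K x
  u_pole : PoleLe K x m u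
  /-- the Gram matrix -/
  G : Matrix (Fin n) (Fin n) K[X]
  trace_eq : ∀ i j : Fin n, Algebra.trace K⟮x⟯ F (u ^ (i : ℕ) * u ^ (j : ℕ)) = ev x (G i j)
  det_coeff : G.det.coeff (gramDeg n m) ≠ 0

namespace Chart

variable [IsFunctionField K F] [IsAlgClosed K] {x : F} [FiniteDimensional K⟮x⟯ F] {n m : ℕ}
  (H : Chart K x n m)

/-- The powers of the generator. -/
abbrev e (i : Fin n) : F := H.u ^ (i : ℕ)

theorem e_reg (i : Fin n) : H.e i ∈ finReg K x := pow_mem_finReg H.u_reg _

theorem pdeg_G (i j : Fin n) : PDeg (H.G i j) ((i : ℕ) * m + (j : ℕ) * m) :=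
  pdeg_trace H.transcendental (by positivity) (H.trace_eq i j)
    ((H.u_pole.pow _).mul (H.u_pole.pow _))

theorem pdeg_det_G : PDeg H.G.det (gramDeg n m) := by
  refine (pdeg_det H.pdeg_G).mono (le_of_eq ?_)
  rw [← sum_weights]
  ring

theorem natDegree_det : H.G.det.natDegree = gramDeg n m := by
  refine le_antisymm ?_ (le_natDegree_of_ne_zero H.det_coeff)
  rw [natDegree_le_iff_coeff_eq_zero]
  exact fun i hi => H.pdeg_det_G i (by exact_mod_cast hi)

theorem det_ne_zero : H.G.det ≠ 0 := fun h => H.det_coeff (by rw [h, coeff_zero])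

/-- The inverse of the leading coefficient of the determinant. -/
abbrev c₀ : K := (H.G.det.coeff (gramDeg n m))⁻¹

/-- The normalised determinant. -/
def D : K[X] := C H.c₀ * H.G.det

theorem c₀_ne_zero : H.c₀ ≠ 0 := inv_ne_zero H.det_coeff

theorem monic_D : H.D.Monic := by
  rw [D, Monic, leadingCoeff_mul, leadingCoeff_C, leadingCoeff, H.natDegree_det]
  exact inv_mul_cancel₀ H.det_coeff

theorem natDegree_D : H.D.natDegree = gramDeg n m := by
  rw [D, natDegree_C_mul H.c₀_ne_zero, H.natDegree_det]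

theorem ev_D_ne_zero : ev x H.D ≠ 0 := fun h =>
  H.monic_D.ne_zero (ev_injective H.transcendental (by rw [h, map_zero]))

/-- The Gram matrix over `K⟮x⟯`. -/
abbrev GE : Matrix (Fin n) (Fin n) K⟮x⟯ := (ev x).toRingHom.mapMatrix H.G

theorem linearIndependent_e : LinearIndependent K⟮x⟯ H.e := by
  rw [Fintype.linearIndependent_iff]
  intro c hc
  have h0 : c ᵥ* H.GE = 0 := by
    funext j
    have h := congrArg (fun y => Algebra.trace K⟮x⟯ F (y * H.e j)) hc
    simp only [Finset.sum_mul, map_sum, smul_mul_assoc, map_smul, smul_eq_mul, zero_mul,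
      map_zero, H.trace_eq] at h
    exact h
  have hdet : H.GE.det ≠ 0 := by
    rw [← RingHom.map_det]
    exact fun h => H.det_ne_zero (ev_injective H.transcendental (by rw [map_zero]; exact h))
  exact congrFun (Matrix.eq_zero_of_vecMul_eq_zero hdet h0)

theorem span_e : ⊤ ≤ Submodule.span K⟮x⟯ (Set.range H.e) := by
  refine (Submodule.eq_top_of_finrank_eq ?_).ge
  rw [finrank_span_eq_card H.linearIndependent_e, Fintype.card_fin, H.finrank_eq]

/-- `∑ pᵢ(x) uⁱ / D(x)`. -/
def comb : (Fin n → K[X]) →ₗ[K] F where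
  toFun p := ∑ i, (ev x (p i) / ev x H.D) • H.e i
  map_add' p q := by
    rw [← Finset.sum_add_distrib]
    exact Finset.sum_congr rfl fun i _ => by
      rw [Pi.add_apply, map_add, add_div, add_smul]
  map_smul' a p := by
    rw [RingHom.id_apply, Finset.smul_sum]
    exact Finset.sum_congr rfl fun i _ => by
      rw [Pi.smul_apply, map_smul, smul_div_assoc, smul_assoc]

theorem trace_comb_mul (p : Fin n → K[X]) (j : Fin n) :
    Algebra.trace K⟮x⟯ F (H.comb p * H.e j) = ev x ((p ᵥ* H.G) j) / ev x H.D := by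
  simp only [comb, LinearMap.coe_mk, AddHom.coe_mk, Finset.sum_mul, map_sum, smul_mul_assoc,
    map_smul, smul_eq_mul, H.trace_eq, Matrix.vecMul, dotProduct, map_mul, Finset.sum_div]
  exact Finset.sum_congr rfl fun i _ => by ring

theorem comb_injective {p q : Fin n → K[X]} (h : H.comb p = H.comb q) : p = q := by
  funext i
  rw [← sub_eq_zero]
  rw [← sub_eq_zero, ← map_sub] at h
  have h1 := Fintype.linearIndependent_iff.1 H.linearIndependent_e _ h i
  rw [div_eq_zero_iff] at h1
  exact ev_injective H.transcendental (by rw [map_zero]; exact h1.resolve_right H.ev_D_ne_zero)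

/-- The numerators solving prescribed traces. -/
def solve (τ : Fin n → K[X]) : Fin n → K[X] := fun i => C H.c₀ * (τ ᵥ* H.G.adjugate) i

theorem vecMul_solve (τ : Fin n → K[X]) : H.solve τ ᵥ* H.G = fun j => H.D * τ j := by
  have : H.solve τ = C H.c₀ • (τ ᵥ* H.G.adjugate) := rfl
  rw [this, Matrix.smul_vecMul, Matrix.vecMul_vecMul, Matrix.adjugate_mul]
  funext j
  simp [D, Matrix.vecMul_smul]
  ring

theorem eq_of_trace_eq {y z : F}
    (h : ∀ j, Algebra.trace K⟮x⟯ F (y * H.e j) = Algebra.trace K⟮x⟯ F (z * H.e j)) : y = z := by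
  obtain ⟨c, hc⟩ := (Submodule.mem_span_range_iff_exists_fun K⟮x⟯).1 (H.span_e (trivial : y - z ∈ ⊤))
  have h0 : c ᵥ* H.GE = 0 := by
    funext j
    have h' := congrArg (fun w => Algebra.trace K⟮x⟯ F (w * H.e j)) hc
    simp only [Finset.sum_mul, map_sum, smul_mul_assoc, map_smul, smul_eq_mul, sub_mul, map_sub,
      h j, sub_self, H.trace_eq] at h'
    exact h'
  have hdet : H.GE.det ≠ 0 := by
    rw [← RingHom.map_det]
    exact fun h => H.det_ne_zero (ev_injective H.transcendental (by rw [map_zero]; exact h))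
  have := Matrix.eq_zero_of_vecMul_eq_zero hdet h0
  rw [← sub_eq_zero, ← hc, this]
  simp

theorem comb_solve_eq {y : F} {τ : Fin n → K[X]}
    (h : ∀ j, Algebra.trace K⟮x⟯ F (y * H.e j) = ev x (τ j)) : H.comb (H.solve τ) = y :=
  H.eq_of_trace_eq fun j => by
    rw [h, trace_comb_mul, H.vecMul_solve, map_mul, mul_div_cancel_left₀ _ H.ev_D_ne_zero]

/-- The function with prescribed traces. -/
def eta (q : Fin n → K[X]) : F := H.comb (H.solve q)

theorem trace_eta_mul (q p : Fin n → K[X]) :
    Algebra.trace K⟮x⟯ F (H.eta q * H.comb p) = ev x (∑ i, p i * q i) / ev x H.D := by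
  have h : ∀ j, Algebra.trace K⟮x⟯ F (H.eta q * H.e j) = ev x (q j) := fun j => by
    rw [eta, trace_comb_mul, H.vecMul_solve, map_mul, mul_div_cancel_left₀ _ H.ev_D_ne_zero]
  have hp : H.comb p = ∑ i, (ev x (p i) / ev x H.D) • H.e i := rfl
  rw [hp, Finset.mul_sum]
  simp only [map_sum, mul_smul_comm, map_smul, smul_eq_mul, h, map_mul, Finset.sum_div]
  exact Finset.sum_congr rfl fun i _ => by ring

theorem exists_comb {y : F} (hy : y ∈ finReg K x) : ∃ p, y = H.comb p := by
  choose τ hτ using fun j =>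
    exists_trace_eq_ev H.transcendental (mul_mem_finReg hy (H.e_reg j))
  exact ⟨_, (H.comb_solve_eq hτ).symm⟩

theorem exists_comb_pdeg {y : F} (hy : y ∈ finReg K x) {s : ℕ} (hs : PoleLe K x s y) :
    ∃ p, y = H.comb p ∧ ∀ i : Fin n, PDeg (p i) (gramDeg n m + s - (i : ℕ) * m) := by
  choose τ hτ using fun j =>
    exists_trace_eq_ev H.transcendental (mul_mem_finReg hy (H.e_reg j))
  refine ⟨_, (H.comb_solve_eq hτ).symm, fun i => ?_⟩
  refine PDeg.mono ((pdeg_C H.c₀).mul (t := (gramDeg n m : ℤ) + s - (i : ℕ) * m) ?_) (by omega)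
  show PDeg (∑ j : Fin n, τ j * H.G.adjugate j i) _
  refine PDeg.sum fun j _ => ?_
  refine ((pdeg_trace H.transcendental (by positivity) (hτ j) (hs.mul (H.u_pole.pow _))).mul
    (pdeg_adjugate (α := fun l : Fin n => ((l : ℕ) : ℤ) * m) H.pdeg_G j i)).mono (le_of_eq ?_)
  rw [sum_weights]
  ring

/-- Numerators of degree less than that of `D`. -/
abbrev Coord (_ : Chart K x n m) : Type _ := Fin n → degreeLT K (gramDeg n m)

/-- The underlying polynomials. -/
def val : H.Coord →ₗ[K] (Fin n → K[X]) :=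
  LinearMap.pi fun i => (degreeLT K (gramDeg n m)).subtype ∘ₗ LinearMap.proj i

@[simp] theorem val_apply (p : H.Coord) (i : Fin n) : H.val p i = (p i : K[X]) := rfl

/-- Numerators giving functions regular at finite places. -/
def num : Submodule K H.Coord := (finReg K x).comap (H.comb ∘ₗ H.val)

theorem mem_num {p : H.Coord} : p ∈ H.num ↔ H.comb (H.val p) ∈ finReg K x := Iff.rfl

theorem modByMonic_mem_degreeLT (p : K[X]) : p %ₘ H.D ∈ degreeLT K (gramDeg n m) := by
  rw [mem_degreeLT, ← H.natDegree_D, ← degree_eq_natDegree H.monic_D.ne_zero]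
  exact degree_modByMonic_lt p H.monic_D

/-- Reduction of numerators modulo `D`. -/
def reduceD (p : Fin n → K[X]) : H.Coord := fun i => ⟨p i %ₘ H.D, H.modByMonic_mem_degreeLT _⟩

theorem comb_eq_reduceD_add (p : Fin n → K[X]) :
    H.comb p = H.comb (H.val (H.reduceD p)) + ∑ i, aeval x (p i /ₘ H.D) * H.e i := by
  simp only [comb, LinearMap.coe_mk, AddHom.coe_mk, ← Finset.sum_add_distrib, val_apply, reduceD]
  refine Finset.sum_congr rfl fun i _ => ?_
  conv_lhs => rw [← modByMonic_add_div (p i) H.D]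
  rw [map_add, map_mul, add_div, mul_div_cancel_left₀ _ H.ev_D_ne_zero, add_smul,
    Algebra.smul_def (ev x (p i /ₘ H.D)), algebraMap_ev]

theorem sum_aeval_mem_finReg (q : Fin n → K[X]) :
    ∑ i, aeval x (q i) * H.e i ∈ finReg K x :=
  Submodule.sum_mem _ fun i _ => mul_mem_finReg (aeval_mem_finReg x _) (H.e_reg i)

theorem reduceD_mem_num {p : Fin n → K[X]} (hp : H.comb p ∈ finReg K x) :
    H.reduceD p ∈ H.num := by
  rw [mem_num, eq_sub_of_add_eq (H.comb_eq_reduceD_add p).symm]
  exact Submodule.sub_mem _ hp (H.sum_aeval_mem_finReg _)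

theorem mem_rr_iff_reg_pole (hx : Transcendental K x) (s : ℕ) (y : F) :
    y ∈ riemannRochSpace (s • zeroDivisor (K := K) x⁻¹) ↔
      y ∈ finReg K x ∧ PoleLe K x s y := by
  have happ : ∀ v : Place K F, -(s • zeroDivisor (K := K) x⁻¹) v = (s : ℤ) * min (v.ord x) 0 := by
    intro v
    rw [Finsupp.smul_apply, nsmul_eq_mul, zeroDivisor_apply, v.ord_inv]
    rcases le_total (v.ord x) 0 with h | h
    · rw [max_eq_left (by omega), min_eq_left h]; ring
    · rw [max_eq_right (by omega), min_eq_right h]; ring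
  rw [mem_rr_iff]
  refine ⟨fun h => ⟨fun v hv => ?_, fun v hv => ?_⟩, fun h v => ?_⟩
  · have := h v
    rwa [happ, min_eq_right hv, mul_zero] at this
  · have := h v
    rwa [happ, min_eq_left hv.le] at this
  · rw [happ]
    rcases lt_or_ge (v.ord x) 0 with hv | hv
    · rw [min_eq_left hv.le]; exact h.2 v hv
    · rw [min_eq_right hv, mul_zero]; exact h.1 v hv

/-- The parametrisation of `L(s T)`. -/
def param (s : ℕ) :
    (H.num × ((i : Fin n) → degreeLT K (s - (i : ℕ) * m + 1))) →ₗ[K] F :=
  (H.comb ∘ₗ H.val ∘ₗ H.num.subtype).coprod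
    (∑ i, LinearMap.mulRight K (H.e i) ∘ₗ (aeval x).toLinearMap ∘ₗ
      (degreeLT K (s - (i : ℕ) * m + 1)).subtype ∘ₗ LinearMap.proj i)

theorem param_apply (s : ℕ) (r : H.num) (q : (i : Fin n) → degreeLT K (s - (i : ℕ) * m + 1)) :
    H.param s (r, q) = H.comb (H.val r) + ∑ i, aeval x (q i : K[X]) * H.e i := by
  simp [param]

theorem param_eq_comb (s : ℕ) (r : H.num) (q : (i : Fin n) → degreeLT K (s - (i : ℕ) * m + 1)) :
    H.param s (r, q) = H.comb (fun i => H.val r i + H.D * (q i : K[X])) := by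
  rw [param_apply]
  have h : (fun i => H.val r i + H.D * (q i : K[X])) =
      H.val r + fun i => H.D * (q i : K[X]) := rfl
  rw [h, map_add]
  congr 1
  simp only [comb, LinearMap.coe_mk, AddHom.coe_mk]
  exact Finset.sum_congr rfl fun i _ => by
    rw [map_mul, mul_div_cancel_left₀ _ H.ev_D_ne_zero, Algebra.smul_def, algebraMap_ev]

theorem range_param {s : ℕ} (hs : (n - 1) * m ≤ s) :
    LinearMap.range (H.param s) = riemannRochSpace (s • zeroDivisor (K := K) x⁻¹) := by
  have hsi : ∀ i : Fin n, (i : ℕ) * m ≤ s := fun i =>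
    le_trans (Nat.mul_le_mul_right _ (by omega)) hs
  ext y
  rw [mem_rr_iff_reg_pole H.transcendental, LinearMap.mem_range]
  constructor
  · rintro ⟨⟨r, q⟩, rfl⟩
    rw [param_apply]
    refine ⟨Submodule.add_mem _ r.2 (H.sum_aeval_mem_finReg _), fun v hv => ?_⟩
    refine OrdGe.add ?_ (OrdGe.sum fun i _ => ?_)
    · show OrdGe v _ (∑ i : Fin n, (ev x (r.1 i : K[X]) / ev x H.D) • H.e i)
      refine OrdGe.sum fun i _ => ?_
      rw [Algebra.smul_def (A := F), map_div₀, algebraMap_ev, algebraMap_ev, div_eq_mul_inv]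
      have h1 := poleLe_aeval (x := x) (pdeg_of_mem_degreeLT (r.1 i).2) v hv
      have h2 : OrdGe v (-((gramDeg n m : ℤ) * v.ord x)) (aeval x H.D)⁻¹ := by
        refine ordGe_of_le_ord ?_
        rw [v.ord_inv, (ord_aeval_of_ord_neg hv _ H.monic_D.ne_zero).2, H.natDegree_D]
      refine ((h1.mul h2).mul ((H.u_pole.pow i) v hv)).mono ?_
      have := hsi i
      have h3 : ((i : ℕ) : ℤ) * m ≤ s := by exact_mod_cast this
      nlinarith
    · have h1 := poleLe_aeval (x := x) (pdeg_of_mem_degreeLT (q i).2) v hv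
      refine (h1.mul ((H.u_pole.pow i) v hv)).mono ?_
      have h3 : ((s - (i : ℕ) * m + 1 : ℕ) : ℤ) = s - (i : ℕ) * m + 1 := by
        rw [Nat.cast_add, Nat.cast_sub (hsi i)]; push_cast; ring
      rw [h3]
      nlinarith
  · rintro ⟨hy, hys⟩
    obtain ⟨p, rfl, hp⟩ := H.exists_comb_pdeg hy hys
    refine ⟨(⟨H.reduceD p, H.reduceD_mem_num hy⟩, fun i => ⟨p i /ₘ H.D, ?_⟩), ?_⟩
    · rw [mem_degreeLT]
      rcases eq_or_ne (p i /ₘ H.D) 0 with h0 | h0
      · rw [h0, degree_zero]; exact WithBot.bot_lt_coe _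
      rw [degree_eq_natDegree h0, natDegree_divByMonic _ H.monic_D, H.natDegree_D]
      have hp0 : p i ≠ 0 := fun h => h0 (by rw [h, zero_divByMonic])
      have : ((p i).natDegree : ℤ) ≤ gramDeg n m + s - (i : ℕ) * m := by
        by_contra hlt
        exact leadingCoeff_ne_zero.2 hp0 (hp i _ (not_le.1 hlt))
      have := hsi i
      have h3 : ((s - (i : ℕ) * m : ℕ) : ℤ) = s - (i : ℕ) * m := by
        rw [Nat.cast_sub this]; push_cast; ring
      exact_mod_cast (by omega : (p i).natDegree - gramDeg n m < s - (i : ℕ) * m + 1)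
    · rw [param_apply, ← H.comb_eq_reduceD_add]

theorem param_injective (s : ℕ) : Function.Injective (H.param s) := by
  rintro ⟨r', q'⟩ ⟨r'', q''⟩ he
  suffices ∀ r q, H.param s (r, q) = 0 → r = 0 ∧ q = 0 by
    obtain ⟨h1, h2⟩ := this (r' - r'') (q' - q'') (by rw [← sub_eq_zero, ← map_sub] at he; exact he)
    exact Prod.ext (sub_eq_zero.1 h1) (sub_eq_zero.1 h2)
  intro r q h
  rw [param_eq_comb, ← map_zero H.comb] at h
  have h1 := H.comb_injective h
  have hr : ∀ i, (r.1 i : K[X]) = 0 := fun i => by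
    have h2 := congrArg (fun p : K[X] => p %ₘ H.D) (congrFun h1 i)
    simp only [val_apply, Pi.zero_apply, zero_modByMonic, add_modByMonic,
      (modByMonic_eq_zero_iff_dvd H.monic_D).2 (dvd_mul_right H.D _), add_zero] at h2
    rwa [(modByMonic_eq_self_iff H.monic_D).2 (by
      rw [degree_eq_natDegree H.monic_D.ne_zero, H.natDegree_D]
      exact mem_degreeLT.1 (r.1 i).2)] at h2
  have hq : ∀ i, (q i : K[X]) = 0 := fun i => by
    have h2 := congrFun h1 i
    simp only [val_apply, hr i, zero_add, Pi.zero_apply, mul_eq_zero] at h2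
    exact h2.resolve_left H.monic_D.ne_zero
  exact ⟨Subtype.ext (funext fun i => Subtype.ext (hr i)), funext fun i => Subtype.ext (hq i)⟩

instance : Module.Finite K (degreeLT K (gramDeg n m)) :=
  Module.Finite.equiv (degreeLTEquiv K _).symm

theorem finrank_degreeLT (d : ℕ) : Module.finrank K (degreeLT K d) = d := by
  rw [(degreeLTEquiv K d).finrank_eq, Module.finrank_fin_fun]

instance : Module.Free K H.num := Module.Free.of_divisionRing K H.num

/-- The dimension of `L(s T)`. -/
theorem finrank_rr {s : ℕ} (hs : (n - 1) * m ≤ s) :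
    Module.finrank K (riemannRochSpace (s • zeroDivisor (K := K) x⁻¹)) =
      Module.finrank K H.num + ∑ i : Fin n, (s - (i : ℕ) * m + 1) := by
  have : ∀ i : Fin n, Module.Finite K (degreeLT K (s - (i : ℕ) * m + 1)) := fun i =>
    Module.Finite.equiv (degreeLTEquiv K _).symm
  rw [← H.range_param hs, LinearMap.finrank_range_of_inj (H.param_injective s),
    Module.finrank_prod, Module.finrank_pi_fintype]
  simp only [finrank_degreeLT]

/-- The residue pairing modulo `D`. -/
def pair : H.Coord →ₗ[K] Module.Dual K H.Coord :=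
  LinearMap.mk₂ K (fun q p => ((∑ i, (p i : K[X]) * (q i : K[X])) %ₘ H.D).coeff (gramDeg n m - 1))
    (fun q q' p => by
      simp only [Pi.add_apply, Submodule.coe_add, mul_add, Finset.sum_add_distrib, add_modByMonic,
        coeff_add])
    (fun a q p => by
      simp only [Pi.smul_apply, Submodule.coe_smul, mul_smul_comm, ← Finset.smul_sum,
        smul_modByMonic, coeff_smul])
    (fun q p p' => by
      simp only [Pi.add_apply, Submodule.coe_add, add_mul, Finset.sum_add_distrib, add_modByMonic,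
        coeff_add])
    (fun a q p => by
      simp only [Pi.smul_apply, Submodule.coe_smul, smul_mul_assoc, ← Finset.smul_sum,
        smul_modByMonic, coeff_smul])

theorem pair_apply (q p : H.Coord) :
    H.pair q p = ((∑ i, (p i : K[X]) * (q i : K[X])) %ₘ H.D).coeff (gramDeg n m - 1) := rfl

/-- Trace-dual numerators. -/
def dualNum : Submodule K H.Coord := LinearMap.ker (H.num.dualRestrict ∘ₗ H.pair)

theorem dvd_of_pair_eq_zero {p : Fin n → K[X]} {q : H.Coord}
    (h : ∀ j, H.pair q (H.reduceD fun i => X ^ j * p i) = 0) :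
    H.D ∣ ∑ i, p i * (q i : K[X]) := by
  refine dvd_of_forall_coeff_modByMonic H.monic_D fun j _ => ?_
  rw [H.natDegree_D, ← h j, pair_apply]
  congr 1
  rw [← sub_eq_zero, ← sub_modByMonic, modByMonic_eq_zero_iff_dvd H.monic_D, Finset.mul_sum,
    ← Finset.sum_sub_distrib]
  refine Finset.dvd_sum fun i _ => ?_
  rw [← mul_assoc, ← sub_mul]
  refine Dvd.dvd.mul_right ?_ _
  refine ⟨(X ^ j * p i) /ₘ H.D, ?_⟩
  show X ^ j * p i - (X ^ j * p i) %ₘ H.D = _
  linear_combination -(modByMonic_add_div (X ^ j * p i) H.D)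

theorem pair_injective : Function.Injective H.pair := by
  rw [← LinearMap.ker_eq_bot, LinearMap.ker_eq_bot']
  intro q hq
  funext i
  classical
  have h := H.dvd_of_pair_eq_zero (p := Pi.single i 1) (q := q) fun j => by rw [hq]; rfl
  rw [Finset.sum_eq_single i (fun b _ hb => by rw [Pi.single_eq_of_ne hb, zero_mul])
    (fun hb => absurd (Finset.mem_univ i) hb), Pi.single_eq_same, one_mul] at h
  refine Subtype.ext (eq_zero_of_dvd_of_degree_lt h ?_)
  rw [degree_eq_natDegree H.monic_D.ne_zero, H.natDegree_D]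
  exact mem_degreeLT.1 (q i).2

theorem finrank_dualNum :
    Module.finrank K H.dualNum + Module.finrank K H.num = n * gramDeg n m := by
  have hsurj : Function.Surjective (H.num.dualRestrict ∘ₗ H.pair) :=
    (Subspace.dualRestrict_surjective (W := H.num)).comp
      ((LinearMap.injective_iff_surjective_of_finrank_eq_finrank
        (Subspace.dual_finrank_eq (K := K) (V := H.Coord)).symm).1 H.pair_injective)
  have h := LinearMap.finrank_range_add_finrank_ker (H.num.dualRestrict ∘ₗ H.pair)
  rw [LinearMap.range_eq_top.2 hsurj, finrank_top, Subspace.dual_finrank_eq (K := K) (V := H.num)] at h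
  have hc : Module.finrank K H.Coord = n * gramDeg n m := by
    rw [Module.finrank_pi_fintype]
    simp only [finrank_degreeLT, Finset.sum_const, Finset.card_univ, Fintype.card_fin, smul_eq_mul]
  rw [← hc, ← h, add_comm]
  rfl

/-- Membership in the dual numerators: all traces are polynomials. -/
theorem mem_dualNum_iff (q : H.Coord) :
    q ∈ H.dualNum ↔ ∀ z ∈ finReg K x,
      ∃ c : K[X], Algebra.trace K⟮x⟯ F (H.eta (H.val q) * z) = ev x c := by
  constructor
  · intro hq z hz
    obtain ⟨p, rfl⟩ := H.exists_comb hz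
    have hdvd : H.D ∣ ∑ i, p i * (q i : K[X]) := by
      refine H.dvd_of_pair_eq_zero fun j => ?_
      have hmem : H.comb (fun i => X ^ j * p i) ∈ finReg K x := by
        have : H.comb (fun i => X ^ j * p i) = aeval x ((X : K[X]) ^ j) * H.comb p := by
          simp only [comb, LinearMap.coe_mk, AddHom.coe_mk, Finset.mul_sum]
          refine Finset.sum_congr rfl fun i _ => ?_
          rw [map_mul, mul_div_assoc, mul_smul, Algebra.smul_def, algebraMap_ev]
        rw [this]
        exact mul_mem_finReg (aeval_mem_finReg x _) hz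
      exact LinearMap.congr_fun hq ⟨_, H.reduceD_mem_num hmem⟩
    obtain ⟨c, hc⟩ := hdvd
    refine ⟨c, ?_⟩
    rw [trace_eta_mul]
    simp only [val_apply]
    rw [hc, map_mul, mul_div_cancel_left₀ _ H.ev_D_ne_zero]
  · intro h
    refine LinearMap.ext fun r => ?_
    obtain ⟨c, hc⟩ := h _ (H.mem_num.1 r.2)
    rw [trace_eta_mul, div_eq_iff H.ev_D_ne_zero, ← map_mul] at hc
    have h2 := ev_injective H.transcendental hc
    show H.pair q r.1 = 0
    rw [pair_apply]
    simp only [val_apply] at h2
    rw [h2, (modByMonic_eq_zero_iff_dvd H.monic_D).2 (dvd_mul_left _ _), coeff_zero]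

end Chart

end FLTAgent.GoodRed
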