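import Fermat.Agent.GoodRed.PlaceCompat
import Fermat.Agent.GoodRed.PolarDegree
import Fermat.Agent.GoodRed.SmallPrime.Member
import Fermat.Agent.GoodRed.X0All

/-!
# Degeneracy maps under good reduction

The degeneracy maps `q ↦ q ^ d` (`d = 1` or prime) between levels prime to `l` are compatible with
the Gauss data and have no defect.
-/

set_option autoImplicit false
set_option linter.unusedSectionVars false
set_option synthInstance.maxHeartbeats 100000

noncomputable section

open Polynomial ModularCurve IsLocalRing AlgebraicCurve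
open scoped IntermediateField

namespace FLTAgent.GoodRed

open FLTAgent.FunctionField

local notation "Qbar" => AlgebraicClosure ℚ

/-- Maps given by `q ↦ q ^ d` on series respect the Gauss data. -/
theorem GaussBasis.compatRed_qExpand {L k : Type*} [Field L] [Field k] {A : ValuationSubring L}
    {π : A →+* k} {F F' : IntermediateField L (LaurentSeries L)}
    {Fb Fb' : IntermediateField k (LaurentSeries k)} {n n' : ℕ} (G : GaussBasis π F Fb n)
    (G' : GaussBasis π F' Fb' n') (hπ : IsResidueMap A π) (d : ℕ) [NeZero d] (φ : F →ₐ[L] F')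
    (φb : Fb →ₐ[k] Fb') (hφ : ∀ y, (φ y : LaurentSeries L) = qExpand L d (y : LaurentSeries L))
    (hφb : ∀ z, (φb z : LaurentSeries k) = qExpand k d (z : LaurentSeries k)) :
    letI := algebraAlong φ
    letI := algebraAlong φb
    CompatRed (G.datum hπ) (G'.datum hπ) := by
  intro y z hyz
  obtain ⟨a, b, ⟨hb, hr⟩, hz⟩ := (G.red_iff hπ).1 hyz
  refine (G'.red_iff hπ).2 ⟨qExpand A d a, qExpand A d b, ⟨?_, ?_⟩, ?_⟩
  · rw [coeffMap_qExpand]
    exact fun h => hb ((map_eq_zero_iff _ (qExpand_injective d)).1 h)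
  · show (φ y : LaurentSeries L) * _ = _
    rw [hφ, iotaL, coeffMap_qExpand, coeffMap_qExpand, ← map_mul, ← iotaL, hr]
  · show (φb z : LaurentSeries k) * _ = _
    rw [hφb, coeffMap_qExpand, coeffMap_qExpand, ← map_mul, hz]

/-- Integral monic relations between `j` and `j (q ^ p)` in both directions. -/
theorem exists_relations (p : ℕ) [NeZero p] (hp : p.Prime) :
    ∃ Φ : Polynomial (Polynomial ℤ), Φ.Monic ∧
      evZ2 (jqModC ℤ) (qExpand ℤ p (jqModC ℤ)) Φ = 0 ∧
      evZ2 (qExpand ℤ p (jqModC ℤ)) (jqModC ℤ) Φ = 0 := by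
  classical
  obtain ⟨Φ, G, U, hmon, -, -, hEq⟩ := Igusa.exists_modularEquations p hp
  obtain ⟨hΦ, -, -⟩ := hEq ℂ (algebraMap Igusa.AlgInt ℂ)
  set ζ := Igusa.zetaIn p (algebraMap Igusa.AlgInt ℂ : Igusa.AlgInt →+* ℂ)
  have hinj : Function.Injective (coeffMap (Int.castRingHom ℂ)) := fun x y h =>
    HahnSeries.ext (funext fun k => (Int.castRingHom ℂ).injective_int
      (congrArg (fun z : LaurentSeries ℂ => z.coeff k) h))
  have hroot : ∀ o, (Φ.map (Igusa.evZ p ℂ)).eval (Igusa.rootJ ℂ p ζ o) = 0 := fun o => by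
    rw [hΦ, eval_prod]
    exact Finset.prod_eq_zero (Finset.mem_univ o) (by simp)
  refine ⟨Φ, hmon, ?_, ?_⟩
  · refine (map_eq_zero_iff _ hinj).1 ((map_eq_zero_iff _ (qExpand_injective p (R := ℂ))).1 ?_)
    rw [← hroot none, SmallPrime.eval_rootJ_none p ζ]
    rfl
  · refine (map_eq_zero_iff _ hinj).1 ?_
    have h0 := hroot (some ⟨0, Nat.pos_of_ne_zero (NeZero.ne p)⟩)
    have hJ : Igusa.rootJ ℂ p ζ (some ⟨0, Nat.pos_of_ne_zero (NeZero.ne p)⟩) = jqModC ℂ := by
      show Igusa.J ℂ 1 (ζ ^ 0) = _
      rw [pow_zero, Igusa.J_one_unit, qExpand_one_apply]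
    rw [hJ] at h0
    refine Eq.trans ?_ h0
    rw [map_evZ2, coeffMap_qExpand, coeffMap_jqModC, evZ2, coe_eval₂RingHom, eval_map]
    rfl

/-- `q ↦ q ^ d` on the function fields over the residue field. -/
def degBarK (K : Type*) [Field K] {N M : ℕ} [NeZero N] [NeZero M] (d : ℕ) [NeZero d]
    (h : N * d ∣ M) : modularFunctionFieldFullC K N →ₐ[K] modularFunctionFieldFullC K M :=
  haveI : NeZero (N * d) := ⟨mul_ne_zero (NeZero.ne N) (NeZero.ne d)⟩
  ((qExpandAlgHomC K d).comp (modularFunctionFieldFullC K N).val).codRestrict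
    (modularFunctionFieldFullC K M).toSubalgebra fun x =>
    full_degeneracyC_le K h (full_degeneracyC_map_le K N d ⟨_, x.2, rfl⟩)

theorem coe_degBarK (K : Type*) [Field K] {N M : ℕ} [NeZero N] [NeZero M] (d : ℕ) [NeZero d]
    (h : N * d ∣ M) (x : modularFunctionFieldFullC K N) :
    (degBarK K d h x : LaurentSeries K) = qExpand K d (x : LaurentSeries K) := rfl

variable (A : ValuationSubring (AlgebraicClosure ℚ)) {l : ℕ} [Fact l.Prime]
  (hA : A.LiesOverPrime l)

include hA in
/-- `j (q ^ d)` keeps its degree at level `M`, `d ∣ M` being `1` or prime. -/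
theorem noDefect_jqd {M : ℕ} [NeZero M] (hlM : ¬ l ∣ M) (d : ℕ) [NeZero d]
    (hd : d = 1 ∨ d.Prime) {X : modularFunctionFieldBar M}
    {Xb : modularFunctionFieldFullC (ResidueField A) M}
    (hX : (X : LaurentSeries Qbar) = qExpand Qbar d (jqModC Qbar))
    (hXb : (Xb : LaurentSeries (ResidueField A)) = qExpand _ d (jqModC (ResidueField A))) :
    NoDefect Qbar⟮X⟯ (ResidueField A)⟮Xb⟯ (modularFunctionFieldBar M)
      (modularFunctionFieldFullC (ResidueField A) M) := by
  rcases hd with rfl | hp
  · obtain rfl : X = x0J A hA M hlM := Subtype.ext (by rw [hX, qExpand_one_apply, coe_x0J])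
    obtain rfl : Xb = x0Jb A hA M hlM := Subtype.ext (by rw [hXb, qExpand_one_apply, coe_x0Jb])
    exact noDefect_x0J A hA M hlM
  have := isFunctionField_fullC A hA M hlM
  have := isAlgClosed_residue A
  obtain ⟨R⟩ := exists_placeRed_x0 A hA M hlM
  obtain ⟨Φ, hmon, h1, h2⟩ := exists_relations d hp
  have hred : (x0Datum A hA M hlM).Red X Xb :=
    (x0Basis A hA M hlM).red_of_series (isResidueMap_residue A)
      (a := qExpand A d (jqModC A))
      (by rw [hX, iotaL, coeffMap_qExpand, coeffMap_jqModC])
      (by rw [hXb, coeffMap_qExpand, coeffMap_jqModC])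
  have hXbt : Transcendental (ResidueField A) Xb := fun h => by
    have h' := (isAlgebraic_algHom_iff (modularFunctionFieldFullC (ResidueField A) M).val
      Subtype.val_injective).2 h
    rw [IntermediateField.coe_val, hXb] at h'
    exact (transcendental_iff_injective.2
      (Igusa.injective_aeval_qExpand_jqModC (k := ResidueField A) d)) h'
  -- the relations in the two fields
  have cast : ∀ {K : Type} [Field K] {E : IntermediateField K (LaurentSeries K)} (a b : E),
      (a : LaurentSeries K) = jqModC K →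
      (b : LaurentSeries K) = qExpand K d (jqModC K) →
      evZ2 a b Φ = 0 ∧ evZ2 b a Φ = 0 := by
    intro K _ E a b ha hb
    have hc : coeffMap (Int.castRingHom K) (jqModC ℤ) = jqModC K := coeffMap_jqModC _
    constructor <;> refine Subtype.ext ?_ <;> show E.val.toRingHom _ = _
    · rw [map_evZ2]
      show evZ2 (a : LaurentSeries K) b Φ = 0
      rw [ha, hb, ← hc, ← coeffMap_qExpand, ← map_evZ2, h1, map_zero]
    · rw [map_evZ2]
      show evZ2 (b : LaurentSeries K) a Φ = 0
      rw [ha, hb, ← hc, ← coeffMap_qExpand, ← map_evZ2, h2, map_zero]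
  obtain ⟨e1, e2⟩ := cast (x0J A hA M hlM) X (coe_x0J A hA M hlM) hX
  obtain ⟨f1, f2⟩ := cast (x0Jb A hA M hlM) Xb (coe_x0Jb A hA M hlM) hXb
  exact noDefect_of_integral_relations R (red_x0J A hA M hlM) hred (transcendental_x0Jb A hA M hlM)
    hXbt (noDefect_x0J A hA M hlM) hmon hmon e1 f1 e2 f2

set_option maxHeartbeats 800000 in
include hA in
/-- Degeneracy maps have no defect. -/
theorem noDefect_degeneracy {N M : ℕ} [NeZero N] [NeZero M] (hlN : ¬ l ∣ N) (hlM : ¬ l ∣ M)
    (d : ℕ) [NeZero d] (hd : d = 1 ∨ d.Prime)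
    (φ : modularFunctionFieldBar N →ₐ[Qbar] modularFunctionFieldBar M)
    (φb : modularFunctionFieldFullC (ResidueField A) N →ₐ[ResidueField A]
      modularFunctionFieldFullC (ResidueField A) M)
    (hφ : ∀ y, (φ y : LaurentSeries Qbar) = qExpand Qbar d (y : LaurentSeries Qbar))
    (hφb : ∀ z, (φb z : LaurentSeries (ResidueField A)) = qExpand _ d (z : LaurentSeries _)) :
    letI := algebraAlong φ
    letI := algebraAlong φb
    NoDefect (modularFunctionFieldBar N) (modularFunctionFieldFullC (ResidueField A) N)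
      (modularFunctionFieldBar M) (modularFunctionFieldFullC (ResidueField A) M) := by
  have := isFunctionField_fullC A hA N hlN
  have := isFunctionField_fullC A hA M hlM
  let := algebraAlong φ
  let := algebraAlong φb
  have := isScalarTower_along φ
  have := isScalarTower_along φb
  have : FiniteDimensional (modularFunctionFieldBar N) (modularFunctionFieldBar M) :=
    finiteAlong_of_isFunctionField φ
  have : FiniteDimensional (modularFunctionFieldFullC (ResidueField A) N)
      (modularFunctionFieldFullC (ResidueField A) M) :=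
    finiteAlong_of_isFunctionField φb
  have hM := noDefect_jqd A hA hlM d hd (X := φ (x0J A hA N hlN)) (Xb := φb (x0Jb A hA N hlN))
    (by rw [hφ, coe_x0J]) (by rw [hφb, coe_x0Jb])
  obtain ⟨hN1, hN2, -⟩ := (x0Basis A hA N hlN).finrank_eq (isResidueMap_residue A)
  have e1 := finrank_adjoin_map (K := Qbar) (F := modularFunctionFieldBar N)
    (F' := modularFunctionFieldBar M) (x := x0J A hA N hlN)
  have e2 := finrank_adjoin_map (K := ResidueField A)
    (F := modularFunctionFieldFullC (ResidueField A) N)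
    (F' := modularFunctionFieldFullC (ResidueField A) M) (x := x0Jb A hA N hlN)
  rw [show algebraMap (modularFunctionFieldBar N) (modularFunctionFieldBar M) (x0J A hA N hlN) =
    φ (x0J A hA N hlN) from rfl, hN1] at e1
  rw [show algebraMap (modularFunctionFieldFullC (ResidueField A) N)
    (modularFunctionFieldFullC (ResidueField A) M) (x0Jb A hA N hlN) =
    φb (x0Jb A hA N hlN) from rfl, hN2] at e2
  have hn : 0 < Igusa.psiProd N := by
    have := (x0Basis A hA N hlN).finite_xF (isResidueMap_residue A)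
    rw [← hN1]
    exact Module.finrank_pos
  exact Nat.eq_of_mul_eq_mul_left hn (e2.symm.trans (hM.trans e1))

end FLTAgent.GoodRed
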